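import Mathlib
import Fermat.Prelude.Def_ModularCurve_ArithmeticGalois
import Fermat.Agent.S23.Basic
import Fermat.Agent.LevelOne.JDef

/-!
# S24 team library: shared definitions of the analytic side

OWNER: helper84 (only the owner edits this file).

* `embC`: a fixed embedding of the algebraic closure of `ℚ` into `ℂ`, and the induced algebra
  structure (a scoped instance).
* `jAt d`: the function `z ↦ j (d z)` on the upper half plane.
* `trans g f`: the translate `z ↦ f (g⁻¹ z)` of a function on the upper half plane.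
* `holSub`: the algebra of holomorphic functions on the upper half plane.
* `genJ`, `jF`, `genSet`, `RN`: the generators `j (q ^ d)`, `d ∣ N`, of the function field, and
  the subalgebra they generate.
* `JFam`, `jAtFam`: the two families indexed by the divisors of `N`.
-/

set_option autoImplicit false

namespace Fermat.Agent.S24

open UpperHalfPlane ModularForm ModularCurve
open scoped MatrixGroups ModularForm Manifold

/-- A fixed embedding of the algebraic closure of `ℚ` into `ℂ`. -/
noncomputable def embC : AlgebraicClosure ℚ →+* ℂ :=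
  haveI : Algebra.IsAlgebraic ℚ (AlgebraicClosure ℚ) := AlgebraicClosure.isAlgebraic ℚ
  (IsAlgClosed.lift (R := ℚ) (S := AlgebraicClosure ℚ) (M := ℂ)).toRingHom

/-- `ℂ` as an algebra over the algebraic closure of `ℚ`, via `embC`. -/
noncomputable scoped instance algKC : Algebra (AlgebraicClosure ℚ) ℂ := embC.toAlgebra

theorem algebraMap_K_C_eq : algebraMap (AlgebraicClosure ℚ) ℂ = embC := rfl

theorem embC_injective : Function.Injective embC := embC.injective

/-- The function `z ↦ j (d z)`. -/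
noncomputable def jAt (d : ℕ) [NeZero d] : ℍ → ℂ :=
  fun z => Fermat.Agent.LevelOne.jFun (Fermat.Agent.S23.mulN d z)

theorem jAt_apply (d : ℕ) [NeZero d] (z : ℍ) :
    jAt d z = Fermat.Agent.LevelOne.jFun (Fermat.Agent.S23.mulN d z) := rfl

/-- The translate of a function on the upper half plane by `g ∈ SL(2, ℤ)`: `z ↦ f (g⁻¹ z)`. -/
noncomputable def trans (g : SL(2, ℤ)) (f : ℍ → ℂ) : ℍ → ℂ := fun z => f (g⁻¹ • z)

@[simp] theorem trans_apply (g : SL(2, ℤ)) (f : ℍ → ℂ) (z : ℍ) : trans g f z = f (g⁻¹ • z) := rfl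

@[simp] theorem trans_one (f : ℍ → ℂ) : trans 1 f = f := by
  funext z; simp [trans]

theorem trans_mul (g h : SL(2, ℤ)) (f : ℍ → ℂ) : trans (g * h) f = trans g (trans h f) := by
  funext z; simp [trans, mul_smul]

@[simp] theorem trans_add (g : SL(2, ℤ)) (f₁ f₂ : ℍ → ℂ) :
    trans g (f₁ + f₂) = trans g f₁ + trans g f₂ := rfl

@[simp] theorem trans_mul_fun (g : SL(2, ℤ)) (f₁ f₂ : ℍ → ℂ) :
    trans g (f₁ * f₂) = trans g f₁ * trans g f₂ := rfl

@[simp] theorem trans_const (g : SL(2, ℤ)) (c : ℂ) :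
    trans g (fun _ => c) = fun _ => c := rfl

/-- The algebra of holomorphic functions on the upper half plane. -/
def holSub : Subalgebra ℂ (ℍ → ℂ) where
  carrier := {f | MDiff f}
  mul_mem' := fun hf hg => hf.mul hg
  add_mem' := fun hf hg => hf.add hg
  algebraMap_mem' := fun _ => mdifferentiable_const

theorem mem_holSub {f : ℍ → ℂ} : f ∈ holSub ↔ MDiff f := Iff.rfl

/-- The base field. -/
abbrev Kb : Type := AlgebraicClosure ℚ

/-- The function field of `X₀(N)` over the algebraic closure of `ℚ`. -/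
abbrev FN (N : ℕ) : Type := ↥(modularFunctionFieldBar N)

/-- The left coset space `SL(2, ℤ) ⧸ Γ₀(N)`. -/
abbrev QN (N : ℕ) : Type := SL(2, ℤ) ⧸ CongruenceSubgroup.Gamma0 N

/-- The generator `j (q ^ d)` of the function field, `d ∣ N`. -/
noncomputable def genJ (N : ℕ) (d : ℕ) [NeZero d] (hd : d ∣ N) : FN N :=
  ⟨coeffEmb (AlgebraicClosure ℚ) (qExpand ℚ d jq),
    coeffEmb_mem_laurentBaseChange (AlgebraicClosure ℚ) (jqd_mem_full N hd)⟩

@[simp] theorem coe_genJ (N : ℕ) (d : ℕ) [NeZero d] (hd : d ∣ N) :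
    (genJ N d hd : LaurentSeries (AlgebraicClosure ℚ))
      = coeffEmb (AlgebraicClosure ℚ) (qExpand ℚ d jq) := rfl

/-- The element `j` of the function field. -/
noncomputable def jF (N : ℕ) : FN N :=
  ⟨coeffEmb (AlgebraicClosure ℚ) jq,
    coeffEmb_mem_laurentBaseChange (AlgebraicClosure ℚ) (by
      have h := jqd_mem_full N (one_dvd N)
      rwa [qExpand_one_apply] at h)⟩

@[simp] theorem coe_jF (N : ℕ) :
    (jF N : LaurentSeries (AlgebraicClosure ℚ)) = coeffEmb (AlgebraicClosure ℚ) jq := rfl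

theorem genJ_one (N : ℕ) : genJ N 1 (one_dvd N) = jF N := by
  apply Subtype.ext
  simp [qExpand_one_apply]

/-- The set of generators `j (q ^ d)`, `d ∣ N`. -/
def genSet (N : ℕ) : Set (FN N) :=
  {x | ∃ (d : ℕ) (_ : NeZero d) (hd : d ∣ N), x = genJ N d hd}

theorem genJ_mem_genSet (N : ℕ) (d : ℕ) [NeZero d] (hd : d ∣ N) : genJ N d hd ∈ genSet N :=
  ⟨d, ‹_›, hd, rfl⟩

/-- The `K`-subalgebra of the function field generated by the `j (q ^ d)`, `d ∣ N`. -/
noncomputable def RN (N : ℕ) : Subalgebra (AlgebraicClosure ℚ) (FN N) :=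
  Algebra.adjoin (AlgebraicClosure ℚ) (genSet N)

theorem genJ_mem_RN (N : ℕ) (d : ℕ) [NeZero d] (hd : d ∣ N) : genJ N d hd ∈ RN N :=
  Algebra.subset_adjoin (genJ_mem_genSet N d hd)

theorem jF_mem_RN (N : ℕ) : jF N ∈ RN N := by
  rw [← genJ_one]; exact genJ_mem_RN N 1 (one_dvd N)

instance neZero_divisor (N : ℕ) (d : ↥N.divisors) : NeZero (d : ℕ) :=
  ⟨(Nat.pos_of_mem_divisors d.2).ne'⟩

theorem dvd_of_divisor (N : ℕ) (d : ↥N.divisors) : (d : ℕ) ∣ N := Nat.dvd_of_mem_divisors d.2

/-- The family of formal generators, indexed by the divisors of `N`. -/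
noncomputable def JFam (N : ℕ) : ↥N.divisors → LaurentSeries (AlgebraicClosure ℚ) :=
  fun d => coeffEmb (AlgebraicClosure ℚ) (qExpand ℚ (d : ℕ) jq)

/-- The family of analytic generators, indexed by the divisors of `N`. -/
noncomputable def jAtFam (N : ℕ) : ↥N.divisors → (ℍ → ℂ) := fun d => jAt (d : ℕ)

theorem JFam_apply (N : ℕ) (d : ↥N.divisors) :
    JFam N d = (genJ N (d : ℕ) (dvd_of_divisor N d) : LaurentSeries (AlgebraicClosure ℚ)) := rfl

end Fermat.Agent.S24
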