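import Mathlib
import Fermat.Agent.S23.Basic
import Fermat.Agent.S23.UFunQExp
import Fermat.Prelude.Thm_UpperHalfPlane_qExpansion_coeff_nat_mul
import Fermat.Prelude.Thm_ModularCurve_coeffMap_qExpand
import Fermat.Prelude.Def_ModularCurve_ArithmeticGalois
import Fermat.Agent.S24.AnDefs

/-!
# S24 team library: the bridge between formal and analytic `j(dτ)`

OWNER: helper16 (only the owner edits this file).
-/

set_option autoImplicit false

namespace Fermat.Agent.S24

open UpperHalfPlane ModularForm ModularCurve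
open scoped MatrixGroups ModularForm Manifold

namespace AnBridge

/-- On the punctured unit disc, the cusp function (period `1`) of `F(d τ)` agrees with the cusp
function of `F` for the period `d`. -/
theorem cuspFunction_scale_eq (d : ℕ) [NeZero d] (F : ℍ → ℂ) {q : ℂ} (hq0 : q ≠ 0)
    (hq1 : ‖q‖ < 1) :
    cuspFunction 1 (fun z => F (S23.mulN d z)) q = cuspFunction ((d : ℝ) * 1) F q := by
  have hN : (0 : ℝ) < d := Nat.cast_pos.mpr (NeZero.pos d)
  simp only [UpperHalfPlane.cuspFunction, Function.Periodic.cuspFunction_eq_of_nonzero _ _ hq0,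
    Function.comp_apply]
  have him : 0 < (Function.Periodic.invQParam 1 q).im := by
    rw [Function.Periodic.im_invQParam]
    have hlog : Real.log ‖q‖ < 0 := Real.log_neg (norm_pos_iff.mpr hq0) hq1
    have : (-1 : ℝ) / (2 * Real.pi) < 0 := by
      apply div_neg_of_neg_of_pos (by norm_num) (by positivity)
    nlinarith [mul_pos_of_neg_of_neg this hlog]
  have hinv : Function.Periodic.invQParam ((d : ℝ) * 1) q =
      (d : ℂ) * Function.Periodic.invQParam 1 q := by
    simp only [Function.Periodic.invQParam]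
    push_cast
    ring
  have him' : 0 < (Function.Periodic.invQParam ((d : ℝ) * 1) q).im := by
    rw [hinv, Complex.mul_im]
    simp only [Complex.natCast_re, Complex.natCast_im, zero_mul, add_zero]
    exact mul_pos hN him
  congr 1
  apply UpperHalfPlane.ext
  rw [S23.coe_mulN, ofComplex_apply_of_im_pos him, ofComplex_apply_of_im_pos him']
  exact hinv.symm

theorem cuspFunction_scale_eventuallyEq (d : ℕ) [NeZero d] (F : ℍ → ℂ) :
    cuspFunction 1 (fun z => F (S23.mulN d z)) =ᶠ[nhds 0] cuspFunction ((d : ℝ) * 1) F := by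
  have hball : Metric.ball (0 : ℂ) 1 ∈ nhds (0 : ℂ) := Metric.ball_mem_nhds 0 one_pos
  have hne : ∀ᶠ q in nhdsWithin (0 : ℂ) {0}ᶜ, cuspFunction 1 (fun z => F (S23.mulN d z)) q =
      cuspFunction ((d : ℝ) * 1) F q := by
    filter_upwards [self_mem_nhdsWithin, nhdsWithin_le_nhds hball] with q hq hq1
    exact cuspFunction_scale_eq d F hq (by simpa using hq1)
  have h0 : cuspFunction 1 (fun z => F (S23.mulN d z)) 0 = cuspFunction ((d : ℝ) * 1) F 0 := by
    simp only [UpperHalfPlane.cuspFunction]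
    rw [Function.Periodic.cuspFunction_zero_eq_limUnder_nhds_ne,
      Function.Periodic.cuspFunction_zero_eq_limUnder_nhds_ne]
    exact congrArg Filter.lim (Filter.map_congr hne)
  filter_upwards [hball] with q hq
  by_cases hq0 : q = 0
  · rw [hq0]; exact h0
  · exact cuspFunction_scale_eq d F hq0 (by simpa using hq)

theorem qExpansion_scale_eq (d : ℕ) [NeZero d] (F : ℍ → ℂ) :
    qExpansion 1 (fun z => F (S23.mulN d z)) = qExpansion ((d : ℝ) * 1) F := by
  ext n
  rw [qExpansion_coeff, qExpansion_coeff, (cuspFunction_scale_eventuallyEq d F).iteratedDeriv_eq n]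

/-- The `q`-expansion of `τ ↦ F(d τ)` for a nice function `F`. -/
theorem qExpansion_scale_coeff (d : ℕ) [NeZero d] {F : ℍ → ℂ} (hF : F ∈ S23.niceSub) (n : ℕ) :
    PowerSeries.coeff n (qExpansion 1 (fun z => F (S23.mulN d z))) =
      if d ∣ n then PowerSeries.coeff (n / d) (qExpansion 1 F) else 0 := by
  rw [qExpansion_scale_eq]
  exact UpperHalfPlane.qExpansion_coeff_nat_mul one_pos hF.1 hF.2.1 hF.2.2 (NeZero.pos d) n

/-- Laurent-series form: scaling the variable corresponds to `qExpand`. -/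
theorem ofPowerSeries_qExpansion_scale (d : ℕ) [NeZero d] {F : ℍ → ℂ} (hF : F ∈ S23.niceSub) :
    HahnSeries.ofPowerSeries ℤ ℂ (qExpansion 1 (fun z => F (S23.mulN d z))) =
      qExpand ℂ d (HahnSeries.ofPowerSeries ℤ ℂ (qExpansion 1 F)) := by
  ext k
  by_cases hk : (d : ℤ) ∣ k
  · obtain ⟨m, rfl⟩ := hk
    rw [qExpand_coeff_mul]
    rcases lt_or_ge m 0 with hm | hm
    · have hd : (0 : ℤ) < d := by exact_mod_cast NeZero.pos d
      rw [ofPowerSeries_coeff_of_neg _ hm, ofPowerSeries_coeff_of_neg _ (by nlinarith)]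
    · obtain ⟨m, rfl⟩ := Int.eq_ofNat_of_zero_le hm
      rw [show (d : ℤ) * (m : ℤ) = ((d * m : ℕ) : ℤ) by push_cast; ring,
        HahnSeries.ofPowerSeries_apply_coeff, HahnSeries.ofPowerSeries_apply_coeff,
        qExpansion_scale_coeff d hF, if_pos (dvd_mul_right d m),
        Nat.mul_div_cancel_left m (NeZero.pos d)]
  · rw [qExpand_coeff_of_not_dvd d _ hk]
    rcases lt_or_ge k 0 with hk0 | hk0
    · exact ofPowerSeries_coeff_of_neg _ hk0
    · obtain ⟨n, rfl⟩ := Int.eq_ofNat_of_zero_le hk0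
      rw [HahnSeries.ofPowerSeries_apply_coeff, qExpansion_scale_coeff d hF, if_neg]
      intro h
      exact hk (by exact_mod_cast h)

/-- Scaling the variable preserves nice functions. -/
theorem scale_mem_niceSub (d : ℕ) [NeZero d] {F : ℍ → ℂ} (hF : F ∈ S23.niceSub) :
    (fun z => F (S23.mulN d z)) ∈ S23.niceSub := by
  obtain ⟨hper, hhol, hbdd⟩ := hF
  have hd : (0 : ℝ) < d := Nat.cast_pos.mpr (NeZero.pos d)
  have hperd : Function.Periodic (F ∘ ofComplex) (d : ℂ) := by
    have := hper.nat_mul d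
    simpa using this
  have key : ∀ w : ℂ, 0 < w.im →
      ((fun z => F (S23.mulN d z)) ∘ ofComplex) w = (F ∘ ofComplex) ((d : ℂ) * w) := by
    intro w hw
    have hw' : 0 < ((d : ℂ) * w).im := by
      rw [Complex.mul_im]
      simp only [Complex.natCast_re, Complex.natCast_im, zero_mul, add_zero]
      exact mul_pos hd hw
    simp only [Function.comp_apply]
    congr 1
    apply UpperHalfPlane.ext
    rw [S23.coe_mulN, ofComplex_apply_of_im_pos hw, ofComplex_apply_of_im_pos hw']
  refine ⟨?_, ?_, ?_⟩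
  · intro w
    by_cases hw : 0 < w.im
    · have hw1 : 0 < (w + 1).im := by simpa using hw
      rw [key w hw, key (w + 1) hw1, mul_add, mul_one]
      exact hperd _
    · have hw1 : ¬ 0 < (w + 1).im := by simpa using hw
      simp only [Function.comp_apply]
      rw [ofComplex_apply_of_im_nonpos (not_lt.mp hw1), ofComplex_apply_of_im_nonpos (not_lt.mp hw)]
  · rw [UpperHalfPlane.mdifferentiable_iff] at hhol ⊢
    have h1 : DifferentiableOn ℂ (fun w : ℂ => (F ∘ ofComplex) ((d : ℂ) * w)) {w | 0 < w.im} := by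
      apply hhol.comp (by fun_prop)
      intro w hw
      show 0 < ((d : ℂ) * w).im
      rw [Complex.mul_im]
      simp only [Complex.natCast_re, Complex.natCast_im, zero_mul, add_zero]
      exact mul_pos hd hw
    exact h1.congr (fun w hw => key w hw)
  · rw [UpperHalfPlane.isBoundedAtImInfty_iff] at hbdd ⊢
    obtain ⟨M, A, h⟩ := hbdd
    refine ⟨M, max A 0, fun z hz => ?_⟩
    apply h
    have hz0 : 0 ≤ z.im := z.im_pos.le
    have h1 : (S23.mulN d z).im = d * z.im := by
      show ((d : ℂ) * (z : ℂ)).im = _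
      rw [Complex.mul_im]
      simp
    rw [h1]
    have hd1 : (1 : ℝ) ≤ d := by exact_mod_cast NeZero.one_le
    calc A ≤ z.im := le_trans (le_max_left _ _) hz
      _ = 1 * z.im := (one_mul _).symm
      _ ≤ d * z.im := by gcongr

/-- A level-one modular form is a nice function. -/
theorem levelOne_mem_niceSub {k : ℤ} (f : ModularForm 𝒮ℒ k) : (f : ℍ → ℂ) ∈ S23.niceSub := by
  refine ⟨?_, ModularFormClass.holo f, ModularFormClass.bdd_at_infty f⟩
  have := SlashInvariantFormClass.periodic_comp_ofComplex f one_mem_strictPeriods_SL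
  simpa using this

theorem discriminant_mem_niceSub : (ModularForm.discriminant : ℍ → ℂ) ∈ S23.niceSub := by
  refine ⟨?_, CuspForm.discriminant.holo', ModularFormClass.bdd_at_infty CuspForm.discriminant⟩
  have := SlashInvariantFormClass.periodic_comp_ofComplex CuspForm.discriminant
    one_mem_strictPeriods_SL
  simpa using this

theorem qExpansion_discriminant_ne_zero :
    qExpansion 1 (ModularForm.discriminant : ℍ → ℂ) ≠ 0 := by
  intro h
  have h0 := (qExpansion_eq_zero_iff one_pos discriminant_mem_niceSub.1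
    discriminant_mem_niceSub.2.1 discriminant_mem_niceSub.2.2).mp h
  have := congrFun h0 UpperHalfPlane.I
  exact ModularForm.discriminant_ne_zero _ this

/-- The core computation: if `b · Δ(d·) = E₄(d·)³ · Δ^d` with `b` nice, and the formal `j`
satisfies `j · Δ = E₄³`, then the `q`-expansion of `b` is `Δ^d · j(q^d)`. -/
theorem qExpansion_eq_of_mul_eq (d : ℕ) [NeZero d] {b : ℍ → ℂ} (hb : b ∈ S23.niceSub)
    (hid : ∀ z : ℍ, b z * ModularForm.discriminant (S23.mulN d z) =
      E₄ (S23.mulN d z) ^ 3 * ModularForm.discriminant z ^ d)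
    {J : LaurentSeries ℂ}
    (hJ : J * HahnSeries.ofPowerSeries ℤ ℂ (qExpansion 1 (ModularForm.discriminant : ℍ → ℂ)) =
      HahnSeries.ofPowerSeries ℤ ℂ (qExpansion 1 (E₄ : ℍ → ℂ)) ^ 3) :
    HahnSeries.ofPowerSeries ℤ ℂ (qExpansion 1 b) =
      HahnSeries.ofPowerSeries ℤ ℂ (qExpansion 1 (ModularForm.discriminant : ℍ → ℂ)) ^ d *
        qExpand ℂ d J := by
  have hΔ := discriminant_mem_niceSub
  have hE := levelOne_mem_niceSub E₄
  have hu := scale_mem_niceSub d hΔ
  have hE4 := scale_mem_niceSub d hE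
  -- the identity in `niceSub`
  have hid' : (⟨b, hb⟩ : S23.niceSub) * ⟨_, hu⟩ = ⟨_, hE4⟩ ^ 3 * ⟨_, hΔ⟩ ^ d := by
    apply Subtype.ext
    funext z
    simpa using hid z
  have hq := congrArg (fun x => HahnSeries.ofPowerSeries ℤ ℂ (S23.qHom x)) hid'
  simp only [map_mul, map_pow, S23.qHom_apply] at hq
  rw [ofPowerSeries_qExpansion_scale d hΔ, ofPowerSeries_qExpansion_scale d hE] at hq
  have hJ' := congrArg (qExpand ℂ d) hJ
  rw [map_mul, map_pow] at hJ'
  rw [← hJ'] at hq
  have hne : qExpand ℂ d (HahnSeries.ofPowerSeries ℤ ℂ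
      (qExpansion 1 (ModularForm.discriminant : ℍ → ℂ))) ≠ 0 := by
    intro h
    rw [← map_zero (qExpand ℂ d)] at h
    have h2 := qExpand_injective d h
    rw [← map_zero (HahnSeries.ofPowerSeries ℤ ℂ)] at h2
    exact qExpansion_discriminant_ne_zero (HahnSeries.ofPowerSeries_injective h2)
  apply mul_right_cancel₀ hne
  rw [hq]
  ring

/-- The image in `ℂ((q))` of the formal generator `j(q^d)` is `qExpand d` of the complex `j`. -/
theorem coeffMap_embC_JFam (N : ℕ) (d : ↥N.divisors) :
    coeffMap embC (JFam N d) = qExpand ℂ (d : ℕ) (coeffMap (algebraMap ℚ ℂ) jq) := by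
  have h : embC.comp (algebraMap ℚ (AlgebraicClosure ℚ)) = algebraMap ℚ ℂ :=
    Subsingleton.elim _ _
  rw [JFam, coeffEmb, coeffMap_coeffMap, coeffMap_congr h, coeffMap_qExpand]

/-- The pointwise identity `(Δ^d · j(d·)) · Δ(d·) = E₄(d·)³ · Δ^d`. -/
theorem bFun_mul_eq (d : ℕ) [NeZero d] (z : ℍ) :
    (ModularForm.discriminant z ^ d * jAt d z) * ModularForm.discriminant (S23.mulN d z) =
      E₄ (S23.mulN d z) ^ 3 * ModularForm.discriminant z ^ d := by
  rw [jAt_apply, mul_assoc, LevelOne.jFun_mul_discriminant]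
  ring

/-- The per-generator `q`-expansion identity, assuming that `Δ^d · j(d·)` is nice and the formal
identity `j · Δ = E₄³`. -/
theorem qExpansion_bFun_of (N : ℕ) (d : ↥N.divisors)
    (hb : (fun z => ModularForm.discriminant z ^ (d : ℕ) * jAt (d : ℕ) z) ∈ S23.niceSub)
    (hJ : coeffMap (algebraMap ℚ ℂ) jq *
        HahnSeries.ofPowerSeries ℤ ℂ (qExpansion 1 (ModularForm.discriminant : ℍ → ℂ)) =
      HahnSeries.ofPowerSeries ℤ ℂ (qExpansion 1 (E₄ : ℍ → ℂ)) ^ 3) :
    HahnSeries.ofPowerSeries ℤ ℂ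
        (qExpansion 1 (fun z => ModularForm.discriminant z ^ (d : ℕ) * jAt (d : ℕ) z)) =
      HahnSeries.ofPowerSeries ℤ ℂ (qExpansion 1 (ModularForm.discriminant : ℍ → ℂ)) ^ (d : ℕ) *
        coeffMap embC (JFam N d) := by
  rw [coeffMap_embC_JFam]
  exact qExpansion_eq_of_mul_eq (d : ℕ) hb (fun z => bFun_mul_eq (d : ℕ) z) hJ

/-! ### The induction over polynomials in the generators -/

section Induction

variable (N : ℕ)

/-- The injective ring homomorphism `niceSub → ℂ((q))`, `F ↦ q`-expansion of `F`. -/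
noncomputable def Phi : S23.niceSub →+* LaurentSeries ℂ :=
  (HahnSeries.ofPowerSeries ℤ ℂ).comp (S23.qHom : S23.niceSub →+* PowerSeries ℂ)

theorem Phi_apply (F : S23.niceSub) :
    Phi F = HahnSeries.ofPowerSeries ℤ ℂ (qExpansion 1 (F : ℍ → ℂ)) := rfl

theorem Phi_injective : Function.Injective Phi :=
  HahnSeries.ofPowerSeries_injective.comp S23.qHom_injective

theorem Phi_algebraMap (c : ℂ) :
    Phi (algebraMap ℂ S23.niceSub c) = algebraMap ℂ (LaurentSeries ℂ) c := by
  show HahnSeries.ofPowerSeries ℤ ℂ (S23.qHom (algebraMap ℂ S23.niceSub c)) = _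
  rw [AlgHom.commutes, algebraMap_laurentSeries_eq_single]
  have h1 : algebraMap ℂ (PowerSeries ℂ) c = PowerSeries.C c := by simp
  rw [h1, HahnSeries.ofPowerSeries_C]
  rfl

/-- `Δ(d·)` as a nice function. -/
noncomputable def uN (d : ↥N.divisors) : S23.niceSub :=
  ⟨fun z => ModularForm.discriminant (S23.mulN (d : ℕ) z),
    scale_mem_niceSub (d : ℕ) discriminant_mem_niceSub⟩

/-- `E₄(d·)` as a nice function. -/
noncomputable def eN (d : ↥N.divisors) : S23.niceSub :=
  ⟨fun z => E₄ (S23.mulN (d : ℕ) z), scale_mem_niceSub (d : ℕ) (levelOne_mem_niceSub E₄)⟩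

/-- The common denominator `∏_{d ∣ N} Δ(d·)`. -/
noncomputable def DN : S23.niceSub := ∏ d : ↥N.divisors, uN N d

/-- The numerator of `D · j(d·)`. -/
noncomputable def BN (d : ↥N.divisors) : S23.niceSub :=
  eN N d ^ 3 * ∏ d' ∈ Finset.univ.erase d, uN N d'

theorem DN_eq (d : ↥N.divisors) : DN N = uN N d * ∏ d' ∈ Finset.univ.erase d, uN N d' := by
  rw [DN, Finset.mul_prod_erase _ _ (Finset.mem_univ d)]

theorem coe_prod_apply (s : Finset ↥N.divisors) (f : ↥N.divisors → S23.niceSub) (z : ℍ) :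
    ((∏ d ∈ s, f d : S23.niceSub) : ℍ → ℂ) z = ∏ d ∈ s, (f d : ℍ → ℂ) z := by
  classical
  induction s using Finset.induction_on with
  | empty => simp
  | insert a s ha ih => rw [Finset.prod_insert ha, Finset.prod_insert ha, ← ih]; rfl

theorem DN_apply_ne_zero (z : ℍ) : (DN N : ℍ → ℂ) z ≠ 0 := by
  rw [DN, coe_prod_apply]
  exact Finset.prod_ne_zero_iff.mpr fun d _ => ModularForm.discriminant_ne_zero _

theorem DN_ne_zero : DN N ≠ 0 := by
  intro h
  have := congrArg (fun F : S23.niceSub => (F : ℍ → ℂ) UpperHalfPlane.I) h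
  exact DN_apply_ne_zero N _ this

theorem DN_mul_jAt (d : ↥N.divisors) (z : ℍ) :
    (DN N : ℍ → ℂ) z * jAt (d : ℕ) z = (BN N d : ℍ → ℂ) z := by
  rw [DN_eq N d, BN]
  show (ModularForm.discriminant (S23.mulN (d : ℕ) z) *
      ((∏ d' ∈ Finset.univ.erase d, uN N d' : S23.niceSub) : ℍ → ℂ) z) * jAt (d : ℕ) z =
    E₄ (S23.mulN (d : ℕ) z) ^ 3 * ((∏ d' ∈ Finset.univ.erase d, uN N d' : S23.niceSub) : ℍ → ℂ) z
  rw [jAt_apply, ← LevelOne.jFun_mul_discriminant]
  ring

/-- The formal generators in `ℂ((q))`. -/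
noncomputable def GN : ↥N.divisors → LaurentSeries ℂ := fun d => coeffMap embC (JFam N d)

/-- The formal identity `j · Δ = E₄³` in `ℂ((q))` (supplied by `JFormal`). -/
def JRel : Prop :=
  coeffMap (algebraMap ℚ ℂ) jq *
      HahnSeries.ofPowerSeries ℤ ℂ (qExpansion 1 (ModularForm.discriminant : ℍ → ℂ)) =
    HahnSeries.ofPowerSeries ℤ ℂ (qExpansion 1 (E₄ : ℍ → ℂ)) ^ 3

variable {N}

theorem GN_mul_Phi_uN (hJ : JRel) (d : ↥N.divisors) : GN N d * Phi (uN N d) = Phi (eN N d) ^ 3 := by
  rw [GN, coeffMap_embC_JFam, Phi_apply, Phi_apply]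
  show _ * HahnSeries.ofPowerSeries ℤ ℂ
      (qExpansion 1 (fun z => ModularForm.discriminant (S23.mulN (d : ℕ) z))) =
    HahnSeries.ofPowerSeries ℤ ℂ (qExpansion 1 (fun z => E₄ (S23.mulN (d : ℕ) z))) ^ 3
  rw [ofPowerSeries_qExpansion_scale (d : ℕ) discriminant_mem_niceSub,
    ofPowerSeries_qExpansion_scale (d : ℕ) (levelOne_mem_niceSub E₄), ← map_mul, ← map_pow]
  exact congrArg _ hJ

theorem Phi_DN_mul_GN (hJ : JRel) (d : ↥N.divisors) : Phi (DN N) * GN N d = Phi (BN N d) := by
  rw [DN_eq N d, BN, map_mul, map_mul, map_pow, ← GN_mul_Phi_uN hJ d]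
  ring

/-- Clearing denominators: the analytic and the formal evaluation of a polynomial in the
generators correspond under the `q`-expansion map. -/
theorem exists_clear (hJ : JRel) (P : MvPolynomial ↥N.divisors ℂ) :
    ∃ (m : ℕ) (F : S23.niceSub),
      (∀ z : ℍ, (DN N : ℍ → ℂ) z ^ m * (MvPolynomial.aeval (jAtFam N) P) z = (F : ℍ → ℂ) z) ∧
      Phi (DN N) ^ m * MvPolynomial.aeval (GN N) P = Phi F := by
  induction P using MvPolynomial.induction_on with
  | C c =>
    refine ⟨0, algebraMap ℂ S23.niceSub c, fun z => ?_, ?_⟩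
    · simp
    · rw [pow_zero, one_mul, MvPolynomial.aeval_C, Phi_algebraMap]
  | add p q hp hq =>
    obtain ⟨m₁, F₁, h₁, h₁'⟩ := hp
    obtain ⟨m₂, F₂, h₂, h₂'⟩ := hq
    refine ⟨m₁ + m₂, DN N ^ m₂ * F₁ + DN N ^ m₁ * F₂, fun z => ?_, ?_⟩
    · have e : ((DN N ^ m₂ * F₁ + DN N ^ m₁ * F₂ : S23.niceSub) : ℍ → ℂ) z =
          (DN N : ℍ → ℂ) z ^ m₂ * (F₁ : ℍ → ℂ) z + (DN N : ℍ → ℂ) z ^ m₁ * (F₂ : ℍ → ℂ) z := rfl
      rw [e, ← h₁ z, ← h₂ z, map_add, Pi.add_apply]
      ring
    · simp only [map_add, map_mul, map_pow]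
      rw [← h₁', ← h₂']
      ring
  | mul_X p d hp =>
    obtain ⟨m, F, h, h'⟩ := hp
    refine ⟨m + 1, F * BN N d, fun z => ?_, ?_⟩
    · have e : ((F * BN N d : S23.niceSub) : ℍ → ℂ) z = (F : ℍ → ℂ) z * (BN N d : ℍ → ℂ) z := rfl
      rw [e, ← h z, ← DN_mul_jAt N d z, map_mul, MvPolynomial.aeval_X, Pi.mul_apply]
      show _ * (_ * jAt (d : ℕ) z) = _
      ring
    · simp only [map_mul, MvPolynomial.aeval_X]
      rw [← h', ← Phi_DN_mul_GN hJ d]
      ring

/-- (B-ℂ) A polynomial relation with complex coefficients holds between the analytic generators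
`j(d·)` iff it holds between the formal generators `j(q^d)`. -/
theorem bridgeC_iff (hJ : JRel) (P : MvPolynomial ↥N.divisors ℂ) :
    MvPolynomial.aeval (jAtFam N) P = 0 ↔
      MvPolynomial.aeval (fun d => coeffMap embC (JFam N d)) P = 0 := by
  obtain ⟨m, F, h, h'⟩ := exists_clear hJ P
  have hD : Phi (DN N) ^ m ≠ 0 :=
    pow_ne_zero _ fun h0 => DN_ne_zero N (Phi_injective (by rw [h0, map_zero]))
  constructor
  · intro h0
    have hF : F = 0 := by
      apply Subtype.ext
      funext z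
      rw [← h z, h0]
      simp
    rw [hF, map_zero] at h'
    exact (mul_eq_zero.mp h').resolve_left hD
  · intro h0
    change MvPolynomial.aeval (GN N) P = 0 at h0
    rw [h0, mul_zero] at h'
    have hF : F = 0 := Phi_injective (by rw [← h', map_zero])
    funext z
    have hz := h z
    rw [hF] at hz
    have hz' : (DN N : ℍ → ℂ) z ^ m * (MvPolynomial.aeval (jAtFam N) P) z = 0 := hz
    exact (mul_eq_zero.mp hz').resolve_left (pow_ne_zero _ (DN_apply_ne_zero N z))

theorem coeffMap_embC_injective :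
    Function.Injective (coeffMap embC :
      LaurentSeries (AlgebraicClosure ℚ) → LaurentSeries ℂ) := by
  intro x y h
  ext k
  have := congrArg (fun s : LaurentSeries ℂ => s.coeff k) h
  simp only [coeffMap_coeff] at this
  exact embC_injective this

theorem coeffMap_embC_algebraMap (c : AlgebraicClosure ℚ) :
    coeffMap embC (algebraMap (AlgebraicClosure ℚ) (LaurentSeries (AlgebraicClosure ℚ)) c) =
      algebraMap ℂ (LaurentSeries ℂ) (embC c) := by
  rw [algebraMap_laurentSeries_eq_single, algebraMap_laurentSeries_eq_single, coeffMap_single]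

/-- Base change of the formal evaluation from `ℚ̄` to `ℂ`. -/
theorem coeffMap_aeval_JFam (P : MvPolynomial ↥N.divisors (AlgebraicClosure ℚ)) :
    coeffMap embC (MvPolynomial.aeval (JFam N) P) =
      MvPolynomial.aeval (fun d => coeffMap embC (JFam N d)) (MvPolynomial.map embC P) := by
  induction P using MvPolynomial.induction_on with
  | C c =>
    rw [MvPolynomial.aeval_C, MvPolynomial.map_C, MvPolynomial.aeval_C, coeffMap_embC_algebraMap]
  | add p q hp hq => simp only [map_add, hp, hq]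
  | mul_X p d hp => simp only [map_mul, hp, MvPolynomial.aeval_X, MvPolynomial.map_X]

/-- Base change of the analytic evaluation from `ℚ̄` to `ℂ`. -/
theorem aeval_jAtFam_map (P : MvPolynomial ↥N.divisors (AlgebraicClosure ℚ)) :
    MvPolynomial.aeval (jAtFam N) (MvPolynomial.map embC P) = MvPolynomial.aeval (jAtFam N) P := by
  induction P using MvPolynomial.induction_on with
  | C c =>
    rw [MvPolynomial.map_C, MvPolynomial.aeval_C, MvPolynomial.aeval_C]
    rfl
  | add p q hp hq => simp only [map_add, hp, hq]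
  | mul_X p d hp => simp only [map_mul, hp, MvPolynomial.aeval_X, MvPolynomial.map_X]

/-- (B-K) A polynomial relation with coefficients in `ℚ̄` holds between the formal generators
`j(q^d)` iff it holds between the analytic generators `j(d·)`. -/
theorem bridgeK_iff (hJ : JRel) (P : MvPolynomial ↥N.divisors (AlgebraicClosure ℚ)) :
    MvPolynomial.aeval (JFam N) P = 0 ↔ MvPolynomial.aeval (jAtFam N) P = 0 := by
  rw [← aeval_jAtFam_map, bridgeC_iff hJ, ← coeffMap_aeval_JFam]
  constructor
  · intro h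
    rw [h, map_zero]
  · intro h
    exact coeffMap_embC_injective (by rw [h, map_zero])

end Induction

end AnBridge

end Fermat.Agent.S24
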