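import Mathlib
import Fermat.Prelude.Def_ModularCurve_X0
import Fermat.Prelude.Def_ModularCurve_LaurentCoeff

/-!
# S24 team library: the formal `j`-series versus Mathlib's `q`-expansions

OWNER: helper90 (only the owner edits this file).
-/

set_option autoImplicit false

namespace Fermat.Agent.S24

open UpperHalfPlane ModularForm ModularCurve
open scoped MatrixGroups ModularForm Manifold

namespace JFormal

open Filter Topology

/-- Locally uniform limits of holomorphic functions on an open set: all iterated derivatives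
converge locally uniformly. -/
theorem tendsto_iteratedDeriv {U : Set ℂ} (hU : IsOpen U) {F : ℕ → ℂ → ℂ} {f : ℂ → ℂ}
    (hF : ∀ n, DifferentiableOn ℂ (F n) U)
    (hf : TendstoLocallyUniformlyOn F f atTop U) (m : ℕ) :
    TendstoLocallyUniformlyOn (fun n => iteratedDeriv m (F n)) (iteratedDeriv m f) atTop U ∧
      ∀ n, DifferentiableOn ℂ (iteratedDeriv m (F n)) U := by
  induction m with
  | zero => simpa [iteratedDeriv_zero] using ⟨hf, hF⟩
  | succ m ih =>
    obtain ⟨h1, h2⟩ := ih
    refine ⟨?_, fun n => ?_⟩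
    · simp only [iteratedDeriv_succ]
      exact h1.deriv (Eventually.of_forall h2) hU
    · rw [iteratedDeriv_succ]
      exact (h2 n).deriv hU

theorem iteratedDeriv_polynomial_eval (p : Polynomial ℂ) (m : ℕ) :
    iteratedDeriv m (fun q => p.eval q) = fun q => (Polynomial.derivative^[m] p).eval q := by
  induction m generalizing p with
  | zero => simp
  | succ m ih =>
    rw [iteratedDeriv_succ', Function.iterate_succ_apply]
    have : deriv (fun q => p.eval q) = fun q => (Polynomial.derivative p).eval q := by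
      funext q; exact p.deriv
    rw [this, ih]

theorem iteratedDeriv_polynomial_eval_zero (p : Polynomial ℂ) (m : ℕ) :
    iteratedDeriv m (fun q => p.eval q) 0 = (m.factorial : ℂ) * p.coeff m := by
  rw [iteratedDeriv_polynomial_eval]
  simp [← Polynomial.coeff_zero_eq_eval_zero, Polynomial.coeff_iterate_derivative,
    Nat.descFactorial_self]

theorem tendstoLocallyUniformlyOn_self {α β ι : Type*} [TopologicalSpace α] [UniformSpace β]
    (f : α → β) (p : Filter ι) (s : Set α) :
    TendstoLocallyUniformlyOn (fun _ : ι => f) f p s := by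
  intro u hu x _
  exact ⟨Set.univ, Filter.univ_mem, Filter.Eventually.of_forall fun _ y _ => refl_mem_uniformity hu⟩

open scoped PowerSeries.WithPiTopology

/-- The polynomials `X * (∏_{i < N} (1 - X^(i+1)))^24`. -/
noncomputable def polyN (N : ℕ) : Polynomial ℂ :=
  Polynomial.X * (∏ i ∈ Finset.range N, (1 - Polynomial.X ^ (i + 1))) ^ 24

theorem polyN_eval (N : ℕ) (q : ℂ) :
    (polyN N).eval q = q * (∏ i ∈ Finset.range N, (1 - q ^ (i + 1))) ^ 24 := by
  simp [polyN, Polynomial.eval_prod]

theorem polyN_coe (N : ℕ) :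
    ((polyN N : Polynomial ℂ) : PowerSeries ℂ)
      = PowerSeries.X * (∏ i ∈ Finset.range N, (1 - PowerSeries.X ^ (i + 1))) ^ 24 := by
  have h := map_prod (Polynomial.coeToPowerSeries.ringHom (R := ℂ))
    (fun i => (1 - Polynomial.X ^ (i + 1) : Polynomial ℂ)) (Finset.range N)
  simp only [Polynomial.coeToPowerSeries.ringHom_apply] at h
  rw [polyN, Polynomial.coe_mul, Polynomial.coe_pow, Polynomial.coe_X, h]
  simp

theorem tendsto_polyN :
    TendstoLocallyUniformlyOn (fun N q => (polyN N).eval q)
      (fun q => q * ∏' i : ℕ, (1 - q ^ (i + 1)) ^ 24) atTop (Metric.ball (0 : ℂ) 1) := by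
  have h1 : TendstoLocallyUniformlyOn
      (fun N (q : ℂ) => ∏ i ∈ Finset.range N, (1 - q ^ (i + 1)))
      (fun q => ∏' i : ℕ, (1 - q ^ (i + 1))) atTop (Metric.ball (0 : ℂ) 1) :=
    multipliableLocallyUniformlyOn_one_sub_pow.hasProdLocallyUniformlyOn.tendstoLocallyUniformlyOn_finsetRange
  have hc : ContinuousOn (fun q : ℂ => ∏' i : ℕ, (1 - q ^ (i + 1))) (Metric.ball (0 : ℂ) 1) :=
    differentiableOn_tprod_one_sub_pow.continuousOn
  have hpow : ∀ k : ℕ, TendstoLocallyUniformlyOn
      (fun N (q : ℂ) => (∏ i ∈ Finset.range N, (1 - q ^ (i + 1))) ^ k)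
      (fun q => (∏' i : ℕ, (1 - q ^ (i + 1))) ^ k) atTop (Metric.ball (0 : ℂ) 1) ∧
      ContinuousOn (fun q : ℂ => (∏' i : ℕ, (1 - q ^ (i + 1))) ^ k) (Metric.ball (0 : ℂ) 1) := by
    intro k
    induction k with
    | zero =>
      simp only [pow_zero]
      exact ⟨tendstoLocallyUniformlyOn_self _ _ _, continuousOn_const⟩
    | succ k ih =>
      simp only [pow_succ]
      exact ⟨ih.1.mul₀ h1 ih.2 hc, ih.2.mul hc⟩
  have hid : TendstoLocallyUniformlyOn (fun (_ : ℕ) (q : ℂ) => q) (fun q => q) atTop
      (Metric.ball (0 : ℂ) 1) := tendstoLocallyUniformlyOn_self _ _ _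
  have h2 := hid.mul₀ (hpow 24).1 continuousOn_id (hpow 24).2
  refine (h2.congr_right ?_).congr ?_
  · intro q hq
    have hq' : ‖q‖ < 1 := by simpa using hq
    simp only [Pi.mul_apply]
    rw [(multipliable_one_sub_pow hq').tprod_pow 24]
  · intro N q _
    simp [polyN_eval]

/-- Formal side: the coefficients of `polyN N` converge to those of the formal product. -/
theorem tendsto_polyN_coeff (m : ℕ) :
    Tendsto (fun N => (polyN N).coeff m) atTop
      (𝓝 (PowerSeries.coeff m
        (PowerSeries.X * (∏' n : ℕ, (1 - PowerSeries.X ^ (n + 1)) : PowerSeries ℂ) ^ 24))) := by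
  have h1 : Tendsto (fun N => ∏ i ∈ Finset.range N, (1 - PowerSeries.X ^ (i + 1) : PowerSeries ℂ))
      atTop (𝓝 (∏' n : ℕ, (1 - PowerSeries.X ^ (n + 1)) : PowerSeries ℂ)) :=
    (PowerSeries.WithPiTopology.multipliable_one_sub_X_pow ℂ).tendsto_prod_tprod_nat
  have h2 : Continuous (fun p : PowerSeries ℂ => PowerSeries.coeff m (PowerSeries.X * p ^ 24)) :=
    (PowerSeries.WithPiTopology.continuous_coeff ℂ m).comp
      (continuous_const.mul (continuous_id.pow 24))
  have h3 := (h2.tendsto _).comp h1
  refine h3.congr fun N => ?_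
  simp only [Function.comp_apply]
  rw [← polyN_coe, Polynomial.coeff_coe]

/-- Analytic side: the coefficients of `polyN N` converge to the `q`-expansion coefficients
of the discriminant. -/
theorem tendsto_polyN_coeff_discriminant (m : ℕ) :
    Tendsto (fun N => (polyN N).coeff m) atTop
      (𝓝 ((qExpansion 1 (ModularForm.discriminant : ℍ → ℂ)).coeff m)) := by
  have hU : IsOpen (Metric.ball (0 : ℂ) 1) := Metric.isOpen_ball
  have h0 : (0 : ℂ) ∈ Metric.ball (0 : ℂ) 1 := Metric.mem_ball_self one_pos
  have hA := (tendsto_iteratedDeriv hU (F := fun N q => (polyN N).eval q)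
    (fun N => (polyN N).differentiable.differentiableOn) tendsto_polyN m).1.tendsto_at h0
  simp only [iteratedDeriv_polynomial_eval_zero] at hA
  have hEq : iteratedDeriv m (cuspFunction 1 ModularForm.discriminant) 0
      = iteratedDeriv m (fun q : ℂ => q * ∏' i : ℕ, (1 - q ^ (i + 1)) ^ 24) 0 := by
    apply Filter.EventuallyEq.iteratedDeriv_eq
    filter_upwards [hU.mem_nhds h0] with q hq
    exact discriminant_cuspFunction_eqOn hq
  rw [qExpansion_coeff, hEq]
  have hm : (m.factorial : ℂ) ≠ 0 := by exact_mod_cast m.factorial_ne_zero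
  have := hA.const_mul ((m.factorial : ℂ)⁻¹)
  refine this.congr fun N => ?_
  field_simp

/-- The `q`-expansion of the discriminant is the formal product `X ∏ (1 - X^n)^24`. -/
theorem qExpansion_discriminant_tprod :
    qExpansion 1 (ModularForm.discriminant : ℍ → ℂ)
      = PowerSeries.X * (∏' n : ℕ, (1 - PowerSeries.X ^ (n + 1)) : PowerSeries ℂ) ^ 24 := by
  ext m
  exact tendsto_nhds_unique (tendsto_polyN_coeff_discriminant m) (tendsto_polyN_coeff m)

theorem continuous_map_intCast :
    Continuous (PowerSeries.map (Int.castRingHom ℂ) : PowerSeries ℤ → PowerSeries ℂ) := by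
  rw [continuous_iff_continuousAt]
  intro x
  rw [ContinuousAt, PowerSeries.WithPiTopology.tendsto_iff_coeff_tendsto]
  intro d
  simp only [PowerSeries.coeff_map]
  exact ((continuous_of_discreteTopology (f := fun n : ℤ => (Int.castRingHom ℂ) n)).comp
    (PowerSeries.WithPiTopology.continuous_coeff ℤ d)).tendsto x

theorem map_etaProd :
    ModularCurve.etaProd.map (Int.castRingHom ℂ)
      = (∏' n : ℕ, (1 - PowerSeries.X ^ (n + 1)) : PowerSeries ℂ) := by
  rw [ModularCurve.etaProd,
    (PowerSeries.WithPiTopology.multipliable_one_sub_X_pow ℤ).map_tprod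
      (PowerSeries.map (Int.castRingHom ℂ)) continuous_map_intCast]
  simp

/-- **Δ half**: the `q`-expansion of the discriminant is `X` times the image in `ℂ⟦X⟧` of the
prelude's `dedekindEtaUnit = (∏ (1 - X^n))^24`. -/
theorem qExpansion_discriminant :
    qExpansion 1 (ModularForm.discriminant : ℍ → ℂ)
      = PowerSeries.X * ModularCurve.dedekindEtaUnit.map (Int.castRingHom ℂ) := by
  rw [qExpansion_discriminant_tprod, ModularCurve.dedekindEtaUnit, map_pow, map_etaProd]

end JFormal

end Fermat.Agent.S24
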