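/-
S24 team, analytic side (owner of this file: helper95).

The `E₄`-half of the formal/analytic comparison of `j`:
* `qExpansion_E₄`: the `q`-expansion of the level one Eisenstein series `E₄` is the prelude's
  integral power series `eisenstein4 = 1 + 240 ∑ σ₃(n) qⁿ`;
* `jq_mul_of`: the identity `j · Δ = E₄³` on `q`-expansions, given the `q`-expansion of `Δ`.
-/
import Mathlib
import Fermat.Prelude.Def_ModularCurve_X0
import Fermat.Prelude.Def_ModularCurve_LaurentCoeff

set_option autoImplicit false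

namespace Fermat.Agent.S24.JFormalE4

open UpperHalfPlane ModularForm EisensteinSeries
open scoped MatrixGroups ModularForm Manifold ArithmeticFunction.sigma

/-- The `q`-expansion of `E₄` is `1 + 240 ∑ σ₃(n) qⁿ`. -/
theorem qExpansion_E₄ :
    qExpansion 1 (⇑ModularForm.E₄ : ℍ → ℂ) =
      ModularCurve.eisenstein4.map (Int.castRingHom ℂ) := by
  ext m
  rw [E_qExpansion_coeff (by norm_num : 3 ≤ 4) (by decide : Even 4) m, PowerSeries.coeff_map,
    ModularCurve.eisenstein4, PowerSeries.coeff_mk]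
  by_cases hm : m = 0
  · simp [hm]
  · rw [if_neg hm, if_neg hm]
    have hb : bernoulli 4 = -1 / 30 := by
      rw [bernoulli_eq_bernoulli'_of_ne_one (by norm_num), bernoulli'_four]
    rw [hb, ArithmeticFunction.sigma_apply, eq_intCast]
    push_cast
    ring

/-- Coefficientwise maps commute with the embedding of power series into Laurent series. -/
theorem coeffMap_ofPowerSeries {R S : Type*} [CommRing R] [CommRing S] (f : R →+* S)
    (p : PowerSeries R) :
    ModularCurve.coeffMap f (HahnSeries.ofPowerSeries ℤ R p) =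
      HahnSeries.ofPowerSeries ℤ S (p.map f) := by
  ext k
  rw [ModularCurve.coeffMap_coeff]
  rcases lt_or_ge k 0 with hk | hk
  · rw [ModularCurve.ofPowerSeries_coeff_of_neg _ hk, ModularCurve.ofPowerSeries_coeff_of_neg _ hk,
      map_zero]
  · obtain ⟨n, rfl⟩ := Int.eq_ofNat_of_zero_le hk
    rw [HahnSeries.ofPowerSeries_apply_coeff, HahnSeries.ofPowerSeries_apply_coeff,
      PowerSeries.coeff_map]

/-- The prelude's formal `j` with complex coefficients. -/
theorem coeffMap_jq :
    ModularCurve.coeffMap (algebraMap ℚ ℂ) ModularCurve.jq =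
      HahnSeries.single (-1 : ℤ) (1 : ℂ) *
        HahnSeries.ofPowerSeries ℤ ℂ (ModularCurve.jNum.map (Int.castRingHom ℂ)) := by
  have h : (ModularCurve.jNum.map (Int.castRingHom ℚ)).map (algebraMap ℚ ℂ) =
      ModularCurve.jNum.map (Int.castRingHom ℂ) := by
    ext n
    simp
  rw [ModularCurve.jq, map_mul, ModularCurve.coeffMap_single, map_one, coeffMap_ofPowerSeries,
    ModularCurve.jNumQ, h]

/-- **`j · Δ = E₄³` on `q`-expansions**, given the `q`-expansion of `Δ`. -/
theorem jq_mul_of
    (hΔ : qExpansion 1 (ModularForm.discriminant : ℍ → ℂ) =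
      PowerSeries.X * ModularCurve.dedekindEtaUnit.map (Int.castRingHom ℂ)) :
    ModularCurve.coeffMap (algebraMap ℚ ℂ) ModularCurve.jq *
        HahnSeries.ofPowerSeries ℤ ℂ (qExpansion 1 (ModularForm.discriminant : ℍ → ℂ)) =
      HahnSeries.ofPowerSeries ℤ ℂ (qExpansion 1 (⇑ModularForm.E₄ : ℍ → ℂ)) ^ 3 := by
  rw [coeffMap_jq, hΔ, qExpansion_E₄, map_mul, HahnSeries.ofPowerSeries_X, ← map_pow,
    ← map_pow]
  have h1 : HahnSeries.single (-1 : ℤ) (1 : ℂ) * HahnSeries.single (1 : ℤ) (1 : ℂ) = 1 := by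
    rw [HahnSeries.single_mul_single]
    simp
  have h2 : ModularCurve.jNum.map (Int.castRingHom ℂ) *
      ModularCurve.dedekindEtaUnit.map (Int.castRingHom ℂ) =
        (ModularCurve.eisenstein4 ^ 3).map (Int.castRingHom ℂ) := by
    rw [← map_mul, ModularCurve.jNum, mul_assoc, mul_comm ModularCurve.dedekindEtaUnitInv,
      ModularCurve.dedekindEtaUnit_mul_inv, mul_one]
  calc HahnSeries.single (-1 : ℤ) (1 : ℂ) *
        HahnSeries.ofPowerSeries ℤ ℂ (ModularCurve.jNum.map (Int.castRingHom ℂ)) *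
        (HahnSeries.single (1 : ℤ) (1 : ℂ) * HahnSeries.ofPowerSeries ℤ ℂ
          (ModularCurve.dedekindEtaUnit.map (Int.castRingHom ℂ)))
      = (HahnSeries.single (-1 : ℤ) (1 : ℂ) * HahnSeries.single (1 : ℤ) (1 : ℂ)) *
        (HahnSeries.ofPowerSeries ℤ ℂ (ModularCurve.jNum.map (Int.castRingHom ℂ)) *
          HahnSeries.ofPowerSeries ℤ ℂ
            (ModularCurve.dedekindEtaUnit.map (Int.castRingHom ℂ))) := by ring
    _ = HahnSeries.ofPowerSeries ℤ ℂ ((ModularCurve.eisenstein4 ^ 3).map (Int.castRingHom ℂ)) := by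
        rw [h1, one_mul, ← map_mul, h2]

end Fermat.Agent.S24.JFormalE4
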