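import Mathlib
import Fermat.Agent.S23.Basic
import Fermat.Agent.S23.Hermite
import Fermat.Agent.S23.Distinct
import Fermat.Agent.LevelOne.JDef
import Fermat.Agent.S24.AnDefs

/-!
# S24 team library (analytic side): distinctness of the translates of `j(N·)`

OWNER: helper7 (only the owner edits this file).

* `trans_jAt_of_mem_Gamma0`: `z ↦ j(d z)` is invariant under `Γ₀(N)` for `d ∣ N`.
* `coe_eq_of_trans_jAt_eq`: if the translates of `z ↦ j(N z)` by `g, g' ∈ SL(2, ℤ)` agree then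
  `g Γ₀(N) = g' Γ₀(N)`.

Method (as in `S23/Distinct`): Hermite decomposition `diag(N, 1) γ = γ' [[a, b], [0, d]]` gives
`j(N γ τ) = j((a τ + b) / d)`; comparing the growth `‖j(z)‖ ≍ exp(2π Im z)` at `i∞` forces `d = 1`.
-/

set_option autoImplicit false


namespace Fermat.Agent.S24

open UpperHalfPlane ModularForm Filter Topology
open scoped MatrixGroups ModularForm Manifold Real
open Fermat.Agent.LevelOne Fermat.Agent.S23

namespace AnDistinct

/-- `E₄` tends to `1` at `i∞`. -/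
theorem tendsto_E4 : Tendsto (fun z : ℍ => E₄ z) atImInfty (𝓝 1) := by
  have hper : Function.Periodic ((E₄ : ℍ → ℂ) ∘ ofComplex) (1 : ℝ) := by
    have := SlashInvariantFormClass.periodic_comp_ofComplex E₄ one_mem_strictPeriods_SL
    simpa using this
  have hbdd : IsBoundedAtImInfty (E₄ : ℍ → ℂ) := ModularFormClass.bdd_at_infty E₄
  have hhol : MDiff (E₄ : ℍ → ℂ) := E₄.holo'
  have hO := exp_decay_sub_atImInfty one_pos hper hhol hbdd
  have hval : valueAtInfty (E₄ : ℍ → ℂ) = 1 := by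
    rw [← qExpansion_coeff_zero one_pos (analyticAt_cuspFunction_zero one_pos hper hhol hbdd) hper]
    exact EisensteinSeries.E_qExpansion_coeff_zero _ (by decide)
  have h0 : Tendsto (fun τ : ℍ => Real.exp (-2 * π * τ.im / 1)) atImInfty (𝓝 0) := by
    have h1 : Tendsto (fun τ : ℍ => (2 * π) * τ.im) atImInfty atTop :=
      tendsto_const_mul_im_atImInfty (by positivity)
    have h2 := Real.tendsto_exp_atBot.comp (tendsto_neg_atTop_atBot.comp h1)
    refine h2.congr fun τ => ?_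
    simp only [Function.comp_apply]
    congr 1
    ring
  have h1 := hO.trans_tendsto h0
  rw [hval] at h1
  have h2 := h1.add_const (1 : ℂ)
  simpa using h2

/-- Two-sided growth of `j` at `i∞`. -/
theorem eventually_jFun_bounds :
    ∀ᶠ z : ℍ in atImInfty, Real.exp (2 * π * z.im) / 16 ≤ ‖jFun z‖ ∧
      ‖jFun z‖ ≤ 16 * Real.exp (2 * π * z.im) := by
  have hE := tendsto_E4.eventually (Metric.ball_mem_nhds 1 (by norm_num : (0 : ℝ) < 1 / 2))
  filter_upwards [hE, eventually_discriminant_bounds] with z hz hΔ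
  obtain ⟨hΔ1, hΔ2⟩ := hΔ
  have hsub : ‖E₄ z - 1‖ < 1 / 2 := by rwa [Complex.dist_eq] at hz
  have h1 := norm_sub_norm_le 1 (E₄ z)
  have h2 := norm_sub_norm_le (E₄ z) 1
  rw [norm_sub_rev] at h1
  rw [norm_one] at h1 h2
  have hlo : 1 / 2 ≤ ‖E₄ z‖ := by linarith
  have hhi : ‖E₄ z‖ ≤ 3 / 2 := by linarith
  have hlo3 : 1 / 8 ≤ ‖E₄ z‖ ^ 3 := by
    calc (1 / 8 : ℝ) = (1 / 2) ^ 3 := by norm_num
      _ ≤ ‖E₄ z‖ ^ 3 := pow_le_pow_left₀ (by norm_num) hlo 3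
  have hhi3 : ‖E₄ z‖ ^ 3 ≤ 27 / 8 := by
    calc ‖E₄ z‖ ^ 3 ≤ (3 / 2) ^ 3 := pow_le_pow_left₀ (norm_nonneg _) hhi 3
      _ = 27 / 8 := by norm_num
  have hexp : Real.exp (2 * π * z.im) * Real.exp (-2 * π * z.im) = 1 := by
    rw [← Real.exp_add]
    have : 2 * π * z.im + -2 * π * z.im = 0 := by ring
    rw [this, Real.exp_zero]
  have hep := Real.exp_pos (2 * π * z.im)
  have hen := Real.exp_pos (-2 * π * z.im)
  have hΔpos : 0 < ‖ModularForm.discriminant z‖ := norm_pos_iff.mpr (discriminant_ne_zero z)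
  have hj : ‖jFun z‖ = ‖E₄ z‖ ^ 3 / ‖ModularForm.discriminant z‖ := by
    unfold jFun
    rw [norm_div, norm_pow]
  rw [hj]
  constructor
  · rw [le_div_iff₀ hΔpos]
    nlinarith
  · rw [div_le_iff₀ hΔpos]
    nlinarith

/-- The Hermite decomposition moves `N (γ τ)` to `γ' ((a τ + b) / d)`. -/
theorem mulN_smul_of_hermite (N : ℕ) [NeZero N] (γ γ' : SL(2, ℤ)) (a b d : ℤ)
    (ha : 0 < a) (hd : 0 < d)
    (hmat : !![(N:ℤ), 0; 0, 1] * (γ : Matrix (Fin 2) (Fin 2) ℤ) =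
        (γ' : Matrix (Fin 2) (Fin 2) ℤ) * !![a, b; 0, d]) (τ : ℍ) :
    mulN N (γ • τ) = γ' • affPt a b d ha hd τ := by
  have e00 : (N : ℤ) * γ 0 0 = γ' 0 0 * a := by
    have := congrFun (congrFun hmat 0) 0
    simpa [Matrix.mul_apply, Fin.sum_univ_two] using this
  have e01 : (N : ℤ) * γ 0 1 = γ' 0 0 * b + γ' 0 1 * d := by
    have := congrFun (congrFun hmat 0) 1
    simpa [Matrix.mul_apply, Fin.sum_univ_two] using this
  have e10 : γ 1 0 = γ' 1 0 * a := by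
    have := congrFun (congrFun hmat 1) 0
    simpa [Matrix.mul_apply, Fin.sum_univ_two] using this
  have e11 : γ 1 1 = γ' 1 0 * b + γ' 1 1 * d := by
    have := congrFun (congrFun hmat 1) 1
    simpa [Matrix.mul_apply, Fin.sum_univ_two] using this
  have c00 : (N : ℂ) * (γ 0 0 : ℂ) = (γ' 0 0 : ℂ) * a := by exact_mod_cast e00
  have c01 : (N : ℂ) * (γ 0 1 : ℂ) = (γ' 0 0 : ℂ) * b + (γ' 0 1 : ℂ) * d := by exact_mod_cast e01
  have c10 : (γ 1 0 : ℂ) = (γ' 1 0 : ℂ) * a := by exact_mod_cast e10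
  have c11 : (γ 1 1 : ℂ) = (γ' 1 0 : ℂ) * b + (γ' 1 1 : ℂ) * d := by exact_mod_cast e11
  have hdc : (d : ℂ) ≠ 0 := by exact_mod_cast hd.ne'
  set z₁ := affPt a b d ha hd τ with hz₁
  have hz₁c : (z₁ : ℂ) = ((a : ℂ) * (τ : ℂ) + (b : ℂ)) / (d : ℂ) := rfl
  have hden0 : denom γ τ ≠ 0 := denom_ne_zero _ _
  have hden1 : denom γ' z₁ ≠ 0 := denom_ne_zero _ _
  apply UpperHalfPlane.ext
  rw [coe_mulN, UpperHalfPlane.coe_specialLinearGroup_apply,
    UpperHalfPlane.coe_specialLinearGroup_apply]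
  have hd0 : ((γ 1 0 : ℤ) : ℂ) * (τ : ℂ) + ((γ 1 1 : ℤ) : ℂ) ≠ 0 := by
    have := hden0
    rw [ModularGroup.denom_apply] at this
    exact this
  have hd1 : ((γ' 1 0 : ℤ) : ℂ) * (z₁ : ℂ) + ((γ' 1 1 : ℤ) : ℂ) ≠ 0 := by
    have := hden1
    rw [ModularGroup.denom_apply] at this
    exact this
  simp only [algebraMap_int_eq, Int.coe_castRingHom, Complex.ofReal_intCast]
  rw [mul_div_assoc', div_eq_div_iff hd0 hd1, hz₁c]
  rw [hz₁c] at hd1
  field_simp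
  linear_combination
    ((γ' 1 0 : ℂ) * (a * τ + b) + (γ' 1 1 : ℂ) * d) * ((τ : ℂ) * c00 + c01)
      - ((γ' 0 0 : ℂ) * (a * τ + b) + (γ' 0 1 : ℂ) * d) * ((τ : ℂ) * c10 + c11)

/-- In the Hermite decomposition, invariance of `j(N·)` under `γ` forces `d = 1`. -/
theorem eq_one_of_hermite_j (N : ℕ) [NeZero N] (γ γ' : SL(2, ℤ)) (a b d : ℤ)
    (ha : 0 < a) (hd : 0 < d) (had : a * d = N)
    (hmat : !![(N:ℤ), 0; 0, 1] * (γ : Matrix (Fin 2) (Fin 2) ℤ) =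
        (γ' : Matrix (Fin 2) (Fin 2) ℤ) * !![a, b; 0, d])
    (h : ∀ τ : ℍ, jFun (mulN N (γ • τ)) = jFun (mulN N τ)) : d = 1 := by
  by_contra hd1
  have hd2 : 2 ≤ d := by omega
  have ha' : (0 : ℝ) < a := by exact_mod_cast ha
  have hd' : (2 : ℝ) ≤ d := by exact_mod_cast hd2
  have hdpos : (0 : ℝ) < d := by linarith
  have hN : (N : ℝ) = a * d := by exact_mod_cast had.symm
  have key : ∀ τ : ℍ, jFun (affPt a b d ha hd τ) = jFun (mulN N τ) := fun τ => by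
    rw [← h τ, mulN_smul_of_hermite N γ γ' a b d ha hd hmat τ, jFun_smul]
  set K : ℝ := 2 * π * ((N : ℝ) - a / d) with hK
  have hKpos : 0 < K := by
    have h1 : (a : ℝ) / d < a * d := by
      rw [div_lt_iff₀ hdpos]
      nlinarith
    have : 0 < (N : ℝ) - a / d := by rw [hN]; linarith
    positivity
  have hev1 := (tendsto_affPt_atImInfty a b d ha hd).eventually eventually_jFun_bounds
  have hev2 := (tendsto_mulN_atImInfty N).eventually eventually_jFun_bounds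
  have hev3 := (Real.tendsto_exp_atTop.comp (tendsto_const_mul_im_atImInfty hKpos)).eventually
    (eventually_gt_atTop (256 : ℝ))
  obtain ⟨τ, ⟨-, h1⟩, ⟨h2, -⟩, h3⟩ := (hev1.and (hev2.and hev3)).exists
  rw [im_affPt] at h1
  rw [im_mulN] at h2
  rw [key τ] at h1
  simp only [Function.comp_apply] at h3
  have h4 : Real.exp (2 * π * ((N : ℝ) * τ.im)) / 16
      ≤ 16 * Real.exp (2 * π * ((a : ℝ) * τ.im / d)) := h2.trans h1
  have h5 : Real.exp (K * τ.im) * Real.exp (2 * π * ((a : ℝ) * τ.im / d))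
      = Real.exp (2 * π * ((N : ℝ) * τ.im)) := by
    rw [← Real.exp_add]
    congr 1
    rw [hK]
    ring
  have hE := Real.exp_pos (2 * π * ((a : ℝ) * τ.im / d))
  have h6 : Real.exp (K * τ.im) ≤ 256 := by
    by_contra hlt
    have hlt' : 256 < Real.exp (K * τ.im) := not_le.mp hlt
    have := mul_lt_mul_of_pos_right hlt' hE
    rw [h5] at this
    linarith
  linarith

/-- The stabiliser of `j(N·)` in `SL(2, ℤ)` is contained in `Γ₀(N)`. -/
theorem mem_Gamma0_of_jFun_mulN_smul (N : ℕ) [NeZero N] (γ : SL(2, ℤ))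
    (h : ∀ τ : ℍ, jFun (mulN N (γ • τ)) = jFun (mulN N τ)) :
    γ ∈ CongruenceSubgroup.Gamma0 N := by
  obtain ⟨γ', a, b, d, ha, hd, had, hagcd, hmat⟩ := exists_hermite N γ
  have hd1 : d = 1 := eq_one_of_hermite_j N γ γ' a b d ha hd had hmat h
  rw [CongruenceSubgroup.Gamma0_mem]
  have haN : a = N := by rw [hd1, mul_one] at had; exact had
  have hdvd : (N : ℤ) ∣ γ 1 0 := by
    have h1 : ((Int.gcd N (γ 1 0) : ℕ) : ℤ) ∣ γ 1 0 := Int.gcd_dvd_right _ _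
    rwa [← hagcd, haN] at h1
  exact (ZMod.intCast_zmod_eq_zero_iff_dvd _ _).mpr hdvd

/-- For `δ ∈ Γ₀(d)`, `d (δ z) = δ' (d z)` with `δ' ∈ SL(2, ℤ)`. -/
theorem exists_mulN_smul_eq (d : ℕ) [NeZero d] (δ : SL(2, ℤ)) (hδ : (d : ℤ) ∣ δ 1 0) :
    ∃ δ' : SL(2, ℤ), ∀ z : ℍ, mulN d (δ • z) = δ' • mulN d z := by
  obtain ⟨c', hc'⟩ := hδ
  have hdet : δ 0 0 * δ 1 1 - δ 0 1 * δ 1 0 = 1 := by
    have := δ.det_coe
    rwa [Matrix.det_fin_two] at this
  have hdet' : Matrix.det !![δ 0 0, (d : ℤ) * δ 0 1; c', δ 1 1] = 1 := by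
    rw [Matrix.det_fin_two_of]
    rw [hc'] at hdet
    linarith
  refine ⟨⟨!![δ 0 0, (d : ℤ) * δ 0 1; c', δ 1 1], hdet'⟩, fun z => ?_⟩
  have hc'' : ((δ 1 0 : ℤ) : ℂ) = (d : ℂ) * (c' : ℂ) := by exact_mod_cast hc'
  set δ' : SL(2, ℤ) := ⟨!![δ 0 0, (d : ℤ) * δ 0 1; c', δ 1 1], hdet'⟩ with hδ'
  have hden0 : denom δ z ≠ 0 := denom_ne_zero _ _
  have hden1 : denom δ' (mulN d z) ≠ 0 := denom_ne_zero _ _
  rw [ModularGroup.denom_apply] at hden0 hden1
  apply UpperHalfPlane.ext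
  rw [coe_mulN, UpperHalfPlane.coe_specialLinearGroup_apply,
    UpperHalfPlane.coe_specialLinearGroup_apply]
  simp only [algebraMap_int_eq, Int.coe_castRingHom, Complex.ofReal_intCast]
  have e00 : (δ' 0 0 : ℤ) = δ 0 0 := rfl
  have e01 : (δ' 0 1 : ℤ) = (d : ℤ) * δ 0 1 := rfl
  have e10 : (δ' 1 0 : ℤ) = c' := rfl
  have e11 : (δ' 1 1 : ℤ) = δ 1 1 := rfl
  rw [e10, e11] at hden1
  rw [e00, e01, e10, e11, coe_mulN]
  rw [coe_mulN] at hden1
  rw [hc''] at hden0 ⊢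
  rw [mul_div_assoc', div_eq_div_iff hden0 hden1]
  push_cast
  ring

end AnDistinct

/-- `j(d·)` is invariant under `Γ₀(N)` for `d ∣ N`. -/
theorem trans_jAt_of_mem_Gamma0 (N d : ℕ) [NeZero N] [NeZero d] (hd : d ∣ N) {γ : SL(2, ℤ)}
    (hγ : γ ∈ CongruenceSubgroup.Gamma0 N) : trans γ (jAt d) = jAt d := by
  funext z
  have hγ' : γ⁻¹ ∈ CongruenceSubgroup.Gamma0 N := inv_mem hγ
  rw [CongruenceSubgroup.Gamma0_mem] at hγ'
  have hdvd : (d : ℤ) ∣ (γ⁻¹ : SL(2, ℤ)) 1 0 :=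
    (Int.natCast_dvd_natCast.mpr hd).trans ((ZMod.intCast_zmod_eq_zero_iff_dvd _ _).mp hγ')
  obtain ⟨δ', hδ'⟩ := AnDistinct.exists_mulN_smul_eq d γ⁻¹ hdvd
  show jFun (mulN d (γ⁻¹ • z)) = jFun (mulN d z)
  rw [hδ' z, jFun_smul]

/-- The translates of `j(N·)` by coset representatives of `SL(2, ℤ) / Γ₀(N)` are distinct. -/
theorem coe_eq_of_trans_jAt_eq (N : ℕ) [NeZero N] {g g' : SL(2, ℤ)}
    (h : trans g (jAt N) = trans g' (jAt N)) :
    (g : SL(2, ℤ) ⧸ CongruenceSubgroup.Gamma0 N) = g' := by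
  rw [QuotientGroup.eq]
  apply AnDistinct.mem_Gamma0_of_jFun_mulN_smul
  intro τ
  have h1 := congrFun h (g' • τ)
  simp only [trans, jAt] at h1
  rw [inv_smul_smul, ← mul_smul] at h1
  exact h1

end Fermat.Agent.S24
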