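/-
S24 team, analytic side, block 8b (owner: helper2): the "norm polynomial".

A function on `ℍ` which is holomorphic, `Γ₀(N)`-invariant and all of whose `SL(2, ℤ)`-translates are
meromorphic at `i∞` is a root of a monic polynomial of degree `[SL(2, ℤ) : Γ₀(N)]` with
coefficients in `ℂ[j]`.  Applied to polynomial expressions in the functions `j (d z)`, `d ∣ N`.
-/
import Mathlib
import Fermat.Agent.S24.AnDefs
import Fermat.Agent.LevelOne.PolyInJ

set_option autoImplicit false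

namespace Fermat.Agent.S24

open UpperHalfPlane Filter Topology Finset
open scoped MatrixGroups Manifold ModularForm

namespace NormPoly

local notation "Δ" => ModularForm.discriminant

theorem mdiff_trans {f : ℍ → ℂ} (hf : MDiff f) (g : SL(2, ℤ)) : MDiff (trans g f) := by
  have h : MDiff (fun τ : ℍ => (Matrix.SpecialLinearGroup.mapGL ℝ g⁻¹) • τ) :=
    mdifferentiable_smul (by simp)
  exact hf.comp h

section Level

variable (N : ℕ)

local notation "𝒬" => SL(2, ℤ) ⧸ CongruenceSubgroup.Gamma0 N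

/-- The translate of `φ` attached to a coset. -/
noncomputable def cjt (φ : ℍ → ℂ) (q : 𝒬) : ℍ → ℂ := trans (Quotient.out q) φ

variable {N}

theorem cjt_mk {φ : ℍ → ℂ} (hinv : ∀ γ ∈ CongruenceSubgroup.Gamma0 N, trans γ φ = φ)
    (g : SL(2, ℤ)) : cjt N φ (g : 𝒬) = trans g φ := by
  obtain ⟨h, hh⟩ := QuotientGroup.mk_out_eq_mul (CongruenceSubgroup.Gamma0 N) g
  unfold cjt
  rw [hh, trans_mul, hinv _ h.2]

theorem cjt_smul {φ : ℍ → ℂ} (hinv : ∀ γ ∈ CongruenceSubgroup.Gamma0 N, trans γ φ = φ)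
    (h : SL(2, ℤ)) (q : 𝒬) (z : ℍ) : cjt N φ q (h • z) = cjt N φ (h⁻¹ • q) z := by
  induction q using QuotientGroup.induction_on with
  | H g =>
    have e : (h⁻¹ • (g : 𝒬)) = ((h⁻¹ * g : SL(2, ℤ)) : 𝒬) := rfl
    rw [e, cjt_mk hinv, cjt_mk hinv, trans_apply, trans_apply, mul_inv_rev, inv_inv, mul_smul]

section Sym

variable [NeZero N]

/-- The `k`-th elementary symmetric function of the translates of `φ`. -/
noncomputable def esymF (φ : ℍ → ℂ) (k : ℕ) : ℍ → ℂ :=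
  letI := Fintype.ofFinite 𝒬
  ∑ S ∈ powersetCard k (univ : Finset 𝒬), ∏ q ∈ S, cjt N φ q

theorem esymF_apply (φ : ℍ → ℂ) (k : ℕ) (z : ℍ) :
    letI := Fintype.ofFinite 𝒬
    esymF (N := N) φ k z = ((univ : Finset 𝒬).val.map fun q => cjt N φ q z).esymm k := by
  let _ := Fintype.ofFinite 𝒬
  rw [Finset.esymm_map_val]
  simp [esymF, Finset.sum_apply, Finset.prod_apply]

theorem mdiff_esymF {φ : ℍ → ℂ} (hol : MDiff φ) (k : ℕ) : MDiff (esymF (N := N) φ k) := by
  let _ := Fintype.ofFinite 𝒬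
  exact MDifferentiable.sum fun S _ => MDifferentiable.prod fun q _ => mdiff_trans hol _

theorem esymF_smul {φ : ℍ → ℂ} (hinv : ∀ γ ∈ CongruenceSubgroup.Gamma0 N, trans γ φ = φ)
    (k : ℕ) (h : SL(2, ℤ)) (z : ℍ) : esymF (N := N) φ k (h • z) = esymF (N := N) φ k z := by
  classical
  let _ := Fintype.ofFinite 𝒬
  rw [esymF_apply, esymF_apply]
  congr 1
  set σ : Equiv.Perm 𝒬 := MulAction.toPerm (h⁻¹ : SL(2, ℤ)) with hσ
  have e1 : (fun q : 𝒬 => cjt N φ q (h • z)) = (fun q : 𝒬 => cjt N φ q z) ∘ σ := by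
    funext q
    rw [cjt_smul hinv]
    rfl
  rw [e1, ← Multiset.map_map]
  congr 1
  exact (Finset.map_val σ.toEmbedding univ).symm.trans
    (congrArg Finset.val (Finset.map_univ_equiv σ))

theorem bdd_discriminant : IsBoundedAtImInfty (Δ : ℍ → ℂ) := by
  have h : IsZeroAtImInfty (CuspForm.discriminant : ℍ → ℂ) :=
    CuspFormClass.zero_at_infty CuspForm.discriminant
  exact ZeroAtFilter.boundedAtFilter h

theorem bdd_esymF {φ : ℍ → ℂ}
    (hmer : ∀ q : 𝒬, ∃ m : ℕ, IsBoundedAtImInfty (fun z => Δ z ^ m * cjt N φ q z)) (k : ℕ) :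
    ∃ m : ℕ, IsBoundedAtImInfty (fun z => Δ z ^ m * esymF (N := N) φ k z) := by
  classical
  let _ := Fintype.ofFinite 𝒬
  choose m hm using hmer
  let B : Subalgebra ℂ (ℍ → ℂ) := boundedFilterSubalgebra ℂ atImInfty
  have hΔ : (Δ : ℍ → ℂ) ∈ B := bdd_discriminant
  set M := ∑ q, m q with hM
  have h1 : ∀ q : 𝒬, (Δ ^ M * cjt N φ q : ℍ → ℂ) ∈ B := by
    intro q
    have hle : m q ≤ M := Finset.single_le_sum (fun _ _ => Nat.zero_le _) (mem_univ q)
    have e : (Δ ^ M * cjt N φ q : ℍ → ℂ) = Δ ^ (M - m q) * (Δ ^ m q * cjt N φ q) := by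
      rw [← mul_assoc, ← pow_add, Nat.sub_add_cancel hle]
    rw [e]
    exact B.mul_mem (B.pow_mem hΔ _) (hm q)
  refine ⟨M * k, ?_⟩
  have e : (fun z => Δ z ^ (M * k) * esymF (N := N) φ k z) =
      ∑ S ∈ powersetCard k (univ : Finset 𝒬), ∏ q ∈ S, (Δ ^ M * cjt N φ q : ℍ → ℂ) := by
    have e' : (fun z => Δ z ^ (M * k) * esymF (N := N) φ k z) =
        (Δ ^ (M * k) : ℍ → ℂ) * esymF (N := N) φ k := rfl
    rw [e']
    unfold esymF
    rw [Finset.mul_sum]
    refine Finset.sum_congr rfl fun S hS => ?_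
    rw [Finset.prod_mul_distrib, Finset.prod_const, (mem_powersetCard.mp hS).2, ← pow_mul]
  rw [e]
  exact B.sum_mem fun S _ => B.prod_mem fun q _ => h1 q

theorem esymF_zero (φ : ℍ → ℂ) (z : ℍ) : esymF (N := N) φ 0 z = 1 := by
  simp [esymF]

theorem esym_relation {φ : ℍ → ℂ} (hinv : ∀ γ ∈ CongruenceSubgroup.Gamma0 N, trans γ φ = φ)
    (z : ℍ) :
    ∑ j ∈ range (Nat.card 𝒬 + 1),
      (-1) ^ j * (esymF (N := N) φ j z * φ z ^ (Nat.card 𝒬 - j)) = 0 := by
  classical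
  let _ := Fintype.ofFinite 𝒬
  set s : Multiset ℂ := (univ : Finset 𝒬).val.map fun q => cjt N φ q z with hs
  have hcard : Multiset.card s = Nat.card 𝒬 := by simp [hs, Nat.card_eq_fintype_card]
  have hV := Multiset.prod_X_sub_X_eq_sum_esymm s
  have hmem : φ z ∈ s := by
    rw [hs, Multiset.mem_map]
    refine ⟨((1 : SL(2, ℤ)) : 𝒬), by simp, ?_⟩
    rw [cjt_mk hinv, trans_one]
  have hroot : ((s.map fun t => Polynomial.X - Polynomial.C t).prod).eval (φ z) = 0 := by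
    rw [Polynomial.eval_multiset_prod]
    apply Multiset.prod_eq_zero
    rw [Multiset.mem_map]
    exact ⟨Polynomial.X - Polynomial.C (φ z), Multiset.mem_map.mpr ⟨φ z, hmem, rfl⟩, by simp⟩
  rw [hV, Polynomial.eval_finsetSum, hcard] at hroot
  rw [← hroot]
  refine Finset.sum_congr rfl fun j _ => ?_
  have hes : s.esymm j = esymF (N := N) φ j z := (esymF_apply φ j z).symm
  simp [hes]

/-- Abstract norm polynomial: a holomorphic `Γ₀(N)`-invariant function all of whose translates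
are meromorphic at `i∞` is a root of a monic polynomial of degree `[SL(2, ℤ) : Γ₀(N)]` whose
coefficients are level-one invariant functions, hence (by `hpoly`) polynomials in `J`. -/
theorem core {φ J : ℍ → ℂ} {n : ℕ} (hn : Nat.card 𝒬 = n) (hol : MDiff φ)
    (hinv : ∀ γ ∈ CongruenceSubgroup.Gamma0 N, trans γ φ = φ)
    (hmer : ∀ g : SL(2, ℤ), ∃ m : ℕ, IsBoundedAtImInfty (fun z => Δ z ^ m * trans g φ z))
    (hpoly : ∀ f : ℍ → ℂ, MDiff f → (∀ (γ : SL(2, ℤ)) (z : ℍ), f (γ • z) = f z) →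
      (∃ m : ℕ, IsBoundedAtImInfty (fun z => Δ z ^ m * f z)) →
      ∃ p : Polynomial ℂ, ∀ z, f z = p.eval (J z)) :
    ∃ c : Fin n → Polynomial ℂ, ∀ z : ℍ,
      φ z ^ n + ∑ k : Fin n, (c k).eval (J z) * φ z ^ (k : ℕ) = 0 := by
  subst hn
  have hp : ∀ j : ℕ, ∃ p : Polynomial ℂ, ∀ z, esymF (N := N) φ j z = p.eval (J z) := fun j =>
    hpoly _ (mdiff_esymF hol j) (esymF_smul hinv j) (bdd_esymF (fun q => hmer _) j)
  choose p hp using hp
  refine ⟨fun k => Polynomial.C ((-1) ^ (Nat.card 𝒬 - (k : ℕ))) * p (Nat.card 𝒬 - (k : ℕ)),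
    fun z => ?_⟩
  have h := esym_relation hinv z
  rw [Finset.sum_range_succ'] at h
  simp only [pow_zero, one_mul, esymF_zero, Nat.sub_zero] at h
  rw [add_comm] at h
  rw [← h]
  congr 1
  rw [Fin.sum_univ_eq_sum_range (fun k => (Polynomial.C ((-1 : ℂ) ^ (Nat.card 𝒬 - k)) *
    p (Nat.card 𝒬 - k)).eval (J z) * φ z ^ k) (Nat.card 𝒬), ← Finset.sum_range_reflect]
  refine Finset.sum_congr rfl fun j hj => ?_
  have hj' : j < Nat.card 𝒬 := Finset.mem_range.mp hj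
  have e1 : Nat.card 𝒬 - (Nat.card 𝒬 - 1 - j) = j + 1 := by omega
  have e2 : Nat.card 𝒬 - 1 - j = Nat.card 𝒬 - (j + 1) := by omega
  rw [e1, e2, Polynomial.eval_mul, Polynomial.eval_C, ← hp]
  ring

end Sym

end Level

/-- The algebra of holomorphic `Γ₀(N)`-invariant functions all of whose translates are
meromorphic at `i∞`. -/
def goodSub (N : ℕ) : Subalgebra ℂ (ℍ → ℂ) where
  carrier := {φ | MDiff φ ∧ (∀ γ ∈ CongruenceSubgroup.Gamma0 N, trans γ φ = φ) ∧
    ∀ g : SL(2, ℤ), ∃ m : ℕ, IsBoundedAtImInfty (fun z => Δ z ^ m * trans g φ z)}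
  mul_mem' := by
    rintro f₁ f₂ ⟨h1, i1, b1⟩ ⟨h2, i2, b2⟩
    refine ⟨h1.mul h2, fun γ hγ => ?_, fun g => ?_⟩
    · rw [trans_mul_fun, i1 γ hγ, i2 γ hγ]
    · obtain ⟨m1, hm1⟩ := b1 g
      obtain ⟨m2, hm2⟩ := b2 g
      refine ⟨m1 + m2, ?_⟩
      have e : (fun z => Δ z ^ (m1 + m2) * trans g (f₁ * f₂) z) =
          (fun z => Δ z ^ m1 * trans g f₁ z) * (fun z => Δ z ^ m2 * trans g f₂ z) := by
        funext z
        simp only [trans_apply, Pi.mul_apply, pow_add]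
        ring
      rw [e]
      exact hm1.mul hm2
  add_mem' := by
    rintro f₁ f₂ ⟨h1, i1, b1⟩ ⟨h2, i2, b2⟩
    refine ⟨h1.add h2, fun γ hγ => ?_, fun g => ?_⟩
    · rw [trans_add, i1 γ hγ, i2 γ hγ]
    · obtain ⟨m1, hm1⟩ := b1 g
      obtain ⟨m2, hm2⟩ := b2 g
      refine ⟨m1 + m2, ?_⟩
      have hΔ : ∀ m : ℕ, IsBoundedAtImInfty (fun z : ℍ => Δ z ^ m) := fun m =>
        (boundedFilterSubalgebra ℂ atImInfty).pow_mem bdd_discriminant m
      have e : (fun z => Δ z ^ (m1 + m2) * trans g (f₁ + f₂) z) =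
          (fun z : ℍ => Δ z ^ m2) * (fun z => Δ z ^ m1 * trans g f₁ z) +
            (fun z : ℍ => Δ z ^ m1) * (fun z => Δ z ^ m2 * trans g f₂ z) := by
        funext z
        simp only [trans_apply, Pi.mul_apply, Pi.add_apply, pow_add]
        ring
      rw [e]
      exact ((hΔ m2).mul hm1).add ((hΔ m1).mul hm2)
  algebraMap_mem' := by
    intro c
    refine ⟨mdifferentiable_const, fun γ _ => rfl, fun g => ⟨0, ?_⟩⟩
    have e : (fun z : ℍ => Δ z ^ 0 * trans g (algebraMap ℂ (ℍ → ℂ) c) z) = Function.const ℍ c := by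
      funext z
      simp [trans_apply]
    rw [e]
    exact const_boundedAtFilter atImInfty c

theorem mem_goodSub {N : ℕ} {φ : ℍ → ℂ} : φ ∈ goodSub N ↔
    MDiff φ ∧ (∀ γ ∈ CongruenceSubgroup.Gamma0 N, trans γ φ = φ) ∧
      ∀ g : SL(2, ℤ), ∃ m : ℕ, IsBoundedAtImInfty (fun z => Δ z ^ m * trans g φ z) := Iff.rfl

theorem aeval_mem_goodSub {N : ℕ} {ι : Type*} {f : ι → ℍ → ℂ} (hf : ∀ i, f i ∈ goodSub N)
    (P : MvPolynomial ι ℂ) : MvPolynomial.aeval f P ∈ goodSub N := by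
  induction P using MvPolynomial.induction_on with
  | C a =>
    rw [MvPolynomial.aeval_C]
    exact (goodSub N).algebraMap_mem a
  | add p q hp hq =>
    rw [map_add]
    exact (goodSub N).add_mem hp hq
  | mul_X p i hp =>
    rw [map_mul, MvPolynomial.aeval_X]
    exact (goodSub N).mul_mem hp (hf i)

/-- The norm polynomial of an element of `goodSub N`. -/
theorem normPoly_of_mem (N : ℕ) [NeZero N] {n : ℕ} (hn : Nat.card (QN N) = n) {φ : ℍ → ℂ}
    (hφ : φ ∈ goodSub N) :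
    ∃ c : Fin n → Polynomial ℂ, ∀ z : ℍ,
      φ z ^ n + ∑ k : Fin n, (c k).eval (LevelOne.jFun z) * φ z ^ (k : ℕ) = 0 := by
  obtain ⟨hol, hinv, hmer⟩ := hφ
  refine core hn hol hinv hmer fun f hf hfinv ⟨m, hm⟩ => ?_
  obtain ⟨p, -, hp⟩ := LevelOne.exists_polynomial_of_invariant hf hfinv m hm
  exact ⟨p, hp⟩

end NormPoly

/-- **Norm polynomial** (abstract hypotheses on the generators `j (d z)`, `d ∣ N`): every
polynomial expression `φ` in the functions `j (d z)` satisfies a monic equation of degree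
`n = [SL(2, ℤ) : Γ₀(N)]` with coefficients polynomials in `j`. -/
theorem normPoly_of (N : ℕ) [NeZero N] {n : ℕ} (hn : Nat.card (QN N) = n)
    (hhol : ∀ d : ↥N.divisors, MDiff (jAtFam N d))
    (hinv : ∀ d : ↥N.divisors, ∀ γ ∈ CongruenceSubgroup.Gamma0 N,
      trans γ (jAtFam N d) = jAtFam N d)
    (hmer : ∀ (d : ↥N.divisors) (g : SL(2, ℤ)), ∃ m : ℕ,
      IsBoundedAtImInfty (fun z => ModularForm.discriminant z ^ m * trans g (jAtFam N d) z))
    (P : MvPolynomial ↥N.divisors ℂ) :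
    ∃ c : Fin n → Polynomial ℂ, ∀ z : ℍ,
      (MvPolynomial.aeval (jAtFam N) P z) ^ n +
        ∑ k : Fin n, (c k).eval (LevelOne.jFun z) *
          (MvPolynomial.aeval (jAtFam N) P z) ^ (k : ℕ) = 0 :=
  NormPoly.normPoly_of_mem N hn
    (NormPoly.aeval_mem_goodSub (fun d => ⟨hhol d, hinv d, hmer d⟩) P)

end Fermat.Agent.S24
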