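import Mathlib
import Fermat.Prelude.Def_AlgebraicCurve_DivisorClassGroup
import Fermat.Prelude.Def_ModularCurve_CanonicalDivisor
import Fermat.Prelude.Def_AlgebraicCurve_CanonicalDivisor

/-!
# S24 team library: shared definitions

OWNER: helper24 (only the owner edits this file).

Generic setting of the function-field side: `K` an algebraically closed field of characteristic
zero, `F` a field extension of `K` which is a function field in one variable (`IsFF1 K F`).
-/

set_option autoImplicit false

namespace Fermat.Agent.S24

open IntermediateField

/-- `F / K` is a function field in one variable: `F` is a finite extension of `K(x)` for some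
`x ∈ F` transcendental over `K`. -/
def IsFF1 (K F : Type*) [Field K] [Field F] [Algebra K F] : Prop :=
  ∃ x : F, Transcendental K x ∧ FiniteDimensional K⟮x⟯ F

end Fermat.Agent.S24
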