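import Mathlib
import Fermat.Agent.S24.Defs

/-!
# S24 team library: general lemmas on places (no `IsFF1`)

OWNER: helper26 (only the owner edits this file). Keep the exported signatures below unchanged
(tell helper24 before changing an interface); add helper lemmas freely (prefix private helpers).
-/

set_option autoImplicit false

namespace Fermat.Agent.S24

open IntermediateField AlgebraicCurve KaehlerDifferential IsDedekindDomain

variable {K F : Type*} [Field K] [Field F] [Algebra K F]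

section basic

variable (v : Place K F)

theorem ord_nonneg_of_mem {b : F} (hmem : b ∈ v.toValuationSubring) : 0 ≤ v.ord b := by
  rcases eq_or_ne b 0 with rfl | hb
  · simp
  have h1 : v.adicValuation b ≤ 1 := by
    have h := v.adicValuation_coe ⟨b, hmem⟩
    rw [show ((⟨b, hmem⟩ : v.toValuationSubring) : F) = b from rfl] at h
    rw [h]
    exact HeightOneSpectrum.intValuation_le_one _ _
  have h0 : v.adicValuation b ≠ 0 := v.adicValuation_ne_zero hb
  have h2 : WithZero.log (v.adicValuation b) ≤ 0 := by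
    rw [WithZero.log_le_iff_le_exp h0]
    simpa using h1
  simp only [Place.ord]
  omega

theorem mem_of_ord_nonneg {b : F} (h : 0 ≤ v.ord b) : b ∈ v.toValuationSubring := by
  rcases eq_or_ne b 0 with rfl | hb
  · exact zero_mem _
  obtain ⟨π, hπ⟩ := IsDiscreteValuationRing.exists_irreducible v.toValuationSubring
  obtain ⟨u, hu⟩ := v.exists_unit_mul_zpow hb hπ
  obtain ⟨n, hn⟩ := Int.eq_ofNat_of_zero_le h
  rw [hu, hn, zpow_natCast]
  exact mul_mem (u : v.toValuationSubring).2 (pow_mem π.2 n)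

/-- For `b ≠ 0`: membership in the valuation ring is `0 ≤ ord`. -/
theorem mem_iff_ord_nonneg {b : F} (hb : b ≠ 0) :
    b ∈ v.toValuationSubring ↔ 0 ≤ v.ord b :=
  have _ := hb
  ⟨ord_nonneg_of_mem v, mem_of_ord_nonneg v⟩

/-- Version without the nonvanishing hypothesis (`ord 0 = 0`). -/
theorem mem_iff_ord_nonneg' (b : F) :
    b ∈ v.toValuationSubring ↔ 0 ≤ v.ord b :=
  ⟨ord_nonneg_of_mem v, mem_of_ord_nonneg v⟩

/-- Constants have order `0`. -/
theorem ord_algebraMap (a : K) : v.ord (algebraMap K F a) = 0 := by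
  have h1 := ord_nonneg_of_mem v (v.algebraMap_mem' a)
  have h2 := ord_nonneg_of_mem v (v.algebraMap_mem' a⁻¹)
  rw [map_inv₀, v.ord_inv] at h2
  omega

theorem ord_neg (f : F) : v.ord (-f) = v.ord f := by
  simp only [Place.ord, Valuation.map_neg]

theorem ord_pow (f : F) (n : ℕ) : v.ord (f ^ n) = n * v.ord f := by
  have h := v.ord_zpow f n
  simpa using h

theorem ord_div {f g : F} (hf : f ≠ 0) (hg : g ≠ 0) :
    v.ord (f / g) = v.ord f - v.ord g := by
  rw [div_eq_mul_inv, v.ord_mul hf (inv_ne_zero hg), v.ord_inv]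
  ring

/-- Ultrametric inequality. -/
theorem ord_add_ge {f g : F} (hfg : f + g ≠ 0) :
    min (v.ord f) (v.ord g) ≤ v.ord (f + g) := by
  rcases eq_or_ne f 0 with rfl | hf
  · simp
  rcases eq_or_ne g 0 with rfl | hg
  · simp
  have hf0 := v.adicValuation_ne_zero hf
  have hg0 := v.adicValuation_ne_zero hg
  have hfg0 := v.adicValuation_ne_zero hfg
  have hadd := v.adicValuation.map_add f g
  simp only [Place.ord]
  rcases le_total (v.adicValuation f) (v.adicValuation g) with h | h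
  · have h1 : v.adicValuation (f + g) ≤ v.adicValuation g := hadd.trans (max_le h le_rfl)
    have h2 := (WithZero.log_le_log hfg0 hg0).mpr h1
    have := min_le_right (-WithZero.log (v.adicValuation f)) (-WithZero.log (v.adicValuation g))
    omega
  · have h1 : v.adicValuation (f + g) ≤ v.adicValuation f := hadd.trans (max_le le_rfl h)
    have h2 := (WithZero.log_le_log hfg0 hf0).mpr h1
    have := min_le_left (-WithZero.log (v.adicValuation f)) (-WithZero.log (v.adicValuation g))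
    omega

theorem ord_sub_ge {f g : F} (hfg : f - g ≠ 0) :
    min (v.ord f) (v.ord g) ≤ v.ord (f - g) := by
  have h := ord_add_ge v (f := f) (g := -g) (by rwa [← sub_eq_add_neg])
  rwa [ord_neg v, ← sub_eq_add_neg] at h

/-- If `ord f < ord g` (and `f ≠ 0`), then `ord (f + g) = ord f`. -/
theorem ord_add_eq_of_lt {f g : F} (hg : g ≠ 0) (h : v.ord f < v.ord g) (hf : f ≠ 0) :
    v.ord (f + g) = v.ord f := by
  have hf0 := v.adicValuation_ne_zero hf
  have hg0 := v.adicValuation_ne_zero hg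
  have hlt : v.adicValuation g < v.adicValuation f := by
    rw [← WithZero.log_lt_log hg0 hf0]
    simp only [Place.ord] at h
    omega
  simp only [Place.ord]
  rw [Valuation.map_add_eq_of_lt_left _ hlt]

/-- Variant of `ord_add_eq_of_lt` needing only `f ≠ 0`. -/
theorem ord_add_eq_of_lt_left {f g : F} (hf : f ≠ 0) (h : v.ord f < v.ord g) :
    v.ord (f + g) = v.ord f := by
  rcases eq_or_ne g 0 with rfl | hg
  · simp
  exact ord_add_eq_of_lt v hg h hf

theorem ord_add_eq_of_lt_right {f g : F} (hg : g ≠ 0) (h : v.ord g < v.ord f) :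
    v.ord (f + g) = v.ord g := by
  rw [add_comm]
  exact ord_add_eq_of_lt_left v hg h

theorem ord_sub_eq_of_lt_left {f g : F} (hf : f ≠ 0) (h : v.ord f < v.ord g) :
    v.ord (f - g) = v.ord f := by
  rw [sub_eq_add_neg]
  exact ord_add_eq_of_lt_left v hf (by rwa [ord_neg v])

/-- Elements of positive order are non-units of the valuation ring. -/
theorem ord_pos_iff_mem_maximalIdeal (b : v.toValuationSubring) (hb : b ≠ 0) :
    0 < v.ord (b : F) ↔ b ∈ IsLocalRing.maximalIdeal v.toValuationSubring := by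
  have hbF : (b : F) ≠ 0 := by simpa using hb
  rw [IsLocalRing.mem_maximalIdeal, mem_nonunits_iff]
  constructor
  · intro hpos hu
    have := v.ord_coe_unit hu.unit
    rw [IsUnit.unit_spec] at this
    omega
  · intro hnu
    have h0 := ord_nonneg_of_mem v b.2
    rcases h0.lt_or_eq with h | h
    · exact h
    · exfalso
      apply hnu
      have hinv : (b : F)⁻¹ ∈ v.toValuationSubring :=
        mem_of_ord_nonneg v (by rw [v.ord_inv]; omega)
      exact IsUnit.of_mul_eq_one ⟨(b : F)⁻¹, hinv⟩ (Subtype.ext (by simp [hbF]))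

/-- The coordinate differential `dCoord` is `d π` for an element `π` of order `1`. -/
theorem exists_dCoord_eq :
    ∃ π : F, v.ord π = 1 ∧ v.dCoord = D K F π := by
  refine ⟨_, ?_, rfl⟩
  exact v.ord_coe_irreducible
    (IsDiscreteValuationRing.exists_irreducible v.toValuationSubring).choose_spec

theorem exists_ord_eq_one : ∃ π : F, v.ord π = 1 := by
  obtain ⟨π, hπ, -⟩ := exists_dCoord_eq v
  exact ⟨π, hπ⟩

end basic

/-- A place is determined by the elements of nonnegative order (one inclusion suffices). -/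
theorem place_ext_of_ord (v w : Place K F)
    (h : ∀ f : F, 0 ≤ v.ord f → 0 ≤ w.ord f) : v = w := by
  apply Place.ext
  refine ValuationSubring.eq_of_le_of_ne_top (A := v.toValuationSubring) ?_ w.ne_top'
  intro f hf
  exact mem_of_ord_nonneg w (h f (ord_nonneg_of_mem v hf))

section ofOrd

variable (w : F → ℤ)

private theorem PlaceBasic_w_one (hmul : ∀ f g : F, f ≠ 0 → g ≠ 0 → w (f * g) = w f + w g) :
    w 1 = 0 := by
  have h := hmul 1 1 one_ne_zero one_ne_zero
  rw [mul_one] at h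
  omega

private theorem PlaceBasic_w_inv (hmul : ∀ f g : F, f ≠ 0 → g ≠ 0 → w (f * g) = w f + w g)
    {f : F} (hf : f ≠ 0) : w f⁻¹ = -w f := by
  have h := hmul f f⁻¹ hf (inv_ne_zero hf)
  rw [mul_inv_cancel₀ hf, PlaceBasic_w_one w hmul] at h
  omega

private theorem PlaceBasic_w_neg (hmul : ∀ f g : F, f ≠ 0 → g ≠ 0 → w (f * g) = w f + w g)
    {f : F} (hf : f ≠ 0) : w (-f) = w f := by
  have h1 := hmul (-1) (-1) (by simp) (by simp)
  rw [neg_mul_neg, mul_one, PlaceBasic_w_one w hmul] at h1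
  have h2 := hmul (-1) f (by simp) hf
  rw [neg_one_mul] at h2
  omega

private theorem PlaceBasic_w_pow (hmul : ∀ f g : F, f ≠ 0 → g ≠ 0 → w (f * g) = w f + w g)
    {f : F} (hf : f ≠ 0) (n : ℕ) : w (f ^ n) = n * w f := by
  induction n with
  | zero => simp [PlaceBasic_w_one w hmul]
  | succ n ih =>
    rw [pow_succ, hmul _ _ (pow_ne_zero n hf) hf, ih]
    push_cast
    ring

private theorem PlaceBasic_w_zpow (hmul : ∀ f g : F, f ≠ 0 → g ≠ 0 → w (f * g) = w f + w g)
    {f : F} (hf : f ≠ 0) (n : ℤ) : w (f ^ n) = n * w f := by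
  obtain ⟨k, rfl | rfl⟩ := n.eq_nat_or_neg
  · rw [zpow_natCast, PlaceBasic_w_pow w hmul hf]
  · rw [zpow_neg, zpow_natCast, PlaceBasic_w_inv w hmul (pow_ne_zero k hf),
      PlaceBasic_w_pow w hmul hf]
    ring

/-- The valuation subring `{f | f = 0 ∨ 0 ≤ w f}` attached to an order function. -/
def ofOrdSubring (hmul : ∀ f g : F, f ≠ 0 → g ≠ 0 → w (f * g) = w f + w g)
    (hadd : ∀ f g : F, f ≠ 0 → g ≠ 0 → f + g ≠ 0 → min (w f) (w g) ≤ w (f + g)) :
    ValuationSubring F where
  carrier := {f | f = 0 ∨ 0 ≤ w f}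
  mul_mem' := by
    intro a b ha hb
    by_cases ha0 : a = 0
    · left; simp [ha0]
    by_cases hb0 : b = 0
    · left; simp [hb0]
    right
    have ha' : 0 ≤ w a := ha.resolve_left ha0
    have hb' : 0 ≤ w b := hb.resolve_left hb0
    rw [hmul a b ha0 hb0]
    omega
  one_mem' := Or.inr (by rw [PlaceBasic_w_one w hmul])
  add_mem' := by
    intro a b ha hb
    by_cases ha0 : a = 0
    · simpa [ha0] using hb
    by_cases hb0 : b = 0
    · simpa [hb0] using ha
    by_cases hab : a + b = 0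
    · left; exact hab
    right
    have ha' : 0 ≤ w a := ha.resolve_left ha0
    have hb' : 0 ≤ w b := hb.resolve_left hb0
    exact le_trans (le_min ha' hb') (hadd a b ha0 hb0 hab)
  zero_mem' := Or.inl rfl
  neg_mem' := by
    intro a ha
    by_cases ha0 : a = 0
    · left; simp [ha0]
    right
    rw [PlaceBasic_w_neg w hmul ha0]
    exact ha.resolve_left ha0
  mem_or_inv_mem' := by
    intro a
    by_cases ha0 : a = 0
    · left; left; exact ha0
    rcases le_total 0 (w a) with h | h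
    · left; right; exact h
    · right; right
      rw [PlaceBasic_w_inv w hmul ha0]
      omega

theorem mem_ofOrdSubring (hmul : ∀ f g : F, f ≠ 0 → g ≠ 0 → w (f * g) = w f + w g)
    (hadd : ∀ f g : F, f ≠ 0 → g ≠ 0 → f + g ≠ 0 → min (w f) (w g) ≤ w (f + g)) (f : F) :
    f ∈ ofOrdSubring w hmul hadd ↔ f = 0 ∨ 0 ≤ w f := Iff.rfl

theorem isPrincipalIdealRing_ofOrdSubring
    (hmul : ∀ f g : F, f ≠ 0 → g ≠ 0 → w (f * g) = w f + w g)
    (hadd : ∀ f g : F, f ≠ 0 → g ≠ 0 → f + g ≠ 0 → min (w f) (w g) ≤ w (f + g)) :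
    IsPrincipalIdealRing (ofOrdSubring w hmul hadd) := by
  refine ⟨fun I => ?_⟩
  by_cases hI : I = ⊥
  · exact ⟨0, by simp [hI]⟩
  obtain ⟨a₀, ha₀I, ha₀⟩ := Submodule.exists_mem_ne_zero_of_ne_bot hI
  have hnn : ∀ b : ofOrdSubring w hmul hadd, b ≠ 0 → 0 ≤ w (b : F) := fun b hb =>
    (b.2 : (b : F) = 0 ∨ 0 ≤ w (b : F)).resolve_left (by simpa using hb)
  have hex : ∃ n : ℕ, ∃ a ∈ I, a ≠ 0 ∧ w (a : F) = n :=
    ⟨(w (a₀ : F)).toNat, a₀, ha₀I, ha₀, (Int.toNat_of_nonneg (hnn a₀ ha₀)).symm⟩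
  classical
  obtain ⟨a, haI, ha0, han⟩ := Nat.find_spec hex
  refine ⟨a, le_antisymm ?_ ?_⟩
  · intro b hbI
    by_cases hb0 : b = 0
    · rw [hb0]; exact zero_mem _
    have hmin : Nat.find hex ≤ (w (b : F)).toNat :=
      Nat.find_min' hex ⟨b, hbI, hb0, (Int.toNat_of_nonneg (hnn b hb0)).symm⟩
    have hle : w (a : F) ≤ w (b : F) := by
      have := Int.toNat_of_nonneg (hnn b hb0)
      omega
    have haF : (a : F) ≠ 0 := by simpa using ha0
    have hbF : (b : F) ≠ 0 := by simpa using hb0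
    have hc : (b : F) * (a : F)⁻¹ ∈ ofOrdSubring w hmul hadd := by
      right
      rw [hmul _ _ hbF (inv_ne_zero haF), PlaceBasic_w_inv w hmul haF]
      omega
    rw [Submodule.mem_span_singleton]
    refine ⟨⟨_, hc⟩, Subtype.ext ?_⟩
    simp [haF]
  · rw [Submodule.span_le]
    simpa using haI

/-- The place attached to an order function. -/
def ofOrdPlace
    (hmul : ∀ f g : F, f ≠ 0 → g ≠ 0 → w (f * g) = w f + w g)
    (hadd : ∀ f g : F, f ≠ 0 → g ≠ 0 → f + g ≠ 0 → min (w f) (w g) ≤ w (f + g))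
    (hK : ∀ a : K, a ≠ 0 → w (algebraMap K F a) = 0)
    (hne : ∃ f : F, f ≠ 0 ∧ w f ≠ 0) : Place K F where
  toValuationSubring := ofOrdSubring w hmul hadd
  algebraMap_mem' := fun a => by
    by_cases ha : a = 0
    · left; simp [ha]
    · right; rw [hK a ha]
  ne_top' := by
    obtain ⟨f, hf0, hf⟩ := hne
    intro htop
    have h1 : f ∈ ofOrdSubring w hmul hadd := by rw [htop]; exact ValuationSubring.mem_top f
    have h2 : f⁻¹ ∈ ofOrdSubring w hmul hadd := by
      rw [htop]; exact ValuationSubring.mem_top _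
    have h1' : 0 ≤ w f := h1.resolve_left hf0
    have h2' : 0 ≤ w f⁻¹ := h2.resolve_left (inv_ne_zero hf0)
    rw [PlaceBasic_w_inv w hmul hf0] at h2'
    omega
  isPrincipalIdealRing' := isPrincipalIdealRing_ofOrdSubring w hmul hadd

theorem mem_ofOrdPlace
    (hmul : ∀ f g : F, f ≠ 0 → g ≠ 0 → w (f * g) = w f + w g)
    (hadd : ∀ f g : F, f ≠ 0 → g ≠ 0 → f + g ≠ 0 → min (w f) (w g) ≤ w (f + g))
    (hK : ∀ a : K, a ≠ 0 → w (algebraMap K F a) = 0)
    (hne : ∃ f : F, f ≠ 0 ∧ w f ≠ 0) (f : F) :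
    f ∈ (ofOrdPlace w hmul hadd hK hne).toValuationSubring ↔ f = 0 ∨ 0 ≤ w f := Iff.rfl

/-- An "order function" `w : F → ℤ` (additive on products of nonzero elements, ultrametric,
trivial on `K^×`, not identically `0` on `F^×`) is a positive multiple of the order function
of a place; moreover the valuation ring of that place is `{f | f = 0 ∨ 0 ≤ w f}`. -/
theorem exists_place_of_ord_mem
    (hmul : ∀ f g : F, f ≠ 0 → g ≠ 0 → w (f * g) = w f + w g)
    (hadd : ∀ f g : F, f ≠ 0 → g ≠ 0 → f + g ≠ 0 → min (w f) (w g) ≤ w (f + g))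
    (hK : ∀ a : K, a ≠ 0 → w (algebraMap K F a) = 0)
    (hne : ∃ f : F, f ≠ 0 ∧ w f ≠ 0) :
    ∃ v : Place K F, ∃ m : ℕ, 0 < m ∧ (∀ f : F, f ≠ 0 → w f = m * v.ord f) ∧
      ∀ f : F, f ∈ v.toValuationSubring ↔ f = 0 ∨ 0 ≤ w f := by
  obtain ⟨v, hmem⟩ : ∃ v : Place K F, ∀ f : F, f ∈ v.toValuationSubring ↔ f = 0 ∨ 0 ≤ w f :=
    ⟨ofOrdPlace w hmul hadd hK hne, mem_ofOrdPlace w hmul hadd hK hne⟩
  have hunit : ∀ u : v.toValuationSubringˣ, w ((u : v.toValuationSubring) : F) = 0 := by
    intro u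
    have hu0 : ((u : v.toValuationSubring) : F) ≠ 0 := by simp
    have h1 : 0 ≤ w ((u : v.toValuationSubring) : F) :=
      ((hmem _).mp (u : v.toValuationSubring).2).resolve_left hu0
    have hinv : (((u⁻¹ : v.toValuationSubringˣ) : v.toValuationSubring) : F)
        = ((u : v.toValuationSubring) : F)⁻¹ := by
      apply eq_inv_of_mul_eq_one_left
      have h := u.inv_mul
      have h' := congrArg (fun x : v.toValuationSubring => (x : F)) h
      simpa only [MulMemClass.coe_mul, OneMemClass.coe_one] using h'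
    have h2 : 0 ≤ w (((u⁻¹ : v.toValuationSubringˣ) : v.toValuationSubring) : F) :=
      ((hmem _).mp ((u⁻¹ : v.toValuationSubringˣ) : v.toValuationSubring).2).resolve_left
        (by simp)
    rw [hinv, PlaceBasic_w_inv w hmul hu0] at h2
    omega
  obtain ⟨ϖ, hϖ⟩ := IsDiscreteValuationRing.exists_irreducible v.toValuationSubring
  have hϖ0 : (ϖ : F) ≠ 0 := by simpa using hϖ.ne_zero
  have hkey : ∀ f : F, f ≠ 0 → w f = v.ord f * w (ϖ : F) := by
    intro f hf
    obtain ⟨u, hu⟩ := v.exists_unit_mul_zpow hf hϖ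
    have hu0 : ((u : v.toValuationSubring) : F) ≠ 0 := by simp
    conv_lhs => rw [hu]
    rw [hmul _ _ hu0 (zpow_ne_zero _ hϖ0), hunit u, PlaceBasic_w_zpow w hmul hϖ0]
    ring
  have hϖnn : 0 ≤ w (ϖ : F) := ((hmem _).mp ϖ.2).resolve_left hϖ0
  have hϖne : w (ϖ : F) ≠ 0 := by
    intro h0
    obtain ⟨f, hf0, hf⟩ := hne
    apply hf
    rw [hkey f hf0, h0, mul_zero]
  refine ⟨v, (w (ϖ : F)).toNat, by omega, fun f hf => ?_, hmem⟩
  rw [hkey f hf, Int.toNat_of_nonneg hϖnn]
  ring

/-- An "order function" `w : F → ℤ` (additive on products of nonzero elements, ultrametric,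
trivial on `K^×`, not identically `0` on `F^×`) is a positive multiple of the order function
of a place. -/
theorem exists_place_of_ord
    (hmul : ∀ f g : F, f ≠ 0 → g ≠ 0 → w (f * g) = w f + w g)
    (hadd : ∀ f g : F, f ≠ 0 → g ≠ 0 → f + g ≠ 0 → min (w f) (w g) ≤ w (f + g))
    (hK : ∀ a : K, a ≠ 0 → w (algebraMap K F a) = 0)
    (hne : ∃ f : F, f ≠ 0 ∧ w f ≠ 0) :
    ∃ (v : Place K F) (m : ℕ), 0 < m ∧ ∀ f : F, f ≠ 0 → w f = m * v.ord f := by
  obtain ⟨v, m, hm, h, -⟩ := exists_place_of_ord_mem w hmul hadd hK hne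
  exact ⟨v, m, hm, h⟩

end ofOrd

end Fermat.Agent.S24
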