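/-
S24 team, analytic side: growth of `j((a z + b) / d)` at `i∞` (owner: helper37; consumer:
`AnCuspMem.lean`, helper77).
-/
import Mathlib
import Fermat.Agent.S23.Distinct

set_option autoImplicit false

namespace Fermat.Agent.S24

open UpperHalfPlane ModularForm Filter Topology
open scoped MatrixGroups ModularForm Manifold Real

/-- `E₄` is bounded at `i∞`. -/
theorem AnCuspGrowth.isBoundedAtImInfty_E4 : IsBoundedAtImInfty (E₄ : ℍ → ℂ) :=
  ModularFormClass.bdd_at_infty E₄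

/-- `Δ(z)^m · j((a z + b) / d')` is bounded at `i∞` as soon as `a / d' ≤ m`. -/
theorem bdd_disc_pow_mul_j_affPt (a b d' : ℤ) (ha : 0 < a) (hd' : 0 < d') (m : ℕ)
    (hm : (a : ℝ) / d' ≤ m) :
    UpperHalfPlane.IsBoundedAtImInfty (fun z : ℍ => ModularForm.discriminant z ^ m *
      (ModularForm.E₄ (Fermat.Agent.S23.affPt a b d' ha hd' z) ^ 3 /
        ModularForm.discriminant (Fermat.Agent.S23.affPt a b d' ha hd' z))) := by
  obtain ⟨M, A, hMA⟩ := isBoundedAtImInfty_iff.mp AnCuspGrowth.isBoundedAtImInfty_E4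
  have hevE : ∀ᶠ z : ℍ in atImInfty, ‖E₄ (S23.affPt a b d' ha hd' z)‖ ≤ M := by
    have h0 : ∀ᶠ w : ℍ in atImInfty, ‖E₄ w‖ ≤ M := by
      rw [Filter.Eventually, atImInfty_mem]
      exact ⟨A, hMA⟩
    exact (S23.tendsto_affPt_atImInfty a b d' ha hd').eventually h0
  have hev1 := (S23.tendsto_affPt_atImInfty a b d' ha hd').eventually
    S23.eventually_discriminant_bounds
  have hev2 := S23.eventually_discriminant_bounds
  rw [IsBoundedAtImInfty, BoundedAtFilter, Asymptotics.isBigO_iff]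
  refine ⟨2 ^ m * (|M| ^ 3 * 2), ?_⟩
  filter_upwards [hevE, hev1, hev2] with z hE h1 h2
  simp only [Pi.one_apply, norm_one, mul_one]
  rw [norm_mul, norm_pow, norm_div, norm_pow]
  have hw : (S23.affPt a b d' ha hd' z).im = a * z.im / d' := S23.im_affPt a b d' ha hd' z
  generalize S23.affPt a b d' ha hd' z = w at hE h1 hw ⊢
  have hz := z.im_pos
  have hexp1 : Real.exp (-2 * π * z.im) ^ m * Real.exp (2 * π * w.im) ≤ 1 := by
    rw [← Real.exp_nat_mul, ← Real.exp_add]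
    apply Real.exp_le_one_iff.mpr
    rw [hw]
    have h3 : (a : ℝ) / d' * z.im ≤ m * z.im := mul_le_mul_of_nonneg_right hm hz.le
    have h4 : (a : ℝ) * z.im / d' = (a : ℝ) / d' * z.im := by ring
    rw [h4]
    nlinarith [mul_nonneg Real.pi_pos.le (sub_nonneg.mpr h3)]
  have hΔz : ‖discriminant z‖ ^ m ≤ (2 * Real.exp (-2 * π * z.im)) ^ m :=
    pow_le_pow_left₀ (norm_nonneg _) h2.2 m
  have hΔw_pos : 0 < ‖discriminant w‖ :=
    lt_of_lt_of_le (div_pos (Real.exp_pos _) two_pos) h1.1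
  have hEw : ‖E₄ w‖ ^ 3 ≤ |M| ^ 3 :=
    pow_le_pow_left₀ (norm_nonneg _) (hE.trans (le_abs_self M)) 3
  have hdiv : ‖E₄ w‖ ^ 3 / ‖discriminant w‖ ≤ |M| ^ 3 * (2 * Real.exp (2 * π * w.im)) := by
    rw [div_le_iff₀ hΔw_pos]
    have h4 : 1 ≤ 2 * Real.exp (2 * π * w.im) * ‖discriminant w‖ := by
      have h5 : Real.exp (2 * π * w.im) * Real.exp (-2 * π * w.im) = 1 := by
        rw [← Real.exp_add]
        have : 2 * π * w.im + -2 * π * w.im = 0 := by ring
        rw [this, Real.exp_zero]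
      have h6 := mul_le_mul_of_nonneg_left h1.1 (Real.exp_pos (2 * π * w.im)).le
      nlinarith [h6, h5]
    calc ‖E₄ w‖ ^ 3 ≤ |M| ^ 3 := hEw
      _ = |M| ^ 3 * 1 := (mul_one _).symm
      _ ≤ |M| ^ 3 * (2 * Real.exp (2 * π * w.im) * ‖discriminant w‖) :=
          mul_le_mul_of_nonneg_left h4 (by positivity)
      _ = |M| ^ 3 * (2 * Real.exp (2 * π * w.im)) * ‖discriminant w‖ := by ring
  calc ‖discriminant z‖ ^ m * (‖E₄ w‖ ^ 3 / ‖discriminant w‖)
      ≤ (2 * Real.exp (-2 * π * z.im)) ^ m * (|M| ^ 3 * (2 * Real.exp (2 * π * w.im))) :=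
        mul_le_mul hΔz hdiv (by positivity) (by positivity)
    _ = 2 ^ m * (|M| ^ 3 * 2) * (Real.exp (-2 * π * z.im) ^ m * Real.exp (2 * π * w.im)) := by
        rw [mul_pow]; ring
    _ ≤ 2 ^ m * (|M| ^ 3 * 2) * 1 := mul_le_mul_of_nonneg_left hexp1 (by positivity)
    _ = 2 ^ m * (|M| ^ 3 * 2) := mul_one _

end Fermat.Agent.S24
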