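/-
S24 team, analytic side, block 4 (owner: helper77): translates of `z ↦ j(d z)` are holomorphic,
`N`-periodic and meromorphic at `i∞`.

Route: Hermite normal form `diag(d, 1) * g⁻¹ = γ' * [[a, b], [0, d']]` (S23 library), so
`j(d · g⁻¹ z) = j((a z + b) / d')` by `SL(2, ℤ)`-invariance of `j`.
-/
import Mathlib
import Fermat.Agent.S23.Distinct
import Fermat.Agent.LevelOne.JDef
import Fermat.Agent.S24.AnDefs
import Fermat.Agent.S24.AnCuspGrowth

set_option autoImplicit false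

namespace Fermat.Agent.S24

open UpperHalfPlane ModularForm Filter Topology
open scoped MatrixGroups ModularForm Manifold Real

namespace CuspMem

open Fermat.Agent.S23 Fermat.Agent.LevelOne

/-- `j` is invariant under integer translations. -/
theorem jFun_vadd_int (k : ℤ) (w : ℍ) : jFun (((k : ℤ) : ℝ) +ᵥ w) = jFun w := by
  have : ((k : ℝ) +ᵥ w : ℍ) = ModularGroup.T ^ k • w := by
    apply UpperHalfPlane.ext
    rw [coe_vadd, ModularGroup.coe_T_zpow_smul_eq]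
    push_cast
    ring
  rw [this, jFun_smul]

/-- The point identity behind the Hermite decomposition. -/
theorem mulN_smul_eq_of_hermite (N : ℕ) [NeZero N] (γ γ' : SL(2, ℤ)) (a b d : ℤ)
    (ha : 0 < a) (hd : 0 < d)
    (hmat : !![(N:ℤ), 0; 0, 1] * (γ : Matrix (Fin 2) (Fin 2) ℤ) =
        (γ' : Matrix (Fin 2) (Fin 2) ℤ) * !![a, b; 0, d]) (τ : ℍ) :
    mulN N (γ • τ) = γ' • affPt a b d ha hd τ := by
  have e00 : (N : ℤ) * γ 0 0 = γ' 0 0 * a := by
    have := congrFun (congrFun hmat 0) 0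
    simpa [Matrix.mul_apply, Fin.sum_univ_two] using this
  have e01 : (N : ℤ) * γ 0 1 = γ' 0 0 * b + γ' 0 1 * d := by
    have := congrFun (congrFun hmat 0) 1
    simpa [Matrix.mul_apply, Fin.sum_univ_two] using this
  have e10 : γ 1 0 = γ' 1 0 * a := by
    have := congrFun (congrFun hmat 1) 0
    simpa [Matrix.mul_apply, Fin.sum_univ_two] using this
  have e11 : γ 1 1 = γ' 1 0 * b + γ' 1 1 * d := by
    have := congrFun (congrFun hmat 1) 1
    simpa [Matrix.mul_apply, Fin.sum_univ_two] using this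
  have c00 : (N : ℂ) * (γ 0 0 : ℂ) = (γ' 0 0 : ℂ) * a := by exact_mod_cast e00
  have c01 : (N : ℂ) * (γ 0 1 : ℂ) = (γ' 0 0 : ℂ) * b + (γ' 0 1 : ℂ) * d := by exact_mod_cast e01
  have c10 : (γ 1 0 : ℂ) = (γ' 1 0 : ℂ) * a := by exact_mod_cast e10
  have c11 : (γ 1 1 : ℂ) = (γ' 1 0 : ℂ) * b + (γ' 1 1 : ℂ) * d := by exact_mod_cast e11
  have hdc : (d : ℂ) ≠ 0 := by exact_mod_cast hd.ne'
  set z₁ := affPt a b d ha hd τ with hz₁
  have hz₁c : (z₁ : ℂ) = ((a : ℂ) * (τ : ℂ) + (b : ℂ)) / (d : ℂ) := rfl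
  have hden0 : denom γ τ ≠ 0 := denom_ne_zero _ _
  have hden1 : denom γ' z₁ ≠ 0 := denom_ne_zero _ _
  apply UpperHalfPlane.ext
  rw [coe_mulN, UpperHalfPlane.coe_specialLinearGroup_apply,
    UpperHalfPlane.coe_specialLinearGroup_apply]
  have hd0 : ((γ 1 0 : ℤ) : ℂ) * (τ : ℂ) + ((γ 1 1 : ℤ) : ℂ) ≠ 0 := by
    have := hden0
    rw [ModularGroup.denom_apply] at this
    exact this
  have hd1 : ((γ' 1 0 : ℤ) : ℂ) * (z₁ : ℂ) + ((γ' 1 1 : ℤ) : ℂ) ≠ 0 := by
    have := hden1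
    rw [ModularGroup.denom_apply] at this
    exact this
  simp only [algebraMap_int_eq, Int.coe_castRingHom, Complex.ofReal_intCast]
  rw [mul_div_assoc', div_eq_div_iff hd0 hd1, hz₁c]
  rw [hz₁c] at hd1
  field_simp
  linear_combination
    ((γ' 1 0 : ℂ) * (a * τ + b) + (γ' 1 1 : ℂ) * d) * ((τ : ℂ) * c00 + c01)
      - ((γ' 0 0 : ℂ) * (a * τ + b) + (γ' 0 1 : ℂ) * d) * ((τ : ℂ) * c10 + c11)

/-- `z ↦ j((a z + b) / d)` is holomorphic. -/
theorem mdiff_jFun_affPt (a b d : ℤ) (ha : 0 < a) (hd : 0 < d) :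
    MDiff (fun τ : ℍ => jFun (affPt a b d ha hd τ)) := by
  rw [UpperHalfPlane.mdifferentiable_iff]
  have hE : DifferentiableOn ℂ ((E₄ : ℍ → ℂ) ∘ ofComplex) {z | 0 < z.im} :=
    UpperHalfPlane.mdifferentiable_iff.mp (ModularFormClass.holo E₄)
  have hΔ : DifferentiableOn ℂ ((discriminant : ℍ → ℂ) ∘ ofComplex) {z | 0 < z.im} :=
    UpperHalfPlane.mdifferentiable_iff.mp CuspForm.discriminant.holo'
  have hdc : (d : ℂ) ≠ 0 := by exact_mod_cast hd.ne'
  have hφ : DifferentiableOn ℂ (fun z : ℂ => ((a : ℂ) * z + (b : ℂ)) / (d : ℂ)) {z | 0 < z.im} := by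
    intro z _
    exact (((differentiableAt_id.const_mul (a : ℂ)).add_const (b : ℂ)).div_const
      (d : ℂ)).differentiableWithinAt
  have hmaps : Set.MapsTo (fun z : ℂ => ((a : ℂ) * z + (b : ℂ)) / (d : ℂ))
      {z | 0 < z.im} {z | 0 < z.im} := by
    intro z hz
    have ha' : (0 : ℝ) < a := by exact_mod_cast ha
    have hd' : (0 : ℝ) < d := by exact_mod_cast hd
    show 0 < (((a : ℂ) * z + (b : ℂ)) / (d : ℂ)).im
    rw [im_affine_div a b d hd]
    exact div_pos (mul_pos ha' hz) hd'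
  have key : Set.EqOn ((fun τ : ℍ => jFun (affPt a b d ha hd τ)) ∘ ofComplex)
      (fun z => (((E₄ : ℍ → ℂ) ∘ ofComplex) (((a : ℂ) * z + (b : ℂ)) / (d : ℂ))) ^ 3 /
        ((discriminant : ℍ → ℂ) ∘ ofComplex) (((a : ℂ) * z + (b : ℂ)) / (d : ℂ)))
      {z | 0 < z.im} := by
    intro z hz
    have hpt : affPt a b d ha hd (ofComplex z) =
        ofComplex (((a : ℂ) * z + (b : ℂ)) / (d : ℂ)) := by
      apply UpperHalfPlane.ext
      rw [coe_affPt, ofComplex_apply_of_im_pos hz, ofComplex_apply_of_im_pos (hmaps hz)]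
    simp only [Function.comp_apply, jFun_def, hpt]
  refine DifferentiableOn.congr ?_ key
  exact ((hE.comp hφ hmaps).pow 3).div (hΔ.comp hφ hmaps) (fun z _ => discriminant_ne_zero _)

/-- `z ↦ j((a z + b) / d)` is `M`-periodic as soon as `d ∣ a * M`. -/
theorem jFun_affPt_vadd (a b d : ℤ) (ha : 0 < a) (hd : 0 < d) (M : ℕ) (hM : d ∣ a * (M : ℤ))
    (τ : ℍ) : jFun (affPt a b d ha hd ((M : ℝ) +ᵥ τ)) = jFun (affPt a b d ha hd τ) := by
  obtain ⟨k, hk⟩ := hM
  have hdc : (d : ℂ) ≠ 0 := by exact_mod_cast hd.ne'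
  have hkc : (a : ℂ) * (M : ℂ) = (d : ℂ) * (k : ℂ) := by exact_mod_cast hk
  have : affPt a b d ha hd ((M : ℝ) +ᵥ τ) = ((k : ℤ) : ℝ) +ᵥ affPt a b d ha hd τ := by
    apply UpperHalfPlane.ext
    rw [coe_vadd, coe_affPt, coe_affPt, coe_vadd]
    push_cast
    field_simp
    linear_combination hkc
  rw [this, jFun_vadd_int]

end CuspMem

open CuspMem Fermat.Agent.S23 Fermat.Agent.LevelOne in
/-- Hermite form of a translate of `z ↦ j(d z)`: it is `z ↦ j((a z + b) / d')` with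
`a, d' > 0`, `a * d' = d`. -/
theorem trans_jAt_eq_affPt (d : ℕ) [NeZero d] (g : SL(2, ℤ)) :
    ∃ (a b d' : ℤ) (ha : 0 < a) (hd' : 0 < d'), a * d' = d ∧
      trans g (jAt d) = fun z => jFun (affPt a b d' ha hd' z) := by
  obtain ⟨γ', a, b, d', ha, hd', had, -, hmat⟩ := exists_hermite d g⁻¹
  refine ⟨a, b, d', ha, hd', had, ?_⟩
  funext z
  rw [trans_apply, jAt_apply, mulN_smul_eq_of_hermite d g⁻¹ γ' a b d' ha hd' hmat z, jFun_smul]

open CuspMem Fermat.Agent.S23 Fermat.Agent.LevelOne in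
/-- **Block 4.** Every `SL(2, ℤ)`-translate of `z ↦ j(d z)`, `d ∣ N`, is holomorphic,
`N`-periodic, and meromorphic at `i∞` (bounded after multiplication by a power of `Δ`). This is
the unfolded form of `trans g (jAt d) ∈ merSub N`. -/
theorem trans_jAt_mem_merSub_unfolded (N : ℕ) [NeZero N] (d : ℕ) [NeZero d] (hd : d ∣ N)
    (g : SL(2, ℤ)) :
    MDiff (trans g (jAt d)) ∧
      (∀ z : ℍ, trans g (jAt d) ((N : ℝ) +ᵥ z) = trans g (jAt d) z) ∧
      ∃ m : ℕ, IsBoundedAtImInfty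
        (fun z : ℍ => ModularForm.discriminant z ^ m * trans g (jAt d) z) := by
  obtain ⟨a, b, d', ha, hd', had, hfun⟩ := trans_jAt_eq_affPt d g
  rw [hfun]
  refine ⟨mdiff_jFun_affPt a b d' ha hd', fun z => ?_, d, ?_⟩
  · refine jFun_affPt_vadd a b d' ha hd' N ?_ z
    obtain ⟨c, rfl⟩ := hd
    refine ⟨a * (a * c), ?_⟩
    have : ((d * c : ℕ) : ℤ) = (a * d') * c := by rw [had]; push_cast; ring
    rw [this]; ring
  · have ha' : (0 : ℝ) < a := by exact_mod_cast ha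
    have hd1 : (1 : ℝ) ≤ d' := by exact_mod_cast hd'
    have hdR : ((d : ℕ) : ℝ) = (a : ℝ) * d' := by exact_mod_cast had.symm
    have hm : (a : ℝ) / d' ≤ (d : ℕ) := by
      rw [hdR, div_le_iff₀ (by linarith)]
      nlinarith
    exact bdd_disc_pow_mul_j_affPt a b d' ha hd' d hm

end Fermat.Agent.S24
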