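/-
S24 team, analytic side, block 8b (owner: helper2): the norm polynomial, final form.

Every polynomial expression in the functions `j (d z)`, `d ∣ N`, is a root of a monic polynomial of
degree `ψ(N)` with coefficients in `ℂ[j]`.
-/
import Mathlib
import Fermat.Agent.S24.NormPoly
import Fermat.Agent.S24.AnDistinct
import Fermat.Agent.S24.AnCuspMem
import Fermat.Agent.S20.Cosets

set_option autoImplicit false

namespace Fermat.Agent.S24

open UpperHalfPlane
open scoped MatrixGroups Manifold ModularForm

/-- Every polynomial expression in the `j (d z)`, `d ∣ N`, lies in `NormPoly.goodSub N`. -/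
theorem aeval_jAtFam_mem_goodSub (N : ℕ) [NeZero N] (P : MvPolynomial ↥N.divisors ℂ) :
    MvPolynomial.aeval (jAtFam N) P ∈ NormPoly.goodSub N := by
  refine NormPoly.aeval_mem_goodSub (fun d => ⟨?_, fun γ hγ => ?_, fun g => ?_⟩) P
  · have h := (trans_jAt_mem_merSub_unfolded N (d : ℕ) (dvd_of_divisor N d) 1).1
    rwa [trans_one] at h
  · exact trans_jAt_of_mem_Gamma0 N (d : ℕ) (dvd_of_divisor N d) hγ
  · exact (trans_jAt_mem_merSub_unfolded N (d : ℕ) (dvd_of_divisor N d) g).2.2

/-- **Norm polynomial.** Every polynomial expression `φ` in the functions `j (d z)`, `d ∣ N`,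
satisfies a monic equation of degree `ψ(N)` whose coefficients are polynomials in `j`. -/
theorem normPoly (N : ℕ) [NeZero N] (P : MvPolynomial ↥N.divisors ℂ) :
    ∃ c : Fin (ModularCurve.dedekindPsi N) → Polynomial ℂ, ∀ z : ℍ,
      (MvPolynomial.aeval (jAtFam N) P z) ^ (ModularCurve.dedekindPsi N) +
        ∑ k : Fin (ModularCurve.dedekindPsi N), (c k).eval (LevelOne.jFun z) *
          (MvPolynomial.aeval (jAtFam N) P z) ^ (k : ℕ) = 0 :=
  NormPoly.normPoly_of_mem N (Fermat.Agent.S20.card_Q N) (aeval_jAtFam_mem_goodSub N P)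

end Fermat.Agent.S24
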