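import Mathlib
import Fermat.Agent.S23.Basic
import Fermat.Agent.S23.UFunQExp
import Fermat.Agent.LevelOne.JDef
import Fermat.Agent.S24.AnDefs

/-!
# S24 team library (analytic side): the bridge, part B

OWNER: helper23 (only the owner edits this file).

* (B1) `jAt_mdiff`: `z ↦ j (d z)` is holomorphic.
* (B2) `E4At d`, `wFun d`, `bFun d = Δ ^ d * jAt d` are nice functions (members of
  `Fermat.Agent.S23.niceSub`), with the ring identity `bFun_mul_uFun` and its q-expansion form
  `qExpansion_bFun_mul_uFun`.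
* (B3) `bridge_of_gens`, `bridge_zero_iff`: the abstract induction from generators to all
  polynomial expressions.
-/

set_option autoImplicit false

namespace Fermat.Agent.S24

open UpperHalfPlane ModularForm EisensteinSeries Filter Topology
open scoped MatrixGroups ModularForm Manifold
open Fermat.Agent.S23 Fermat.Agent.LevelOne

namespace BridgeB

/-- Composition with `z ↦ d z` preserves holomorphy. -/
theorem mdiff_comp_mulN (d : ℕ) [NeZero d] {f : ℍ → ℂ} (hf : MDiff f) :
    MDiff (fun z => f (mulN d z)) := by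
  rw [UpperHalfPlane.mdifferentiable_iff] at hf ⊢
  have hd : (0 : ℝ) < d := Nat.cast_pos.mpr (NeZero.pos d)
  have hmaps : Set.MapsTo (fun w : ℂ => (d : ℂ) * w) {w | 0 < w.im} {w | 0 < w.im} := by
    intro w hw
    simpa using mul_pos hd hw
  have h1 : DifferentiableOn ℂ ((f ∘ ofComplex) ∘ (fun w : ℂ => (d : ℂ) * w)) {w | 0 < w.im} :=
    hf.comp (by fun_prop) hmaps
  refine h1.congr ?_
  intro w hw
  have hw' : 0 < ((d : ℂ) * w).im := hmaps hw
  simp only [Function.comp_apply]
  congr 1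
  apply UpperHalfPlane.ext
  rw [coe_mulN, ofComplex_apply_of_im_pos hw, ofComplex_apply_of_im_pos hw']

/-- Composition with `z ↦ d z` preserves `1`-periodicity. -/
theorem periodic_comp_mulN (d : ℕ) [NeZero d] {f : ℍ → ℂ}
    (hf : Function.Periodic (f ∘ ofComplex) 1) :
    Function.Periodic ((fun z => f (mulN d z)) ∘ ofComplex) 1 := by
  intro w
  have hd : (0 : ℝ) < d := Nat.cast_pos.mpr (NeZero.pos d)
  by_cases hw : 0 < w.im
  · have hw1 : 0 < (w + 1).im := by simpa using hw
    have key : ∀ (u : ℂ) (hu : 0 < u.im), f (mulN d ⟨u, hu⟩) = (f ∘ ofComplex) ((d : ℂ) * u) := by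
      intro u hu
      have hu' : 0 < ((d : ℂ) * u).im := by simpa using mul_pos hd hu
      simp only [Function.comp_apply]
      congr 1
      apply UpperHalfPlane.ext
      rw [coe_mulN, ofComplex_apply_of_im_pos hu']
    simp only [Function.comp_apply]
    rw [ofComplex_apply_of_im_pos hw, ofComplex_apply_of_im_pos hw1, key _ hw1, key _ hw]
    have hper := (hf.nat_mul d) ((d : ℂ) * w)
    rw [show (d : ℂ) * (w + 1) = (d : ℂ) * w + (d : ℂ) * 1 by ring]
    exact hper
  · have hw0 : w.im ≤ 0 := not_lt.mp hw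
    have hw1 : (w + 1).im ≤ 0 := by simpa using hw0
    simp only [Function.comp_apply]
    rw [ofComplex_apply_of_im_nonpos hw0, ofComplex_apply_of_im_nonpos hw1]

theorem tendsto_mulN_atImInfty (d : ℕ) [NeZero d] : Tendsto (mulN d) atImInfty atImInfty := by
  have hd : (1 : ℝ) ≤ d := by exact_mod_cast NeZero.one_le
  rw [atImInfty, tendsto_comap_iff]
  refine tendsto_atTop_mono (fun z => ?_) tendsto_comap
  show z.im ≤ (mulN d z).im
  have him : (mulN d z).im = (d : ℝ) * z.im := by
    show ((d : ℂ) * (z : ℂ)).im = _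
    simp
  rw [him]
  nlinarith [z.im_pos]

theorem isBoundedAtImInfty_comp_mulN (d : ℕ) [NeZero d] {f : ℍ → ℂ}
    (hf : IsBoundedAtImInfty f) : IsBoundedAtImInfty (fun z => f (mulN d z)) := by
  have h : f =O[atImInfty] (1 : ℍ → ℝ) := hf
  have h2 := h.comp_tendsto (tendsto_mulN_atImInfty d)
  exact h2

theorem comp_mulN_mem_niceSub (d : ℕ) [NeZero d] {f : ℍ → ℂ} (hf : f ∈ niceSub) :
    (fun z => f (mulN d z)) ∈ niceSub :=
  ⟨periodic_comp_mulN d hf.1, mdiff_comp_mulN d hf.2.1, isBoundedAtImInfty_comp_mulN d hf.2.2⟩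

/-- `Δ` is a nice function. -/
theorem discriminant_mem_niceSub : (ModularForm.discriminant : ℍ → ℂ) ∈ niceSub := by
  refine ⟨?_, CuspForm.discriminant.holo', ModularFormClass.bdd_at_infty CuspForm.discriminant⟩
  have := SlashInvariantFormClass.periodic_comp_ofComplex CuspForm.discriminant
    one_mem_strictPeriods_SL
  simpa using this

/-- `E₄` is a nice function. -/
theorem E4_mem_niceSub : (⇑E₄ : ℍ → ℂ) ∈ niceSub := by
  refine ⟨?_, ModularFormClass.holo E₄, ModularFormClass.bdd_at_infty E₄⟩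
  have := SlashInvariantFormClass.periodic_comp_ofComplex E₄ one_mem_strictPeriods_SL
  simpa using this

/-- The infinite product factor of `Δ`. -/
noncomputable def prodFactor (z : ℍ) : ℂ := ∏' n : ℕ, (1 - eta_q n (z : ℂ)) ^ 24

theorem discriminant_eq_qParam_mul_prodFactor (z : ℍ) :
    ModularForm.discriminant z = Function.Periodic.qParam 1 (z : ℂ) * prodFactor z :=
  ModularForm.discriminant_eq_q_prod z

theorem tendsto_prodFactor : Tendsto prodFactor atImInfty (𝓝 1) :=
  ModularForm.tendsto_atImInfty_tprod_one_sub_eta_q_pow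

theorem qParam_mulN (d : ℕ) [NeZero d] (z : ℍ) :
    Function.Periodic.qParam 1 ((mulN d z : ℍ) : ℂ) = Function.Periodic.qParam 1 (z : ℂ) ^ d := by
  rw [coe_mulN]
  simp only [Function.Periodic.qParam, ← Complex.exp_nat_mul]
  congr 1
  push_cast
  ring

theorem prodFactor_ne_zero (z : ℍ) : prodFactor z ≠ 0 := by
  intro h
  have := ModularForm.discriminant_ne_zero z
  rw [discriminant_eq_qParam_mul_prodFactor, h, mul_zero] at this
  exact this rfl

end BridgeB

open BridgeB

/-- `z ↦ E₄(d z)`. -/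
noncomputable def E4At (d : ℕ) [NeZero d] : ℍ → ℂ := fun z => E₄ (mulN d z)

/-- `z ↦ Δ(z)^d / Δ(d z)`. -/
noncomputable def wFun (d : ℕ) [NeZero d] : ℍ → ℂ :=
  fun z => ModularForm.discriminant z ^ d / ModularForm.discriminant (mulN d z)

/-- `z ↦ Δ(z)^d * j(d z)`. -/
noncomputable def bFun (d : ℕ) [NeZero d] : ℍ → ℂ :=
  fun z => ModularForm.discriminant z ^ d * jAt d z

/-- (B1) `z ↦ j(d z)` is holomorphic. -/
theorem jAt_mdiff (d : ℕ) [NeZero d] : MDiff (jAt d) :=
  mdiff_comp_mulN d jFun_mdifferentiable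

theorem E4At_mem_niceSub (d : ℕ) [NeZero d] : E4At d ∈ niceSub :=
  comp_mulN_mem_niceSub d E4_mem_niceSub

theorem uFun_mem_niceSub (d : ℕ) [NeZero d] : uFun d ∈ niceSub :=
  comp_mulN_mem_niceSub d discriminant_mem_niceSub

theorem wFun_eq (d : ℕ) [NeZero d] (z : ℍ) :
    wFun d z = prodFactor z ^ d / prodFactor (mulN d z) := by
  have hq : Function.Periodic.qParam 1 (z : ℂ) ≠ 0 := by
    simp [Function.Periodic.qParam]
  rw [wFun, discriminant_eq_qParam_mul_prodFactor z,
    discriminant_eq_qParam_mul_prodFactor (mulN d z), qParam_mulN, mul_pow]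
  have h2 := prodFactor_ne_zero (mulN d z)
  field_simp

theorem tendsto_wFun (d : ℕ) [NeZero d] : Tendsto (wFun d) atImInfty (𝓝 1) := by
  have h1 : Tendsto (fun z : ℍ => prodFactor z ^ d) atImInfty (𝓝 (1 ^ d)) :=
    tendsto_prodFactor.pow d
  have h2 : Tendsto (fun z : ℍ => prodFactor (mulN d z)) atImInfty (𝓝 1) :=
    tendsto_prodFactor.comp (tendsto_mulN_atImInfty d)
  have h3 := h1.div h2 one_ne_zero
  rw [one_pow, div_one] at h3
  exact h3.congr fun z => (wFun_eq d z).symm

theorem wFun_mem_niceSub (d : ℕ) [NeZero d] : wFun d ∈ niceSub := by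
  have hΔ := discriminant_mem_niceSub
  have hu := uFun_mem_niceSub d
  refine ⟨?_, ?_, ?_⟩
  · intro w
    have h1 := hΔ.1 w
    have h2 := hu.1 w
    simp only [Function.comp_apply, uFun] at h1 h2
    simp only [Function.comp_apply, wFun]
    rw [h1, h2]
  · have h1 := hΔ.2.1
    have h2 := hu.2.1
    rw [UpperHalfPlane.mdifferentiable_iff] at h1 h2 ⊢
    have h : DifferentiableOn ℂ
        (fun w : ℂ => ((ModularForm.discriminant : ℍ → ℂ) ∘ ofComplex) w ^ d /
          (uFun d ∘ ofComplex) w) {w | 0 < w.im} :=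
      (h1.pow d).div h2 (fun w _ => ModularForm.discriminant_ne_zero _)
    exact h
  · exact (tendsto_wFun d).isBigO_one ℝ

theorem bFun_eq (d : ℕ) [NeZero d] : bFun d = E4At d ^ 3 * wFun d := by
  ext z
  simp only [bFun, jAt, jFun, E4At, wFun, Pi.mul_apply, Pi.pow_apply]
  ring

/-- (B2) `Δ^d * j(d ·)` is a nice function. -/
theorem bFun_mem_niceSub (d : ℕ) [NeZero d] : bFun d ∈ niceSub := by
  rw [bFun_eq]
  exact niceSub.mul_mem (niceSub.pow_mem (E4At_mem_niceSub d) 3) (wFun_mem_niceSub d)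

/-- (B2) the ring identity `(Δ^d * j(d ·)) * Δ(d ·) = E₄(d ·)^3 * Δ^d`. -/
theorem bFun_mul_uFun (d : ℕ) [NeZero d] :
    bFun d * uFun d = E4At d ^ 3 * (ModularForm.discriminant : ℍ → ℂ) ^ d := by
  ext z
  have h := ModularForm.discriminant_ne_zero (mulN d z)
  simp only [bFun, jAt, jFun, E4At, uFun, Pi.mul_apply, Pi.pow_apply]
  field_simp

/-- (B2) the q-expansion form of the ring identity. -/
theorem qExpansion_bFun_mul_uFun (d : ℕ) [NeZero d] :
    qExpansion 1 (bFun d) * qExpansion 1 (uFun d) =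
      qExpansion 1 (E4At d) ^ 3 * qExpansion 1 (ModularForm.discriminant : ℍ → ℂ) ^ d := by
  have h := congrArg (fun x : niceSub => qHom x)
    (show (⟨bFun d, bFun_mem_niceSub d⟩ * ⟨uFun d, uFun_mem_niceSub d⟩ : niceSub) =
      ⟨E4At d, E4At_mem_niceSub d⟩ ^ 3 * ⟨_, discriminant_mem_niceSub⟩ ^ d from
      Subtype.ext (bFun_mul_uFun d))
  simpa only [map_mul, map_pow, qHom_apply] using h

namespace BridgeB

/-- `Δ` as an element of `niceSub`. -/
noncomputable def deltaNice : niceSub := ⟨ModularForm.discriminant, discriminant_mem_niceSub⟩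

/-- The q-expansion map `niceSub → ℂ((q))`. -/
noncomputable def qLaurent : niceSub →ₐ[ℂ] LaurentSeries ℂ where
  toRingHom := (HahnSeries.ofPowerSeries ℤ ℂ).comp qHom.toRingHom
  commutes' c := by
    show HahnSeries.ofPowerSeries ℤ ℂ (qHom (algebraMap ℂ niceSub c)) = _
    rw [AlgHom.commutes, HahnSeries.algebraMap_apply']

theorem qLaurent_apply (x : niceSub) :
    qLaurent x = HahnSeries.ofPowerSeries ℤ ℂ (qExpansion 1 (x : ℍ → ℂ)) := rfl

theorem qLaurent_injective : Function.Injective qLaurent := by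
  intro x y h
  rw [qLaurent_apply, qLaurent_apply] at h
  exact qHom_injective (HahnSeries.ofPowerSeries_injective h)

theorem qLaurent_deltaNice_ne_zero : qLaurent deltaNice ≠ 0 := by
  intro h
  have h0 : qLaurent deltaNice = qLaurent 0 := by rw [h, map_zero]
  have h1 := qLaurent_injective h0
  have h2 := congrArg (fun x : niceSub => (x : ℍ → ℂ) UpperHalfPlane.I) h1
  exact ModularForm.discriminant_ne_zero _ h2

/-- The subalgebra of pairs `(g, L)` such that for all large `m` the function `Δ^m g` is nice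
with q-expansion `q(Δ)^m L`. -/
noncomputable def goodSub : Subalgebra ℂ ((ℍ → ℂ) × LaurentSeries ℂ) where
  carrier := {p | ∃ m₀ : ℕ, ∀ m, m₀ ≤ m → ∃ x : niceSub,
    (x : ℍ → ℂ) = (ModularForm.discriminant : ℍ → ℂ) ^ m * p.1 ∧
      qLaurent x = qLaurent deltaNice ^ m * p.2}
  mul_mem' := by
    rintro p q ⟨a, ha⟩ ⟨b, hb⟩
    refine ⟨a + b, fun m hm => ?_⟩
    obtain ⟨x, hx1, hx2⟩ := ha (m - b) (by omega)
    obtain ⟨y, hy1, hy2⟩ := hb b le_rfl
    refine ⟨x * y, ?_, ?_⟩
    · show (x : ℍ → ℂ) * (y : ℍ → ℂ) = _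
      rw [hx1, hy1]
      have hm' : m = (m - b) + b := by omega
      conv_rhs => rw [hm', pow_add]
      show _ = _ * _ * (p.1 * q.1)
      ring
    · rw [map_mul, hx2, hy2]
      have hm' : m = (m - b) + b := by omega
      conv_rhs => rw [hm', pow_add]
      show _ = _ * _ * (p.2 * q.2)
      ring
  add_mem' := by
    rintro p q ⟨a, ha⟩ ⟨b, hb⟩
    refine ⟨max a b, fun m hm => ?_⟩
    obtain ⟨x, hx1, hx2⟩ := ha m (le_trans (le_max_left a b) hm)
    obtain ⟨y, hy1, hy2⟩ := hb m (le_trans (le_max_right a b) hm)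
    refine ⟨x + y, ?_, ?_⟩
    · show (x : ℍ → ℂ) + (y : ℍ → ℂ) = _
      rw [hx1, hy1]
      show _ = _ * (p.1 + q.1)
      ring
    · rw [map_add, hx2, hy2]
      show _ = _ * (p.2 + q.2)
      ring
  algebraMap_mem' := by
    intro c
    refine ⟨0, fun m _ => ⟨deltaNice ^ m * algebraMap ℂ niceSub c, rfl, ?_⟩⟩
    rw [map_mul, map_pow, AlgHom.commutes]
    rfl

theorem mem_goodSub_of_gen {g : ℍ → ℂ} {L : LaurentSeries ℂ} (n : ℕ)
    (hmem : (fun z => ModularForm.discriminant z ^ n * g z) ∈ niceSub)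
    (hgen : HahnSeries.ofPowerSeries ℤ ℂ
        (qExpansion 1 (fun z => ModularForm.discriminant z ^ n * g z)) =
      HahnSeries.ofPowerSeries ℤ ℂ (qExpansion 1 (ModularForm.discriminant : ℍ → ℂ)) ^ n * L) :
    (g, L) ∈ goodSub := by
  refine ⟨n, fun m hm => ⟨deltaNice ^ (m - n) * ⟨_, hmem⟩, ?_, ?_⟩⟩
  · have hm' : m = (m - n) + n := by omega
    conv_rhs => rw [hm', pow_add]
    ext z
    simp only [deltaNice, Pi.mul_apply, Pi.pow_apply, MulMemClass.coe_mul,
      SubmonoidClass.coe_pow]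
    ring
  · rw [map_mul, map_pow, qLaurent_apply ⟨_, hmem⟩]
    show _ * HahnSeries.ofPowerSeries ℤ ℂ
      (qExpansion 1 (fun z => ModularForm.discriminant z ^ n * g z)) = _
    rw [hgen]
    have hm' : m = (m - n) + n := by omega
    conv_rhs => rw [hm', pow_add]
    show _ = _ * _ * L
    rw [mul_assoc]
    rfl

end BridgeB

open BridgeB

/-- (B3) Abstract bridge: if each generator `f i` becomes nice after multiplication by
`Δ ^ n i`, with q-expansion `q(Δ) ^ n i * G i`, then the same holds for every polynomial in the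
generators (for all large enough powers of `Δ`). -/
theorem bridge_of_gens {ι : Type*} (f : ι → ℍ → ℂ) (G : ι → LaurentSeries ℂ) (n : ι → ℕ)
    (hmem : ∀ i, (fun z => ModularForm.discriminant z ^ n i * f i z) ∈ niceSub)
    (hgen : ∀ i, HahnSeries.ofPowerSeries ℤ ℂ
        (qExpansion 1 (fun z => ModularForm.discriminant z ^ n i * f i z)) =
      HahnSeries.ofPowerSeries ℤ ℂ (qExpansion 1 (ModularForm.discriminant : ℍ → ℂ)) ^ n i * G i)
    (P : MvPolynomial ι ℂ) :
    ∃ m₀ : ℕ, ∀ m, m₀ ≤ m →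
      (fun z => ModularForm.discriminant z ^ m * MvPolynomial.aeval f P z) ∈ niceSub ∧
      HahnSeries.ofPowerSeries ℤ ℂ
          (qExpansion 1 (fun z => ModularForm.discriminant z ^ m * MvPolynomial.aeval f P z)) =
        HahnSeries.ofPowerSeries ℤ ℂ (qExpansion 1 (ModularForm.discriminant : ℍ → ℂ)) ^ m *
          MvPolynomial.aeval G P := by
  have hP : MvPolynomial.aeval (fun i => ((f i, G i) : (ℍ → ℂ) × LaurentSeries ℂ)) P ∈ goodSub := by
    have : MvPolynomial.aeval (fun i => ((f i, G i) : (ℍ → ℂ) × LaurentSeries ℂ)) P ∈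
        Algebra.adjoin ℂ (Set.range fun i => ((f i, G i) : (ℍ → ℂ) × LaurentSeries ℂ)) := by
      rw [Algebra.adjoin_range_eq_range_aeval]
      exact ⟨P, rfl⟩
    refine Algebra.adjoin_le ?_ this
    rintro _ ⟨i, rfl⟩
    exact mem_goodSub_of_gen (n i) (hmem i) (hgen i)
  have h1 : (MvPolynomial.aeval (fun i => ((f i, G i) : (ℍ → ℂ) × LaurentSeries ℂ)) P).1 =
      MvPolynomial.aeval f P := by
    have := MvPolynomial.comp_aeval_apply (R := ℂ)
      (fun i => ((f i, G i) : (ℍ → ℂ) × LaurentSeries ℂ))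
      (AlgHom.fst ℂ (ℍ → ℂ) (LaurentSeries ℂ)) P
    exact this
  have h2 : (MvPolynomial.aeval (fun i => ((f i, G i) : (ℍ → ℂ) × LaurentSeries ℂ)) P).2 =
      MvPolynomial.aeval G P := by
    have := MvPolynomial.comp_aeval_apply (R := ℂ)
      (fun i => ((f i, G i) : (ℍ → ℂ) × LaurentSeries ℂ))
      (AlgHom.snd ℂ (ℍ → ℂ) (LaurentSeries ℂ)) P
    exact this
  obtain ⟨m₀, hm₀⟩ := hP
  refine ⟨m₀, fun m hm => ?_⟩
  obtain ⟨x, hx1, hx2⟩ := hm₀ m hm
  rw [h1] at hx1
  rw [h2] at hx2
  have hfun : (fun z => ModularForm.discriminant z ^ m * MvPolynomial.aeval f P z) =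
      (x : ℍ → ℂ) := by
    rw [hx1]
    rfl
  rw [hfun]
  exact ⟨x.2, hx2⟩

/-- (B3, corollary) Under the hypotheses of `bridge_of_gens`, a polynomial relation holds among
the functions iff it holds among the Laurent series. -/
theorem bridge_zero_iff {ι : Type*} (f : ι → ℍ → ℂ) (G : ι → LaurentSeries ℂ) (n : ι → ℕ)
    (hmem : ∀ i, (fun z => ModularForm.discriminant z ^ n i * f i z) ∈ niceSub)
    (hgen : ∀ i, HahnSeries.ofPowerSeries ℤ ℂ
        (qExpansion 1 (fun z => ModularForm.discriminant z ^ n i * f i z)) =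
      HahnSeries.ofPowerSeries ℤ ℂ (qExpansion 1 (ModularForm.discriminant : ℍ → ℂ)) ^ n i * G i)
    (P : MvPolynomial ι ℂ) :
    MvPolynomial.aeval f P = 0 ↔ MvPolynomial.aeval G P = 0 := by
  obtain ⟨m, hm⟩ := bridge_of_gens f G n hmem hgen P
  obtain ⟨hnice, hq⟩ := hm m le_rfl
  have hΔ : HahnSeries.ofPowerSeries ℤ ℂ (qExpansion 1 (ModularForm.discriminant : ℍ → ℂ)) ≠ 0 :=
    qLaurent_deltaNice_ne_zero
  constructor
  · intro h
    have h0 : (fun z => ModularForm.discriminant z ^ m * MvPolynomial.aeval f P z) = 0 := by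
      ext z
      simp [h]
    rw [h0, qExpansion_zero, map_zero] at hq
    exact (mul_eq_zero.mp hq.symm).resolve_left (pow_ne_zero m hΔ)
  · intro h
    rw [h, mul_zero] at hq
    have h0 : (⟨_, hnice⟩ : niceSub) = 0 := by
      apply qLaurent_injective
      rw [map_zero]
      exact hq
    have h1 := congrArg (fun x : niceSub => (x : ℍ → ℂ)) h0
    ext z
    have h2 := congrFun h1 z
    simp only [ZeroMemClass.coe_zero, Pi.zero_apply] at h2
    exact (mul_eq_zero.mp h2).resolve_left (pow_ne_zero m (ModularForm.discriminant_ne_zero z))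

end Fermat.Agent.S24
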