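/-
S24 block AnRoots (owner: helper39): comparison of `HahnSeries.order` with `PowerSeries.order`
for power series viewed as Laurent series (glue R4).  The primitive-root facts R1–R3 live in
`Fermat/Agent/S24/ModGlue.lean` (helper61).  Imports Mathlib only.
-/
import Mathlib

set_option autoImplicit false

namespace Fermat.Agent.S24.AnRoots

/-- The coefficients of a power series viewed as a Laurent series. -/
theorem coeff_ofPowerSeries {R : Type*} [Semiring R] (p : PowerSeries R) (i : ℤ) :
    (HahnSeries.ofPowerSeries ℤ R p).coeff i =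
      if i < 0 then 0 else PowerSeries.coeff i.natAbs p :=
  PowerSeries.coeff_coe (f := p) i

/-- A nonzero power series is nonzero as a Laurent series. -/
theorem ofPowerSeries_ne_zero {R : Type*} [Semiring R] {p : PowerSeries R} (hp : p ≠ 0) :
    HahnSeries.ofPowerSeries ℤ R p ≠ 0 := fun h =>
  hp (HahnSeries.ofPowerSeries_injective (by rw [h, map_zero]))

/-- (R4, corollary) if `p.order = e` then `(ofPowerSeries ℤ R p).order = e`. -/
theorem order_ofPowerSeries_of_order_eq {R : Type*} [Semiring R] {p : PowerSeries R} {e : ℕ}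
    (h : p.order = e) : (HahnSeries.ofPowerSeries ℤ R p).order = e := by
  rw [PowerSeries.order_eq_nat] at h
  obtain ⟨hne, hlt⟩ := h
  have hcoe : (HahnSeries.ofPowerSeries ℤ R p).coeff (e : ℤ) ≠ 0 := by
    rw [coeff_ofPowerSeries]
    simpa using hne
  have hne0 : HahnSeries.ofPowerSeries ℤ R p ≠ 0 := HahnSeries.ne_zero_of_coeff_ne_zero hcoe
  refine le_antisymm (HahnSeries.order_le_of_coeff_ne_zero hcoe) ?_
  by_contra hlt'
  rw [not_le] at hlt'
  have h0 : (HahnSeries.ofPowerSeries ℤ R p).coeff (HahnSeries.ofPowerSeries ℤ R p).order ≠ 0 :=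
    fun h => hne0 (HahnSeries.coeff_order_eq_zero.mp h)
  rw [coeff_ofPowerSeries] at h0
  by_cases hneg : (HahnSeries.ofPowerSeries ℤ R p).order < 0
  · rw [if_pos hneg] at h0
    exact h0 rfl
  · rw [if_neg hneg] at h0
    apply h0
    apply hlt
    omega

/-- (R4) for `p ≠ 0`: `(ofPowerSeries ℤ R p).order = p.order.toNat`. -/
theorem order_ofPowerSeries {R : Type*} [Semiring R] {p : PowerSeries R} (hp : p ≠ 0) :
    (HahnSeries.ofPowerSeries ℤ R p).order = (p.order.toNat : ℤ) := by
  apply order_ofPowerSeries_of_order_eq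
  have h : p.order ≠ ⊤ := fun h => hp (PowerSeries.order_eq_top.mp h)
  exact (ENat.natCast_toNat h).symm

/-- (R4, iff form) for `p ≠ 0`: the Laurent order is `e` iff the power series order is `e`. -/
theorem order_ofPowerSeries_eq_iff {R : Type*} [Semiring R] {p : PowerSeries R} (hp : p ≠ 0)
    (e : ℕ) : (HahnSeries.ofPowerSeries ℤ R p).order = e ↔ p.order = e := by
  constructor
  · intro h
    rw [order_ofPowerSeries hp] at h
    have h' : p.order ≠ ⊤ := fun h => hp (PowerSeries.order_eq_top.mp h)
    rw [← ENat.natCast_toNat h']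
    exact_mod_cast h
  · exact order_ofPowerSeries_of_order_eq

/-- The Laurent order of a power series is nonnegative. -/
theorem order_ofPowerSeries_nonneg {R : Type*} [Semiring R] (p : PowerSeries R) :
    0 ≤ (HahnSeries.ofPowerSeries ℤ R p).order := by
  by_cases hp : p = 0
  · rw [hp, map_zero, HahnSeries.order_zero]
  · rw [order_ofPowerSeries hp]
    exact Int.natCast_nonneg _

end Fermat.Agent.S24.AnRoots
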