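import Mathlib

/-!
# S24 analytic side: Taylor expansion at a point of the upper half plane in the Cayley coordinate

For `z₀ : ℍ`, the map `w ↦ cayInv z₀ w = (z₀ - conj z₀ * w) / (1 - w)` is a biholomorphism from
the unit disc onto `ℍ` sending `0` to `z₀`.  For `f : ℍ → ℂ` holomorphic, `taylorAt z₀ f` is the
Taylor series at `w = 0` of `cayFun z₀ f = f ∘ cayInv z₀`.
-/

set_option autoImplicit false

noncomputable section

namespace Fermat.Agent.S24

open UpperHalfPlane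
open scoped ComplexConjugate Manifold Nat

/-- Inverse Cayley transform centred at `z₀`: the unit disc `→ ℍ`, `0 ↦ z₀`. -/
def cayInv (z₀ : ℍ) (w : ℂ) : ℂ := ((z₀ : ℂ) - conj (z₀ : ℂ) * w) / (1 - w)

/-- Cayley transform centred at `z₀`: `ℍ →` unit disc, `z₀ ↦ 0`. -/
def cay (z₀ : ℍ) (z : ℂ) : ℂ := (z - (z₀ : ℂ)) / (z - conj (z₀ : ℂ))

/-- `f` read in the Cayley coordinate at `z₀`. -/
def cayFun (z₀ : ℍ) (f : ℍ → ℂ) : ℂ → ℂ := fun w => f (ofComplex (cayInv z₀ w))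

/-- Taylor series of `f` at `z₀` in the Cayley coordinate. -/
def taylorAt (z₀ : ℍ) (f : ℍ → ℂ) : PowerSeries ℂ :=
  PowerSeries.mk fun n => ((n.factorial : ℂ))⁻¹ * iteratedDeriv n (cayFun z₀ f) 0

variable (z₀ : ℍ)

theorem coeff_taylorAt (f : ℍ → ℂ) (n : ℕ) :
    (taylorAt z₀ f).coeff n = ((n.factorial : ℂ))⁻¹ * iteratedDeriv n (cayFun z₀ f) 0 := by
  simp [taylorAt]

@[simp] theorem cayInv_zero : cayInv z₀ 0 = (z₀ : ℂ) := by
  simp [cayInv]

theorem anTaylor_one_sub_ne_zero {w : ℂ} (hw : ‖w‖ < 1) : (1 : ℂ) - w ≠ 0 := by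
  intro h
  have : w = 1 := by linear_combination -h
  rw [this] at hw
  simp at hw

theorem im_cayInv (w : ℂ) (hw : ‖w‖ < 1) :
    (cayInv z₀ w).im = z₀.im * (1 - ‖w‖ ^ 2) / ‖1 - w‖ ^ 2 := by
  have h1 : (1 : ℂ) - w ≠ 0 := anTaylor_one_sub_ne_zero hw
  have hns : Complex.normSq (1 - w) ≠ 0 := by
    rwa [Ne, Complex.normSq_eq_zero]
  rw [cayInv, Complex.div_im, ← Complex.normSq_eq_norm_sq, ← Complex.normSq_eq_norm_sq]
  have e1 : Complex.normSq (1 - w) = (1 - w.re) ^ 2 + w.im ^ 2 := by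
    rw [Complex.normSq_apply]; simp; ring
  have e2 : Complex.normSq w = w.re ^ 2 + w.im ^ 2 := by
    rw [Complex.normSq_apply]; ring
  have e3 : ((z₀ : ℂ)).im = z₀.im := rfl
  simp only [Complex.sub_im, Complex.sub_re, Complex.mul_im, Complex.mul_re, Complex.conj_re,
    Complex.conj_im, Complex.one_re, Complex.one_im, e3]
  rw [e1] at hns ⊢
  rw [e2]
  field_simp
  ring

theorem im_cayInv_pos {w : ℂ} (hw : ‖w‖ < 1) : 0 < (cayInv z₀ w).im := by
  rw [im_cayInv z₀ w hw]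
  have h1 : (1 : ℂ) - w ≠ 0 := anTaylor_one_sub_ne_zero hw
  have h2 : 0 < ‖1 - w‖ ^ 2 := by positivity
  have h3 : 0 < 1 - ‖w‖ ^ 2 := by
    have : ‖w‖ ^ 2 < 1 := by
      have h0 : 0 ≤ ‖w‖ := norm_nonneg w
      nlinarith
    linarith
  have h4 : 0 < z₀.im := z₀.im_pos
  positivity

theorem anTaylor_sub_conj_ne_zero {z : ℂ} (hz : 0 < z.im) : z - conj (z₀ : ℂ) ≠ 0 := by
  intro h
  have h1 := congrArg Complex.im h
  have e3 : ((z₀ : ℂ)).im = z₀.im := rfl
  simp only [Complex.sub_im, Complex.conj_im, Complex.zero_im, e3] at h1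
  have := z₀.im_pos
  linarith

theorem norm_cay_lt_one {z : ℂ} (hz : 0 < z.im) : ‖cay z₀ z‖ < 1 := by
  have hne : z - conj (z₀ : ℂ) ≠ 0 := anTaylor_sub_conj_ne_zero z₀ hz
  rw [cay, norm_div, div_lt_one (norm_pos_iff.mpr hne)]
  have h0 := z₀.im_pos
  have e3 : ((z₀ : ℂ)).im = z₀.im := rfl
  have key : ‖z - (z₀ : ℂ)‖ ^ 2 < ‖z - conj (z₀ : ℂ)‖ ^ 2 := by
    rw [← Complex.normSq_eq_norm_sq, ← Complex.normSq_eq_norm_sq, Complex.normSq_apply,
      Complex.normSq_apply]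
    simp only [Complex.sub_im, Complex.sub_re, Complex.conj_re, Complex.conj_im, e3]
    nlinarith
  exact lt_of_pow_lt_pow_left₀ 2 (norm_nonneg _) key

theorem cayInv_cay {z : ℂ} (hz : 0 < z.im) : cayInv z₀ (cay z₀ z) = z := by
  have hne : z - conj (z₀ : ℂ) ≠ 0 := anTaylor_sub_conj_ne_zero z₀ hz
  have h1 : (1 : ℂ) - cay z₀ z ≠ 0 := anTaylor_one_sub_ne_zero (norm_cay_lt_one z₀ hz)
  have hne2 : (z₀ : ℂ) - conj (z₀ : ℂ) ≠ 0 := anTaylor_sub_conj_ne_zero z₀ z₀.im_pos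
  rw [cayInv, div_eq_iff h1, cay]
  field_simp
  ring

theorem differentiableAt_cayInv {w : ℂ} (hw : ‖w‖ < 1) : DifferentiableAt ℂ (cayInv z₀) w := by
  have h1 : (1 : ℂ) - w ≠ 0 := anTaylor_one_sub_ne_zero hw
  unfold cayInv
  fun_prop (disch := exact h1)

theorem differentiableOn_cayFun {f : ℍ → ℂ} (hf : MDiff f) :
    DifferentiableOn ℂ (cayFun z₀ f) (Metric.ball 0 1) := by
  intro w hw
  have hw' : ‖w‖ < 1 := by simpa using hw
  have hf' := UpperHalfPlane.mdifferentiable_iff.mp hf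
  have hpos : 0 < (cayInv z₀ w).im := im_cayInv_pos z₀ hw'
  have h1 : DifferentiableAt ℂ (f ∘ ofComplex) (cayInv z₀ w) :=
    (hf' _ hpos).differentiableAt (UpperHalfPlane.isOpen_upperHalfPlaneSet.mem_nhds hpos)
  exact (h1.comp w (differentiableAt_cayInv z₀ hw')).differentiableWithinAt

theorem analyticAt_cayFun {f : ℍ → ℂ} (hf : MDiff f) {w : ℂ} (hw : ‖w‖ < 1) :
    AnalyticAt ℂ (cayFun z₀ f) w :=
  (differentiableOn_cayFun z₀ hf).analyticAt (Metric.isOpen_ball.mem_nhds (by simpa using hw))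

theorem hasSum_taylorAt {f : ℍ → ℂ} (hf : MDiff f) {w : ℂ} (hw : ‖w‖ < 1) :
    HasSum (fun n : ℕ => (taylorAt z₀ f).coeff n * w ^ n) (cayFun z₀ f w) := by
  have h := Complex.hasSum_taylorSeries_on_ball (differentiableOn_cayFun z₀ hf)
    (z := w) (by simpa using hw)
  have e : (fun n : ℕ => (taylorAt z₀ f).coeff n * w ^ n)
      = fun n : ℕ => ((n ! : ℂ))⁻¹ • (w - 0) ^ n • iteratedDeriv n (cayFun z₀ f) 0 := by
    funext n
    rw [coeff_taylorAt]
    simp only [sub_zero, smul_eq_mul]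
    ring
  rw [e]
  exact h

theorem cayFun_cay (f : ℍ → ℂ) (z : ℍ) : cayFun z₀ f (cay z₀ z) = f z := by
  rw [cayFun, cayInv_cay z₀ z.im_pos, UpperHalfPlane.ofComplex_apply]

@[simp] theorem cayFun_zero_apply (f : ℍ → ℂ) : cayFun z₀ f 0 = f z₀ := by
  rw [cayFun, cayInv_zero, UpperHalfPlane.ofComplex_apply]

theorem constantCoeff_taylorAt (f : ℍ → ℂ) : PowerSeries.constantCoeff (taylorAt z₀ f) = f z₀ := by
  rw [← PowerSeries.coeff_zero_eq_constantCoeff_apply, coeff_taylorAt]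
  simp

theorem cayFun_add (f g : ℍ → ℂ) : cayFun z₀ (f + g) = cayFun z₀ f + cayFun z₀ g := rfl

theorem cayFun_mul (f g : ℍ → ℂ) : cayFun z₀ (f * g) = cayFun z₀ f * cayFun z₀ g := rfl

theorem cayFun_smul (c : ℂ) (f : ℍ → ℂ) : cayFun z₀ (c • f) = c • cayFun z₀ f := rfl

theorem cayFun_const (c : ℂ) : cayFun z₀ (fun _ => c) = fun _ => c := rfl

theorem taylorAt_add {f g : ℍ → ℂ} (hf : MDiff f) (hg : MDiff g) :
    taylorAt z₀ (f + g) = taylorAt z₀ f + taylorAt z₀ g := by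
  have hf0 := analyticAt_cayFun z₀ hf (w := 0) (by simp)
  have hg0 := analyticAt_cayFun z₀ hg (w := 0) (by simp)
  ext n
  simp [coeff_taylorAt, cayFun_add, iteratedDeriv_add hf0.contDiffAt hg0.contDiffAt, mul_add]

theorem taylorAt_mul {f g : ℍ → ℂ} (hf : MDiff f) (hg : MDiff g) :
    taylorAt z₀ (f * g) = taylorAt z₀ f * taylorAt z₀ g := by
  have hf0 := analyticAt_cayFun z₀ hf (w := 0) (by simp)
  have hg0 := analyticAt_cayFun z₀ hg (w := 0) (by simp)
  ext n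
  simp only [coeff_taylorAt, cayFun_mul, iteratedDeriv_mul hf0.contDiffAt hg0.contDiffAt,
    Finset.mul_sum, PowerSeries.coeff_mul, Finset.Nat.sum_antidiagonal_eq_sum_range_succ_mk,
    Nat.succ_eq_add_one]
  refine Finset.sum_congr rfl fun i hi ↦ ?_
  rw [Nat.cast_choose _ (by grind)]
  field_simp [Nat.factorial_ne_zero]

theorem taylorAt_smul (c : ℂ) (f : ℍ → ℂ) :
    taylorAt z₀ (c • f) = c • taylorAt z₀ f := by
  ext n
  simp [coeff_taylorAt, cayFun_smul, iteratedDeriv_const_smul_field, mul_left_comm]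

theorem taylorAt_const (c : ℂ) : taylorAt z₀ (fun _ => c) = PowerSeries.C c := by
  ext n
  rw [coeff_taylorAt, cayFun_const, PowerSeries.coeff_C]
  rcases n with _ | n
  · simp
  · simp [iteratedDeriv_succ']

theorem taylorAt_one : taylorAt z₀ (1 : ℍ → ℂ) = 1 := by
  have h := taylorAt_const z₀ 1
  rw [map_one] at h
  exact h

theorem taylorAt_zero : taylorAt z₀ (0 : ℍ → ℂ) = 0 := by
  have h := taylorAt_const z₀ 0
  rw [map_zero] at h
  exact h

theorem taylorAt_neg (f : ℍ → ℂ) : taylorAt z₀ (-f) = -taylorAt z₀ f := by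
  have h := taylorAt_smul z₀ (-1) f
  simpa using h

theorem taylorAt_sub {f g : ℍ → ℂ} (hf : MDiff f) (hg : MDiff g) :
    taylorAt z₀ (f - g) = taylorAt z₀ f - taylorAt z₀ g := by
  rw [sub_eq_add_neg, taylorAt_add z₀ hf hg.neg, taylorAt_neg, sub_eq_add_neg]

theorem taylorAt_pow {f : ℍ → ℂ} (hf : MDiff f) (n : ℕ) :
    taylorAt z₀ (f ^ n) = taylorAt z₀ f ^ n := by
  induction n with
  | zero => simpa using taylorAt_one z₀
  | succ n ih => rw [pow_succ, taylorAt_mul z₀ (hf.pow n) hf, ih, pow_succ]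

theorem eq_zero_of_taylorAt_eq_zero {f : ℍ → ℂ} (hf : MDiff f) (h : taylorAt z₀ f = 0) :
    f = 0 := by
  funext z
  have hz := norm_cay_lt_one z₀ z.im_pos
  have hs := hasSum_taylorAt z₀ hf hz
  rw [h, cayFun_cay] at hs
  simp only [map_zero, zero_mul] at hs
  exact hs.unique hasSum_zero

/-- Two holomorphic functions with the same Taylor series at `z₀` are equal. -/
theorem eq_of_taylorAt_eq {f g : ℍ → ℂ} (hf : MDiff f) (hg : MDiff g)
    (h : taylorAt z₀ f = taylorAt z₀ g) : f = g := by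
  have h1 : taylorAt z₀ (f - g) = 0 := by rw [taylorAt_sub z₀ hf hg, h, sub_self]
  exact sub_eq_zero.mp (eq_zero_of_taylorAt_eq_zero z₀ (hf.sub hg) h1)

end Fermat.Agent.S24
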