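import Mathlib
import Fermat.Agent.S24.AnTaylor

/-!
# S24 analytic side: order transfer for the Taylor expansion in the Cayley coordinate

OWNER: helper48.  For `f : ℍ → ℂ` holomorphic and `z₀ : ℍ`, the order of the formal power series
`taylorAt z₀ f - C (f z₀)` equals the analytic order of `z ↦ f z - f z₀` at `z₀`.
-/

set_option autoImplicit false

noncomputable section

namespace Fermat.Agent.S24

open UpperHalfPlane
open scoped ComplexConjugate Manifold Nat

/-- The order of the Taylor power series `∑ (n!)⁻¹ h⁽ⁿ⁾(0) Xⁿ` of a function analytic at `0`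
is its analytic order at `0`. -/
theorem anTaylorOrd_order_mk {h : ℂ → ℂ} (hh : AnalyticAt ℂ h 0) :
    (PowerSeries.mk fun n => ((n.factorial : ℂ))⁻¹ * iteratedDeriv n h 0).order
      = analyticOrderAt h 0 := by
  refine ENat.eq_of_forall_natCast_le_iff fun n => ?_
  rw [natCast_le_analyticOrderAt_iff_iteratedDeriv_eq_zero hh]
  have hfac : ∀ i : ℕ, ((i.factorial : ℂ))⁻¹ ≠ 0 := fun i =>
    inv_ne_zero (Nat.cast_ne_zero.mpr (Nat.factorial_ne_zero i))
  constructor
  · intro hn i hi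
    have hlt : (i : ℕ∞) < (PowerSeries.mk fun n =>
        ((n.factorial : ℂ))⁻¹ * iteratedDeriv n h 0).order :=
      lt_of_lt_of_le (by exact_mod_cast hi) hn
    have h0 := PowerSeries.coeff_of_lt_order i hlt
    rw [PowerSeries.coeff_mk] at h0
    exact (mul_eq_zero.mp h0).resolve_left (hfac i)
  · intro hn
    refine PowerSeries.nat_le_order _ n fun i hi => ?_
    rw [PowerSeries.coeff_mk, hn i hi, mul_zero]

theorem anTaylorOrd_deriv_cayInv (z₀ : ℍ) :
    HasDerivAt (cayInv z₀) ((z₀ : ℂ) - conj (z₀ : ℂ)) 0 := by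
  have h1 : HasDerivAt (fun w : ℂ => (z₀ : ℂ) - conj (z₀ : ℂ) * w) (-(conj (z₀ : ℂ))) 0 := by
    have := ((hasDerivAt_id (0 : ℂ)).const_mul (conj (z₀ : ℂ))).const_sub (z₀ : ℂ)
    simpa using this
  have h2 : HasDerivAt (fun w : ℂ => (1 : ℂ) - w) (-1) 0 := by
    have := (hasDerivAt_id (0 : ℂ)).const_sub (1 : ℂ)
    simpa using this
  have h3 := h1.div h2 (by simp)
  have e : (-(conj (z₀ : ℂ)) * (1 - 0) - ((z₀ : ℂ) - conj (z₀ : ℂ) * 0) * (-1)) / (1 - 0) ^ 2
      = (z₀ : ℂ) - conj (z₀ : ℂ) := by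
    ring
  rw [e] at h3
  exact h3

theorem anTaylorOrd_sub_conj_ne_zero (z₀ : ℍ) : (z₀ : ℂ) - conj (z₀ : ℂ) ≠ 0 := by
  intro h
  have h1 := congrArg Complex.im h
  have e3 : ((z₀ : ℂ)).im = z₀.im := rfl
  simp only [Complex.sub_im, Complex.conj_im, Complex.zero_im, e3] at h1
  have := z₀.im_pos
  linarith

/-- Analytic order of `F ∘ cayInv z₀` at `0` is the analytic order of `F` at `z₀`. -/
theorem anTaylorOrd_analyticOrderAt_comp (z₀ : ℍ) (F : ℂ → ℂ) :
    analyticOrderAt (F ∘ cayInv z₀) 0 = analyticOrderAt F (z₀ : ℂ) := by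
  have hd := anTaylorOrd_deriv_cayInv z₀
  have ha : AnalyticAt ℂ (cayInv z₀) 0 := by
    have hdo : DifferentiableOn ℂ (cayInv z₀) (Metric.ball 0 1) := fun w hw =>
      (differentiableAt_cayInv z₀ (by simpa using hw)).differentiableWithinAt
    exact hdo.analyticAt (Metric.isOpen_ball.mem_nhds (by simp))
  have h := analyticOrderAt_comp_of_deriv_ne_zero (f := F) ha
    (by rw [hd.deriv]; exact anTaylorOrd_sub_conj_ne_zero z₀)
  rw [h, cayInv_zero]

/-- **Order transfer.** The order of `taylorAt z₀ f` is the analytic order of `f` at `z₀`. -/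
theorem order_taylorAt {f : ℍ → ℂ} (hf : MDiff f) (z₀ : ℍ) :
    (taylorAt z₀ f).order = analyticOrderAt (fun z : ℂ => f (ofComplex z)) (z₀ : ℂ) := by
  have h0 : AnalyticAt ℂ (cayFun z₀ f) 0 := analyticAt_cayFun z₀ hf (by simp)
  rw [taylorAt, anTaylorOrd_order_mk h0]
  exact anTaylorOrd_analyticOrderAt_comp z₀ (fun z : ℂ => f (ofComplex z))

/-- **Order transfer.** The order of `taylorAt z₀ f - C (f z₀)` is the analytic order of
`z ↦ f z - f z₀` at `z₀`. -/
theorem order_taylorAt_sub {f : ℍ → ℂ} (hf : MDiff f) (z₀ : ℍ) :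
    (taylorAt z₀ f - PowerSeries.C (f z₀)).order
      = analyticOrderAt (fun z : ℂ => f (ofComplex z) - f z₀) (z₀ : ℂ) := by
  have hc : MDiff (fun _ : ℍ => f z₀) := mdifferentiable_const
  have h1 : taylorAt z₀ f - PowerSeries.C (f z₀) = taylorAt z₀ (f - fun _ => f z₀) := by
    rw [taylorAt_sub z₀ hf hc, taylorAt_const]
  rw [h1, order_taylorAt (hf.sub hc) z₀]
  rfl

end Fermat.Agent.S24
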