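/-
S24 / EmbDefs (owner helper43): embeddings of a function field into Laurent series and the
places they induce.  Shared definitions for EmbPlace / EmbUnique / EmbOrbit / EmbCount.
-/
import Mathlib
import Fermat.Prelude.Def_AlgebraicCurve_DivisorClassGroup

set_option autoImplicit false

namespace Fermat.Agent.S24

open AlgebraicCurve

variable {K F C : Type*} [Field K] [Field F] [Algebra K F] [Field C]

/-- The ring hom `ι : F →+* C((s))` induces the place `v` of `F/K` with index `r ≥ 1`:
`ord_s (ι f) = r * ord_v f` for every nonzero `f`. -/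
def EmbInduces (ι : F →+* LaurentSeries C) (v : Place K F) (r : ℕ) : Prop :=
  0 < r ∧ ∀ f : F, f ≠ 0 → (ι f).order = (r : ℤ) * v.ord f

namespace EmbDefs

/-- membership in the valuation ring of a place in terms of `ord` -/
theorem mem_iff_ord_nonneg (v : Place K F) {f : F} (hf : f ≠ 0) :
    f ∈ v.toValuationSubring ↔ 0 ≤ v.ord f := by
  obtain ⟨π, hπ⟩ := IsDiscreteValuationRing.exists_irreducible v.toValuationSubring
  obtain ⟨u, hu⟩ := v.exists_unit_mul_zpow hf hπ
  have hπ0 : (π : F) ≠ 0 := by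
    simpa [ne_eq, ZeroMemClass.coe_eq_zero] using hπ.ne_zero
  constructor
  · intro hmem
    by_contra hneg
    push Not at hneg
    obtain ⟨m, hm⟩ : ∃ m : ℕ, v.ord f = -((m : ℤ) + 1) :=
      ⟨(-(v.ord f) - 1).toNat, by omega⟩
    -- then `u = f * π^(m+1)` lies in the maximal ideal
    have h1 : ((u : v.toValuationSubring) : F) = f * (π : F) ^ (m + 1) := by
      have hpow : ((π : F) ^ (v.ord f)) * (π : F) ^ (m + 1) = 1 := by
        rw [hm, zpow_neg, ← zpow_natCast (π : F) (m + 1)]
        push_cast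
        exact inv_mul_cancel₀ (zpow_ne_zero _ hπ0)
      calc ((u : v.toValuationSubring) : F)
          = ((u : v.toValuationSubring) : F) * (((π : F) ^ (v.ord f)) * (π : F) ^ (m + 1)) := by
            rw [hpow, mul_one]
        _ = f * (π : F) ^ (m + 1) := by rw [← mul_assoc, ← hu]
    have h2 : (u : v.toValuationSubring) = ⟨f, hmem⟩ * π ^ (m + 1) := by
      apply Subtype.ext
      rw [h1]
      rfl
    have h3 : IsUnit (π ^ (m + 1)) := by
      have hu' : IsUnit (⟨f, hmem⟩ * π ^ (m + 1) : v.toValuationSubring) := h2 ▸ u.isUnit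
      exact isUnit_of_mul_isUnit_right hu'
    exact hπ.not_isUnit (isUnit_pow_succ_iff.mp h3)
  · intro hnn
    obtain ⟨m, hm⟩ : ∃ m : ℕ, v.ord f = (m : ℤ) := ⟨(v.ord f).toNat, by omega⟩
    rw [hu, hm, zpow_natCast]
    exact mul_mem (SetLike.coe_mem _) (pow_mem (SetLike.coe_mem _) _)

/-- every place has an element of order one -/
theorem exists_ord_eq_one (v : Place K F) : ∃ π : F, v.ord π = 1 := by
  obtain ⟨π, hπ⟩ := IsDiscreteValuationRing.exists_irreducible v.toValuationSubring
  exact ⟨π, v.ord_coe_irreducible hπ⟩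

theorem ne_zero_of_ord_ne_zero (v : Place K F) {f : F} (hf : v.ord f ≠ 0) : f ≠ 0 := by
  rintro rfl
  exact hf v.ord_zero

end EmbDefs

namespace EmbInduces

variable {ι ι' : F →+* LaurentSeries C} {v v' : Place K F} {r r' : ℕ}

theorem pos (h : EmbInduces ι v r) : 0 < r := h.1

theorem order_eq (h : EmbInduces ι v r) {f : F} (hf : f ≠ 0) :
    (ι f).order = (r : ℤ) * v.ord f := h.2 f hf

theorem map_ne_zero (_h : EmbInduces ι v r) {f : F} (hf : f ≠ 0) : ι f ≠ 0 :=
  (_root_.map_ne_zero ι).mpr hf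

theorem orderTop_eq (h : EmbInduces ι v r) {f : F} (hf : f ≠ 0) :
    (ι f).orderTop = (((r : ℤ) * v.ord f : ℤ) : WithTop ℤ) := by
  rw [← h.order_eq hf, HahnSeries.order_eq_orderTop_of_ne_zero (h.map_ne_zero hf)]

/-- the valuation ring of `v` is the preimage of the power series -/
theorem mem_iff (h : EmbInduces ι v r) {f : F} (hf : f ≠ 0) :
    f ∈ v.toValuationSubring ↔ 0 ≤ (ι f).order := by
  rw [EmbDefs.mem_iff_ord_nonneg v hf, h.order_eq hf]
  have hr : (0 : ℤ) < r := by exact_mod_cast h.pos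
  constructor
  · intro h0
    positivity
  · intro h0
    by_contra hneg
    push Not at hneg
    nlinarith

/-- an embedding induces at most one place -/
theorem place_eq (h : EmbInduces ι v r) (h' : EmbInduces ι v' r') : v = v' := by
  apply Place.ext
  ext f
  rcases eq_or_ne f 0 with rfl | hf
  · simp
  · rw [h.mem_iff hf, h'.mem_iff hf]

/-- the index is determined as well -/
theorem index_eq (h : EmbInduces ι v r) (h' : EmbInduces ι v r') : r = r' := by
  obtain ⟨π, hπ⟩ := EmbDefs.exists_ord_eq_one v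
  have hπ0 : π ≠ 0 := EmbDefs.ne_zero_of_ord_ne_zero v (by rw [hπ]; exact one_ne_zero)
  have h1 := h.order_eq hπ0
  have h2 := h'.order_eq hπ0
  rw [hπ, mul_one] at h1 h2
  exact_mod_cast h1.symm.trans h2

theorem order_pos_iff (h : EmbInduces ι v r) {f : F} (hf : f ≠ 0) :
    0 < (ι f).order ↔ 0 < v.ord f := by
  rw [h.order_eq hf]
  have hr : (0 : ℤ) < r := by exact_mod_cast h.pos
  constructor
  · intro h0
    by_contra hneg
    push Not at hneg
    nlinarith
  · intro h0
    positivity

/-- twisting the coefficients by `k ↦ ζ ^ k` (`ζ ≠ 0`) does not change the induced place -/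
theorem of_coeff_eq (h : EmbInduces ι v r) (ζ : C) (hζ : ζ ≠ 0)
    (hι : ∀ (f : F) (k : ℤ), (ι' f).coeff k = ζ ^ k * (ι f).coeff k) :
    EmbInduces ι' v r := by
  refine ⟨h.pos, fun f hf => ?_⟩
  rw [← h.order_eq hf]
  have h1 : ι f ≠ 0 := h.map_ne_zero hf
  have h2 : ι' f ≠ 0 := (_root_.map_ne_zero ι').mpr hf
  have hsupp : (ι' f).support = (ι f).support := by
    ext k
    simp only [HahnSeries.mem_support, hι f k, ne_eq, mul_eq_zero, zpow_ne_zero k hζ, false_or]
  rw [HahnSeries.order_of_ne h2, HahnSeries.order_of_ne h1]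
  congr 1

end EmbInduces

end Fermat.Agent.S24
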