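/-
S24 / EmbOrbit (owner helper55): pure combinatorics.  A map `pl : X → P` from a finite
`⟨g⟩`-set whose fibres are bounded by "ramification indices" `e`, with the divisibility
constraints coming from the embeddings, has the `⟨g⟩`-orbits as fibres and is surjective.
-/
import Mathlib

set_option autoImplicit false

namespace Fermat.Agent.S24

/-- auxiliary: a `g`-invariant map is `⟨g⟩`-invariant. -/
theorem embOrbit_zpowers_inv {X P G : Type*} [Group G] [MulAction G X] (g : G)
    (pl : X → P) (hinv : ∀ x, pl (g • x) = pl x) (h : Subgroup.zpowers g) (x : X) :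
    pl (h • x) = pl x := by
  let H : Subgroup G :=
    { carrier := {a | ∀ y, pl (a • y) = pl y}
      one_mem' := fun y => by rw [one_smul]
      mul_mem' := fun {a b} ha hb y => by rw [mul_smul, ha, hb]
      inv_mem' := fun {a} ha y => by
        have := ha (a⁻¹ • y)
        rw [smul_inv_smul] at this
        exact this.symm }
  have hg : g ∈ H := fun y => hinv y
  have hle : Subgroup.zpowers g ≤ H := (Subgroup.zpowers_le (H := H)).2 hg
  exact hle h.2 x

/-- auxiliary: the fibre of `pl` through `x` is the `⟨g⟩`-orbit of `x`, of size `e (pl x)`.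
(No global hypothesis is needed for this part.) -/
theorem embOrbit_orbit_eq_fiber {X P G : Type*} [Finite X] [Group G] [MulAction G X] (g : G)
    (pl : X → P) (e : P → ℕ) (rr : X → ℕ) (e₀ : ℕ) (he₀ : 0 < e₀)
    (hinv : ∀ x, pl (g • x) = pl x)
    (hfib : ∀ (p : P) (S : Finset X), (∀ x ∈ S, pl x = p) → S.card ≤ e p)
    (hre : ∀ x, rr x * e (pl x) = e₀)
    (hper : ∀ (x : X) (m : ℕ), g ^ m • x = x → e₀ ∣ m * rr x) (x : X) :
    MulAction.orbit (Subgroup.zpowers g) x = {y | pl y = pl x} ∧
      e (pl x) = Nat.card (MulAction.orbit (Subgroup.zpowers g) x) := by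
  classical
  cases nonempty_fintype X
  have hrr : 0 < rr x := by
    apply Nat.pos_of_ne_zero
    intro h
    have := hre x
    rw [h, zero_mul] at this
    omega
  have hsub : MulAction.orbit (Subgroup.zpowers g) x ⊆ {y | pl y = pl x} := by
    rintro _ ⟨h, rfl⟩
    exact embOrbit_zpowers_inv g pl hinv h x
  have hpos : 0 < Function.minimalPeriod (g • ·) x :=
    Function.minimalPeriod_pos_of_mem_periodicPts
      (Function.Injective.mem_periodicPts (MulAction.injective g) x)
  have hfix : g ^ Function.minimalPeriod (g • ·) x • x = x :=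
    MulAction.pow_smul_eq_iff_minimalPeriod_dvd.2 dvd_rfl
  have hdvd : e (pl x) ∣ Function.minimalPeriod (g • ·) x := by
    have h1 := hper x _ hfix
    rw [← hre x, mul_comm _ (rr x)] at h1
    exact (Nat.mul_dvd_mul_iff_left hrr).1 h1
  have hle : e (pl x) ≤ Function.minimalPeriod (g • ·) x := Nat.le_of_dvd hpos hdvd
  have hcard : Function.minimalPeriod (g • ·) x
      = (MulAction.orbit (Subgroup.zpowers g) x).ncard := by
    rw [MulAction.minimalPeriod_eq_card, ← Nat.card_eq_fintype_card, Nat.card_coe_set_eq]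
  have hfibset : ({y | pl y = pl x} : Set X)
      = ↑(Finset.univ.filter (fun y => pl y = pl x)) := by
    ext y
    simp
  have hfibcard : ({y | pl y = pl x} : Set X).ncard ≤ e (pl x) := by
    rw [hfibset, Set.ncard_coe_finset]
    exact hfib (pl x) _ (fun y hy => by simpa using hy)
  have hmono : (MulAction.orbit (Subgroup.zpowers g) x).ncard
      ≤ ({y | pl y = pl x} : Set X).ncard := Set.ncard_le_ncard hsub (Set.toFinite _)
  refine ⟨Set.eq_of_subset_of_ncard_le hsub (by omega) (Set.toFinite _), ?_⟩
  rw [Nat.card_coe_set_eq]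
  omega

/-- EXPORT (EmbOrbit).
* `hinv`  : `g` preserves the fibres of `pl`;
* `hfib`  : every fibre of `pl` over `p` has at most `e p` elements;
* `hre`   : `rr x * e (pl x) = e₀`;
* `hper`  : if `g ^ m` fixes `x` then `e₀ ∣ m * rr x`;
* `htot`  : every finite sum of `e`'s is bounded by `|X|`.
Then the fibres of `pl` are exactly the `⟨g⟩`-orbits and `pl` is surjective. -/
theorem fibers_eq_orbits {X P G : Type*} [Finite X] [Group G] [MulAction G X] (g : G)
    (pl : X → P) (e : P → ℕ) (rr : X → ℕ) (e₀ : ℕ) (he₀ : 0 < e₀)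
    (hpos : ∀ p, 0 < e p)
    (hinv : ∀ x, pl (g • x) = pl x)
    (hfib : ∀ (p : P) (S : Finset X), (∀ x ∈ S, pl x = p) → S.card ≤ e p)
    (hre : ∀ x, rr x * e (pl x) = e₀)
    (hper : ∀ (x : X) (m : ℕ), g ^ m • x = x → e₀ ∣ m * rr x)
    (htot : ∀ S : Finset P, ∑ p ∈ S, e p ≤ Nat.card X) :
    Function.Surjective pl ∧
      (∀ x y, pl x = pl y ↔ MulAction.orbitRel (Subgroup.zpowers g) X x y) ∧
      (∀ x, e (pl x) = Nat.card (MulAction.orbit (Subgroup.zpowers g) x)) := by
  classical
  cases nonempty_fintype X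
  have key := embOrbit_orbit_eq_fiber g pl e rr e₀ he₀ hinv hfib hre hper
  refine ⟨?_, ?_, fun x => (key x).2⟩
  · -- surjectivity from the global count
    intro p₀
    by_contra hne
    rw [not_exists] at hne
    have hp₀ : p₀ ∉ Finset.univ.image pl := by
      simp only [Finset.mem_image, Finset.mem_univ, true_and, not_exists]
      exact hne
    have h1 := htot (insert p₀ (Finset.univ.image pl))
    rw [Finset.sum_insert hp₀, Nat.card_eq_fintype_card] at h1
    have h2 : Fintype.card X ≤ ∑ p ∈ Finset.univ.image pl, e p := by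
      have h := Finset.card_eq_sum_card_fiberwise (f := pl) (s := Finset.univ)
        (t := Finset.univ.image pl) (fun x _ => Finset.mem_image_of_mem pl (Finset.mem_univ x))
      rw [Finset.card_univ] at h
      rw [h]
      refine Finset.sum_le_sum fun p _ => ?_
      exact hfib p _ (fun y hy => by simpa using hy)
    have h3 := hpos p₀
    omega
  · intro x y
    rw [MulAction.orbitRel_apply]
    constructor
    · intro hxy
      rw [(key y).1]
      exact hxy
    · intro hxy
      rw [(key y).1] at hxy
      exact hxy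

/-- EXPORT (EmbOrbit), numeric form. -/
theorem card_eq_card_orbits {X P G : Type*} [Finite X] [Group G] [MulAction G X] (g : G)
    (pl : X → P) (e : P → ℕ) (rr : X → ℕ) (e₀ : ℕ) (he₀ : 0 < e₀)
    (hpos : ∀ p, 0 < e p)
    (hinv : ∀ x, pl (g • x) = pl x)
    (hfib : ∀ (p : P) (S : Finset X), (∀ x ∈ S, pl x = p) → S.card ≤ e p)
    (hre : ∀ x, rr x * e (pl x) = e₀)
    (hper : ∀ (x : X) (m : ℕ), g ^ m • x = x → e₀ ∣ m * rr x)
    (htot : ∀ S : Finset P, ∑ p ∈ S, e p ≤ Nat.card X) :
    Nat.card P = Nat.card (MulAction.orbitRel.Quotient (Subgroup.zpowers g) X) := by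
  obtain ⟨hsurj, hiff, -⟩ := fibers_eq_orbits g pl e rr e₀ he₀ hpos hinv hfib hre hper htot
  symm
  refine Nat.card_congr (Equiv.ofBijective
    (Quotient.lift pl (fun a b hab => (hiff a b).2 hab)) ⟨?_, ?_⟩)
  · intro a b
    induction a using Quotient.inductionOn with
    | h x =>
      induction b using Quotient.inductionOn with
      | h y =>
        intro hxy
        exact Quotient.sound ((hiff x y).1 hxy)
  · intro p
    obtain ⟨x, hx⟩ := hsurj p
    exact ⟨Quotient.mk _ x, hx⟩

end Fermat.Agent.S24
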