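/-
S24 / EmbPlace (owner helper56): a ring hom `ι : F →+* C((s))` which has order `0` on `K^×`
and is not of order `0` everywhere induces a place of `F/K`.

Main exports (namespace `Fermat.Agent.S24`):
* `exists_place_of_emb`      : the skeleton statement (hypothesis `hK` on constants);
* `EmbPlace.order_algebraMap`: for `K` algebraically closed `hK` is automatic;
* `exists_place_of_emb'`     : the same without `hK`, for `K` algebraically closed;
* `EmbPlace.IsOrdFun.exists_place` : abstract version for an "order function" `w : F → ℤ`.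
-/
import Mathlib
import Fermat.Agent.S24.EmbDefs

set_option autoImplicit false

namespace Fermat.Agent.S24

open AlgebraicCurve

namespace EmbPlace

variable {K F : Type*} [Field K] [Field F] [Algebra K F]

/-- An abstract "order function" on a field: additive on products of nonzero elements and
ultrametric. -/
structure IsOrdFun (w : F → ℤ) : Prop where
  map_mul : ∀ f g : F, f ≠ 0 → g ≠ 0 → w (f * g) = w f + w g
  map_add : ∀ f g : F, f ≠ 0 → g ≠ 0 → f + g ≠ 0 → min (w f) (w g) ≤ w (f + g)

namespace IsOrdFun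

variable {w : F → ℤ} (hw : IsOrdFun w)
include hw

theorem map_one : w 1 = 0 := by
  have h := hw.map_mul 1 1 one_ne_zero one_ne_zero
  rw [mul_one] at h
  omega

theorem map_neg_one : w (-1) = 0 := by
  have h := hw.map_mul (-1) (-1) (neg_ne_zero.mpr one_ne_zero) (neg_ne_zero.mpr one_ne_zero)
  rw [neg_mul_neg, mul_one, hw.map_one] at h
  omega

theorem map_neg {f : F} (hf : f ≠ 0) : w (-f) = w f := by
  have h := hw.map_mul (-1) f (neg_ne_zero.mpr one_ne_zero) hf
  rw [neg_one_mul, hw.map_neg_one, zero_add] at h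
  exact h

theorem map_inv {f : F} (hf : f ≠ 0) : w f⁻¹ = -w f := by
  have h := hw.map_mul f f⁻¹ hf (inv_ne_zero hf)
  rw [mul_inv_cancel₀ hf, hw.map_one] at h
  omega

theorem map_pow {f : F} (hf : f ≠ 0) (n : ℕ) : w (f ^ n) = n * w f := by
  induction n with
  | zero => simp [hw.map_one]
  | succ n ih =>
    rw [pow_succ, hw.map_mul _ _ (pow_ne_zero n hf) hf, ih]
    push_cast
    ring

theorem map_zpow {f : F} (hf : f ≠ 0) (n : ℤ) : w (f ^ n) = n * w f := by
  obtain ⟨k, rfl | rfl⟩ := n.eq_nat_or_neg
  · rw [zpow_natCast, hw.map_pow hf]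
  · rw [zpow_neg, zpow_natCast, hw.map_inv (pow_ne_zero k hf), hw.map_pow hf]
    ring

/-- The valuation subring `{f | f = 0 ∨ 0 ≤ w f}` of an order function. -/
def valuationSubring : ValuationSubring F where
  carrier := {f | f = 0 ∨ 0 ≤ w f}
  mul_mem' := by
    rintro a b ha hb
    by_cases ha0 : a = 0
    · left; rw [ha0, zero_mul]
    by_cases hb0 : b = 0
    · left; rw [hb0, mul_zero]
    right
    rw [hw.map_mul a b ha0 hb0]
    have h1 := ha.resolve_left ha0
    have h2 := hb.resolve_left hb0
    omega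
  one_mem' := Or.inr (by rw [hw.map_one])
  add_mem' := by
    rintro a b ha hb
    by_cases ha0 : a = 0
    · rw [ha0, zero_add]; exact hb
    by_cases hb0 : b = 0
    · rw [hb0, add_zero]; exact ha
    by_cases hab : a + b = 0
    · left; exact hab
    right
    have h := hw.map_add a b ha0 hb0 hab
    have h1 := ha.resolve_left ha0
    have h2 := hb.resolve_left hb0
    exact le_trans (le_min h1 h2) h
  zero_mem' := Or.inl rfl
  neg_mem' := by
    rintro a ha
    by_cases ha0 : a = 0
    · left; rw [ha0, neg_zero]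
    right
    rw [hw.map_neg ha0]
    exact ha.resolve_left ha0
  mem_or_inv_mem' := by
    intro a
    by_cases ha0 : a = 0
    · left; left; exact ha0
    rcases le_total 0 (w a) with h | h
    · left; right; exact h
    · right; right
      rw [hw.map_inv ha0]
      omega

theorem mem_valuationSubring_iff {f : F} :
    f ∈ hw.valuationSubring ↔ f = 0 ∨ 0 ≤ w f := Iff.rfl

theorem mem_valuationSubring_of_ne_zero {f : F} (hf : f ≠ 0) :
    f ∈ hw.valuationSubring ↔ 0 ≤ w f :=
  ⟨fun h => h.resolve_left hf, fun h => Or.inr h⟩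

theorem valuationSubring_ne_top (hnt : ∃ f : F, f ≠ 0 ∧ w f ≠ 0) :
    hw.valuationSubring ≠ ⊤ := by
  obtain ⟨f, hf0, hf⟩ := hnt
  intro htop
  have h1 : f ∈ hw.valuationSubring := by rw [htop]; exact ValuationSubring.mem_top f
  have h2 : f⁻¹ ∈ hw.valuationSubring := by rw [htop]; exact ValuationSubring.mem_top _
  rw [hw.mem_valuationSubring_of_ne_zero hf0] at h1
  rw [hw.mem_valuationSubring_of_ne_zero (inv_ne_zero hf0), hw.map_inv hf0] at h2
  omega

theorem isPrincipalIdealRing_valuationSubring :
    IsPrincipalIdealRing hw.valuationSubring := by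
  refine ⟨fun I => ?_⟩
  by_cases hI : I = ⊥
  · rw [hI]; exact bot_isPrincipal
  -- pick an element of minimal order
  have hne : ∃ n : ℕ, ∃ x : hw.valuationSubring, x ∈ I ∧ x ≠ 0 ∧ w (x : F) = n := by
    obtain ⟨x, hxI, hx0⟩ := Submodule.exists_mem_ne_zero_of_ne_bot hI
    have hxF : (x : F) ≠ 0 := fun h => hx0 (Subtype.ext h)
    have hx := (hw.mem_valuationSubring_of_ne_zero hxF).mp x.2
    exact ⟨(w (x : F)).toNat, x, hxI, hx0, (Int.toNat_of_nonneg hx).symm⟩
  classical
  obtain ⟨x, hxI, hx0, hxn⟩ := Nat.find_spec hne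
  have hmin := fun k (hk : k < Nat.find hne) => Nat.find_min hne hk
  have hxF : (x : F) ≠ 0 := fun h => hx0 (Subtype.ext h)
  refine ⟨⟨x, le_antisymm ?_ ?_⟩⟩
  · intro y hyI
    rw [Submodule.mem_span_singleton]
    by_cases hy0 : y = 0
    · exact ⟨0, by rw [hy0, zero_smul]⟩
    have hyF : (y : F) ≠ 0 := fun h => hy0 (Subtype.ext h)
    have hy := (hw.mem_valuationSubring_of_ne_zero hyF).mp y.2
    have hle : w (x : F) ≤ w (y : F) := by
      by_contra hlt
      rw [not_le] at hlt
      refine hmin (w (y : F)).toNat ?_ ⟨y, hyI, hy0, (Int.toNat_of_nonneg hy).symm⟩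
      have : ((w (y : F)).toNat : ℤ) < (Nat.find hne : ℤ) := by
        rw [Int.toNat_of_nonneg hy, ← hxn]; exact hlt
      exact_mod_cast this
    have hq : (y : F) * (x : F)⁻¹ ∈ hw.valuationSubring := by
      rw [hw.mem_valuationSubring_of_ne_zero (mul_ne_zero hyF (inv_ne_zero hxF)),
        hw.map_mul _ _ hyF (inv_ne_zero hxF), hw.map_inv hxF]
      omega
    refine ⟨⟨_, hq⟩, Subtype.ext ?_⟩
    simp only [smul_eq_mul, MulMemClass.coe_mul]
    field_simp
  · rw [Submodule.span_singleton_le_iff_mem]
    exact hxI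

/-- The place attached to a nontrivial order function vanishing on `K^×`. -/
def place (hK : ∀ a : K, a ≠ 0 → w (algebraMap K F a) = 0)
    (hnt : ∃ f : F, f ≠ 0 ∧ w f ≠ 0) : Place K F where
  toValuationSubring := hw.valuationSubring
  algebraMap_mem' := fun a => by
    by_cases ha : a = 0
    · left; rw [ha, map_zero]
    · right; rw [hK a ha]
  ne_top' := hw.valuationSubring_ne_top hnt
  isPrincipalIdealRing' := hw.isPrincipalIdealRing_valuationSubring

theorem place_toValuationSubring (hK : ∀ a : K, a ≠ 0 → w (algebraMap K F a) = 0)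
    (hnt : ∃ f : F, f ≠ 0 ∧ w f ≠ 0) :
    (hw.place hK hnt).toValuationSubring = hw.valuationSubring := rfl

/-- **Place from an order function.**  A nontrivial order function on `F`, vanishing on
`K^×`, is a positive multiple of the order function of a (unique) place. -/
theorem exists_place (hK : ∀ a : K, a ≠ 0 → w (algebraMap K F a) = 0)
    (hnt : ∃ f : F, f ≠ 0 ∧ w f ≠ 0) :
    ∃ (v : Place K F) (m : ℕ), 0 < m ∧ ∀ f : F, f ≠ 0 → w f = m * v.ord f := by
  set v : Place K F := hw.place hK hnt with hv
  obtain ⟨π, hπ⟩ := IsDiscreteValuationRing.exists_irreducible v.toValuationSubring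
  have hπF : (π : F) ≠ 0 := fun h => hπ.ne_zero (Subtype.ext h)
  have hπ0 : 0 ≤ w (π : F) := (hw.mem_valuationSubring_of_ne_zero hπF).mp π.2
  have hπ1 : w (π : F) ≠ 0 := by
    intro h0
    apply hπ.not_isUnit
    have hinv : (π : F)⁻¹ ∈ hw.valuationSubring := by
      rw [hw.mem_valuationSubring_of_ne_zero (inv_ne_zero hπF), hw.map_inv hπF, h0]
      simp
    exact IsUnit.of_mul_eq_one (⟨_, hinv⟩ : v.toValuationSubring)
      (Subtype.ext (by simp [mul_inv_cancel₀ hπF]))
  refine ⟨v, (w (π : F)).toNat, by omega, fun f hf => ?_⟩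
  obtain ⟨u, hu⟩ := v.exists_unit_mul_zpow hf hπ
  have huF : ((u : v.toValuationSubring) : F) ≠ 0 := by
    intro h
    exact u.ne_zero (Subtype.ext h)
  have hu0 : w ((u : v.toValuationSubring) : F) = 0 := by
    have h1 : 0 ≤ w ((u : v.toValuationSubring) : F) :=
      (hw.mem_valuationSubring_of_ne_zero huF).mp (u : v.toValuationSubring).2
    have hinvF : (((u⁻¹ : v.toValuationSubringˣ) : v.toValuationSubring) : F)
        = ((u : v.toValuationSubring) : F)⁻¹ := by
      have h := congrArg (Subtype.val) (u.mul_inv)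
      simp only [MulMemClass.coe_mul, OneMemClass.coe_one] at h
      exact eq_inv_of_mul_eq_one_right h
    have h2 : 0 ≤ w (((u : v.toValuationSubring) : F)⁻¹) := by
      rw [← hinvF]
      refine (hw.mem_valuationSubring_of_ne_zero ?_).mp
        ((u⁻¹ : v.toValuationSubringˣ) : v.toValuationSubring).2
      rw [hinvF]; exact inv_ne_zero huF
    rw [hw.map_inv huF] at h2
    omega
  conv_lhs => rw [hu]
  rw [hw.map_mul _ _ huF (zpow_ne_zero _ hπF), hu0, zero_add, hw.map_zpow hπF,
    Int.toNat_of_nonneg hπ0]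
  ring

end IsOrdFun

variable {C : Type*} [Field C]

/-- The order function `f ↦ (ι f).order` of a ring hom into Laurent series. -/
theorem isOrdFun_order (ι : F →+* LaurentSeries C) :
    IsOrdFun (fun f : F => (ι f).order) where
  map_mul := fun f g hf hg => by
    simp only [map_mul]
    exact HahnSeries.order_mul ((map_ne_zero ι).mpr hf) ((map_ne_zero ι).mpr hg)
  map_add := fun f g _ _ hfg => by
    simp only [map_add]
    exact HahnSeries.min_order_le_order_add (by rw [← map_add]; exact (map_ne_zero ι).mpr hfg)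

theorem order_inv (ι : F →+* LaurentSeries C) {f : F} (hf : f ≠ 0) :
    (ι f⁻¹).order = -(ι f).order :=
  (isOrdFun_order ι).map_inv hf

/-- Over an algebraically closed constant field, the constants have order `0` under any ring
hom to Laurent series (`K^×` is divisible). -/
theorem order_algebraMap [IsAlgClosed K] (ι : F →+* LaurentSeries C) (a : K) :
    (ι (algebraMap K F a)).order = 0 := by
  by_cases ha : a = 0
  · simp [ha]
  set n : ℕ := ((ι (algebraMap K F a)).order).natAbs + 1 with hn
  obtain ⟨b, hb⟩ := IsAlgClosed.exists_pow_nat_eq a (n := n) (by omega)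
  have h : (ι (algebraMap K F a)).order = n * (ι (algebraMap K F b)).order := by
    rw [← hb, map_pow, map_pow, HahnSeries.order_pow, nsmul_eq_mul]
  have hdvd : (n : ℤ) ∣ (ι (algebraMap K F a)).order := ⟨_, h⟩
  by_contra hne
  have hle := Int.le_of_dvd (Int.natAbs_pos.mpr hne |> Int.natCast_pos.mpr)
    ((Int.dvd_natAbs).mpr hdvd)
  omega

end EmbPlace

section Export

variable {K F C : Type*} [Field K] [Field F] [Algebra K F] [Field C]

/-- EXPORT (EmbPlace). -/
theorem exists_place_of_emb (ι : F →+* LaurentSeries C)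
    (hK : ∀ a : K, a ≠ 0 → (ι (algebraMap K F a)).order = 0)
    (t : F) (ht : (ι t).order ≠ 0) :
    ∃ (v : Place K F) (r : ℕ), EmbInduces ι v r := by
  have hnt : ∃ f : F, f ≠ 0 ∧ (fun f : F => (ι f).order) f ≠ 0 := by
    refine ⟨t, ?_, ht⟩
    rintro rfl
    simp at ht
  obtain ⟨v, m, hm, h⟩ := (EmbPlace.isOrdFun_order ι).exists_place (K := K) hK hnt
  exact ⟨v, m, hm, h⟩

/-- EXPORT (EmbPlace), algebraically closed constants: the hypothesis on constants is
automatic. -/
theorem exists_place_of_emb' [IsAlgClosed K] (ι : F →+* LaurentSeries C)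
    (t : F) (ht : (ι t).order ≠ 0) :
    ∃ (v : Place K F) (r : ℕ), EmbInduces ι v r :=
  exists_place_of_emb ι (fun a _ => EmbPlace.order_algebraMap ι a) t ht

/-- Characterisation of the induced place: if `ι` maps the valuation ring of `v` to series of
order `≥ 0` and its maximal ideal to series of order `> 0`, then `ι` induces `v`. -/
theorem embInduces_of_order (ι : F →+* LaurentSeries C)
    (hK : ∀ a : K, a ≠ 0 → (ι (algebraMap K F a)).order = 0) (v : Place K F)
    (h0 : ∀ f : F, f ≠ 0 → 0 ≤ v.ord f → 0 ≤ (ι f).order)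
    (h1 : ∀ f : F, 0 < v.ord f → 0 < (ι f).order) :
    ∃ r : ℕ, EmbInduces ι v r := by
  obtain ⟨π, hπ⟩ := EmbDefs.exists_ord_eq_one v
  have hπ0 : 0 < (ι π).order := h1 π (by omega)
  obtain ⟨v', r, hv'⟩ := exists_place_of_emb (K := K) ι hK π hπ0.ne'
  have hvv' : v = v' := by
    apply Place.ext
    ext f
    by_cases hf : f = 0
    · simp [hf, zero_mem]
    rw [EmbDefs.mem_iff_ord_nonneg v hf, hv'.mem_iff hf]
    constructor
    · exact h0 f hf
    · intro hnn
      by_contra hneg
      rw [not_le] at hneg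
      have hinv : 0 < v.ord f⁻¹ := by rw [v.ord_inv]; omega
      have h2 := h1 f⁻¹ hinv
      rw [EmbPlace.order_inv ι hf] at h2
      omega
  rw [hvv']
  exact ⟨r, hv'⟩

end Export

end Fermat.Agent.S24
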