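/-
S24 / EmbUnique (owner helper30): at most `e_v` embeddings into `C((s))` (char 0) with a
prescribed image of `t` induce a given place `v` (residue field `K`), `e_v = ord_v t`.
-/
import Mathlib
import Fermat.Agent.S24.EmbDefs

set_option autoImplicit false

namespace Fermat.Agent.S24

open AlgebraicCurve

namespace EmbUnique

section Residue

variable {K F : Type*} [Field K] [Field F] [Algebra K F]

lemma ord_pos_of_mem_maximalIdeal (v : Place K F) (y : v.toValuationSubring)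
    (hy : y ∈ IsLocalRing.maximalIdeal v.toValuationSubring) (hy0 : (y : F) ≠ 0) :
    0 < v.ord (y : F) := by
  have h0 : 0 ≤ v.ord (y : F) := (EmbDefs.mem_iff_ord_nonneg v hy0).mp y.2
  rcases h0.lt_or_eq with h | h
  · exact h
  · exfalso
    obtain ⟨π, hπ⟩ := IsDiscreteValuationRing.exists_irreducible v.toValuationSubring
    obtain ⟨u, hu⟩ := v.exists_unit_mul_zpow hy0 hπ
    rw [← h, zpow_zero, mul_one] at hu
    have hyu : y = u := Subtype.ext hu
    exact (IsLocalRing.mem_maximalIdeal _).mp hy (hyu ▸ u.isUnit)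

/-- The residue field of `v` is `K`, in terms of `ord`. -/
lemma exists_residue_of_surjective (v : Place K F)
    (hres : Function.Surjective (algebraMap K v.ResidueField)) :
    ∀ b : F, 0 ≤ v.ord b →
      ∃ a : K, b = algebraMap K F a ∨ 0 < v.ord (b - algebraMap K F a) := by
  intro b hb
  have hbmem : b ∈ v.toValuationSubring := by
    rcases eq_or_ne b 0 with rfl | hb0
    · exact zero_mem _
    · exact (EmbDefs.mem_iff_ord_nonneg v hb0).mpr hb
  obtain ⟨a, ha⟩ := hres (IsLocalRing.residue v.toValuationSubring ⟨b, hbmem⟩)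
  refine ⟨a, ?_⟩
  by_cases h : b = algebraMap K F a
  · exact Or.inl h
  · right
    have hx : (⟨b, hbmem⟩ - algebraMap K v.toValuationSubring a : v.toValuationSubring) ∈
        IsLocalRing.maximalIdeal v.toValuationSubring := by
      rw [← IsLocalRing.residue_eq_zero_iff, map_sub, ← ha, sub_eq_zero]
      rfl
    have hx0 : ((⟨b, hbmem⟩ - algebraMap K v.toValuationSubring a : v.toValuationSubring) : F)
        = b - algebraMap K F a := by
      rw [AddSubgroupClass.coe_sub, Place.coe_algebraMap]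
    have hpos := ord_pos_of_mem_maximalIdeal v _ hx (by rw [hx0]; exact sub_ne_zero.mpr h)
    rwa [hx0] at hpos

end Residue


section Laurent

variable {C : Type*} [Field C]

lemma orderTop_natCast_nonneg (n : ℕ) : (0 : WithTop ℤ) ≤ ((n : LaurentSeries C)).orderTop := by
  have h1 : ((n : LaurentSeries C)) = HahnSeries.C (n : C) := by simp
  rw [h1]
  by_cases h : (n : C) = 0
  · rw [h, map_zero, HahnSeries.orderTop_zero]; exact le_top
  · have : (HahnSeries.C (n : C) : LaurentSeries C) = HahnSeries.single 0 (n : C) := rfl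
    rw [this, HahnSeries.orderTop_single h]
    exact le_of_eq WithTop.coe_zero.symm

lemma orderTop_natCast [CharZero C] {n : ℕ} (hn : n ≠ 0) :
    ((n : LaurentSeries C)).orderTop = 0 := by
  have h1 : ((n : LaurentSeries C)) = HahnSeries.C (n : C) := by simp
  have h : (n : C) ≠ 0 := Nat.cast_ne_zero.mpr hn
  have : (HahnSeries.C (n : C) : LaurentSeries C) = HahnSeries.single 0 (n : C) := rfl
  rw [h1, this, HahnSeries.orderTop_single h]
  exact WithTop.coe_zero

/-- `(1 + η)^n - 1 = η (n + r)` with `r` of positive order. -/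
lemma one_add_pow_sub_one (η : LaurentSeries C) (hη : 0 < η.orderTop) (n : ℕ) :
    ∃ r : LaurentSeries C, 0 < r.orderTop ∧ (1 + η) ^ n - 1 = η * (n + r) := by
  induction n with
  | zero => exact ⟨0, by simp, by simp⟩
  | succ n ih =>
    obtain ⟨r, hr, hrn⟩ := ih
    refine ⟨r + η * (n + r), ?_, ?_⟩
    · refine lt_of_lt_of_le ?_ HahnSeries.min_orderTop_le_orderTop_add
      refine lt_min hr ?_
      rw [HahnSeries.orderTop_mul]
      have h0 : (0 : WithTop ℤ) ≤ ((n : LaurentSeries C) + r).orderTop :=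
        le_trans (le_min (orderTop_natCast_nonneg n) hr.le) HahnSeries.min_orderTop_le_orderTop_add
      calc (0 : WithTop ℤ) < η.orderTop := hη
        _ = η.orderTop + 0 := (add_zero _).symm
        _ ≤ η.orderTop + ((n : LaurentSeries C) + r).orderTop := by gcongr
    · have : (1 + η) ^ (n + 1) - 1 = (1 + η) * ((1 + η) ^ n - 1) + η := by ring
      rw [this, hrn]; push_cast; ring

lemma orderTop_one_add_pow_sub_one [CharZero C] (η : LaurentSeries C) (hη : 0 < η.orderTop)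
    {n : ℕ} (hn : n ≠ 0) : ((1 + η) ^ n - 1).orderTop = η.orderTop := by
  obtain ⟨r, hr, hrn⟩ := one_add_pow_sub_one η hη n
  rw [hrn, HahnSeries.orderTop_mul]
  have : ((n : LaurentSeries C) + r).orderTop = 0 := by
    rw [HahnSeries.orderTop_add_eq_left (by rw [orderTop_natCast hn]; exact hr), orderTop_natCast hn]
  rw [this, add_zero]

end Laurent

section Place

variable {K F : Type*} [Field K] [Field F] [Algebra K F]
variable {C : Type*} [Field C]

lemma ord_algebraMap (v : Place K F) (c : K) : v.ord (algebraMap K F c) = 0 := by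
  rcases eq_or_ne c 0 with rfl | hc
  · simp
  · have hu : IsUnit (algebraMap K v.toValuationSubring c) := (isUnit_iff_ne_zero.mpr hc).map _
    have h := v.ord_coe_unit hu.unit
    rwa [IsUnit.unit_spec, Place.coe_algebraMap] at h

lemma exists_ord_eq_one (v : Place K F) : ∃ π : F, v.ord π = 1 := by
  obtain ⟨π, hπ⟩ := IsDiscreteValuationRing.exists_irreducible v.toValuationSubring
  exact ⟨π, v.ord_coe_irreducible hπ⟩

lemma ne_zero_of_ord_ne_zero (v : Place K F) {f : F} (h : v.ord f ≠ 0) : f ≠ 0 := by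
  rintro rfl; exact h v.ord_zero

lemma ord_pow (v : Place K F) (f : F) (n : ℕ) : v.ord (f ^ n) = n * v.ord f := by
  have := v.ord_zpow f (n : ℤ)
  rwa [zpow_natCast] at this

lemma orderTop_of_induces (v : Place K F) (ι : F →+* LaurentSeries C) (m : ℕ)
    (hι : ∀ f : F, f ≠ 0 → (ι f).order = m * v.ord f) {f : F} (hf : f ≠ 0) :
    (ι f).orderTop = ((m * v.ord f : ℤ) : WithTop ℤ) := by
  have h0 : ι f ≠ 0 := (map_ne_zero ι).mpr hf
  rw [← hι f hf, HahnSeries.order_eq_orderTop_of_ne_zero h0]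

lemma orderTop_nonneg_of_induces (v : Place K F) (ι : F →+* LaurentSeries C) (m : ℕ)
    (hι : ∀ f : F, f ≠ 0 → (ι f).order = m * v.ord f) {b : F} (hb : 0 ≤ v.ord b) :
    (0 : WithTop ℤ) ≤ (ι b).orderTop := by
  rcases eq_or_ne b 0 with rfl | hb0
  · simp
  · rw [orderTop_of_induces v ι m hι hb0]
    exact_mod_cast mul_nonneg (Int.natCast_nonneg m) hb

/-- `π`-adic approximation: two embeddings agreeing on `K` differ on integral elements by a multiple
of `ι₁ π - ι₂ π`, up to arbitrarily high order. -/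
lemma approx (v : Place K F)
    (hres : ∀ b : F, 0 ≤ v.ord b →
      ∃ a : K, b = algebraMap K F a ∨ 0 < v.ord (b - algebraMap K F a))
    {π : F} (hπ : v.ord π = 1) (ι₁ ι₂ : F →+* LaurentSeries C)
    (hK : ∀ a : K, ι₁ (algebraMap K F a) = ι₂ (algebraMap K F a)) (m : ℕ)
    (h₁ : ∀ f : F, f ≠ 0 → (ι₁ f).order = m * v.ord f)
    (h₂ : ∀ f : F, f ≠ 0 → (ι₂ f).order = m * v.ord f) (M : ℕ) :
    ∀ b : F, 0 ≤ v.ord b →
      min (ι₁ π - ι₂ π).orderTop (((m * M : ℕ) : ℤ) : WithTop ℤ) ≤ (ι₁ b - ι₂ b).orderTop := by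
  induction M with
  | zero =>
    intro b hb
    refine le_trans (min_le_right _ _) ?_
    simp only [mul_zero, Nat.cast_zero, WithTop.coe_zero]
    exact le_trans (le_min (orderTop_nonneg_of_induces v ι₁ m h₁ hb)
      (orderTop_nonneg_of_induces v ι₂ m h₂ hb)) HahnSeries.min_orderTop_le_orderTop_sub
  | succ M ih =>
    intro b hb
    obtain ⟨c, hc | hc⟩ := hres b hb
    · rw [hc, hK c, sub_self, HahnSeries.orderTop_zero]; exact le_top
    · have hπ0 : π ≠ 0 := ne_zero_of_ord_ne_zero v (by rw [hπ]; exact one_ne_zero)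
      have hbc0 : b - algebraMap K F c ≠ 0 := ne_zero_of_ord_ne_zero v hc.ne'
      obtain ⟨b', hb'⟩ : ∃ b' : F, b' = (b - algebraMap K F c) * π⁻¹ := ⟨_, rfl⟩
      have hb'ord : 0 ≤ v.ord b' := by
        rw [hb', v.ord_mul hbc0 (inv_ne_zero hπ0), v.ord_inv, hπ]; omega
      have hbeq : b = algebraMap K F c + π * b' := by rw [hb']; field_simp; ring
      have key : ι₁ b - ι₂ b = ι₁ π * (ι₁ b' - ι₂ b') + (ι₁ π - ι₂ π) * ι₂ b' := by
        conv_lhs => rw [hbeq]
        simp only [map_add, map_mul, hK c]; ring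
      rw [key]
      refine le_trans ?_ HahnSeries.min_orderTop_le_orderTop_add
      refine le_min ?_ ?_
      · rw [HahnSeries.orderTop_mul, orderTop_of_induces v ι₁ m h₁ hπ0, hπ, mul_one]
        have h := ih b' hb'ord
        have hcast : (((m * (M + 1) : ℕ) : ℤ) : WithTop ℤ)
            = ((m : ℤ) : WithTop ℤ) + (((m * M : ℕ) : ℤ) : WithTop ℤ) := by
          rw [← WithTop.coe_add]; congr 1; push_cast; ring
        have hm0 : (0 : WithTop ℤ) ≤ ((m : ℤ) : WithTop ℤ) := by exact_mod_cast Int.natCast_nonneg m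
        calc min (ι₁ π - ι₂ π).orderTop (((m * (M + 1) : ℕ) : ℤ) : WithTop ℤ)
            ≤ min (((m : ℤ) : WithTop ℤ) + (ι₁ π - ι₂ π).orderTop)
                (((m : ℤ) : WithTop ℤ) + (((m * M : ℕ) : ℤ) : WithTop ℤ)) :=
              min_le_min (le_add_of_nonneg_left hm0) (le_of_eq hcast)
          _ = ((m : ℤ) : WithTop ℤ) + min (ι₁ π - ι₂ π).orderTop (((m * M : ℕ) : ℤ) : WithTop ℤ) :=
              min_add_add_left _ _ _
          _ ≤ ((m : ℤ) : WithTop ℤ) + (ι₁ b' - ι₂ b').orderTop := by gcongr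
      · rw [HahnSeries.orderTop_mul]
        refine le_trans (min_le_left _ _) ?_
        exact le_add_of_nonneg_right (orderTop_nonneg_of_induces v ι₂ m h₂ hb'ord)

/-- If the two embeddings agree on a uniformizer, they agree on all integral elements. -/
lemma eq_on_of_eq (v : Place K F)
    (hres : ∀ b : F, 0 ≤ v.ord b →
      ∃ a : K, b = algebraMap K F a ∨ 0 < v.ord (b - algebraMap K F a))
    {π : F} (hπ : v.ord π = 1) (ι₁ ι₂ : F →+* LaurentSeries C)
    (hK : ∀ a : K, ι₁ (algebraMap K F a) = ι₂ (algebraMap K F a)) {m : ℕ} (hm : 0 < m)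
    (h₁ : ∀ f : F, f ≠ 0 → (ι₁ f).order = m * v.ord f)
    (h₂ : ∀ f : F, f ≠ 0 → (ι₂ f).order = m * v.ord f) (hQ : ι₁ π = ι₂ π) :
    ∀ b : F, 0 ≤ v.ord b → ι₁ b = ι₂ b := by
  intro b hb
  by_contra hne
  have hd : ι₁ b - ι₂ b ≠ 0 := sub_ne_zero.mpr hne
  obtain ⟨k, hk⟩ : ∃ k : ℤ, (ι₁ b - ι₂ b).orderTop = k :=
    ⟨_, (HahnSeries.order_eq_orderTop_of_ne_zero hd).symm⟩
  have h := approx v hres hπ ι₁ ι₂ hK m h₁ h₂ (k.toNat + 1) b hb
  rw [hQ, sub_self, HahnSeries.orderTop_zero, min_eq_right le_top, hk, WithTop.coe_le_coe] at h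
  have h1 : (k.toNat + 1 : ℤ) ≤ m * (k.toNat + 1) := by
    have : (1 : ℤ) ≤ m := by exact_mod_cast hm
    nlinarith [Int.natCast_nonneg k.toNat]
  push_cast at h
  omega

/-- If the two embeddings differ on a uniformizer `π`, their difference on integral elements
is divisible by `ι₁ π - ι₂ π`. -/
lemma le_orderTop_sub (v : Place K F)
    (hres : ∀ b : F, 0 ≤ v.ord b →
      ∃ a : K, b = algebraMap K F a ∨ 0 < v.ord (b - algebraMap K F a))
    {π : F} (hπ : v.ord π = 1) (ι₁ ι₂ : F →+* LaurentSeries C)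
    (hK : ∀ a : K, ι₁ (algebraMap K F a) = ι₂ (algebraMap K F a)) {m : ℕ} (hm : 0 < m)
    (h₁ : ∀ f : F, f ≠ 0 → (ι₁ f).order = m * v.ord f)
    (h₂ : ∀ f : F, f ≠ 0 → (ι₂ f).order = m * v.ord f) (hQ : ι₁ π ≠ ι₂ π) :
    ∀ b : F, 0 ≤ v.ord b → (ι₁ π - ι₂ π).orderTop ≤ (ι₁ b - ι₂ b).orderTop := by
  intro b hb
  have hd : ι₁ π - ι₂ π ≠ 0 := sub_ne_zero.mpr hQ
  obtain ⟨k, hk⟩ : ∃ k : ℤ, (ι₁ π - ι₂ π).orderTop = k :=
    ⟨_, (HahnSeries.order_eq_orderTop_of_ne_zero hd).symm⟩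
  have h := approx v hres hπ ι₁ ι₂ hK m h₁ h₂ k.toNat b hb
  have h1 : (k : WithTop ℤ) ≤ (((m * k.toNat : ℕ) : ℤ) : WithTop ℤ) := by
    rw [WithTop.coe_le_coe]
    have : (1 : ℤ) ≤ m := by exact_mod_cast hm
    push_cast
    nlinarith [Int.natCast_nonneg k.toNat, Int.self_le_toNat k]
  rw [hk, min_eq_left h1] at h
  rw [hk]; exact h

/-- Key step: if the images of a uniformizer have the same leading term, they are equal. -/
lemma unif_eq [CharZero C] (v : Place K F)
    (hres : ∀ b : F, 0 ≤ v.ord b →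
      ∃ a : K, b = algebraMap K F a ∨ 0 < v.ord (b - algebraMap K F a))
    {π : F} (hπ : v.ord π = 1) {t : F} {e : ℕ} (he : 0 < e) (hte : v.ord t = e)
    (ι₁ ι₂ : F →+* LaurentSeries C)
    (hK : ∀ a : K, ι₁ (algebraMap K F a) = ι₂ (algebraMap K F a)) {m : ℕ} (hm : 0 < m)
    (h₁ : ∀ f : F, f ≠ 0 → (ι₁ f).order = m * v.ord f)
    (h₂ : ∀ f : F, f ≠ 0 → (ι₂ f).order = m * v.ord f) (hT : ι₁ t = ι₂ t)
    (hlt : ((m : ℤ) : WithTop ℤ) < (ι₁ π - ι₂ π).orderTop) : ι₁ π = ι₂ π := by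
  by_contra hne
  have hπ0 : π ≠ 0 := ne_zero_of_ord_ne_zero v (by rw [hπ]; exact one_ne_zero)
  have ht0 : t ≠ 0 := ne_zero_of_ord_ne_zero v (by rw [hte]; exact_mod_cast he.ne')
  have hQ₂0 : ι₂ π ≠ 0 := (map_ne_zero ι₂).mpr hπ0
  have hwQ₂ : (ι₂ π).orderTop = ((m : ℤ) : WithTop ℤ) := by
    rw [orderTop_of_induces v ι₂ m h₂ hπ0, hπ, mul_one]
  obtain ⟨η, hη⟩ : ∃ η : LaurentSeries C, η = (ι₁ π - ι₂ π) * (ι₂ π)⁻¹ := ⟨_, rfl⟩
  have hδη : ι₁ π - ι₂ π = η * ι₂ π := by rw [hη]; field_simp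
  have hwδ : (ι₁ π - ι₂ π).orderTop = η.orderTop + ((m : ℤ) : WithTop ℤ) := by
    rw [hδη, HahnSeries.orderTop_mul, hwQ₂]
  have hη0 : η ≠ 0 := by
    rintro rfl; rw [zero_mul] at hδη; exact hne (sub_eq_zero.mp hδη)
  obtain ⟨k, hk⟩ : ∃ k : ℤ, η.orderTop = k :=
    ⟨_, (HahnSeries.order_eq_orderTop_of_ne_zero hη0).symm⟩
  have hηpos : 0 < η.orderTop := by
    rw [hwδ, hk, ← WithTop.coe_add, WithTop.coe_lt_coe] at hlt
    rw [hk, ← WithTop.coe_zero, WithTop.coe_lt_coe]; omega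
  -- the unit `u = t / π ^ e`
  obtain ⟨u, hu⟩ : ∃ u : F, u = t * (π ^ e)⁻¹ := ⟨_, rfl⟩
  have hπe0 : π ^ e ≠ 0 := pow_ne_zero e hπ0
  have hu0 : u ≠ 0 := by rw [hu]; exact mul_ne_zero ht0 (inv_ne_zero hπe0)
  have hordu : v.ord u = 0 := by
    rw [hu, v.ord_mul ht0 (inv_ne_zero hπe0), v.ord_inv, ord_pow, hπ, hte]; ring
  have htu : t = u * π ^ e := by rw [hu]; field_simp
  have hU : ι₁ u * ι₁ π ^ e = ι₂ u * ι₂ π ^ e := by
    rw [← map_pow, ← map_mul, ← map_pow, ← map_mul, ← htu, hT]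
  have hQ₁ : ι₁ π = ι₂ π * (1 + η) := by
    have : ι₁ π = (ι₁ π - ι₂ π) + ι₂ π := by ring
    rw [this, hδη]; ring
  have hmain : ι₁ u * ((1 + η) ^ e - 1) = ι₂ u - ι₁ u := by
    have : ι₁ u * (1 + η) ^ e = ι₂ u := by
      apply mul_right_cancel₀ (pow_ne_zero e hQ₂0)
      rw [← hU]
      conv_rhs => rw [hQ₁, mul_pow]
      ring
    rw [← this]; ring
  have hL : (ι₁ u * ((1 + η) ^ e - 1)).orderTop = η.orderTop := by
    rw [HahnSeries.orderTop_mul, orderTop_one_add_pow_sub_one η hηpos he.ne',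
      orderTop_of_induces v ι₁ m h₁ hu0, hordu, mul_zero, WithTop.coe_zero, zero_add]
  have hR : (ι₁ π - ι₂ π).orderTop ≤ (ι₂ u - ι₁ u).orderTop := by
    have h := le_orderTop_sub v hres hπ ι₁ ι₂ hK hm h₁ h₂ hne u (by rw [hordu])
    rwa [← HahnSeries.orderTop_neg (x := ι₁ u - ι₂ u), neg_sub] at h
  rw [← hmain, hL, hwδ, hk, ← WithTop.coe_add, WithTop.coe_le_coe] at hR
  have : (1 : ℤ) ≤ m := by exact_mod_cast hm
  omega

/-- **Uniqueness**: two embeddings `F → C((s))` which agree on `K`, induce the same place `v`,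
agree on an element `t` with `ord_v t > 0` and send a uniformizer `π` to series with the same
leading coefficient are equal. -/
theorem eq_of_leadingCoeff_eq [CharZero C] (v : Place K F)
    (hres : ∀ b : F, 0 ≤ v.ord b →
      ∃ a : K, b = algebraMap K F a ∨ 0 < v.ord (b - algebraMap K F a))
    {π : F} (hπ : v.ord π = 1) {t : F} (ht : 0 < v.ord t)
    (ι₁ ι₂ : F →+* LaurentSeries C)
    (hK : ∀ a : K, ι₁ (algebraMap K F a) = ι₂ (algebraMap K F a))
    {m₁ m₂ : ℕ} (hm₁ : 0 < m₁)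
    (h₁ : ∀ f : F, f ≠ 0 → (ι₁ f).order = m₁ * v.ord f)
    (h₂ : ∀ f : F, f ≠ 0 → (ι₂ f).order = m₂ * v.ord f) (hT : ι₁ t = ι₂ t)
    (hlead : (ι₁ π).leadingCoeff = (ι₂ π).leadingCoeff) : ι₁ = ι₂ := by
  have ht0 : t ≠ 0 := ne_zero_of_ord_ne_zero v ht.ne'
  have hπ0 : π ≠ 0 := ne_zero_of_ord_ne_zero v (by rw [hπ]; exact one_ne_zero)
  have hmm : m₁ = m₂ := by
    have e1 := h₁ t ht0
    have e2 := h₂ t ht0
    rw [hT, e2] at e1
    have := mul_right_cancel₀ ht.ne' e1
    exact_mod_cast this.symm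
  subst hmm
  obtain ⟨e, he⟩ : ∃ e : ℕ, v.ord t = e := ⟨(v.ord t).toNat, (Int.toNat_of_nonneg ht.le).symm⟩
  have he0 : 0 < e := by rw [he] at ht; exact_mod_cast ht
  have hlt : ((m₁ : ℤ) : WithTop ℤ) < (ι₁ π - ι₂ π).orderTop := by
    apply HahnSeries.le_orderTop_of_leadingCoeff_eq _ _ hlead
    · rw [orderTop_of_induces v ι₁ m₁ h₁ hπ0, hπ, mul_one]
    · rw [orderTop_of_induces v ι₂ m₁ h₂ hπ0, hπ, mul_one]
  have hQ := unif_eq v hres hπ he0 he ι₁ ι₂ hK hm₁ h₁ h₂ hT hlt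
  have hO := eq_on_of_eq v hres hπ ι₁ ι₂ hK hm₁ h₁ h₂ hQ
  ext1 f
  by_cases hf : 0 ≤ v.ord f
  · exact hO f hf
  · have hf' : 0 ≤ v.ord f⁻¹ := by rw [v.ord_inv]; omega
    have := hO f⁻¹ hf'
    rw [map_inv₀, map_inv₀] at this
    exact inv_injective this

lemma leadingCoeff_pow (x : LaurentSeries C) (n : ℕ) :
    (x ^ n).leadingCoeff = x.leadingCoeff ^ n := by
  induction n with
  | zero => simp
  | succ n ih => rw [pow_succ, HahnSeries.leadingCoeff_mul, ih, pow_succ]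

/-- **Counting**: at most `ord_v t` embeddings `F → C((s))` with prescribed restriction to `K`
and prescribed value at `t` induce the place `v`. -/
theorem card_le [CharZero C] (v : Place K F)
    (hres : ∀ b : F, 0 ≤ v.ord b →
      ∃ a : K, b = algebraMap K F a ∨ 0 < v.ord (b - algebraMap K F a))
    {t : F} (ht : 0 < v.ord t) (φ₀ : K →+* LaurentSeries C) (T : LaurentSeries C)
    (s : Finset (F →+* LaurentSeries C))
    (hs : ∀ ι ∈ s, (∀ a : K, ι (algebraMap K F a) = φ₀ a) ∧ ι t = T ∧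
      ∃ m : ℕ, 0 < m ∧ ∀ f : F, f ≠ 0 → (ι f).order = m * v.ord f) :
    (s.card : ℤ) ≤ v.ord t := by
  classical
  obtain ⟨π, hπ⟩ := exists_ord_eq_one v
  have ht0 : t ≠ 0 := ne_zero_of_ord_ne_zero v ht.ne'
  have hπ0 : π ≠ 0 := ne_zero_of_ord_ne_zero v (by rw [hπ]; exact one_ne_zero)
  obtain ⟨e, he⟩ : ∃ e : ℕ, v.ord t = e := ⟨(v.ord t).toNat, (Int.toNat_of_nonneg ht.le).symm⟩
  have he0 : 0 < e := by rw [he] at ht; exact_mod_cast ht
  obtain ⟨u, hu⟩ : ∃ u : F, u = t * (π ^ e)⁻¹ := ⟨_, rfl⟩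
  have hπe0 : π ^ e ≠ 0 := pow_ne_zero e hπ0
  have hu0 : u ≠ 0 := by rw [hu]; exact mul_ne_zero ht0 (inv_ne_zero hπe0)
  have hordu : v.ord u = 0 := by
    rw [hu, v.ord_mul ht0 (inv_ne_zero hπe0), v.ord_inv, ord_pow, hπ, he]; ring
  have htu : t = u * π ^ e := by rw [hu]; field_simp
  obtain ⟨c, hc⟩ := hres u (by rw [hordu])
  have hc0 : c ≠ 0 := by
    rintro rfl
    rw [map_zero, sub_zero, hordu] at hc
    rcases hc with hc | hc
    · exact hu0 hc
    · exact lt_irrefl _ hc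
  -- the leading coefficient of `ι π` is an `e`-th root of a fixed element
  have hroot : ∀ ι ∈ s, (ι π).leadingCoeff ^ e = T.leadingCoeff / (φ₀ c).leadingCoeff := by
    intro ι hι
    obtain ⟨hιK, hιt, m, hm, hιm⟩ := hs ι hι
    have hφc : φ₀ c ≠ 0 := by
      rw [← hιK c]; exact (map_ne_zero ι).mpr ((map_ne_zero (algebraMap K F)).mpr hc0)
    have hφc' : (φ₀ c).leadingCoeff ≠ 0 := HahnSeries.leadingCoeff_ne_zero.mpr hφc
    have hwφc : (φ₀ c).orderTop = 0 := by
      rw [← hιK c, orderTop_of_induces v ι m hιm ((map_ne_zero (algebraMap K F)).mpr hc0),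
        ord_algebraMap, mul_zero, WithTop.coe_zero]
    have hlu : (ι u).leadingCoeff = (φ₀ c).leadingCoeff := by
      rcases hc with hc | hc
      · rw [hc, hιK c]
      · have hne : u - algebraMap K F c ≠ 0 := ne_zero_of_ord_ne_zero v hc.ne'
        have : ι u = φ₀ c + ι (u - algebraMap K F c) := by rw [map_sub, hιK c]; ring
        rw [this]
        apply HahnSeries.leadingCoeff_add_eq_left
        rw [hwφc, orderTop_of_induces v ι m hιm hne, ← WithTop.coe_zero, WithTop.coe_lt_coe]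
        have : (0 : ℤ) < m := by exact_mod_cast hm
        positivity
    have hTeq : T = ι u * ι π ^ e := by rw [← hιt, htu, map_mul, map_pow]
    rw [hTeq, HahnSeries.leadingCoeff_mul, leadingCoeff_pow, hlu]
    field_simp
  obtain ⟨a, ha⟩ : ∃ a : C, a = T.leadingCoeff / (φ₀ c).leadingCoeff := ⟨_, rfl⟩
  have hcard : s.card ≤ (Polynomial.nthRoots e a).toFinset.card := by
    apply Finset.card_le_card_of_injOn (fun ι => (ι π).leadingCoeff)
    · intro ι hι
      simp only [Multiset.mem_toFinset, Finset.mem_coe]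
      rw [Polynomial.mem_nthRoots he0, ha]
      exact hroot ι hι
    · intro ι₁ hι₁ ι₂ hι₂ hlead
      obtain ⟨hK₁, ht₁, m₁, hm₁, h₁⟩ := hs ι₁ hι₁
      obtain ⟨hK₂, ht₂, m₂, _, h₂⟩ := hs ι₂ hι₂
      exact eq_of_leadingCoeff_eq v hres hπ ht ι₁ ι₂ (fun a => by rw [hK₁, hK₂]) hm₁ h₁ h₂
        (by rw [ht₁, ht₂]) hlead
  have h2 : (Polynomial.nthRoots e a).toFinset.card ≤ e :=
    le_trans (Multiset.toFinset_card_le _) (Polynomial.card_nthRoots e a)
  rw [he]
  exact_mod_cast le_trans hcard h2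

end Place

end EmbUnique

variable {K F C : Type*} [Field K] [Field F] [Algebra K F] [Field C] [CharZero C]

/-- (a)+(c): two embeddings inducing the same place, equal on `K` and on `t` (`ord_v t ≠ 0`),
whose values at a uniformizer `π` have the same leading coefficient, are equal.
`hres` says that the residue field of `v` is `K` (shape of `Residue.exists_residue`). -/
theorem emb_eq_of_leadingCoeff_eq (v : Place K F)
    (hres : ∀ b : F, 0 ≤ v.ord b →
      ∃ a : K, b = algebraMap K F a ∨ 0 < v.ord (b - algebraMap K F a))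
    (ι₁ ι₂ : F →+* LaurentSeries C) (r₁ r₂ : ℕ)
    (h₁ : EmbInduces ι₁ v r₁) (h₂ : EmbInduces ι₂ v r₂)
    (hK : ∀ a : K, ι₁ (algebraMap K F a) = ι₂ (algebraMap K F a))
    (t : F) (ht : v.ord t ≠ 0) (htt : ι₁ t = ι₂ t)
    (π : F) (hπ : v.ord π = 1)
    (hlead : (ι₁ π).leadingCoeff = (ι₂ π).leadingCoeff) : ι₁ = ι₂ := by
  rcases lt_or_gt_of_ne ht with hneg | hpos
  · have ht' : 0 < v.ord t⁻¹ := by rw [v.ord_inv]; omega
    exact EmbUnique.eq_of_leadingCoeff_eq v hres hπ ht' ι₁ ι₂ hK h₁.1 h₁.2 h₂.2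
      (by rw [map_inv₀, map_inv₀, htt]) hlead
  · exact EmbUnique.eq_of_leadingCoeff_eq v hres hπ hpos ι₁ ι₂ hK h₁.1 h₁.2 h₂.2 htt hlead

/-- EXPORT (EmbUnique): a family of pairwise distinct embeddings, pairwise equal on `K` and
at `t`, all inducing the same place `v` with `0 < ord_v t`, has at most `ord_v t` members. -/
theorem card_emb_le (v : Place K F)
    (hres : ∀ b : F, 0 ≤ v.ord b →
      ∃ a : K, b = algebraMap K F a ∨ 0 < v.ord (b - algebraMap K F a))
    (t : F) (ht : 0 < v.ord t)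
    {X : Type*} (ι : X → F →+* LaurentSeries C) (hinj : Function.Injective ι)
    (hK' : ∀ (x y : X) (a : K), ι x (algebraMap K F a) = ι y (algebraMap K F a))
    (ht' : ∀ x y : X, ι x t = ι y t)
    (S : Finset X) (hS : ∀ x ∈ S, ∃ r, EmbInduces (ι x) v r) :
    (S.card : ℤ) ≤ v.ord t := by
  classical
  rcases S.eq_empty_or_nonempty with rfl | ⟨x₀, -⟩
  · simpa using ht.le
  · have h := EmbUnique.card_le v hres ht ((ι x₀).comp (algebraMap K F)) (ι x₀ t)
      (S.image ι) (by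
        intro ι' hι'
        obtain ⟨x, hx, rfl⟩ := Finset.mem_image.mp hι'
        obtain ⟨r, hr⟩ := hS x hx
        exact ⟨fun a => hK' x x₀ a, ht' x x₀, r, hr.1, hr.2⟩)
    rwa [Finset.card_image_of_injective S hinj] at h

end Fermat.Agent.S24
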