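/-
S24 / EmbCore (owner helper43): counting places of `F/K` over `t = 0` through a family of
embeddings `ι x : F →+* C((s))`, `x ∈ X`, `|X| = n = Σ_{v | t} ord_v t`.  No `IsFF1` here: the
function-field facts enter as the hypotheses `hres`, `hfin`, `hsum`.
EXPORTS:
* `exists_emb_induces`            every place `v` with `0 < ord_v t` is induced by some `ι x`;
* `ord_eq_one_of_order_eq_one`    if `ord_s (ι x t) = 1` then `ord_v t = 1` for all such `v`;
* `card_places_eq_card_orbits_core`  `#{v | 0 < ord_v t} = #(⟨g⟩-orbits on X)` (abstract form);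
* `card_places_eq_card_orbits_of_coeff`  same, equivariance stated coefficientwise.
-/
import Mathlib
import Fermat.Agent.S24.EmbDefs
import Fermat.Agent.S24.EmbPlace
import Fermat.Agent.S24.EmbUnique
import Fermat.Agent.S24.EmbOrbit

set_option autoImplicit false

namespace Fermat.Agent.S24

open AlgebraicCurve

variable {K F C : Type*} [Field K] [Field F] [Algebra K F] [Field C]

namespace EmbCore

/-- every member of the family induces a place over `t = 0` -/
theorem exists_induced (t : F) {X : Type*} (ι : X → F →+* LaurentSeries C)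
    (hK : ∀ (x : X) (a : K), ∃ c : C, ι x (algebraMap K F a) = HahnSeries.C c)
    (hord : ∀ x : X, 0 < (ι x t).order) :
    ∃ (pl : X → {v : Place K F // 0 < v.ord t}) (rr : X → ℕ),
      ∀ x, EmbInduces (ι x) (pl x).1 (rr x) := by
  have h : ∀ x : X, ∃ (p : {v : Place K F // 0 < v.ord t}) (r : ℕ), EmbInduces (ι x) p.1 r := by
    intro x
    have ht0 : t ≠ 0 := by
      rintro rfl
      have := hord x
      simp at this
    obtain ⟨v, r, hv⟩ := exists_place_of_emb (K := K) (ι x)
      (fun a _ => by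
        obtain ⟨c, hc⟩ := hK x a
        rw [hc, HahnSeries.order_C]) t (hord x).ne'
    exact ⟨⟨v, (hv.order_pos_iff ht0).mp (hord x)⟩, r, hv⟩
  choose pl rr hpl using h
  exact ⟨pl, rr, hpl⟩

/-- finite sums of the `ord_v t` over places above `t = 0` are bounded by the total -/
theorem sum_toNat_le (t : F) (n : ℕ)
    (hfin : {v : Place K F | 0 < v.ord t}.Finite)
    (hsum : ∑ᶠ v ∈ {v : Place K F | 0 < v.ord t}, v.ord t = (n : ℤ))
    (S : Finset {v : Place K F // 0 < v.ord t}) :
    ∑ p ∈ S, (p.1.ord t).toNat ≤ n := by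
  classical
  rw [finsum_mem_eq_finite_toFinset_sum _ hfin] at hsum
  have h1 : ((∑ p ∈ S, (p.1.ord t).toNat : ℕ) : ℤ) = ∑ v ∈ S.map (Function.Embedding.subtype _),
      v.ord t := by
    rw [Finset.sum_map]
    push_cast
    refine Finset.sum_congr rfl fun p _ => ?_
    have := p.2
    simp only [Function.Embedding.coe_subtype]
    omega
  have h2 : ∑ v ∈ S.map (Function.Embedding.subtype _), v.ord t ≤
      ∑ v ∈ hfin.toFinset, v.ord t := by
    refine Finset.sum_le_sum_of_subset_of_nonneg ?_ ?_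
    · intro v hv
      obtain ⟨p, -, rfl⟩ := Finset.mem_map.mp hv
      simp
    · intro v hv _
      have : 0 < v.ord t := by simpa using hv
      exact this.le
  have h3 : ((∑ p ∈ S, (p.1.ord t).toNat : ℕ) : ℤ) ≤ (n : ℤ) := by
    rw [h1, ← hsum]
    exact h2
  exact_mod_cast h3

/-- the total of the `ord_v t` over all places above `t = 0` -/
theorem sum_toNat_univ (t : F) (n : ℕ)
    (hfin : {v : Place K F | 0 < v.ord t}.Finite)
    (hsum : ∑ᶠ v ∈ {v : Place K F | 0 < v.ord t}, v.ord t = (n : ℤ))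
    [Fintype {v : Place K F // 0 < v.ord t}] :
    ∑ p : {v : Place K F // 0 < v.ord t}, (p.1.ord t).toNat = n := by
  classical
  rw [finsum_mem_eq_finite_toFinset_sum _ hfin] at hsum
  have h1 : ∑ v ∈ hfin.toFinset, v.ord t
      = ∑ p : {v : Place K F // 0 < v.ord t}, p.1.ord t :=
    Finset.sum_subtype hfin.toFinset (fun v => by simp) (fun v => v.ord t)
  have h2 : ((∑ p : {v : Place K F // 0 < v.ord t}, (p.1.ord t).toNat : ℕ) : ℤ) = (n : ℤ) := by
    rw [← hsum, h1]
    push_cast
    refine Finset.sum_congr rfl fun p _ => ?_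
    have := p.2
    omega
  exact_mod_cast h2

end EmbCore

variable [CharZero C]

/-- EXPORT (E1): every place over `t = 0` is induced by one of the embeddings. -/
theorem exists_emb_induces
    (hres : ∀ (v : Place K F) (b : F), 0 ≤ v.ord b →
      ∃ a : K, b = algebraMap K F a ∨ 0 < v.ord (b - algebraMap K F a))
    (t : F) (n : ℕ)
    (hfin : {v : Place K F | 0 < v.ord t}.Finite)
    (hsum : ∑ᶠ v ∈ {v : Place K F | 0 < v.ord t}, v.ord t = (n : ℤ))
    {X : Type*} [Finite X] (hX : Nat.card X = n)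
    (ι : X → F →+* LaurentSeries C) (hinj : Function.Injective ι)
    (hK : ∀ (x : X) (a : K), ∃ c : C, ι x (algebraMap K F a) = HahnSeries.C c)
    (hK' : ∀ (x y : X) (a : K), ι x (algebraMap K F a) = ι y (algebraMap K F a))
    (ht' : ∀ x y : X, ι x t = ι y t) (hord : ∀ x : X, 0 < (ι x t).order)
    (v : Place K F) (hv : 0 < v.ord t) :
    ∃ (x : X) (r : ℕ), EmbInduces (ι x) v r := by
  classical
  cases nonempty_fintype X
  letI : Fintype {v : Place K F // 0 < v.ord t} := hfin.fintype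
  obtain ⟨pl, rr, hpl⟩ := EmbCore.exists_induced (K := K) t ι hK hord
  by_contra hne
  -- the fibre over `v` is empty
  have hv' : ∀ x, pl x ≠ ⟨v, hv⟩ := by
    intro x hx
    exact hne ⟨x, rr x, by simpa [hx] using hpl x⟩
  -- fibrewise count
  have h1 : Fintype.card X = ∑ p : {v : Place K F // 0 < v.ord t},
      (Finset.univ.filter fun x => pl x = p).card := by
    rw [← Finset.card_univ]
    exact Finset.card_eq_sum_card_fiberwise (fun x _ => Finset.mem_univ (pl x))
  have h2 : ∀ p : {v : Place K F // 0 < v.ord t},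
      (Finset.univ.filter fun x => pl x = p).card ≤ (p.1.ord t).toNat := by
    intro p
    have h := card_emb_le p.1 (hres p.1) t p.2 ι hinj hK' ht' (Finset.univ.filter fun x => pl x = p)
      (fun x hx => ⟨rr x, by
        have hx' : pl x = p := (Finset.mem_filter.mp hx).2
        simpa [hx'] using hpl x⟩)
    omega
  have h3 : (Finset.univ.filter fun x => pl x = (⟨v, hv⟩ : {v : Place K F // 0 < v.ord t})).card
      = 0 := by
    rw [Finset.card_eq_zero, Finset.filter_eq_empty_iff]
    intro x _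
    exact hv' x
  have h4 := EmbCore.sum_toNat_univ t n hfin hsum
  have h5 : ∑ p : {v : Place K F // 0 < v.ord t}, (Finset.univ.filter fun x => pl x = p).card
      < ∑ p : {v : Place K F // 0 < v.ord t}, (p.1.ord t).toNat := by
    refine Finset.sum_lt_sum (fun p _ => h2 p) ⟨⟨v, hv⟩, Finset.mem_univ _, ?_⟩
    rw [h3]
    show 0 < (v.ord t).toNat
    omega
  rw [Nat.card_eq_fintype_card] at hX
  omega

/-- EXPORT (E3): the unramified case. -/
theorem ord_eq_one_of_order_eq_one
    (hres : ∀ (v : Place K F) (b : F), 0 ≤ v.ord b →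
      ∃ a : K, b = algebraMap K F a ∨ 0 < v.ord (b - algebraMap K F a))
    (t : F) (n : ℕ)
    (hfin : {v : Place K F | 0 < v.ord t}.Finite)
    (hsum : ∑ᶠ v ∈ {v : Place K F | 0 < v.ord t}, v.ord t = (n : ℤ))
    {X : Type*} [Finite X] (hX : Nat.card X = n)
    (ι : X → F →+* LaurentSeries C) (hinj : Function.Injective ι)
    (hK : ∀ (x : X) (a : K), ∃ c : C, ι x (algebraMap K F a) = HahnSeries.C c)
    (hK' : ∀ (x y : X) (a : K), ι x (algebraMap K F a) = ι y (algebraMap K F a))
    (ht' : ∀ x y : X, ι x t = ι y t) (hord : ∀ x : X, (ι x t).order = 1)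
    (v : Place K F) (hv : 0 < v.ord t) :
    v.ord t = 1 := by
  obtain ⟨x, r, hxr⟩ := exists_emb_induces hres t n hfin hsum hX ι hinj hK hK' ht'
    (fun x => by rw [hord x]; exact one_pos) v hv
  have ht0 : t ≠ 0 := EmbDefs.ne_zero_of_ord_ne_zero v hv.ne'
  have h1 := hxr.order_eq ht0
  rw [hord x] at h1
  have hr : (0 : ℤ) < r := by exact_mod_cast hxr.pos
  nlinarith

/-- EXPORT (E2), abstract form: places over `t = 0` correspond to `⟨g⟩`-orbits. -/
theorem card_places_eq_card_orbits_core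
    (hres : ∀ (v : Place K F) (b : F), 0 ≤ v.ord b →
      ∃ a : K, b = algebraMap K F a ∨ 0 < v.ord (b - algebraMap K F a))
    (t : F) (n : ℕ)
    (hfin : {v : Place K F | 0 < v.ord t}.Finite)
    (hsum : ∑ᶠ v ∈ {v : Place K F | 0 < v.ord t}, v.ord t = (n : ℤ))
    {X : Type*} [Finite X] (hX : Nat.card X = n)
    (ι : X → F →+* LaurentSeries C) (hinj : Function.Injective ι)
    (hK : ∀ (x : X) (a : K), ∃ c : C, ι x (algebraMap K F a) = HahnSeries.C c)
    (hK' : ∀ (x y : X) (a : K), ι x (algebraMap K F a) = ι y (algebraMap K F a))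
    (ht' : ∀ x y : X, ι x t = ι y t)
    (e₀ : ℕ) (he₀ : 0 < e₀) (hord : ∀ x : X, (ι x t).order = e₀)
    {G : Type*} [Group G] [MulAction G X] (g : G)
    (hε : ∀ (x : X) (f : F), (ι (g • x) f).order = (ι x f).order)
    (hdiv : ∀ (x : X) (k : ℕ), g ^ k • x = x → ∀ f : F, f ≠ 0 →
      ((e₀ / Nat.gcd k e₀ : ℕ) : ℤ) ∣ (ι x f).order) :
    Nat.card {v : Place K F // 0 < v.ord t} =
      Nat.card (MulAction.orbitRel.Quotient (Subgroup.zpowers g) X) := by
  classical
  have hord' : ∀ x : X, 0 < (ι x t).order := fun x => by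
    rw [hord x]; exact_mod_cast he₀
  obtain ⟨pl, rr, hpl⟩ := EmbCore.exists_induced (K := K) t ι hK hord'
  have ht0 : ∀ p : {v : Place K F // 0 < v.ord t}, t ≠ 0 := fun p =>
    EmbDefs.ne_zero_of_ord_ne_zero p.1 p.2.ne'
  refine card_eq_card_orbits g pl (fun p => (p.1.ord t).toNat) rr e₀ he₀ ?_ ?_ ?_ ?_ ?_ ?_
  · -- hpos
    intro p
    have := p.2
    show 0 < (p.1.ord t).toNat
    omega
  · -- hinv
    intro x
    have h1 : EmbInduces (ι (g • x)) (pl x).1 (rr x) :=
      ⟨(hpl x).pos, fun f hf => by rw [hε x f, (hpl x).order_eq hf]⟩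
    exact Subtype.ext ((hpl (g • x)).place_eq h1)
  · -- hfib
    intro p S hS
    have h := card_emb_le p.1 (hres p.1) t p.2 ι hinj hK' ht' S
      (fun x hx => ⟨rr x, by simpa [hS x hx] using hpl x⟩)
    show S.card ≤ (p.1.ord t).toNat
    omega
  · -- hre
    intro x
    have h1 := (hpl x).order_eq (ht0 (pl x))
    rw [hord x] at h1
    have h2 := (pl x).2
    show rr x * ((pl x).1.ord t).toNat = e₀
    have h3 : (((pl x).1.ord t).toNat : ℤ) = (pl x).1.ord t := by omega
    have h4 : ((rr x * ((pl x).1.ord t).toNat : ℕ) : ℤ) = (e₀ : ℤ) := by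
      push_cast
      rw [h3, ← h1]
    exact_mod_cast h4
  · -- hper
    intro x m hm
    obtain ⟨π, hπ⟩ := EmbDefs.exists_ord_eq_one (pl x).1
    have hπ0 : π ≠ 0 := EmbDefs.ne_zero_of_ord_ne_zero _ (by rw [hπ]; exact one_ne_zero)
    have h1 := hdiv x m hm π hπ0
    rw [(hpl x).order_eq hπ0, hπ, mul_one] at h1
    have h2 : (e₀ / Nat.gcd m e₀) ∣ rr x := by exact_mod_cast h1
    have h3 : e₀ = (e₀ / Nat.gcd m e₀) * Nat.gcd m e₀ :=
      (Nat.div_mul_cancel (Nat.gcd_dvd_right m e₀)).symm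
    calc e₀ = (e₀ / Nat.gcd m e₀) * Nat.gcd m e₀ := h3
      _ ∣ rr x * m := Nat.mul_dvd_mul h2 (Nat.gcd_dvd_left m e₀)
      _ = m * rr x := Nat.mul_comm _ _
  · -- htot
    intro S
    rw [hX]
    exact EmbCore.sum_toNat_le t n hfin hsum S

/-- EXPORT (E2), coefficientwise equivariance (shape of the analytic deliverables AN1/AN2). -/
theorem card_places_eq_card_orbits_of_coeff
    (hres : ∀ (v : Place K F) (b : F), 0 ≤ v.ord b →
      ∃ a : K, b = algebraMap K F a ∨ 0 < v.ord (b - algebraMap K F a))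
    (t : F) (n : ℕ)
    (hfin : {v : Place K F | 0 < v.ord t}.Finite)
    (hsum : ∑ᶠ v ∈ {v : Place K F | 0 < v.ord t}, v.ord t = (n : ℤ))
    {X : Type*} [Finite X] (hX : Nat.card X = n)
    (ι : X → F →+* LaurentSeries C) (hinj : Function.Injective ι)
    (hK : ∀ (x : X) (a : K), ∃ c : C, ι x (algebraMap K F a) = HahnSeries.C c)
    (hK' : ∀ (x y : X) (a : K), ι x (algebraMap K F a) = ι y (algebraMap K F a))
    (ht' : ∀ x y : X, ι x t = ι y t)
    (e₀ : ℕ) (he₀ : 0 < e₀) (hord : ∀ x : X, (ι x t).order = e₀)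
    {G : Type*} [Group G] [MulAction G X] (g : G) (ζ : C) (hζ : IsPrimitiveRoot ζ e₀)
    (hg : ∀ (x : X) (f : F) (k : ℤ), (ι (g • x) f).coeff k = ζ ^ k * (ι x f).coeff k) :
    Nat.card {v : Place K F // 0 < v.ord t} =
      Nat.card (MulAction.orbitRel.Quotient (Subgroup.zpowers g) X) := by
  have hζ0 : ζ ≠ 0 := hζ.ne_zero he₀.ne'
  -- iterate the coefficient relation
  have hiter : ∀ (m : ℕ) (x : X) (f : F) (k : ℤ),
      (ι (g ^ m • x) f).coeff k = ζ ^ ((m : ℤ) * k) * (ι x f).coeff k := by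
    intro m
    induction m with
    | zero => intro x f k; simp
    | succ m ih =>
      intro x f k
      rw [pow_succ', mul_smul, hg, ih]
      rw [← mul_assoc, ← zpow_add₀ hζ0]
      congr 2
      push_cast
      ring
  refine card_places_eq_card_orbits_core hres t n hfin hsum hX ι hinj hK hK' ht' e₀ he₀ hord g
    ?_ ?_
  · -- orders are preserved
    intro x f
    rcases eq_or_ne f 0 with rfl | hf
    · simp
    have h1 : ι x f ≠ 0 := (map_ne_zero (ι x)).mpr hf
    have h2 : ι (g • x) f ≠ 0 := (map_ne_zero (ι (g • x))).mpr hf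
    have hsupp : (ι (g • x) f).support = (ι x f).support := by
      ext k
      simp only [HahnSeries.mem_support, hg x f k, ne_eq, mul_eq_zero, zpow_ne_zero k hζ0,
        false_or]
    rw [HahnSeries.order_of_ne h2, HahnSeries.order_of_ne h1]
    congr 1
  · -- divisibility of the orders
    intro x k hk f hf
    have h1 : ι x f ≠ 0 := (map_ne_zero (ι x)).mpr hf
    have h2 : (ι x f).coeff (ι x f).order ≠ 0 := by
      rwa [ne_eq, HahnSeries.coeff_order_eq_zero]
    have h3 := hiter k x f (ι x f).order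
    rw [hk] at h3
    have h4 : ζ ^ ((k : ℤ) * (ι x f).order) = 1 := by
      have h5 : (ζ ^ ((k : ℤ) * (ι x f).order) - 1) * (ι x f).coeff (ι x f).order = 0 := by
        rw [sub_mul, one_mul, ← h3, sub_self]
      rcases mul_eq_zero.mp h5 with h6 | h6
      · exact sub_eq_zero.mp h6
      · exact absurd h6 h2
    have h5 : (e₀ : ℤ) ∣ (k : ℤ) * (ι x f).order := (hζ.zpow_eq_one_iff_dvd _).mp h4
    -- `e₀ / gcd k e₀` is coprime to `k / gcd k e₀`
    have hgpos : 0 < Nat.gcd k e₀ := Nat.gcd_pos_of_pos_right k he₀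
    obtain ⟨a, ha⟩ := Nat.gcd_dvd_left k e₀
    obtain ⟨b, hb⟩ := Nat.gcd_dvd_right k e₀
    have hdivb : e₀ / Nat.gcd k e₀ = b :=
      Nat.div_eq_of_eq_mul_right hgpos hb
    have hcop : Nat.Coprime b a := by
      have h := Nat.coprime_div_gcd_div_gcd hgpos
      have e1 : k / Nat.gcd k e₀ = a :=
        Nat.div_eq_of_eq_mul_right hgpos ha
      rw [e1, hdivb] at h
      exact h.symm
    rw [hdivb]
    have h6 : ((Nat.gcd k e₀ : ℕ) : ℤ) * (b : ℤ) ∣ ((Nat.gcd k e₀ : ℕ) : ℤ) * ((a : ℤ) * (ι x f).order) := by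
      have e1 : (e₀ : ℤ) = ((Nat.gcd k e₀ : ℕ) : ℤ) * (b : ℤ) := by exact_mod_cast hb
      have e2 : (k : ℤ) = ((Nat.gcd k e₀ : ℕ) : ℤ) * (a : ℤ) := by exact_mod_cast ha
      rw [← e1, ← mul_assoc, ← e2]
      exact h5
    have h7 : (b : ℤ) ∣ (a : ℤ) * (ι x f).order :=
      (mul_dvd_mul_iff_left (by exact_mod_cast hgpos.ne')).mp h6
    exact (Int.isCoprime_iff_gcd_eq_one.mpr (by exact_mod_cast hcop)).dvd_of_dvd_mul_left h7

end Fermat.Agent.S24
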