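/-
Team S24, block PlacesDedekind (owner: helper41).
Places of `F/K` coming from the height-one primes of a Dedekind domain `R` with fraction field `F`
(`K ⊆ R`): the prelude map `Place.ofHeightOneSpectrum` is injective, its image consists of the places
whose valuation ring contains `R`, and the order at such a place is the `P`-adic order.
-/
import Mathlib
import Fermat.Prelude.Def_AlgebraicCurve_DivisorClassGroup

set_option autoImplicit false

open AlgebraicCurve IsDedekindDomain

namespace Fermat.Agent.S24

variable {K F : Type*} [Field K] [Field F] [Algebra K F]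
variable {R : Type*} [CommRing R] [IsDedekindDomain R] [Algebra K R] [Algebra R F]
  [IsScalarTower K R F] [IsFractionRing R F]

/-- `Place.ofHeightOneSpectrum` is injective. -/
theorem ofHeightOneSpectrum_injective :
    Function.Injective
      (fun P : HeightOneSpectrum R => Place.ofHeightOneSpectrum (K := K) (F := F) P) := by
  intro P Q h
  have h' : (P.valuation F).valuationSubring = (Q.valuation F).valuationSubring :=
    congrArg Place.toValuationSubring h
  exact HeightOneSpectrum.eq_of_valuation_isEquiv_valuation
    ((Valuation.isEquiv_iff_valuationSubring _ _).mpr h')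

/-- A place whose valuation ring contains `R` comes from a height-one prime of `R`. -/
theorem exists_ofHeightOneSpectrum_eq (v : Place K F)
    (hv : ∀ r : R, algebraMap R F r ∈ v.toValuationSubring) :
    ∃ P : HeightOneSpectrum R, Place.ofHeightOneSpectrum (K := K) (F := F) P = v := by
  classical
  -- the contraction of the maximal ideal of `O_v`
  let φ : R →+* v.toValuationSubring :=
    (algebraMap R F).codRestrict v.toValuationSubring.toSubring hv
  have hφ : ∀ r : R, ((φ r : v.toValuationSubring) : F) = algebraMap R F r := fun _ => rfl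
  let p : Ideal R := (IsLocalRing.maximalIdeal v.toValuationSubring).comap φ
  have hp : p.IsPrime := Ideal.comap_isPrime φ _
  -- an element of `R` outside `p` is invertible in `O_v`
  have hunit : ∀ s : R, s ∉ p → (algebraMap R F s)⁻¹ ∈ v.toValuationSubring := by
    intro s hs
    have hs' : IsUnit (φ s) := by
      by_contra hnu
      exact hs ((IsLocalRing.mem_maximalIdeal _).mpr hnu)
    obtain ⟨b, hb⟩ := hs'.exists_right_inv
    have hb' : algebraMap R F s * (b : F) = 1 := by
      have := congrArg (Subtype.val) hb
      simpa [hφ] using this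
    have hs0 : algebraMap R F s ≠ 0 := left_ne_zero_of_mul_eq_one hb'
    have : (algebraMap R F s)⁻¹ = (b : F) := (eq_inv_of_mul_eq_one_right hb').symm
    rw [this]
    exact b.2
  have hp0 : p ≠ ⊥ := by
    intro hbot
    apply v.ne_top'
    rw [eq_top_iff]
    intro x _
    obtain ⟨a, s, hs, rfl⟩ := IsFractionRing.div_surjective (A := R) x
    have hs0 : s ≠ 0 := nonZeroDivisors.ne_zero hs
    have hsp : s ∉ p := by
      rw [hbot]
      simpa using hs0
    rw [div_eq_mul_inv]
    exact v.toValuationSubring.mul_mem _ _ (hv a) (hunit s hsp)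
  let P : HeightOneSpectrum R := ⟨p, hp, hp0⟩
  refine ⟨P, ?_⟩
  apply Place.ext
  have hle : (P.valuation F).valuationSubring ≤ v.toValuationSubring := by
    intro x hx
    obtain ⟨n, d, hnd⟩ := P.exists_primeCompl_mul_eq_of_integer x
      ((Valuation.mem_valuationSubring_iff _ _).mp hx)
    have hd : (d : R) ∉ p := d.2
    have hd0 : algebraMap R F (d : R) ≠ 0 := by
      intro h0
      have := hunit (d : R) hd
      apply hd
      have hd' : (d : R) = 0 :=
        (IsFractionRing.injective R F) (by rw [h0, map_zero])
      rw [hd']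
      exact p.zero_mem
    have hx' : x = algebraMap R F n * (algebraMap R F (d : R))⁻¹ := by
      field_simp
      exact hnd
    rw [hx']
    exact v.toValuationSubring.mul_mem _ _ (hv n) (hunit _ hd)
  show (P.valuation F).valuationSubring = v.toValuationSubring
  rw [← HeightOneSpectrum.valuationSubringAtPrime_eq_valuationSubring] at hle ⊢
  exact ValuationSubring.eq_of_le_of_ne_top _ hle v.ne_top'

/-- The order at the place attached to `P` is the `P`-adic order. -/
theorem ord_ofHeightOneSpectrum (P : HeightOneSpectrum R) (f : F) :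
    (Place.ofHeightOneSpectrum (K := K) (F := F) P).ord f
      = -(WithZero.log (P.valuation F f)) := by
  set v := Place.ofHeightOneSpectrum (K := K) (F := F) P with hvdef
  rcases eq_or_ne f 0 with rfl | hf
  · simp
  have hmem : ∀ x : F, x ∈ v.toValuationSubring ↔ P.valuation F x ≤ 1 := fun x =>
    Valuation.mem_valuationSubring_iff _ _
  -- units of `O_v` have valuation one
  have hunit : ∀ a : v.toValuationSubring, IsUnit a → P.valuation F (a : F) = 1 := by
    intro a ha
    obtain ⟨b, hb⟩ := ha.exists_left_inv
    have h1 : P.valuation F (a : F) ≤ 1 := (hmem _).mp a.2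
    have h2 : P.valuation F (b : F) ≤ 1 := (hmem _).mp b.2
    have h3 : P.valuation F (b : F) * P.valuation F (a : F) = 1 := by
      rw [← map_mul]
      have := congrArg (Subtype.val) hb
      have h4 : (b : F) * (a : F) = 1 := by simpa using this
      rw [h4, map_one]
    exact eq_one_of_one_le_mul_right h2 h1 h3.ge
  -- non-units have valuation `< 1`
  have hnonunit : ∀ a : v.toValuationSubring, ¬ IsUnit a → P.valuation F (a : F) < 1 := by
    intro a ha
    refine lt_of_le_of_ne ((hmem _).mp a.2) fun h1 => ha ?_
    have ha0 : (a : F) ≠ 0 := by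
      intro h0
      rw [h0, map_zero] at h1
      exact zero_ne_one h1
    have hinv : (a : F)⁻¹ ∈ v.toValuationSubring := by
      rw [hmem, map_inv₀, h1, inv_one]
    refine isUnit_iff_exists_inv.mpr ⟨⟨(a : F)⁻¹, hinv⟩, ?_⟩
    ext
    simp [ha0]
  obtain ⟨ϖ, hϖ⟩ := IsDiscreteValuationRing.exists_irreducible v.toValuationSubring
  obtain ⟨u, hu⟩ := v.exists_unit_mul_zpow hf hϖ
  -- an irreducible element of `O_v` has valuation `exp (-1)`
  have hϖval : P.valuation F (ϖ : F) = WithZero.exp (-1 : ℤ) := by
    obtain ⟨π₀, hπ₀⟩ := P.intValuation_exists_uniformizer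
    have hπ₀F : P.valuation F (algebraMap R F π₀) = WithZero.exp (-1 : ℤ) := by
      rw [HeightOneSpectrum.valuation_of_algebraMap, hπ₀]
    have hπ₀mem : algebraMap R F π₀ ∈ v.toValuationSubring := by
      rw [hmem, hπ₀F]
      exact (WithZero.exp_le_exp.mpr (by norm_num : (-1 : ℤ) ≤ 0)).trans_eq WithZero.exp_zero
    have hπ₀nu : ¬ IsUnit (⟨algebraMap R F π₀, hπ₀mem⟩ : v.toValuationSubring) := by
      intro hun
      have := hunit _ hun
      rw [hπ₀F] at this
      rw [← WithZero.exp_zero] at this
      have := WithZero.exp_injective this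
      norm_num at this
    -- `ϖ` divides every non-unit
    have hdvd : ϖ ∣ (⟨algebraMap R F π₀, hπ₀mem⟩ : v.toValuationSubring) := by
      have hmax : (⟨algebraMap R F π₀, hπ₀mem⟩ : v.toValuationSubring)
          ∈ IsLocalRing.maximalIdeal v.toValuationSubring :=
        (IsLocalRing.mem_maximalIdeal _).mpr hπ₀nu
      rw [hϖ.maximalIdeal_eq] at hmax
      exact Ideal.mem_span_singleton.mp hmax
    obtain ⟨a, ha⟩ := hdvd
    have ha' : algebraMap R F π₀ = (ϖ : F) * (a : F) := by
      have := congrArg (Subtype.val) ha
      simpa using this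
    have hge : WithZero.exp (-1 : ℤ) ≤ P.valuation F (ϖ : F) := by
      rw [← hπ₀F, ha', map_mul]
      exact mul_le_of_le_one_right' ((hmem _).mp a.2)
    have hlt : P.valuation F (ϖ : F) < 1 := hnonunit ϖ hϖ.not_isUnit
    have hϖ0 : P.valuation F (ϖ : F) ≠ 0 := by
      intro h0
      rw [h0] at hge
      exact absurd hge (by simp)
    obtain ⟨m, hm⟩ : ∃ m : ℤ, P.valuation F (ϖ : F) = WithZero.exp m :=
      ⟨WithZero.log (P.valuation F (ϖ : F)), (WithZero.exp_log hϖ0).symm⟩
    rw [hm] at hge hlt ⊢
    rw [← WithZero.exp_zero] at hlt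
    have h1 : (-1 : ℤ) ≤ m := WithZero.exp_le_exp.mp hge
    have h2 : m < 0 := WithZero.exp_lt_exp.mp hlt
    have : m = -1 := by omega
    rw [this]
  have hval : P.valuation F f = WithZero.exp (-(v.ord f)) := by
    rw [hu, map_mul, map_zpow₀, hunit _ u.isUnit, one_mul, hϖval, ← WithZero.exp_zsmul]
    congr 1
    -- the exponent on the left is `v.ord (u * ϖ ^ ord f)`; rewrite it back
    rw [← hu]
    simp
  rw [hval, WithZero.log_exp, neg_neg]

end Fermat.Agent.S24
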