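/-
Team S24, block RamSumB (owner: helper86).

The fundamental identity for the zeros of `t`: for `t : F` transcendental over an algebraically
closed field `K` of characteristic zero with `F` finite over `K(t)`, and `B` the integral closure
of `K[t]` in `F`, the sum over the height-one primes `P` of `B` of `-log |t|_P` is `[F : K(t)]`
(`RamSumB.finsum_eq`).  Mathlib-only so that `RamSum.lean` can import it.
-/
import Mathlib

set_option autoImplicit false

open IsDedekindDomain IntermediateField
open scoped IntermediateField.algebraAdjoinAdjoin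

namespace Fermat.Agent.S24

namespace RamSumB

variable {K F : Type*} [Field K] [Field F] [Algebra K F]

/-- `t` as an element of `K[t]`. -/
def tA (K : Type*) {F : Type*} [Field K] [Field F] [Algebra K F] (t : F) :
    ↥(Algebra.adjoin K {t}) :=
  ⟨t, Algebra.self_mem_adjoin_singleton K t⟩

/-- The ideal `(t)` of `K[t]`. -/
def p (K : Type*) {F : Type*} [Field K] [Field F] [Algebra K F] (t : F) :
    Ideal ↥(Algebra.adjoin K {t}) :=
  Ideal.span {tA K t}

theorem isPrincipalIdealRing_adjoin (t : F) (ht : Transcendental K t) :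
    IsPrincipalIdealRing (↥(Algebra.adjoin K {t})) :=
  IsPrincipalIdealRing.of_surjective
    (Polynomial.algEquivOfTranscendental K t ht).toRingEquiv.toRingHom
    (Polynomial.algEquivOfTranscendental K t ht).surjective

theorem algEquiv_X (t : F) (ht : Transcendental K t) :
    Polynomial.algEquivOfTranscendental K t ht Polynomial.X = tA K t := by
  apply Subtype.ext
  simp [tA]

theorem tA_ne_zero (t : F) (ht : Transcendental K t) : tA K t ≠ 0 := by
  intro h
  have h2 : (tA K t : F) = 0 := by rw [h]; rfl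
  exact ht ((show t = 0 from h2) ▸ isAlgebraic_zero)

theorem irreducible_tA (t : F) (ht : Transcendental K t) : Irreducible (tA K t) := by
  rw [← algEquiv_X t ht]
  exact (MulEquiv.irreducible_iff (Polynomial.algEquivOfTranscendental K t ht)).mpr
    Polynomial.irreducible_X

theorem p_ne_bot (t : F) (ht : Transcendental K t) : p K t ≠ ⊥ := by
  rw [p, Ne, Ideal.span_singleton_eq_bot]
  exact tA_ne_zero t ht

theorem p_isMaximal (t : F) (ht : Transcendental K t) : (p K t).IsMaximal := by
  have := isPrincipalIdealRing_adjoin t ht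
  exact PrincipalIdealRing.isMaximal_of_irreducible (irreducible_tA t ht)

/-- Every element of `K[t]` is congruent to a constant modulo `t`. -/
theorem exists_const_sub_mem (t : F) (a : ↥(Algebra.adjoin K {t})) :
    ∃ c : K, a - algebraMap K _ c ∈ p K t := by
  obtain ⟨a, ha⟩ := a
  rw [Algebra.adjoin_singleton_eq_range_aeval] at ha
  obtain ⟨f, rfl⟩ := ha
  refine ⟨f.coeff 0, ?_⟩
  rw [p, Ideal.mem_span_singleton]
  refine ⟨⟨Polynomial.aeval t f.divX, ?_⟩, ?_⟩
  · rw [Algebra.adjoin_singleton_eq_range_aeval]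
    exact ⟨_, rfl⟩
  · apply Subtype.ext
    show Polynomial.aeval t f - algebraMap K F (f.coeff 0) = t * Polynomial.aeval t f.divX
    have h := congrArg (Polynomial.aeval t) (Polynomial.X_mul_divX_add f)
    rw [map_add, map_mul, Polynomial.aeval_X, Polynomial.aeval_C] at h
    rw [← h]
    ring

theorem algebraMap_quotient_surjective (t : F) :
    Function.Surjective (algebraMap K (↥(Algebra.adjoin K {t}) ⧸ p K t)) := by
  intro x
  obtain ⟨a, rfl⟩ := Ideal.Quotient.mk_surjective x
  obtain ⟨c, hc⟩ := exists_const_sub_mem t a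
  refine ⟨c, ?_⟩
  rw [IsScalarTower.algebraMap_apply K ↥(Algebra.adjoin K {t}) (↥(Algebra.adjoin K {t}) ⧸ p K t)]
  exact ((Ideal.Quotient.mk_eq_mk_iff_sub_mem _ _).mpr hc).symm

/-- All residue degrees over `(t)` are one (as `K` is algebraically closed). -/
theorem inertiaDeg_eq_one [IsAlgClosed K] (t : F) (ht : Transcendental K t)
    (P : Ideal ↥(integralClosure ↥(Algebra.adjoin K {t}) F)) [P.IsPrime] [P.LiesOver (p K t)] :
    (p K t).inertiaDeg' P = 1 := by
  rw [Ideal.inertiaDeg'_algebraMap]
  have hmax := p_isMaximal t ht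
  have hKA : Function.Surjective (algebraMap K (↥(Algebra.adjoin K {t}) ⧸ p K t)) :=
    algebraMap_quotient_surjective t
  have h1 : Algebra.IsIntegral K (↥(Algebra.adjoin K {t}) ⧸ p K t) :=
    Algebra.isIntegral_of_surjective hKA
  have h2 : Algebra.IsIntegral (↥(Algebra.adjoin K {t}) ⧸ p K t)
      (↥(integralClosure ↥(Algebra.adjoin K {t}) F) ⧸ P) := inferInstance
  have h3 : Algebra.IsIntegral K (↥(integralClosure ↥(Algebra.adjoin K {t}) F) ⧸ P) :=
    Algebra.IsIntegral.trans (↥(Algebra.adjoin K {t}) ⧸ p K t)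
  have hKB : Function.Surjective
      (algebraMap K (↥(integralClosure ↥(Algebra.adjoin K {t}) F) ⧸ P)) :=
    (IsAlgClosed.algebraMap_bijective_of_isIntegral).2
  have hAB : Function.Bijective (algebraMap (↥(Algebra.adjoin K {t}) ⧸ p K t)
      (↥(integralClosure ↥(Algebra.adjoin K {t}) F) ⧸ P)) := by
    refine ⟨FaithfulSMul.algebraMap_injective _ _, fun x => ?_⟩
    obtain ⟨c, rfl⟩ := hKB x
    exact ⟨algebraMap K _ c, (IsScalarTower.algebraMap_apply K _ _ c).symm⟩
  rw [← Algebra.finrank_eq_of_equiv_equiv (RingEquiv.refl (↥(Algebra.adjoin K {t}) ⧸ p K t))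
    (RingEquiv.ofBijective _ hAB) (by ext; rfl)]
  have hnt : Nontrivial (↥(Algebra.adjoin K {t}) ⧸ p K t) :=
    Ideal.Quotient.nontrivial_iff.mpr hmax.ne_top
  exact @Module.finrank_self _ _ (commRing_strongRankCondition _)

/-- For a height-one prime `P` of `B` lying over `(t)`, `-log |t|_P` is the ramification
index. -/
theorem neg_log_valuation_of_liesOver (t : F) (ht : Transcendental K t)
    [IsDedekindDomain ↥(Algebra.adjoin K {t})]
    [IsDedekindDomain ↥(integralClosure ↥(Algebra.adjoin K {t}) F)]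
    [IsFractionRing ↥(integralClosure ↥(Algebra.adjoin K {t}) F) F]
    (P : HeightOneSpectrum ↥(integralClosure ↥(Algebra.adjoin K {t}) F))
    [hP : P.asIdeal.LiesOver (p K t)] :
    -(WithZero.log (P.valuation F t)) = ((p K t).ramificationIdx' P.asIdeal : ℤ) := by
  have hmax := p_isMaximal t ht
  let v : HeightOneSpectrum ↥(Algebra.adjoin K {t}) := ⟨p K t, hmax.isPrime, p_ne_bot t ht⟩
  have hv : v.asIdeal = p K t := rfl
  have hP' : P.asIdeal.LiesOver v.asIdeal := hP
  have h1 := HeightOneSpectrum.intValuation_liesOver v P (tA K t)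
  rw [v.intValuation_singleton (tA_ne_zero t ht) rfl] at h1
  have h2 : P.valuation F t = P.intValuation (algebraMap ↥(Algebra.adjoin K {t})
      ↥(integralClosure ↥(Algebra.adjoin K {t}) F) (tA K t)) := by
    rw [← HeightOneSpectrum.valuation_of_algebraMap (K := F)]
    rfl
  rw [h2, ← h1, hv, WithZero.log_pow, WithZero.log_exp]
  simp

/-- For a height-one prime `P` of `B` not lying over `(t)`, `|t|_P = 1`. -/
theorem valuation_eq_one_of_not_liesOver (t : F) (ht : Transcendental K t)
    [IsDedekindDomain ↥(integralClosure ↥(Algebra.adjoin K {t}) F)]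
    [IsFractionRing ↥(integralClosure ↥(Algebra.adjoin K {t}) F) F]
    (P : HeightOneSpectrum ↥(integralClosure ↥(Algebra.adjoin K {t}) F))
    (hP : ¬ P.asIdeal.LiesOver (p K t)) :
    P.valuation F t = 1 := by
  have hmax := p_isMaximal t ht
  have hle : P.valuation F (algebraMap ↥(integralClosure ↥(Algebra.adjoin K {t}) F) F
      (algebraMap ↥(Algebra.adjoin K {t}) _ (tA K t))) ≤ 1 := P.valuation_le_one _
  refine le_antisymm hle (not_lt.mp fun hlt => hP ?_)
  have hmem : algebraMap ↥(Algebra.adjoin K {t}) ↥(integralClosure ↥(Algebra.adjoin K {t}) F)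
      (tA K t) ∈ P.asIdeal := (P.valuation_lt_one_iff_mem _).mp hlt
  have hle' : p K t ≤ P.asIdeal.comap (algebraMap ↥(Algebra.adjoin K {t})
      ↥(integralClosure ↥(Algebra.adjoin K {t}) F)) := by
    rw [p, Ideal.span_le, Set.singleton_subset_iff]
    exact hmem
  exact ⟨hmax.eq_of_le (Ideal.comap_ne_top _ P.isPrime.ne_top) hle'⟩

/-- The fundamental identity for the zeros of `t`: the sum over the height-one primes `P` of
`B` (the integral closure of `K[t]` in `F`) of the `P`-adic order of `t` is `[F : K(t)]`. -/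
theorem finsum_eq [IsAlgClosed K] [CharZero K] (t : F) (ht : Transcendental K t)
    [FiniteDimensional K⟮t⟯ F]
    [IsDedekindDomain ↥(integralClosure ↥(Algebra.adjoin K {t}) F)]
    [IsFractionRing ↥(integralClosure ↥(Algebra.adjoin K {t}) F) F] :
    ∑ᶠ P : HeightOneSpectrum ↥(integralClosure ↥(Algebra.adjoin K {t}) F),
        -(WithZero.log (P.valuation F t)) = (Module.finrank K⟮t⟯ F : ℤ) := by
  classical
  have hPID := isPrincipalIdealRing_adjoin t ht
  have hmax := p_isMaximal t ht
  have hp0 := p_ne_bot t ht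
  have hchar : CharZero K⟮t⟯ := charZero_of_injective_algebraMap (algebraMap K K⟮t⟯).injective
  have hsep : Algebra.IsSeparable K⟮t⟯ F := inferInstance
  have hfin : Module.Finite ↥(Algebra.adjoin K {t})
      ↥(integralClosure ↥(Algebra.adjoin K {t}) F) :=
    IsIntegralClosure.finite ↥(Algebra.adjoin K {t}) K⟮t⟯ F _
  have hsum := Ideal.sum_ramification_inertia (R := ↥(Algebra.adjoin K {t}))
    ↥(integralClosure ↥(Algebra.adjoin K {t}) F) K⟮t⟯ F hp0
  set S := IsDedekindDomain.primesOverFinset (p K t)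
    ↥(integralClosure ↥(Algebra.adjoin K {t}) F) with hS
  have hmemS : ∀ Q : Ideal ↥(integralClosure ↥(Algebra.adjoin K {t}) F),
      Q ∈ S ↔ Q.IsPrime ∧ Q.LiesOver (p K t) := fun Q =>
    IsDedekindDomain.mem_primesOverFinset_iff hp0 _
  -- all inertia degrees are one
  have hsum' : ∑ Q ∈ S, ((p K t).ramificationIdx' Q : ℤ) = (Module.finrank K⟮t⟯ F : ℤ) := by
    rw [← hsum, Nat.cast_sum]
    refine Finset.sum_congr rfl fun Q hQ => ?_
    obtain ⟨hQ1, hQ2⟩ := (hmemS Q).mp hQ
    rw [inertiaDeg_eq_one t ht Q, mul_one]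
  rw [← hsum']
  -- the summand, as a function on ideals
  set h : Ideal ↥(integralClosure ↥(Algebra.adjoin K {t}) F) → ℤ :=
    fun Q => if Q ∈ S then ((p K t).ramificationIdx' Q : ℤ) else 0 with hh
  have hg : ∀ P : HeightOneSpectrum ↥(integralClosure ↥(Algebra.adjoin K {t}) F),
      -(WithZero.log (P.valuation F t)) = h P.asIdeal := by
    intro P
    by_cases hP : P.asIdeal.LiesOver (p K t)
    · have hPS : P.asIdeal ∈ S := (hmemS _).mpr ⟨P.isPrime, hP⟩
      rw [hh]
      simp only [hPS, if_true]
      exact neg_log_valuation_of_liesOver t ht P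
    · have hPS : P.asIdeal ∉ S := fun hmem => hP ((hmemS _).mp hmem).2
      rw [hh]
      simp only [hPS, if_false]
      rw [valuation_eq_one_of_not_liesOver t ht P hP]
      simp
  simp_rw [hg]
  have hinj : Function.Injective
      (fun P : HeightOneSpectrum ↥(integralClosure ↥(Algebra.adjoin K {t}) F) => P.asIdeal) :=
    fun P Q hPQ => HeightOneSpectrum.ext hPQ
  rw [← finsum_mem_range (f := h) hinj]
  have hsumS : ∑ Q ∈ S, ((p K t).ramificationIdx' Q : ℤ) = ∑ Q ∈ S, h Q :=
    Finset.sum_congr rfl fun Q hQ => by rw [hh]; simp only [hQ, if_true]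
  rw [hsumS, ← finsum_mem_coe_finset]
  apply finsum_mem_inter_support_eq'
  intro Q hQ
  rw [Function.mem_support] at hQ
  have hQS : Q ∈ S := by
    by_contra hne
    apply hQ
    rw [hh]
    simp only [hne, if_false]
  refine ⟨fun _ => hQS, fun _ => ?_⟩
  obtain ⟨hQ1, hQ2⟩ := (hmemS Q).mp hQS
  exact ⟨⟨Q, hQ1, Ideal.ne_bot_of_liesOver_of_ne_bot hp0 Q⟩, rfl⟩

end RamSumB

end Fermat.Agent.S24
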