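/-
Team S24, block RamSum (owner: helper12).

For `t : F` transcendental over an algebraically closed field `K` of characteristic zero, with
`F` finite over `K(t)`, let `B` be the integral closure of `K[t]` in `F`.  Then `B` is a Dedekind
domain with fraction field `F`, and the sum over the primes `P` of `B` of the `P`-adic order of
`t` equals `[F : K(t)]` (fundamental identity, all residue degrees being one).
The last statement is proved in `RamSumB.lean` (helper86).
-/
import Mathlib
import Fermat.Agent.S24.RamSumB

set_option autoImplicit false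

open IsDedekindDomain IntermediateField
open scoped IntermediateField.algebraAdjoinAdjoin

namespace Fermat.Agent.S24

variable {K F : Type*} [Field K] [Field F] [Algebra K F]

/-- The integral closure of `K[t]` in `F`. -/
abbrev RamSum.B (K : Type*) {F : Type*} [Field K] [Field F] [Algebra K F] (t : F) : Type _ :=
  ↥(integralClosure (↥(Algebra.adjoin K {t})) F)

/-- `K[t]` is a principal ideal ring when `t` is transcendental over `K`. -/
theorem RamSum.isPrincipalIdealRing_adjoin (t : F) (ht : Transcendental K t) :
    IsPrincipalIdealRing (↥(Algebra.adjoin K {t})) :=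
  IsPrincipalIdealRing.of_surjective
    (Polynomial.algEquivOfTranscendental K t ht).toRingEquiv.toRingHom
    (Polynomial.algEquivOfTranscendental K t ht).surjective

/-- In characteristic zero, `F` is separable over `K(t)`. -/
theorem RamSum.isSeparable_adjoin [CharZero K] (t : F) [FiniteDimensional K⟮t⟯ F] :
    Algebra.IsSeparable K⟮t⟯ F := by
  have : CharZero K⟮t⟯ := charZero_of_injective_algebraMap (algebraMap K K⟮t⟯).injective
  infer_instance

theorem RamSum.isDedekindDomain [CharZero K] (t : F) (ht : Transcendental K t)
    [FiniteDimensional K⟮t⟯ F] : IsDedekindDomain (RamSum.B K t) := by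
  have := RamSum.isPrincipalIdealRing_adjoin t ht
  have := RamSum.isSeparable_adjoin (K := K) t
  exact integralClosure.isDedekindDomain (↥(Algebra.adjoin K {t})) K⟮t⟯ F

theorem RamSum.isFractionRing [CharZero K] (t : F) (ht : Transcendental K t)
    [FiniteDimensional K⟮t⟯ F] : IsFractionRing (RamSum.B K t) F :=
  have _ := ht
  integralClosure.isFractionRing_of_finite_extension K⟮t⟯ F

/-- The element `t`, as an element of the integral closure of `K[t]` in `F`. -/
def RamSum.tB (K : Type*) {F : Type*} [Field K] [Field F] [Algebra K F] (t : F) : RamSum.B K t :=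
  algebraMap (↥(Algebra.adjoin K {t})) (RamSum.B K t) ⟨t, Algebra.self_mem_adjoin_singleton K t⟩

theorem RamSum.algebraMap_tB (t : F) : algebraMap (RamSum.B K t) F (RamSum.tB K t) = t := rfl

theorem RamSum.tB_ne_zero (t : F) (ht : Transcendental K t) : RamSum.tB K t ≠ 0 := by
  intro h
  have h2 := congrArg (algebraMap (RamSum.B K t) F) h
  rw [RamSum.algebraMap_tB, map_zero] at h2
  exact ht (h2 ▸ isAlgebraic_zero)

theorem RamSum.finite_support (t : F) (ht : Transcendental K t) [FiniteDimensional K⟮t⟯ F]
    [IsDedekindDomain (RamSum.B K t)] [IsFractionRing (RamSum.B K t) F] :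
    {P : HeightOneSpectrum (RamSum.B K t) | P.valuation F t ≠ 1}.Finite := by
  have hI : (Ideal.span {RamSum.tB K t} : Ideal (RamSum.B K t)) ≠ 0 := by
    rw [Ne, Ideal.zero_eq_bot, Ideal.span_singleton_eq_bot]
    exact RamSum.tB_ne_zero t ht
  refine (Ideal.finite_factors hI).subset ?_
  intro P (hP : P.valuation F t ≠ 1)
  show P.asIdeal ∣ Ideal.span {RamSum.tB K t}
  have h1 : P.valuation F (algebraMap (RamSum.B K t) F (RamSum.tB K t)) < 1 :=
    lt_of_le_of_ne (P.valuation_le_one _) (by rwa [RamSum.algebraMap_tB])
  exact (P.valuation_lt_one_iff_dvd _).mp h1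

theorem RamSum.finsum_eq [IsAlgClosed K] [CharZero K] (t : F) (ht : Transcendental K t)
    [FiniteDimensional K⟮t⟯ F] [IsDedekindDomain (RamSum.B K t)]
    [IsFractionRing (RamSum.B K t) F] :
    ∑ᶠ P : HeightOneSpectrum (RamSum.B K t), -(WithZero.log (P.valuation F t))
      = (Module.finrank K⟮t⟯ F : ℤ) :=
  RamSumB.finsum_eq t ht

end Fermat.Agent.S24
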