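import Mathlib
import Fermat.Agent.S24.Defs
import Fermat.Agent.S24.PlaceBasic

/-!
# S24 team library: residue field of a place is `K`; transcendence glue

OWNER: helper63 (only the owner edits this file). Keep the exported signatures below unchanged
(tell helper24 before changing an interface); add helper lemmas freely (prefix private helpers).
-/

set_option autoImplicit false

namespace Fermat.Agent.S24

open IntermediateField AlgebraicCurve KaehlerDifferential
open scoped IntermediateField.algebraAdjoinAdjoin

universe uK uF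

section Glue

variable {K : Type uK} {F : Type uF} [Field K] [Field F] [Algebra K F]

/-- If `F` is algebraic over `K(x)` and `t` is transcendental over `K`, then `F` is algebraic
over `K(t)` (exchange property of transcendence bases of size one). -/
theorem residue_isAlgebraic_adjoin_simple {x t : F} [Algebra.IsAlgebraic K⟮x⟯ F]
    (ht : Transcendental K t) : Algebra.IsAlgebraic K⟮t⟯ F := by
  have : Algebra.IsAlgebraic (Algebra.adjoin K {x}) F :=
    (IsFractionRing.comap_isAlgebraic_iff (A := Algebra.adjoin K {x}) (K := K⟮x⟯)).mpr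
      inferInstance
  have htr : Algebra.trdeg K F ≤ 1 := by
    have h := Algebra.IsAlgebraic.trdeg_le_cardinalMk K ({x} : Set F)
    simpa using h
  have hind : AlgebraicIndependent K (fun _ : PUnit.{uF + 1} => t) :=
    algebraicIndependent_unique_type_iff.mpr ht
  have hbasis : IsTranscendenceBasis K (fun _ : PUnit.{uF + 1} => t) :=
    hind.isTranscendenceBasis_of_trdeg_le_of_finite (by simpa using htr)
  have h := hbasis.isAlgebraic_field
  rwa [Set.range_const] at h

end Glue

variable {K F : Type*} [Field K] [Field F] [Algebra K F]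
variable [IsAlgClosed K] [CharZero K]

theorem transcendental_of_notMem_range {t : F} (ht : t ∉ Set.range (algebraMap K F)) :
    Transcendental K t := by
  intro halg
  apply ht
  have hint : IsIntegral K t := halg.isIntegral
  exact hint.mem_range_algebraMap_of_minpoly_splits (K := K) (L := F) (IsAlgClosed.splits _)

theorem finiteDimensional_adjoin_simple (hF : IsFF1 K F) {t : F} (ht : Transcendental K t) :
    FiniteDimensional K⟮t⟯ F := by
  obtain ⟨x, hx, hfin⟩ := hF
  have : Algebra.EssFiniteType K K⟮x⟯ :=
    IntermediateField.essFiniteType_iff.mpr ⟨{x}, by simp⟩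
  have : Algebra.EssFiniteType K F := Algebra.EssFiniteType.comp K K⟮x⟯ F
  have : Algebra.EssFiniteType K⟮t⟯ F := Algebra.EssFiniteType.of_comp K K⟮t⟯ F
  have : Algebra.IsAlgebraic K⟮x⟯ F := Algebra.IsAlgebraic.of_finite _ _
  have : Algebra.IsAlgebraic K⟮t⟯ F := residue_isAlgebraic_adjoin_simple (x := x) ht
  exact Algebra.finite_of_essFiniteType_of_isAlgebraic

open Polynomial in
/-- Key algebraic step: if `t` is a nonzero element of the maximal ideal of the valuation ring of
`v`, then the residue class of any element of the valuation ring which is algebraic over `K(t)`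
is algebraic over `K`. -/
theorem residue_isAlgebraic_residue (v : Place K F) (t b : v.toValuationSubring)
    (ht0 : t ≠ 0) (htm : IsLocalRing.residue v.toValuationSubring t = 0)
    (hb : IsAlgebraic K⟮(t : F)⟯ (b : F)) :
    IsAlgebraic K (IsLocalRing.residue v.toValuationSubring b) := by
  classical
  have hb' : IsAlgebraic (Algebra.adjoin K {(t : F)}) (b : F) :=
    (IsFractionRing.isAlgebraic_iff (Algebra.adjoin K {(t : F)}) K⟮(t : F)⟯ F).mpr hb
  obtain ⟨p, hp0, hp⟩ := hb'
  -- the evaluation `K[X] → K[t]`
  let τ : Algebra.adjoin K {(t : F)} := ⟨(t : F), Algebra.self_mem_adjoin_singleton K _⟩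
  let f : K[X] →+* Algebra.adjoin K {(t : F)} := (Polynomial.aeval τ).toRingHom
  have hf : Function.Surjective f := by
    rintro ⟨s, hs⟩
    rw [Algebra.adjoin_singleton_eq_range_aeval] at hs
    obtain ⟨q, hq⟩ := hs
    refine ⟨q, Subtype.ext ?_⟩
    show ((Polynomial.aeval τ q : Algebra.adjoin K {(t : F)}) : F) = s
    rw [Polynomial.aeval_subalgebra_coe]
    exact hq
  obtain ⟨P, hP⟩ := Polynomial.map_surjective f hf p
  have hP0 : P ≠ 0 := by
    rintro rfl
    exact hp0 (by rw [← hP, Polynomial.map_zero])
  -- the evaluation `K[X] → O_v`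
  let φ : K[X] →+* v.toValuationSubring := (Polynomial.aeval t).toRingHom
  have hφ : (algebraMap (Algebra.adjoin K {(t : F)}) F).comp f
      = v.toValuationSubring.subtype.comp φ := by
    refine Polynomial.ringHom_ext (fun a => ?_) ?_
    · simp [f, φ]
    · simp [f, φ, τ]
  have hPev : P.eval₂ φ b = 0 := by
    apply Subtype.val_injective
    have h1 : v.toValuationSubring.subtype (P.eval₂ φ b)
        = P.eval₂ (v.toValuationSubring.subtype.comp φ) (b : F) :=
      Polynomial.hom_eval₂ P φ v.toValuationSubring.subtype b
    have h2 : Polynomial.aeval (b : F) p = P.eval₂ (v.toValuationSubring.subtype.comp φ) (b : F) := by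
      rw [← hP, Polynomial.aeval_def, Polynomial.eval₂_map, hφ]
    show v.toValuationSubring.subtype (P.eval₂ φ b) = 0
    rw [h1, ← h2, hp]
  -- divide by the largest power of `X`
  have hirr : Irreducible (Polynomial.C (Polynomial.X : K[X])) :=
    (Polynomial.prime_C_iff.mpr Polynomial.prime_X).irreducible
  obtain ⟨n, P', hndvd, hPP'⟩ := WfDvdMonoid.max_power_factor hP0 hirr
  have hP'ev : P'.eval₂ φ b = 0 := by
    rw [hPP', Polynomial.eval₂_mul, Polynomial.eval₂_pow, Polynomial.eval₂_C] at hPev
    have hφX : φ Polynomial.X = t := by simp [φ]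
    rw [hφX] at hPev
    exact (mul_eq_zero.mp hPev).resolve_left (pow_ne_zero n ht0)
  -- reduce modulo the maximal ideal
  let ρ : v.toValuationSubring →+* v.ResidueField := IsLocalRing.residue v.toValuationSubring
  have hρφ : ρ.comp φ = (algebraMap K v.ResidueField).comp Polynomial.constantCoeff := by
    refine Polynomial.ringHom_ext (fun a => ?_) ?_
    · simp [φ, ρ]
      rfl
    · simp [φ, ρ, htm]
  refine ⟨P'.map Polynomial.constantCoeff, ?_, ?_⟩
  · intro h0
    apply hndvd
    rw [Polynomial.C_dvd_iff_dvd_coeff]
    intro i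
    rw [Polynomial.X_dvd_iff]
    have := congrArg (fun q => Polynomial.coeff q i) h0
    simpa using this
  · rw [Polynomial.aeval_def, Polynomial.eval₂_map, ← hρφ]
    have h1 : ρ (P'.eval₂ φ b) = P'.eval₂ (ρ.comp φ) (ρ b) := Polynomial.hom_eval₂ P' φ ρ b
    rw [← h1, hP'ev, map_zero]

/-- The residue field of every place of a function field in one variable over an algebraically
closed field is the constant field. -/
theorem residue_surjective (hF : IsFF1 K F) (v : Place K F) :
    Function.Surjective (algebraMap K v.ResidueField) := by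
  intro β
  obtain ⟨b, rfl⟩ := IsLocalRing.residue_surjective β
  obtain ⟨π, hπ⟩ := IsDiscreteValuationRing.exists_irreducible v.toValuationSubring
  have hπ0 : π ≠ 0 := hπ.ne_zero
  have hπm : IsLocalRing.residue v.toValuationSubring π = 0 := by
    rw [IsLocalRing.residue_eq_zero_iff, IsLocalRing.mem_maximalIdeal, mem_nonunits_iff]
    exact hπ.not_isUnit
  have hπK : (π : F) ∉ Set.range (algebraMap K F) := by
    rintro ⟨a, ha⟩
    have ha0 : a ≠ 0 := by
      rintro rfl
      apply hπ0
      apply Subtype.val_injective
      rw [← ha]; simp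
    have hu : IsUnit (algebraMap K v.toValuationSubring a) := (IsUnit.mk0 a ha0).map _
    have hEq : algebraMap K v.toValuationSubring a = π := Subtype.val_injective (by
      rw [Place.coe_algebraMap]; exact ha)
    exact hπ.not_isUnit (hEq ▸ hu)
  have httr : Transcendental K (π : F) := transcendental_of_notMem_range hπK
  have hfd : FiniteDimensional K⟮(π : F)⟯ F := finiteDimensional_adjoin_simple hF httr
  have hb : IsAlgebraic K⟮(π : F)⟯ (b : F) := IsAlgebraic.of_finite _ _
  have halg := residue_isAlgebraic_residue v π b hπ0 hπm hb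
  exact halg.isIntegral.mem_range_algebraMap_of_minpoly_splits (K := K) (IsAlgClosed.splits _)

omit [IsAlgClosed K] [CharZero K] in
/-- Local copy (no dependence on other team files): nonnegative order means integrality. -/
theorem residue_mem_of_ord_nonneg (v : Place K F) {b : F} (hb0 : b ≠ 0) (hb : 0 ≤ v.ord b) :
    b ∈ v.toValuationSubring := by
  obtain ⟨π, hπ⟩ := IsDiscreteValuationRing.exists_irreducible v.toValuationSubring
  obtain ⟨u, hu⟩ := v.exists_unit_mul_zpow hb0 hπ
  obtain ⟨n, hn⟩ := Int.eq_ofNat_of_zero_le hb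
  rw [hu, hn, zpow_natCast]
  exact mul_mem (u : v.toValuationSubring).2 (pow_mem π.2 n)

omit [IsAlgClosed K] [CharZero K] in
/-- Local copy (no dependence on other team files): integrality means nonnegative order. -/
theorem residue_ord_nonneg_of_mem (v : Place K F) {b : F} (hb0 : b ≠ 0)
    (hb : b ∈ v.toValuationSubring) : 0 ≤ v.ord b := by
  obtain ⟨π, hπ⟩ := IsDiscreteValuationRing.exists_irreducible v.toValuationSubring
  obtain ⟨u, hu⟩ := v.exists_unit_mul_zpow hb0 hπ
  by_contra hneg
  rw [not_le] at hneg
  obtain ⟨m, hm⟩ := Int.eq_ofNat_of_zero_le (show (0 : ℤ) ≤ -v.ord b by omega)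
  have hπF : (π : F) ≠ 0 := by
    simpa [ne_eq, ZeroMemClass.coe_eq_zero] using hπ.ne_zero
  have hm0 : m ≠ 0 := by
    rintro rfl
    simp at hm
    omega
  have h1 : (π : F) ^ m * b = ((u : v.toValuationSubring) : F) := by
    have hz : v.ord b = -(m : ℤ) := by omega
    rw [hu, hz, zpow_neg, zpow_natCast]
    field_simp
  have h2 : π ^ m * (⟨b, hb⟩ : v.toValuationSubring) = (u : v.toValuationSubring) :=
    Subtype.val_injective (by simpa using h1)
  have h3 : IsUnit (π ^ m) := isUnit_of_mul_isUnit_left (h2 ▸ u.isUnit)
  exact hπ.not_isUnit ((isUnit_pow_iff hm0).mp h3)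

theorem exists_residue (hF : IsFF1 K F) (v : Place K F) {b : F} (hb : 0 ≤ v.ord b) :
    ∃ a : K, b = algebraMap K F a ∨ 0 < v.ord (b - algebraMap K F a) := by
  by_cases hb0 : b = 0
  · exact ⟨0, Or.inl (by simp [hb0])⟩
  have hbO : b ∈ v.toValuationSubring := residue_mem_of_ord_nonneg v hb0 hb
  obtain ⟨a, ha⟩ := residue_surjective hF v (IsLocalRing.residue _ ⟨b, hbO⟩)
  refine ⟨a, ?_⟩
  by_cases hba : b = algebraMap K F a
  · exact Or.inl hba
  right
  have hne : b - algebraMap K F a ≠ 0 := sub_ne_zero.mpr hba
  let x : v.toValuationSubring := ⟨b, hbO⟩ - algebraMap K v.toValuationSubring a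
  have hxval : (x : F) = b - algebraMap K F a := rfl
  have hxres : IsLocalRing.residue v.toValuationSubring x = 0 := by
    show IsLocalRing.residue v.toValuationSubring (⟨b, hbO⟩ - algebraMap K v.toValuationSubring a) = 0
    rw [map_sub, ← ha, sub_eq_zero]
    rfl
  have hxnu : ¬ IsUnit x := by
    rw [IsLocalRing.residue_eq_zero_iff, IsLocalRing.mem_maximalIdeal, mem_nonunits_iff] at hxres
    exact hxres
  have h0 : 0 ≤ v.ord (b - algebraMap K F a) := by
    rw [← hxval]
    exact residue_ord_nonneg_of_mem v (by rw [hxval]; exact hne) x.2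
  rcases h0.lt_or_eq with h | h
  · exact h
  exfalso
  obtain ⟨π, hπ⟩ := IsDiscreteValuationRing.exists_irreducible v.toValuationSubring
  obtain ⟨u, hu⟩ := v.exists_unit_mul_zpow hne hπ
  rw [← h, zpow_zero, mul_one] at hu
  apply hxnu
  have : x = (u : v.toValuationSubring) := Subtype.val_injective (by rw [hxval, hu])
  rw [this]
  exact u.isUnit

theorem place_deg_eq_one (hF : IsFF1 K F) (v : Place K F) : v.deg = 1 := by
  have hsurj := residue_surjective hF v
  have hinj : Function.Injective (algebraMap K v.ResidueField) :=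
    (algebraMap K v.ResidueField).injective
  let e : K ≃ₗ[K] v.ResidueField :=
    LinearEquiv.ofBijective (Algebra.linearMap K v.ResidueField) ⟨hinj, hsurj⟩
  show Module.finrank K v.ResidueField = 1
  rw [← e.finrank_eq, Module.finrank_self]

end Fermat.Agent.S24
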