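import Mathlib
import Fermat.Agent.S24.Defs
import Fermat.Agent.S24.PlaceBasic
import Fermat.Agent.S24.Residue
import Fermat.Agent.S24.RamSum
import Fermat.Agent.S24.PlacesDedekind

/-!
# S24 team library: zeros of `t`: finiteness and `∑ ord = [F : K(t)]`

OWNER: helper86 (only the owner edits this file). Keep the exported signatures below unchanged
(tell helper24 before changing an interface); add helper lemmas freely (prefix private helpers).

Route: let `B` be the integral closure of `K[t]` in `F` (`RamSum.B K t`, helper12).  A place `v`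
with `0 < v.ord t` contains `K[t]`, hence `B` (valuation rings are integrally closed), hence comes
from a unique height-one prime `P` of `B` (`PlacesDedekind`, helper41), with
`v.ord = -log (P.valuation F ·)`.  The fundamental identity `RamSum.finsum_eq` then gives the sum.
-/

set_option autoImplicit false

namespace Fermat.Agent.S24

open IntermediateField AlgebraicCurve IsDedekindDomain

variable {K F : Type*} [Field K] [Field F] [Algebra K F]

/-- If `0 < v.ord t` then `t` lies in the valuation ring of `v`. -/
theorem placesSum_mem_of_ord_pos (v : Place K F) {t : F} (h : 0 < v.ord t) :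
    t ∈ v.toValuationSubring := by
  have ht0 : t ≠ 0 := by
    rintro rfl
    simp at h
  obtain ⟨π, hπ⟩ := IsDiscreteValuationRing.exists_irreducible v.toValuationSubring
  obtain ⟨u, hu⟩ := v.exists_unit_mul_zpow ht0 hπ
  obtain ⟨n, hn⟩ := Int.eq_ofNat_of_zero_le h.le
  rw [hu, hn, zpow_natCast]
  exact v.toValuationSubring.mul_mem _ _ (u : v.toValuationSubring).2
    (v.toValuationSubring.pow_mem π.2 n)

/-- If `t ∈ O_v` then `K[t] ⊆ O_v`. -/
theorem placesSum_adjoin_le (v : Place K F) {t : F} (h : t ∈ v.toValuationSubring) :
    ∀ a ∈ Algebra.adjoin K {t}, a ∈ v.toValuationSubring := by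
  let O : Subalgebra K F :=
    { v.toValuationSubring.toSubring with
      algebraMap_mem' := v.algebraMap_mem' }
  have hle : Algebra.adjoin K {t} ≤ O := Algebra.adjoin_le (by
    intro x hx
    rw [Set.mem_singleton_iff] at hx
    subst hx
    exact h)
  intro a ha
  exact hle ha

/-- If `t ∈ O_v` then the integral closure of `K[t]` in `F` is contained in `O_v`. -/
theorem placesSum_integralClosure_le (v : Place K F) {t : F} (h : t ∈ v.toValuationSubring)
    (b : RamSum.B K t) : algebraMap (RamSum.B K t) F b ∈ v.toValuationSubring := by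
  have hb : IsIntegral (Algebra.adjoin K {t}) (b : F) := b.2
  let φ : (Algebra.adjoin K {t}) →+* v.toValuationSubring :=
    { toFun := fun a => ⟨a.1, placesSum_adjoin_le v h a.1 a.2⟩
      map_one' := rfl
      map_mul' := fun _ _ => rfl
      map_zero' := rfl
      map_add' := fun _ _ => rfl }
  have hb' : IsIntegral v.toValuationSubring (b : F) := by
    have := IsIntegral.map_of_comp_eq φ (RingHom.id F) (R := Algebra.adjoin K {t})
      (T := v.toValuationSubring) (S := F) (U := F) (by ext; rfl) hb
    simpa using this
  obtain ⟨y, hy⟩ := (IsIntegrallyClosed.isIntegral_iff (R := v.toValuationSubring) (K := F)).mp hb'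
  have : (y : F) = (b : F) := hy
  show (b : F) ∈ v.toValuationSubring
  rw [← this]
  exact y.2

/-- Finiteness of the set of zeros of `t`, with the finiteness of `F / K(t)` as a hypothesis. -/
theorem finite_ord_pos_of_finiteDimensional [CharZero K] {t : F} (ht : Transcendental K t)
    (hfin : FiniteDimensional K⟮t⟯ F) :
    {v : Place K F | 0 < v.ord t}.Finite := by
  have := RamSum.isDedekindDomain t ht
  have := RamSum.isFractionRing t ht
  have hfs := RamSum.finite_support t ht
  refine (hfs.image (fun P => Place.ofHeightOneSpectrum (K := K) (F := F) P)).subset ?_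
  intro v hv
  have hv' : 0 < v.ord t := hv
  obtain ⟨P, rfl⟩ := exists_ofHeightOneSpectrum_eq (R := RamSum.B K t) v
    (placesSum_integralClosure_le v (placesSum_mem_of_ord_pos v hv'))
  refine ⟨P, ?_, rfl⟩
  show P.valuation F t ≠ 1
  intro h1
  rw [ord_ofHeightOneSpectrum, h1] at hv'
  simp at hv'

/-- The fundamental identity `∑_{v zero of t} ord_v t = [F : K(t)]`, with the finiteness of
`F / K(t)` as a hypothesis. -/
theorem sum_ord_pos_of_finiteDimensional [IsAlgClosed K] [CharZero K] {t : F}
    (ht : Transcendental K t) (hfin : FiniteDimensional K⟮t⟯ F) :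
    ∑ᶠ v ∈ {v : Place K F | 0 < v.ord t}, v.ord t = (Module.finrank K⟮t⟯ F : ℤ) := by
  have := RamSum.isDedekindDomain t ht
  have := RamSum.isFractionRing t ht
  rw [← RamSum.finsum_eq t ht]
  have ht0 : t ≠ 0 := fun h => ht (h ▸ isAlgebraic_zero)
  set g : HeightOneSpectrum (RamSum.B K t) → Place K F :=
    fun P => Place.ofHeightOneSpectrum (K := K) (F := F) P with hg
  have hginj : Function.Injective g := ofHeightOneSpectrum_injective
  set s : Set (HeightOneSpectrum (RamSum.B K t)) := {P | 0 < (g P).ord t} with hs
  have himg : g '' s = {v : Place K F | 0 < v.ord t} := by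
    ext v
    constructor
    · rintro ⟨P, hP, rfl⟩
      exact hP
    · intro hv
      obtain ⟨P, rfl⟩ := exists_ofHeightOneSpectrum_eq (R := RamSum.B K t) v
        (placesSum_integralClosure_le v (placesSum_mem_of_ord_pos v hv))
      exact ⟨P, hv, rfl⟩
  rw [← himg, finsum_mem_image (hginj.injOn)]
  have hord : ∀ P : HeightOneSpectrum (RamSum.B K t),
      (g P).ord t = -(WithZero.log (P.valuation F t)) := fun P => ord_ofHeightOneSpectrum P t
  have htB : t ∈ integralClosure (↥(Algebra.adjoin K {t})) F :=
    (integralClosure (↥(Algebra.adjoin K {t})) F).algebraMap_mem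
      ⟨t, Algebra.self_mem_adjoin_singleton K t⟩
  have hnonneg : ∀ P : HeightOneSpectrum (RamSum.B K t),
      0 ≤ -(WithZero.log (P.valuation F t)) := by
    intro P
    have h1 : P.valuation F t ≤ 1 := P.valuation_le_one (⟨t, htB⟩ : RamSum.B K t)
    have h0 : P.valuation F t ≠ 0 := (Valuation.ne_zero_iff _).mpr ht0
    have : WithZero.log (P.valuation F t) ≤ 0 := by
      rw [WithZero.log_le_iff_le_exp h0]
      simpa using h1
    omega
  simp_rw [hord]
  conv_rhs => rw [← finsum_mem_univ]
  apply finsum_mem_inter_support_eq'
  intro P hP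
  rw [Function.mem_support] at hP
  refine ⟨fun _ => Set.mem_univ _, fun _ => ?_⟩
  show 0 < (g P).ord t
  rw [hord]
  exact lt_of_le_of_ne (hnonneg P) (Ne.symm hP)

variable [IsAlgClosed K] [CharZero K]

theorem finite_ord_pos (hF : IsFF1 K F) {t : F} (ht : Transcendental K t) :
    {v : Place K F | 0 < v.ord t}.Finite :=
  finite_ord_pos_of_finiteDimensional ht (finiteDimensional_adjoin_simple hF ht)

theorem sum_ord_pos (hF : IsFF1 K F) {t : F} (ht : Transcendental K t) :
    ∑ᶠ v ∈ {v : Place K F | 0 < v.ord t}, v.ord t = (Module.finrank K⟮t⟯ F : ℤ) :=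
  sum_ord_pos_of_finiteDimensional ht (finiteDimensional_adjoin_simple hF ht)

end Fermat.Agent.S24
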