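import Mathlib
import Fermat.Agent.S24.Defs
import Fermat.Agent.S24.PlaceBasic
import Fermat.Agent.S24.Residue
import Fermat.Agent.S24.PlacesSum

/-!
# S24 team library: principal divisors have degree zero

OWNER: helper32 (only the owner edits this file). Keep the exported signatures below unchanged
(tell helper24 before changing an interface); add helper lemmas freely (prefix private helpers).

Exports:
* `finrank_adjoin_inv`, `finrank_adjoin_sub_algebraMap` : `[F : K(t⁻¹)] = [F : K(t)] = [F : K(t - a)]`
  (from `principal_adjoin_inv : K⟮t⁻¹⟯ = K⟮t⟯`, `principal_adjoin_sub : K⟮t - a⟯ = K⟮t⟯`);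
* `principal_transcendental_inv`, `principal_transcendental_sub` : transcendence glue;
* `finite_ord_neg`, `sum_ord_neg` : the poles of a transcendental `t` are finite in number and
  `∑ ord_v t = -[F : K(t)]` over them;
* `finite_ord_ne_zero` : a nonzero function has finitely many zeros and poles;
* `sum_ord_eq_zero` : `∑ᶠ v ∈ {v | v.ord f ≠ 0}, v.ord f = 0`;
* `degree_eq_zero_of_principal` : a principal divisor has degree zero.
-/

set_option autoImplicit false
set_option linter.unusedSectionVars false

namespace Fermat.Agent.S24

open IntermediateField AlgebraicCurve KaehlerDifferential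

section Glue

variable {K F : Type*} [Field K] [Field F] [Algebra K F]

/-- `K(t⁻¹) = K(t)`. -/
theorem principal_adjoin_inv (t : F) : K⟮t⁻¹⟯ = K⟮t⟯ := by
  refine le_antisymm ?_ ?_
  · exact adjoin_simple_le_iff.mpr (inv_mem (mem_adjoin_simple_self K t))
  · refine adjoin_simple_le_iff.mpr ?_
    have h := inv_mem (mem_adjoin_simple_self K t⁻¹)
    rwa [inv_inv] at h

/-- `K(t - a) = K(t)` for a constant `a`. -/
theorem principal_adjoin_sub (t : F) (a : K) : K⟮t - algebraMap K F a⟯ = K⟮t⟯ := by
  refine le_antisymm ?_ ?_
  · exact adjoin_simple_le_iff.mpr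
      (sub_mem (mem_adjoin_simple_self K t) (IntermediateField.algebraMap_mem _ a))
  · refine adjoin_simple_le_iff.mpr ?_
    have h := add_mem (mem_adjoin_simple_self K (t - algebraMap K F a))
      (IntermediateField.algebraMap_mem K⟮t - algebraMap K F a⟯ a)
    rwa [sub_add_cancel] at h

theorem principal_transcendental_inv {t : F} (ht : Transcendental K t) :
    Transcendental K t⁻¹ := fun h => ht (by simpa using h.inv)

theorem principal_transcendental_sub {t : F} (ht : Transcendental K t) (a : K) :
    Transcendental K (t - algebraMap K F a) := fun h =>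
  ht (by simpa using h.add (isAlgebraic_algebraMap (R := K) (A := F) a))

/-- Nonzero constants have order `0` at every place (also `0` for the constant `0`). -/
theorem principal_ord_algebraMap (v : Place K F) (a : K) : v.ord (algebraMap K F a) = 0 := by
  rcases eq_or_ne a 0 with rfl | ha
  · simp
  · have h1 : algebraMap K v.toValuationSubring a * algebraMap K v.toValuationSubring a⁻¹ = 1 := by
      rw [← map_mul, mul_inv_cancel₀ ha, map_one]
    have hu : IsUnit (algebraMap K v.toValuationSubring a) := IsUnit.of_mul_eq_one _ h1
    have h2 := v.ord_coe_unit hu.unit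
    rwa [IsUnit.unit_spec, Place.coe_algebraMap] at h2

/-- Over an algebraically closed field, non-constant elements are transcendental. -/
theorem principal_transcendental_of_notMem_range [IsAlgClosed K] {t : F}
    (ht : t ∉ Set.range (algebraMap K F)) : Transcendental K t := by
  intro halg
  apply ht
  have hint : IsIntegral K t := halg.isIntegral
  have hdeg : (minpoly K t).degree = 1 :=
    IsAlgClosed.degree_eq_one_of_irreducible K (minpoly.irreducible hint)
  exact minpoly.mem_range_of_degree_eq_one K t hdeg

theorem principal_setOf_ord_neg_eq (t : F) :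
    {v : Place K F | v.ord t < 0} = {v : Place K F | 0 < v.ord t⁻¹} := by
  ext v
  simp only [Set.mem_ofPred_eq, Place.ord_inv]
  omega

theorem principal_setOf_ord_ne_zero_eq (f : F) :
    {v : Place K F | v.ord f ≠ 0} =
      {v : Place K F | 0 < v.ord f} ∪ {v : Place K F | v.ord f < 0} := by
  ext v
  simp only [Set.mem_ofPred_eq, Set.mem_union]
  omega

end Glue

variable {K F : Type*} [Field K] [Field F] [Algebra K F]
variable [IsAlgClosed K] [CharZero K]

theorem finrank_adjoin_inv {t : F} :
    Module.finrank K⟮t⁻¹⟯ F = Module.finrank K⟮t⟯ F := by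
  rw [principal_adjoin_inv]

theorem finrank_adjoin_sub_algebraMap {t : F} (a : K) :
    Module.finrank K⟮t - algebraMap K F a⟯ F = Module.finrank K⟮t⟯ F := by
  rw [principal_adjoin_sub]

theorem finite_ord_neg (hF : IsFF1 K F) {t : F} (ht : Transcendental K t) :
    {v : Place K F | v.ord t < 0}.Finite := by
  rw [principal_setOf_ord_neg_eq]
  exact finite_ord_pos hF (principal_transcendental_inv ht)

theorem sum_ord_neg (hF : IsFF1 K F) {t : F} (ht : Transcendental K t) :
    ∑ᶠ v ∈ {v : Place K F | v.ord t < 0}, v.ord t = -(Module.finrank K⟮t⟯ F : ℤ) := by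
  have ht' := principal_transcendental_inv ht
  rw [principal_setOf_ord_neg_eq, ← finrank_adjoin_inv, ← sum_ord_pos hF ht',
    ← finsum_mem_neg_distrib (f := fun v : Place K F => v.ord t⁻¹) (finite_ord_pos hF ht')]
  refine finsum_mem_congr rfl fun v _ => ?_
  simp only [Place.ord_inv, neg_neg]

theorem finite_ord_ne_zero (hF : IsFF1 K F) {f : F} (hf : f ≠ 0) :
    {v : Place K F | v.ord f ≠ 0}.Finite := by
  by_cases hc : f ∈ Set.range (algebraMap K F)
  · obtain ⟨a, rfl⟩ := hc
    have : {v : Place K F | v.ord (algebraMap K F a) ≠ 0} = ∅ := by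
      ext v
      simp [principal_ord_algebraMap]
    rw [this]
    exact Set.finite_empty
  · have ht := principal_transcendental_of_notMem_range hc
    rw [principal_setOf_ord_ne_zero_eq]
    exact (finite_ord_pos hF ht).union (finite_ord_neg hF ht)

/-- The sum of the orders of a nonzero function over all its zeros and poles vanishes. -/
theorem sum_ord_eq_zero (hF : IsFF1 K F) {f : F} (hf : f ≠ 0) :
    ∑ᶠ v ∈ {v : Place K F | v.ord f ≠ 0}, v.ord f = 0 := by
  by_cases hc : f ∈ Set.range (algebraMap K F)
  · obtain ⟨a, rfl⟩ := hc
    exact finsum_mem_eq_zero_of_forall_eq_zero fun v _ => principal_ord_algebraMap v a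
  · have ht := principal_transcendental_of_notMem_range hc
    have hdisj : Disjoint {v : Place K F | 0 < v.ord f} {v : Place K F | v.ord f < 0} := by
      rw [Set.disjoint_left]
      intro v h1 h2
      simp only [Set.mem_ofPred_eq] at h1 h2
      omega
    rw [principal_setOf_ord_ne_zero_eq,
      finsum_mem_union hdisj (finite_ord_pos hF ht) (finite_ord_neg hF ht),
      sum_ord_pos hF ht, sum_ord_neg hF ht, add_neg_cancel]

theorem degree_eq_zero_of_principal (hF : IsFF1 K F) {f : F} (hf : f ≠ 0) (D : Divisor K F)
    (hD : ∀ v : Place K F, D v = v.ord f) : Divisor.degree D = 0 := by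
  have h1 : Divisor.degree D = ∑ v ∈ D.support, D v := by
    show (Finsupp.liftAddHom fun v : Place K F => AddMonoidHom.mulRight (v.deg : ℤ)) D = _
    rw [Finsupp.liftAddHom_apply, Finsupp.sum]
    refine Finset.sum_congr rfl fun v _ => ?_
    rw [AddMonoidHom.mulRight_apply, place_deg_eq_one hF v, Nat.cast_one, mul_one]
  have h2 : (D.support : Set (Place K F)) = {v : Place K F | v.ord f ≠ 0} := by
    ext v
    simp only [Finset.mem_coe, Finsupp.mem_support_iff, Set.mem_ofPred_eq, hD v]
  rw [h1, ← finsum_mem_coe_finset, h2]
  exact (finsum_mem_congr rfl fun v _ => hD v).trans (sum_ord_eq_zero hF hf)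

end Fermat.Agent.S24
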