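import Mathlib
import Fermat.Agent.S24.Defs

/-!
# S24 team library: Kähler differentials of a function field (basic part)

OWNER: helper14 (only the owner edits this file).

Sorry-free base for `Diff.lean` / `DiffBdd.lean`:
* `Ω[F⁄K]` is one-dimensional, spanned by `dt` for every transcendental `t`;
* `v.DCoordGenerates` for every place `v`;
* `ordDifferential (f • ω) = ord f + ordDifferential ω`;
* the order of `dy` at a zero/pole of `y` is `ord y - 1`, *given* that the residue field is `K`
  and a uniform bound on the poles of `dr/dπ` for `r ∈ O_v`.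
-/

set_option autoImplicit false

namespace Fermat.Agent.S24

open KaehlerDifferential IntermediateField TensorProduct AlgebraicCurve

variable {K F : Type*} [Field K] [Field F] [Algebra K F]

/-- `d r ∈ F·dt` for every `r ∈ K(t)`. -/
theorem D_mem_span_of_mem_adjoin (t : F) {r : F} (hr : r ∈ K⟮t⟯) :
    D K F r ∈ Submodule.span F {D K F t} := by
  induction hr using IntermediateField.adjoin_induction with
  | mem x hx =>
      rw [Set.mem_singleton_iff] at hx
      subst hx
      exact Submodule.subset_span rfl
  | algebraMap x =>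
      rw [Derivation.map_algebraMap]
      exact Submodule.zero_mem _
  | add x y _ _ hx hy =>
      rw [map_add]
      exact Submodule.add_mem _ hx hy
  | inv x _ hx =>
      rw [Derivation.leibniz_inv]
      exact Submodule.smul_mem _ _ hx
  | mul x y _ _ hx hy =>
      rw [Derivation.leibniz]
      exact Submodule.add_mem _ (Submodule.smul_mem _ _ hy) (Submodule.smul_mem _ _ hx)

/-- Chain rule modulo a submodule `W` containing `d a` for all coefficients `a`. -/
theorem D_aeval_sub_mem {L : Type*} [Field L] [Algebra K L] [Algebra L F] [IsScalarTower K L F]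
    (W : Submodule F (Ω[F⁄K])) (hW : ∀ a : L, D K F (algebraMap L F a) ∈ W) (f : F)
    (p : Polynomial L) :
    D K F (Polynomial.aeval f p) - (Polynomial.aeval f (Polynomial.derivative p)) • D K F f ∈ W := by
  induction p using Polynomial.induction_on' with
  | add p q hp hq =>
      have : D K F (Polynomial.aeval f (p + q))
          - (Polynomial.aeval f (Polynomial.derivative (p + q))) • D K F f
          = (D K F (Polynomial.aeval f p) - (Polynomial.aeval f (Polynomial.derivative p)) • D K F f)
          + (D K F (Polynomial.aeval f q)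
            - (Polynomial.aeval f (Polynomial.derivative q)) • D K F f) := by
        simp only [map_add, add_smul]
        abel
      rw [this]
      exact Submodule.add_mem _ hp hq
  | monomial n a =>
      have : D K F (Polynomial.aeval f (Polynomial.monomial n a))
          - (Polynomial.aeval f (Polynomial.derivative (Polynomial.monomial n a))) • D K F f
          = f ^ n • D K F (algebraMap L F a) := by
        simp only [Polynomial.aeval_monomial, Polynomial.derivative_monomial, Derivation.leibniz,
          Derivation.leibniz_pow, map_mul, map_natCast]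
        module
      rw [this]
      exact Submodule.smul_mem _ _ (hW a)

/-- If `F` is algebraic over `K(t)` (char. 0), then `dt` spans `Ω[F⁄K]`. -/
theorem span_D_eq_top_of_isAlgebraic [CharZero K] (t : F) (hF : Algebra.IsAlgebraic K⟮t⟯ F) :
    Submodule.span F {D K F t} = ⊤ := by
  rw [eq_top_iff, ← KaehlerDifferential.span_range_derivation, Submodule.span_le]
  rintro _ ⟨f, rfl⟩
  set W := Submodule.span F {D K F t} with hWdef
  have : CharZero K⟮t⟯ := charZero_of_injective_algebraMap (algebraMap K K⟮t⟯).injective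
  have hsepF : Algebra.IsSeparable K⟮t⟯ F := Algebra.IsAlgebraic.isSeparable_of_perfectField
  have hsep : IsSeparable K⟮t⟯ f := Algebra.IsSeparable.isSeparable K⟮t⟯ f
  have hW : ∀ a : K⟮t⟯, D K F (algebraMap K⟮t⟯ F a) ∈ W := fun a =>
    D_mem_span_of_mem_adjoin t a.2
  have h := D_aeval_sub_mem W hW f (minpoly K⟮t⟯ f)
  rw [minpoly.aeval, map_zero, zero_sub, Submodule.neg_mem_iff] at h
  have hne : Polynomial.aeval f (Polynomial.derivative (minpoly K⟮t⟯ f)) ≠ 0 :=
    hsep.aeval_derivative_ne_zero (minpoly.aeval _ _)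
  have := Submodule.smul_mem W (Polynomial.aeval f (Polynomial.derivative (minpoly K⟮t⟯ f)))⁻¹ h
  rwa [smul_smul, inv_mul_cancel₀ hne, one_smul] at this

open scoped IntermediateField.algebraAdjoinAdjoin in
/-- Transcendence degree one: `F` algebraic over `K(x)` and `t` transcendental implies
`F` algebraic over `K(t)`. -/
theorem isAlgebraic_adjoin_of_transcendental (x t : F) (hx : Algebra.IsAlgebraic K⟮x⟯ F)
    (ht : Transcendental K t) : Algebra.IsAlgebraic K⟮t⟯ F := by
  have h1 : Algebra.IsAlgebraic (Algebra.adjoin K ({x} : Set F)) F :=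
    (IsFractionRing.comap_isAlgebraic_iff (A := Algebra.adjoin K ({x} : Set F)) (K := K⟮x⟯)).mpr hx
  have h2 : Algebra.trdeg K F ≤ 1 := by
    have := Algebra.IsAlgebraic.trdeg_le_cardinalMk K ({x} : Set F)
    simpa using this
  have h3 : AlgebraicIndependent K (fun _ : PUnit => t) :=
    algebraicIndependent_unique_type_iff.mpr ht
  have h4 : IsTranscendenceBasis K (fun _ : PUnit => t) :=
    h3.isTranscendenceBasis_of_trdeg_le_of_finite (by simpa using h2)
  have h5 := h4.isAlgebraic_field
  have h6 : Set.range (fun _ : PUnit => t) = {t} := Set.range_const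
  rwa [h6] at h5

open Polynomial in
theorem finrank_kaehler_of_transcendental [CharZero K] (x : F) (hx : Transcendental K x)
    (hfin : FiniteDimensional K⟮x⟯ F) : Module.finrank F (Ω[F⁄K]) = 1 := by
  classical
  letI algPF : Algebra K[X] F := (Polynomial.aeval x).toRingHom.toAlgebra
  letI algPL : Algebra K[X] K⟮x⟯ := (Polynomial.aeval (AdjoinSimple.gen K x)).toRingHom.toAlgebra
  have hPF : ∀ p : K[X], algebraMap K[X] F p = Polynomial.aeval x p := fun _ => rfl
  have hPL : ∀ p : K[X], algebraMap K[X] K⟮x⟯ p = Polynomial.aeval (AdjoinSimple.gen K x) p :=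
    fun _ => rfl
  have hcoe : ∀ p : K[X], ((Polynomial.aeval (AdjoinSimple.gen K x) p : K⟮x⟯) : F)
      = Polynomial.aeval x p := by
    intro p
    simp
  haveI : IsScalarTower K K[X] F := IsScalarTower.of_algebraMap_eq (fun a => by
    rw [hPF]; simp)
  haveI : IsScalarTower K K[X] K⟮x⟯ := IsScalarTower.of_algebraMap_eq (fun a => by
    rw [hPL]; simp)
  haveI : IsScalarTower K[X] K⟮x⟯ F := IsScalarTower.of_algebraMap_eq (fun p => by
    rw [hPF, hPL]; exact (hcoe p).symm)
  have hinj : Function.Injective (algebraMap K[X] K⟮x⟯) := by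
    intro p q hpq
    have h1 : Polynomial.aeval x p = Polynomial.aeval x q := by
      rw [← hcoe, ← hcoe, ← hPL, ← hPL, hpq]
    exact (transcendental_iff_injective.mp hx) h1
  haveI : FaithfulSMul K[X] K⟮x⟯ := (faithfulSMul_iff_algebraMap_injective _ _).mpr hinj
  haveI : IsFractionRing K[X] K⟮x⟯ := IsFractionRing.of_field _ _ (fun z => by
    obtain ⟨r, s, hrs⟩ := (IntermediateField.mem_adjoin_simple_iff K (z : F)).mp z.2
    refine ⟨r, s, Subtype.ext ?_⟩
    rw [hrs, hPL, hPL]
    push_cast
    rw [hcoe, hcoe])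
  haveI : Algebra.FormallyEtale K[X] K⟮x⟯ :=
    Algebra.FormallyEtale.of_isLocalization (nonZeroDivisors K[X])
  haveI : CharZero K⟮x⟯ := charZero_of_injective_algebraMap (algebraMap K K⟮x⟯).injective
  haveI : Algebra.IsSeparable K⟮x⟯ F := Algebra.IsAlgebraic.isSeparable_of_perfectField
  haveI : Algebra.FormallyEtale K⟮x⟯ F := Algebra.FormallyEtale.of_isSeparable K⟮x⟯ F
  haveI : Algebra.FormallyEtale K[X] F := Algebra.FormallyEtale.comp K[X] K⟮x⟯ F
  let e1 := KaehlerDifferential.tensorKaehlerEquivOfFormallyEtale K K[X] F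
  let e2 : F ⊗[K[X]] Ω[K[X]⁄K] ≃ₗ[F] F ⊗[K[X]] K[X] :=
    TensorProduct.AlgebraTensorModule.congr (LinearEquiv.refl F F)
      (KaehlerDifferential.polynomialEquiv K)
  let e3 : F ⊗[K[X]] K[X] ≃ₗ[F] F := TensorProduct.AlgebraTensorModule.rid K[X] F F
  rw [← e1.finrank_eq, e2.finrank_eq, e3.finrank_eq, Module.finrank_self]

/-- The prelude's (private) uniformizer: `dCoord = d π` with `π` irreducible in `O_v`. -/
theorem diff_exists_irreducible (v : Place K F) :
    ∃ π : v.toValuationSubring, Irreducible π ∧ v.dCoord = D K F (π : F) :=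
  ⟨_, (IsDiscreteValuationRing.exists_irreducible v.toValuationSubring).choose_spec, rfl⟩

theorem diff_mem_of_ord_nonneg (v : Place K F) {b : F} (hb : 0 ≤ v.ord b) :
    b ∈ v.toValuationSubring := by
  rcases eq_or_ne b 0 with rfl | hb0
  · exact zero_mem _
  obtain ⟨π, hπ⟩ := IsDiscreteValuationRing.exists_irreducible v.toValuationSubring
  obtain ⟨u, hu⟩ := v.exists_unit_mul_zpow hb0 hπ
  obtain ⟨n, hn⟩ := Int.eq_ofNat_of_zero_le hb
  rw [hu, hn, zpow_natCast]
  exact mul_mem (u : v.toValuationSubring).2 (pow_mem π.2 n)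

theorem diff_ord_nonneg_of_mem (v : Place K F) {b : F} (hb : b ∈ v.toValuationSubring) :
    0 ≤ v.ord b := by
  rcases eq_or_ne b 0 with rfl | hb0
  · simp
  obtain ⟨π, hπ⟩ := IsDiscreteValuationRing.exists_irreducible v.toValuationSubring
  obtain ⟨u, hu⟩ := v.exists_unit_mul_zpow hb0 hπ
  by_contra hneg
  rw [not_le] at hneg
  have hπ0 : (π : F) ≠ 0 := by
    simpa [ne_eq, ZeroMemClass.coe_eq_zero] using hπ.ne_zero
  -- π⁻¹ ∈ O_v
  have h1 : ((π : F) ^ (v.ord b)) ∈ v.toValuationSubring := by
    have : (π : F) ^ (v.ord b) = ((u⁻¹ : v.toValuationSubringˣ) : v.toValuationSubring) * b := by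
      have hu0 : ((u : v.toValuationSubring) : F) ≠ 0 := by
        simp [ne_eq, ZeroMemClass.coe_eq_zero]
      have hinv : (((u⁻¹ : v.toValuationSubringˣ) : v.toValuationSubring) : F)
          * ((u : v.toValuationSubring) : F) = 1 := by
        exact congrArg (Subtype.val) (Units.inv_mul u)
      conv_rhs => rw [hu]
      rw [← mul_assoc, hinv, one_mul]
    rw [this]
    exact mul_mem (SetLike.coe_mem _) hb
  have h2 : (π : F)⁻¹ ∈ v.toValuationSubring := by
    obtain ⟨m, hm⟩ := Int.eq_ofNat_of_zero_le (show 0 ≤ -v.ord b - 1 by omega)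
    have : (π : F)⁻¹ = (π : F) ^ (v.ord b) * (π : F) ^ m := by
      rw [← zpow_natCast, ← hm, ← zpow_add₀ hπ0]
      have : v.ord b + (-v.ord b - 1) = -1 := by ring
      rw [this, zpow_neg_one]
    rw [this]
    exact mul_mem h1 (pow_mem π.2 m)
  apply hπ.not_isUnit
  refine IsUnit.of_mul_eq_one ⟨(π : F)⁻¹, h2⟩ (Subtype.ext ?_)
  simp [hπ0]

section Local

variable [CharZero K] (v : Place K F) [v.DCoordGenerates] [Nontrivial Ω[F⁄K]]

omit [CharZero K] in
/-- A uniform pole bound on `dr/dπ` (`r ∈ O_v`) self-improves to integrality, as soon as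
the residue field is `K`. -/
theorem diff_coeff_mem_of_bdd
    (π : v.toValuationSubring) (hd : v.dCoord = D K F (π : F))
    (hres : ∀ b ∈ v.toValuationSubring, ∃ a : K, ∃ b₁ ∈ v.toValuationSubring,
      b = algebraMap K F a + (π : F) * b₁)
    (M : ℕ) (hbdd : ∀ r ∈ v.toValuationSubring,
      (π : F) ^ M * v.differentialCoeff (D K F r) ∈ v.toValuationSubring) :
    ∀ r ∈ v.toValuationSubring, v.differentialCoeff (D K F r) ∈ v.toValuationSubring := by
  induction M with
  | zero => simpa using hbdd
  | succ M ih =>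
      apply ih
      intro r hr
      obtain ⟨a, r₁, hr₁, rfl⟩ := hres r hr
      have hc : v.differentialCoeff (D K F (algebraMap K F a + (π : F) * r₁))
          = (π : F) * v.differentialCoeff (D K F r₁) + r₁ := by
        apply v.differentialCoeff_unique
        rw [map_add, Derivation.map_algebraMap, zero_add, Derivation.leibniz, add_smul, mul_smul,
          v.differentialCoeff_smul_dCoord, hd]
      rw [hc, mul_add, ← mul_assoc, ← pow_succ]
      exact add_mem (hbdd r₁ hr₁) (mul_mem (pow_mem π.2 M) hr₁)

/-- The order of `dy` at a zero or pole of `y`. -/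
theorem diff_ordDifferential_D_of_coeff_mem
    (hint : ∀ r ∈ v.toValuationSubring, v.differentialCoeff (D K F r) ∈ v.toValuationSubring)
    {y : F} (hy : v.ord y ≠ 0) : v.ordDifferential (D K F y) = v.ord y - 1 := by
  obtain ⟨π, hπ, hd⟩ := diff_exists_irreducible v
  have hy0 : y ≠ 0 := by
    rintro rfl
    simp at hy
  obtain ⟨u, hu⟩ := v.exists_unit_mul_zpow hy0 hπ
  set n := v.ord y with hn
  have hπ0 : (π : F) ≠ 0 := by
    simpa [ne_eq, ZeroMemClass.coe_eq_zero] using hπ.ne_zero
  set c := v.differentialCoeff (D K F ((u : v.toValuationSubring) : F)) with hcdef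
  have hcmem : c ∈ v.toValuationSubring := hint _ (SetLike.coe_mem _)
  -- the coefficient of `dy`
  have hcoeff : v.differentialCoeff (D K F y)
      = (((u : v.toValuationSubring) : F) * (n : F) + (π : F) * c) * (π : F) ^ (n - 1) := by
    apply v.differentialCoeff_unique
    have hDu : D K F ((u : v.toValuationSubring) : F) = c • v.dCoord :=
      (v.differentialCoeff_smul_dCoord _).symm
    rw [hu, Derivation.leibniz, Derivation.leibniz_zpow, hDu, hd, ← Int.cast_smul_eq_zsmul F]
    have hpow : (π : F) ^ n = (π : F) * (π : F) ^ (n - 1) := by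
      rw [← zpow_one_add₀ hπ0]; congr 1; ring
    rw [hpow]
    module
  -- the unit
  have hnK : ((n : K)) ≠ 0 := by exact_mod_cast hy
  have hnu : IsUnit (algebraMap K v.toValuationSubring (n : K)) :=
    (IsUnit.mk0 _ hnK).map _
  let w : v.toValuationSubring :=
    (u : v.toValuationSubring) * algebraMap K v.toValuationSubring (n : K) + π * ⟨c, hcmem⟩
  have hw : IsUnit w := by
    by_contra hnot
    have hwm : w ∈ IsLocalRing.maximalIdeal v.toValuationSubring := hnot
    have hπm : π * ⟨c, hcmem⟩ ∈ IsLocalRing.maximalIdeal v.toValuationSubring :=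
      Ideal.mul_mem_right _ _ hπ.not_isUnit
    have : (u : v.toValuationSubring) * algebraMap K v.toValuationSubring (n : K)
        ∈ IsLocalRing.maximalIdeal v.toValuationSubring := by
      have := Ideal.sub_mem _ hwm hπm
      simpa [w] using this
    exact this (u.isUnit.mul hnu)
  have hwcoe : ((hw.unit : v.toValuationSubring) : F)
      = ((u : v.toValuationSubring) : F) * (n : F) + (π : F) * c := by
    rw [IsUnit.unit_spec]
    simp [w]
  rw [Place.ordDifferential, hcoeff, ← hwcoe]
  exact v.ord_unit_smul_zpow hw.unit hπ (n - 1)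

end Local

section FF1

variable [CharZero K]

/-- `Ω[F⁄K]` is one-dimensional over `F`. -/
theorem diffBasic_finrank_kaehler (hF : IsFF1 K F) : Module.finrank F Ω[F⁄K] = 1 := by
  obtain ⟨x, hx, hfin⟩ := hF
  exact finrank_kaehler_of_transcendental x hx hfin

theorem diffBasic_nontrivial (hF : IsFF1 K F) : Nontrivial Ω[F⁄K] :=
  Module.nontrivial_of_finrank_pos (R := F) (by rw [diffBasic_finrank_kaehler hF]; exact one_pos)

theorem diffBasic_span_D_eq_top (hF : IsFF1 K F) {t : F} (ht : Transcendental K t) :
    Submodule.span F {D K F t} = ⊤ := by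
  obtain ⟨x, _, hfin⟩ := hF
  exact span_D_eq_top_of_isAlgebraic t
    (isAlgebraic_adjoin_of_transcendental x t (Algebra.IsAlgebraic.of_finite _ _) ht)

theorem diffBasic_D_ne_zero (hF : IsFF1 K F) {t : F} (ht : Transcendental K t) :
    D K F t ≠ 0 := by
  intro h0
  have htop := diffBasic_span_D_eq_top hF ht
  rw [h0, Submodule.span_zero_singleton] at htop
  haveI := diffBasic_nontrivial hF
  exact bot_ne_top htop

omit [CharZero K] in
/-- Constants have order zero. -/
theorem diff_ord_algebraMap (v : Place K F) (a : K) : v.ord (algebraMap K F a) = 0 := by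
  rcases eq_or_ne a 0 with rfl | ha
  · simp
  · have hu : IsUnit (algebraMap K v.toValuationSubring a) :=
      (IsUnit.mk0 a ha).map (algebraMap K v.toValuationSubring)
    have := v.ord_coe_unit hu.unit
    simpa using this

omit [CharZero K] in
/-- Over an algebraically closed field, non-constants are transcendental. -/
theorem diff_transcendental_of_not_mem_range [IsAlgClosed K] {t : F}
    (ht : t ∉ Set.range (algebraMap K F)) : Transcendental K t := by
  intro halg
  have hint : IsIntegral K t := halg.isIntegral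
  exact ht (minpoly.mem_range_of_degree_eq_one K t
    (IsAlgClosed.degree_eq_one_of_irreducible K (minpoly.irreducible hint)))

omit [CharZero K] in
/-- A uniformizer is transcendental. -/
theorem diff_transcendental_of_ord_ne_zero [IsAlgClosed K] (v : Place K F) {t : F}
    (ht : v.ord t ≠ 0) : Transcendental K t := by
  apply diff_transcendental_of_not_mem_range
  rintro ⟨a, rfl⟩
  exact ht (diff_ord_algebraMap v a)

/-- The differential of the prelude's uniformizer generates `Ω[F⁄K]` at every place. -/
theorem diffBasic_dCoordGenerates [IsAlgClosed K] (hF : IsFF1 K F) (v : Place K F) :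
    v.DCoordGenerates := by
  obtain ⟨π, hπ, hd⟩ := diff_exists_irreducible v
  refine ⟨?_⟩
  rw [hd]
  exact diffBasic_span_D_eq_top hF
    (diff_transcendental_of_ord_ne_zero v (by rw [v.ord_coe_irreducible hπ]; exact one_ne_zero))

theorem diffBasic_differentialCoeff_ne_zero [IsAlgClosed K] (hF : IsFF1 K F) (v : Place K F)
    {ω : Ω[F⁄K]} (hω : ω ≠ 0) : v.differentialCoeff ω ≠ 0 := by
  haveI := diffBasic_dCoordGenerates hF v
  intro h0
  apply hω
  rw [← v.differentialCoeff_smul_dCoord ω, h0, zero_smul]

theorem diffBasic_ordDifferential_smul [IsAlgClosed K] (hF : IsFF1 K F) (v : Place K F) {f : F}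
    (hf : f ≠ 0) {ω : Ω[F⁄K]} (hω : ω ≠ 0) :
    v.ordDifferential (f • ω) = v.ord f + v.ordDifferential ω := by
  haveI := diffBasic_dCoordGenerates hF v
  haveI := diffBasic_nontrivial hF
  exact v.ordDifferential_smul hf (diffBasic_differentialCoeff_ne_zero hF v hω)

/-- The order of `dy` at a zero or pole of `y` is `ord y - 1`, given that the residue field at
`v` is `K` (`hres`) and a uniform bound for the poles of `dr/dπ`, `r ∈ O_v` (`hbdd`). -/
theorem diffBasic_ordDifferential_D_of_bdd [IsAlgClosed K] (hF : IsFF1 K F) (v : Place K F)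
    (hres : ∀ b : F, 0 ≤ v.ord b →
      ∃ a : K, b = algebraMap K F a ∨ 0 < v.ord (b - algebraMap K F a))
    (hbdd : ∃ M : ℤ, ∀ r : F, 0 ≤ v.ord r → -M ≤ v.ord (v.differentialCoeff (D K F r)))
    {y : F} (hy : v.ord y ≠ 0) : v.ordDifferential (D K F y) = v.ord y - 1 := by
  haveI := diffBasic_dCoordGenerates hF v
  haveI := diffBasic_nontrivial hF
  obtain ⟨π, hπ, hd⟩ := diff_exists_irreducible v
  have hπ0 : (π : F) ≠ 0 := by
    simpa [ne_eq, ZeroMemClass.coe_eq_zero] using hπ.ne_zero
  have hπ1 : v.ord (π : F) = 1 := v.ord_coe_irreducible hπ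
  obtain ⟨M, hM⟩ := hbdd
  refine diff_ordDifferential_D_of_coeff_mem v
    (diff_coeff_mem_of_bdd v π hd ?_ M.toNat ?_) hy
  · -- residue field `K`
    intro b hb
    obtain ⟨a, ha | ha⟩ := hres b (diff_ord_nonneg_of_mem v hb)
    · exact ⟨a, 0, zero_mem _, by rw [ha]; simp⟩
    · refine ⟨a, (b - algebraMap K F a) / (π : F), diff_mem_of_ord_nonneg v ?_, ?_⟩
      · have hne : b - algebraMap K F a ≠ 0 := by
          intro h0
          rw [h0] at ha
          simp at ha
        rw [div_eq_mul_inv, v.ord_mul hne (inv_ne_zero hπ0), v.ord_inv, hπ1]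
        omega
      · field_simp
        ring
  · -- the bound
    intro r hr
    rcases eq_or_ne (v.differentialCoeff (D K F r)) 0 with h0 | h0
    · rw [h0, mul_zero]
      exact zero_mem _
    · apply diff_mem_of_ord_nonneg
      have h1 := hM r (diff_ord_nonneg_of_mem v hr)
      rw [v.ord_mul (pow_ne_zero _ hπ0) h0, ← zpow_natCast, v.ord_zpow, hπ1, mul_one]
      have := Int.self_le_toNat M
      omega

end FF1

end Fermat.Agent.S24
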