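import Mathlib
import Fermat.Agent.S24.Defs

/-!
# S24 team library: boundedness of `d/dπ` on the valuation ring of a place

OWNER: helper74 (only the owner edits this file).

For a place `v` of a function field `F/K` in one variable (char 0), the coefficients
`v.differentialCoeff (D K F r)` (`= dr/dπ`, `π` the chosen uniformizer of `v`), for `r` in the
valuation ring of `v`, have orders bounded below (`diffBdd`).

Proof: the valuation ring `O_v` is the localization at a maximal ideal of the integral closure
`R` of `K[t]` in `F` (`t ∈ O_v` transcendental with `F / K(t)` finite), and `R` is a finitely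
generated `K[t]`-module, so `D(O_v)` lies in a finitely generated `O_v`-submodule of `Ω[F⁄K]`.
-/

set_option autoImplicit false

namespace Fermat.Agent.S24

namespace DiffBdd

open IntermediateField AlgebraicCurve KaehlerDifferential

variable {K F : Type*} [Field K] [Field F] [Algebra K F]

/-- Elements of nonnegative order lie in the valuation ring. -/
theorem mem_of_ord_nonneg (v : Place K F) {b : F} (hb : 0 ≤ v.ord b) :
    b ∈ v.toValuationSubring := by
  rcases eq_or_ne b 0 with rfl | hb0
  · exact zero_mem _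
  obtain ⟨π, hπ⟩ := IsDiscreteValuationRing.exists_irreducible v.toValuationSubring
  obtain ⟨u, hu⟩ := v.exists_unit_mul_zpow hb0 hπ
  obtain ⟨n, hn⟩ := Int.eq_ofNat_of_zero_le hb
  rw [hu, hn, zpow_natCast]
  exact mul_mem (u : v.toValuationSubring).2 (pow_mem π.2 n)

/-- Nonzero elements of the valuation ring have nonnegative order. -/
theorem ord_nonneg_of_mem (v : Place K F) {b : F} (hb : b ∈ v.toValuationSubring) :
    0 ≤ v.ord b := by
  rcases eq_or_ne b 0 with rfl | hb0
  · simp
  have h1 : v.adicValuation b ≤ 1 := by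
    have := v.adicValuation_coe ⟨b, hb⟩
    rw [show ((⟨b, hb⟩ : v.toValuationSubring) : F) = b from rfl] at this
    rw [this]
    exact IsDedekindDomain.HeightOneSpectrum.intValuation_le_one _ _
  have h2 := (WithZero.log_le_log (v.adicValuation_ne_zero hb0) one_ne_zero).mpr h1
  simp only [Place.ord]
  rw [WithZero.log_one] at h2
  omega

section Coeff

variable (v : Place K F) [v.DCoordGenerates] [Nontrivial Ω[F⁄K]]

theorem differentialCoeff_add (ω₁ ω₂ : Ω[F⁄K]) :
    v.differentialCoeff (ω₁ + ω₂) = v.differentialCoeff ω₁ + v.differentialCoeff ω₂ :=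
  v.differentialCoeff_unique
    (by rw [add_smul, v.differentialCoeff_smul_dCoord, v.differentialCoeff_smul_dCoord])

/-- The `K`-subalgebra of elements `x` of the valuation ring with `c * dx/dπ` in the valuation
ring. -/
def goodSub (c : F) : Subalgebra K F where
  carrier := {x | x ∈ v.toValuationSubring ∧
    c * v.differentialCoeff (D K F x) ∈ v.toValuationSubring}
  mul_mem' := by
    rintro x y ⟨hx, hx'⟩ ⟨hy, hy'⟩
    refine ⟨mul_mem hx hy, ?_⟩
    rw [Derivation.leibniz, differentialCoeff_add, v.differentialCoeff_smul,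
      v.differentialCoeff_smul]
    have : c * (x * v.differentialCoeff (D K F y) + y * v.differentialCoeff (D K F x))
        = x * (c * v.differentialCoeff (D K F y)) + y * (c * v.differentialCoeff (D K F x)) := by
      ring
    rw [this]
    exact add_mem (mul_mem hx hy') (mul_mem hy hx')
  add_mem' := by
    rintro x y ⟨hx, hx'⟩ ⟨hy, hy'⟩
    refine ⟨add_mem hx hy, ?_⟩
    rw [map_add, differentialCoeff_add, mul_add]
    exact add_mem hx' hy'
  algebraMap_mem' := by
    intro a
    refine ⟨v.algebraMap_mem' a, ?_⟩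
    rw [Derivation.map_algebraMap, v.differentialCoeff_zero, mul_zero]
    exact zero_mem _

theorem mem_goodSub {c x : F} : x ∈ goodSub v c ↔ x ∈ v.toValuationSubring ∧
    c * v.differentialCoeff (D K F x) ∈ v.toValuationSubring := Iff.rfl

theorem inv_mem_goodSub {c x : F} (hx : x ∈ goodSub v c) (hxi : x⁻¹ ∈ v.toValuationSubring) :
    x⁻¹ ∈ goodSub v c := by
  refine ⟨hxi, ?_⟩
  rw [Derivation.leibniz_inv, v.differentialCoeff_smul]
  have : c * (-x⁻¹ ^ 2 * v.differentialCoeff (D K F x))
      = -(x⁻¹ * x⁻¹ * (c * v.differentialCoeff (D K F x))) := by ring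
  rw [this]
  exact neg_mem (mul_mem (mul_mem hxi hxi) hx.2)

end Coeff

section Global

open scoped IntermediateField.algebraAdjoinAdjoin

/-- For a transcendental `t`, `K[t] ⊆ F` is a principal ideal domain. -/
theorem isPrincipalIdealRing_adjoin {t : F} (ht : Transcendental K t) :
    IsPrincipalIdealRing (Algebra.adjoin K {t}) := by
  have hinj : Function.Injective (Polynomial.aeval (R := K) t) :=
    transcendental_iff_injective.mp ht
  let e : Polynomial K ≃ₐ[K] (Polynomial.aeval (R := K) t).range :=
    AlgEquiv.ofInjective _ hinj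
  have hrange : (Polynomial.aeval (R := K) t).range = Algebra.adjoin K {t} :=
    (Algebra.adjoin_singleton_eq_range_aeval K t).symm
  rw [← hrange]
  exact IsPrincipalIdealRing.of_surjective e.toRingEquiv.toRingHom e.surjective

/-- There is a transcendental element in the valuation ring over which `F` is finite. -/
theorem exists_transcendental_mem (hF : IsFF1 K F) (v : Place K F) :
    ∃ t : F, t ∈ v.toValuationSubring ∧ Transcendental K t ∧ FiniteDimensional K⟮t⟯ F := by
  obtain ⟨x, hx, hfin⟩ := hF
  rcases v.toValuationSubring.mem_or_inv_mem x with h | h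
  · exact ⟨x, h, hx, hfin⟩
  · refine ⟨x⁻¹, h, ?_, ?_⟩
    · intro halg
      exact hx (by simpa using halg.inv)
    · have heq : K⟮x⁻¹⟯ = K⟮x⟯ := by
        apply le_antisymm
        · rw [adjoin_simple_le_iff]
          exact inv_mem (mem_adjoin_simple_self K x)
        · rw [adjoin_simple_le_iff]
          have := inv_mem (mem_adjoin_simple_self K x⁻¹)
          simpa using this
      rw [heq]
      exact hfin

/-- For every `y : F` there is a nonzero `d` in the valuation ring with `d * y` in the
valuation ring. -/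
theorem exists_den (v : Place K F) (y : F) :
    ∃ d : F, d ≠ 0 ∧ d ∈ v.toValuationSubring ∧ d * y ∈ v.toValuationSubring := by
  rcases v.toValuationSubring.mem_or_inv_mem y with h | h
  · exact ⟨1, one_ne_zero, one_mem _, by simpa using h⟩
  · rcases eq_or_ne y 0 with rfl | hy
    · exact ⟨1, one_ne_zero, one_mem _, by simp⟩
    · exact ⟨y⁻¹, inv_ne_zero hy, h, by rw [inv_mul_cancel₀ hy]; exact one_mem _⟩

/-- Common denominator for a finite family. -/
theorem exists_common_den (v : Place K F) {ι : Type*} (s : Finset ι) (y : ι → F) :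
    ∃ d : F, d ≠ 0 ∧ d ∈ v.toValuationSubring ∧ ∀ i ∈ s, d * y i ∈ v.toValuationSubring := by
  classical
  induction s using Finset.induction_on with
  | empty => exact ⟨1, one_ne_zero, one_mem _, by simp⟩
  | insert i s _ ih =>
    obtain ⟨d, hd0, hd, hds⟩ := ih
    obtain ⟨e, he0, he, hey⟩ := exists_den v (y i)
    refine ⟨d * e, mul_ne_zero hd0 he0, mul_mem hd he, ?_⟩
    intro j hj
    rcases Finset.mem_insert.mp hj with rfl | hj
    · rw [mul_assoc]
      exact mul_mem hd hey
    · rw [mul_comm d e, mul_assoc]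
      exact mul_mem he (hds j hj)

/-- A unit of the valuation ring has its inverse in the valuation ring. -/
theorem inv_mem_of_isUnit (v : Place K F) {y : v.toValuationSubring} (hy : IsUnit y) :
    ((y : F))⁻¹ ∈ v.toValuationSubring := by
  obtain ⟨w, hw⟩ := hy.exists_right_inv
  have h1 : (y : F) * (w : F) = 1 := by
    have := congrArg (Subtype.val) hw
    simpa using this
  have h2 : ((y : F))⁻¹ = (w : F) := inv_eq_of_mul_eq_one_right h1
  rw [h2]
  exact w.2

theorem key (v : Place K F) [v.DCoordGenerates] [Nontrivial Ω[F⁄K]] [CharZero K]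
    {t : F} (htv : t ∈ v.toValuationSubring) (ht : Transcendental K t)
    [FiniteDimensional K⟮t⟯ F] :
    ∃ c : F, c ≠ 0 ∧ ∀ r ∈ v.toValuationSubring,
      c * v.differentialCoeff (D K F r) ∈ v.toValuationSubring := by
  classical
  let A := Algebra.adjoin K {t}
  have : IsPrincipalIdealRing A := isPrincipalIdealRing_adjoin ht
  let R := integralClosure A F
  have hfin : Module.Finite A R := IsIntegralClosure.finite A K⟮t⟯ F R
  have : IsDedekindDomain R := integralClosure.isDedekindDomain A K⟮t⟯ F
  have : IsFractionRing R F := IsIntegralClosure.isFractionRing_of_finite_extension A K⟮t⟯ F R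
  -- the valuation ring as a `K`-subalgebra
  let Ov : Subalgebra K F :=
    { v.toValuationSubring.toSubring with algebraMap_mem' := v.algebraMap_mem' }
  have hAO : A ≤ Ov := Algebra.adjoin_le (Set.singleton_subset_iff.mpr htv)
  -- `R ⊆ O_v`
  let φA : A →+* v.toValuationSubring :=
    (algebraMap A F).codRestrict v.toValuationSubring.toSubring (fun a => hAO a.2)
  let _ : Algebra A v.toValuationSubring := φA.toAlgebra
  have : IsScalarTower A v.toValuationSubring F := IsScalarTower.of_algebraMap_eq (fun a => rfl)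
  have hRO : ∀ r : R, (r : F) ∈ v.toValuationSubring := by
    intro r
    have h1 : IsIntegral A (r : F) := r.2
    have h2 : IsIntegral v.toValuationSubring (r : F) := h1.tower_top
    obtain ⟨y, hy⟩ := IsIntegrallyClosed.isIntegral_iff.mp h2
    rw [← hy]
    exact y.2
  let φ : R →+* v.toValuationSubring :=
    (algebraMap R F).codRestrict v.toValuationSubring.toSubring hRO
  have hφ : ∀ r : R, ((φ r : v.toValuationSubring) : F) = (r : F) := fun r => rfl
  let 𝔪 : Ideal R := (IsLocalRing.maximalIdeal v.toValuationSubring).comap φ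
  have : 𝔪.IsPrime := Ideal.comap_isPrime φ _
  have hunit : ∀ r : R, r ∉ 𝔪 → ((r : F))⁻¹ ∈ v.toValuationSubring := by
    intro r hr
    have h1 : φ r ∉ IsLocalRing.maximalIdeal v.toValuationSubring := hr
    have h2 : IsUnit (φ r) := by
      by_contra h
      exact h1 ((IsLocalRing.mem_maximalIdeal _).mpr h)
    exact inv_mem_of_isUnit v h2
  have h𝔪 : 𝔪 ≠ ⊥ := by
    intro hbot
    apply v.ne_top'
    rw [eq_top_iff]
    intro x _
    obtain ⟨a, b, hb, rfl⟩ := IsFractionRing.div_surjective (A := R) x
    have hb0 : b ≠ 0 := nonZeroDivisors.ne_zero hb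
    have hb' : b ∉ 𝔪 := by rw [hbot]; exact hb0
    rw [div_eq_mul_inv]
    exact mul_mem (hRO a) (hunit b hb')
  let w : IsDedekindDomain.HeightOneSpectrum R := ⟨𝔪, inferInstance, h𝔪⟩
  -- generators and the common denominator
  obtain ⟨s, hs⟩ := hfin.fg_top
  obtain ⟨d₀, hd₀0, hd₀, hd₀t⟩ := exists_den v (v.differentialCoeff (D K F t))
  obtain ⟨d₁, hd₁0, hd₁, hd₁s⟩ := exists_common_den v s
    (fun β : R => v.differentialCoeff (D K F (β : F)))
  refine ⟨d₀ * d₁, mul_ne_zero hd₀0 hd₁0, ?_⟩
  have htG : t ∈ goodSub v (d₀ * d₁) := by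
    refine ⟨htv, ?_⟩
    rw [mul_comm d₀ d₁, mul_assoc]
    exact mul_mem hd₁ hd₀t
  have hAG : A ≤ goodSub v (d₀ * d₁) := Algebra.adjoin_le (Set.singleton_subset_iff.mpr htG)
  have hsG : ∀ β ∈ s, (β : F) ∈ goodSub v (d₀ * d₁) := by
    intro β hβ
    refine ⟨hRO β, ?_⟩
    rw [mul_assoc]
    exact mul_mem hd₀ (hd₁s β hβ)
  have hRG : ∀ r : R, (r : F) ∈ goodSub v (d₀ * d₁) := by
    intro r
    have hr : r ∈ Submodule.span A (s : Set R) := by rw [hs]; trivial
    induction hr using Submodule.span_induction with
    | mem β hβ => exact hsG β hβ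
    | zero => exact zero_mem _
    | add x y _ _ hx hy => exact add_mem hx hy
    | smul a x _ hx => exact mul_mem (hAG a.2) hx
  intro u hu
  suffices hG : u ∈ goodSub v (d₀ * d₁) from hG.2
  obtain ⟨n, d, h | h⟩ := w.exists_primeCompl_mul_eq_or_mul_eq (K := F) u
  · have hd : (d : R) ∉ 𝔪 := d.2
    have hd0 : ((d : R) : F) ≠ 0 := by
      intro h0
      apply hd
      have : (d : R) = 0 := Subtype.ext h0
      rw [this]; exact zero_mem _
    have hu' : u = (n : F) * ((d : R) : F)⁻¹ := by
      rw [eq_mul_inv_iff_mul_eq₀ hd0]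
      exact h
    rw [hu']
    exact mul_mem (hRG n) (inv_mem_goodSub v (hRG d) (hunit d hd))
  · have hd : (d : R) ∉ 𝔪 := d.2
    have hn : n ∉ 𝔪 := by
      intro hn
      apply hd
      show φ d ∈ IsLocalRing.maximalIdeal v.toValuationSubring
      have h3 : φ d = ⟨u, hu⟩ * φ n := by
        apply Subtype.ext
        show ((d : R) : F) = u * (n : F)
        exact h.symm
      rw [h3]
      exact Ideal.mul_mem_left _ _ hn
    have hn0 : (n : F) ≠ 0 := by
      intro h0
      apply hn
      have : n = 0 := Subtype.ext h0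
      rw [this]; exact zero_mem _
    have hu' : u = ((d : R) : F) * (n : F)⁻¹ := by
      rw [eq_mul_inv_iff_mul_eq₀ hn0]
      exact h
    rw [hu']
    exact mul_mem (hRG d) (inv_mem_goodSub v (hRG n) (hunit n hn))

/-- **Boundedness of `d/dπ` on the valuation ring**: the orders of the coefficients
`dr/dπ_v`, `r ∈ O_v`, are bounded below. -/
theorem diffBdd [CharZero K] (hF : IsFF1 K F) (v : Place K F) [v.DCoordGenerates]
    [Nontrivial Ω[F⁄K]] :
    ∃ M : ℤ, ∀ r : F, 0 ≤ v.ord r → -M ≤ v.ord (v.differentialCoeff (D K F r)) := by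
  obtain ⟨t, htv, ht, hfin⟩ := exists_transcendental_mem hF v
  obtain ⟨c, hc0, hc⟩ := key v htv ht
  refine ⟨|v.ord c|, fun r hr => ?_⟩
  have hrO := mem_of_ord_nonneg v hr
  have h1 := hc r hrO
  rcases eq_or_ne (v.differentialCoeff (D K F r)) 0 with h0 | h0
  · rw [h0, v.ord_zero]
    have := abs_nonneg (v.ord c)
    omega
  · have h2 := ord_nonneg_of_mem v h1
    rw [v.ord_mul hc0 h0] at h2
    have := le_abs_self (v.ord c)
    omega

end Global

end DiffBdd

end Fermat.Agent.S24
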