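import Mathlib
import Fermat.Agent.S24.Defs
import Fermat.Agent.S24.PlaceBasic
import Fermat.Agent.S24.Residue
import Fermat.Agent.S24.DiffBasic
import Fermat.Agent.S24.DiffBdd

/-!
# S24 team library: Kähler differentials of a function field, orders of differentials

OWNER: helper14 (only the owner edits this file). Keep the exported signatures below unchanged
(tell helper24 before changing an interface); add helper lemmas freely (prefix private helpers).

The proofs live in `DiffBasic.lean` (sorry-free, imports only `Defs`); this file re-exports them
under the skeleton names.  `ordDifferential_D` additionally uses the residue field statement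
(`Residue.lean`, helper63) and the bound of `DiffBdd.lean` (helper74).
-/

set_option autoImplicit false

namespace Fermat.Agent.S24

open IntermediateField AlgebraicCurve KaehlerDifferential

variable {K F : Type*} [Field K] [Field F] [Algebra K F]
variable [IsAlgClosed K] [CharZero K]

omit [IsAlgClosed K] in
theorem finrank_kaehler (hF : IsFF1 K F) : Module.finrank F Ω[F⁄K] = 1 :=
  diffBasic_finrank_kaehler hF

omit [IsAlgClosed K] in
theorem span_D_eq_top (hF : IsFF1 K F) {t : F} (ht : Transcendental K t) :
    Submodule.span F {D K F t} = ⊤ :=
  diffBasic_span_D_eq_top hF ht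

omit [IsAlgClosed K] in
theorem D_ne_zero (hF : IsFF1 K F) {t : F} (ht : Transcendental K t) : D K F t ≠ 0 :=
  diffBasic_D_ne_zero hF ht

theorem ordDifferential_smul' (hF : IsFF1 K F) (v : Place K F) {f : F} (hf : f ≠ 0)
    {ω : Ω[F⁄K]} (hω : ω ≠ 0) :
    v.ordDifferential (f • ω) = v.ord f + v.ordDifferential ω :=
  diffBasic_ordDifferential_smul hF v hf hω

theorem ordDifferential_D (hF : IsFF1 K F) (v : Place K F) {y : F} (hy : v.ord y ≠ 0) :
    v.ordDifferential (D K F y) = v.ord y - 1 :=
  haveI := diffBasic_dCoordGenerates hF v
  haveI := diffBasic_nontrivial hF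
  diffBasic_ordDifferential_D_of_bdd hF v (fun _ hb => exists_residue hF v hb)
    (DiffBdd.diffBdd hF v) hy

end Fermat.Agent.S24
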