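/-
S24 (genus of the modular function field) -- block `RHCore`: abstract Riemann--Hurwitz
assembly, with all local/global inputs as explicit hypotheses.
Owner: helper33.  Everything lives in `namespace Fermat.Agent.S24`; helpers are prefixed `rh_`.

The inputs are produced by the blocks Residue / PlacesSum / Principal / Diff; the file `RH.lean`
feeds them in.
-/
import Mathlib
import Fermat.Prelude.Def_AlgebraicCurve_CanonicalDivisor

set_option autoImplicit false

noncomputable section

namespace Fermat.Agent.S24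

open AlgebraicCurve KaehlerDifferential

section RHCore

variable {K F : Type*} [Field K] [Field F] [Algebra K F]

/-- If all places have degree one, the degree of a divisor is the sum of its coefficients. -/
lemma rh_degree_eq_sum (hdeg : ∀ v : Place K F, v.deg = 1) (D : Divisor K F) :
    Divisor.degree D = ∑ v ∈ D.support, D v := by
  simp only [Divisor.degree, Finsupp.liftAddHom_apply, Finsupp.sum, AddMonoidHom.coe_mulRight,
    hdeg, Nat.cast_one, mul_one]

/-- If all places have degree one, the degree of a divisor is the sum of its coefficients over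
any finite set of places containing its support. -/
lemma rh_degree_eq_sum_of_subset (hdeg : ∀ v : Place K F, v.deg = 1) (D : Divisor K F)
    (T : Finset (Place K F)) (hT : ∀ v, v ∉ T → D v = 0) :
    Divisor.degree D = ∑ v ∈ T, D v := by
  rw [rh_degree_eq_sum hdeg]
  refine Finset.sum_subset (fun v hv => ?_) (fun v _ hv => Finsupp.notMem_support_iff.mp hv)
  by_contra hvT
  exact (Finsupp.mem_support_iff.mp hv) (hT v hvT)

/-- **Abstract Riemann--Hurwitz, counting form.**  `δ v` plays the role of the order at `v` of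
the differential `dj`. -/
theorem rh_degree_of_local (hdeg : ∀ v : Place K F, v.deg = 1) (j : F) (n : ℕ)
    (δ : Place K F → ℤ)
    (hzfin : ∀ a : K, {v : Place K F | 0 < v.ord (j - algebraMap K F a)}.Finite)
    (hzsum : ∀ a : K, ∑ᶠ v ∈ {v : Place K F | 0 < v.ord (j - algebraMap K F a)},
      v.ord (j - algebraMap K F a) = (n : ℤ))
    (hpfin : {v : Place K F | v.ord j < 0}.Finite)
    (hpsum : ∑ᶠ v ∈ {v : Place K F | v.ord j < 0}, v.ord j = -(n : ℤ))
    (hcover : ∀ v : Place K F, v.ord j < 0 ∨ ∃ a : K, 0 < v.ord (j - algebraMap K F a))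
    (hdisj : ∀ (v : Place K F) (a b : K), 0 < v.ord (j - algebraMap K F a) →
      0 < v.ord (j - algebraMap K F b) → a = b)
    (hdisj' : ∀ (v : Place K F) (a : K), 0 < v.ord (j - algebraMap K F a) → ¬ v.ord j < 0)
    (hδz : ∀ (v : Place K F) (a : K), 0 < v.ord (j - algebraMap K F a) →
      δ v = v.ord (j - algebraMap K F a) - 1)
    (hδp : ∀ v : Place K F, v.ord j < 0 → δ v = v.ord j - 1)
    (S : Finset K) (hS : ∀ a ∉ S, ∀ v : Place K F, v.ord (j - algebraMap K F a) ≤ 1)
    (E : Divisor K F) (hE : ∀ v, E v = δ v) :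
    Divisor.degree E =
      ∑ a ∈ S, ((n : ℤ) - (Nat.card {v : Place K F // 0 < v.ord (j - algebraMap K F a)} : ℤ))
        - (n : ℤ) - (Nat.card {v : Place K F // v.ord j < 0} : ℤ) := by
  classical
  -- the finite sets of zeros of `j - a` and of poles of `j`
  let Z : K → Finset (Place K F) := fun a => (hzfin a).toFinset
  let P : Finset (Place K F) := hpfin.toFinset
  have hZ : ∀ a v, v ∈ Z a ↔ 0 < v.ord (j - algebraMap K F a) := fun a v => by
    simp [Z]
  have hP : ∀ v, v ∈ P ↔ v.ord j < 0 := fun v => by simp [P]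
  have hcardZ : ∀ a, Nat.card {v : Place K F // 0 < v.ord (j - algebraMap K F a)} =
      (Z a).card := fun a => Nat.card_eq_card_finite_toFinset (hzfin a)
  have hcardP : Nat.card {v : Place K F // v.ord j < 0} = P.card :=
    Nat.card_eq_card_finite_toFinset hpfin
  have hsumZ : ∀ a, ∑ v ∈ Z a, v.ord (j - algebraMap K F a) = (n : ℤ) := fun a => by
    rw [← hzsum a, finsum_mem_eq_finite_toFinset_sum _ (hzfin a)]
  have hsumP : ∑ v ∈ P, v.ord j = -(n : ℤ) := by
    rw [← hpsum, finsum_mem_eq_finite_toFinset_sum _ hpfin]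
  -- the support of `E` is contained in `U ∪ P`
  let U : Finset (Place K F) := S.biUnion Z
  have hUP : Disjoint U P := by
    rw [Finset.disjoint_left]
    intro v hvU hvP
    obtain ⟨a, -, hva⟩ := Finset.mem_biUnion.mp hvU
    exact hdisj' v a ((hZ a v).mp hva) ((hP v).mp hvP)
  have hsupp : ∀ v, v ∉ U ∪ P → E v = 0 := by
    intro v hv
    rw [Finset.mem_union, not_or] at hv
    rcases hcover v with hp | ⟨a, ha⟩
    · exact absurd ((hP v).mpr hp) hv.2
    · have haS : a ∉ S := fun haS => hv.1 (Finset.mem_biUnion.mpr ⟨a, haS, (hZ a v).mpr ha⟩)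
      have h1 := hS a haS v
      rw [hE v, hδz v a ha]
      omega
  rw [rh_degree_eq_sum_of_subset hdeg E (U ∪ P) hsupp, Finset.sum_union hUP]
  have hU : ∑ v ∈ U, E v =
      ∑ a ∈ S, ((n : ℤ) - (Nat.card {v : Place K F // 0 < v.ord (j - algebraMap K F a)} : ℤ)) := by
    rw [Finset.sum_biUnion]
    · refine Finset.sum_congr rfl fun a _ => ?_
      rw [hcardZ a, ← hsumZ a, Finset.card_eq_sum_ones, Nat.cast_sum, ← Finset.sum_sub_distrib]
      refine Finset.sum_congr rfl fun v hv => ?_
      rw [hE v, hδz v a ((hZ a v).mp hv)]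
      simp
    · intro a _ b _ hab
      show Disjoint (Z a) (Z b)
      rw [Finset.disjoint_left]
      intro v hva hvb
      exact hab (hdisj v a b ((hZ a v).mp hva) ((hZ b v).mp hvb))
  have hPsum : ∑ v ∈ P, E v = -(n : ℤ) - (Nat.card {v : Place K F // v.ord j < 0} : ℤ) := by
    rw [hcardP, ← hsumP, Finset.card_eq_sum_ones, Nat.cast_sum, ← Finset.sum_sub_distrib]
    refine Finset.sum_congr rfl fun v hv => ?_
    rw [hE v, hδp v ((hP v).mp hv)]
    simp
  rw [hU, hPsum]
  ring

/-- **Abstract Riemann--Hurwitz** for the divisor of an arbitrary nonzero differential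
`ω = f • dj`. -/
theorem rh_degree_of_differential (hdeg : ∀ v : Place K F, v.deg = 1) (j : F) (n : ℕ)
    (hzfin : ∀ a : K, {v : Place K F | 0 < v.ord (j - algebraMap K F a)}.Finite)
    (hzsum : ∀ a : K, ∑ᶠ v ∈ {v : Place K F | 0 < v.ord (j - algebraMap K F a)},
      v.ord (j - algebraMap K F a) = (n : ℤ))
    (hpfin : {v : Place K F | v.ord j < 0}.Finite)
    (hpsum : ∑ᶠ v ∈ {v : Place K F | v.ord j < 0}, v.ord j = -(n : ℤ))
    (hcover : ∀ v : Place K F, v.ord j < 0 ∨ ∃ a : K, 0 < v.ord (j - algebraMap K F a))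
    (hdisj : ∀ (v : Place K F) (a b : K), 0 < v.ord (j - algebraMap K F a) →
      0 < v.ord (j - algebraMap K F b) → a = b)
    (hdisj' : ∀ (v : Place K F) (a : K), 0 < v.ord (j - algebraMap K F a) → ¬ v.ord j < 0)
    (hδz : ∀ (v : Place K F) (a : K), 0 < v.ord (j - algebraMap K F a) →
      v.ordDifferential (D K F j) = v.ord (j - algebraMap K F a) - 1)
    (hδp : ∀ v : Place K F, v.ord j < 0 → v.ordDifferential (D K F j) = v.ord j - 1)
    (hspan : ∀ ω : Ω[F⁄K], ∃ f : F, ω = f • D K F j)
    (hsmul : ∀ (v : Place K F) (f : F), f ≠ 0 →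
      v.ordDifferential (f • D K F j) = v.ord f + v.ordDifferential (D K F j))
    (hprin : ∀ f : F, f ≠ 0 → {v : Place K F | v.ord f ≠ 0}.Finite)
    (hprin0 : ∀ f : F, f ≠ 0 → ∀ D' : Divisor K F, (∀ v, D' v = v.ord f) →
      Divisor.degree D' = 0)
    (S : Finset K) (hS : ∀ a ∉ S, ∀ v : Place K F, v.ord (j - algebraMap K F a) ≤ 1)
    (ω : Ω[F⁄K]) (hω : ω ≠ 0) (D₀ : Divisor K F) (hD₀ : ∀ v, D₀ v = v.ordDifferential ω) :
    Divisor.degree D₀ =
      ∑ a ∈ S, ((n : ℤ) - (Nat.card {v : Place K F // 0 < v.ord (j - algebraMap K F a)} : ℤ))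
        - (n : ℤ) - (Nat.card {v : Place K F // v.ord j < 0} : ℤ) := by
  obtain ⟨f, rfl⟩ := hspan ω
  have hf : f ≠ 0 := by
    rintro rfl
    exact hω (zero_smul _ _)
  -- the principal divisor of `f`
  let Df : Divisor K F := Finsupp.ofSupportFinite (fun v : Place K F => v.ord f)
    ((hprin f hf).subset fun v hv => by simpa [Function.mem_support] using hv)
  have hDf : ∀ v, Df v = v.ord f := fun v => rfl
  have hdegDf : Divisor.degree Df = 0 := hprin0 f hf Df hDf
  have hE : ∀ v, (D₀ - Df) v = v.ordDifferential (D K F j) := by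
    intro v
    rw [Finsupp.sub_apply, hD₀ v, hDf v, hsmul v f hf]
    ring
  have key := rh_degree_of_local hdeg j n (fun v => v.ordDifferential (D K F j)) hzfin hzsum hpfin
    hpsum hcover hdisj hdisj' hδz hδp S hS (D₀ - Df) hE
  rw [map_sub, hdegDf, sub_zero] at key
  exact key

/-- **Abstract Riemann--Hurwitz, genus form.** -/
theorem rh_genus_of_differential [HasCanonicalDivisor (K := K) (F := F)]
    (hdeg : ∀ v : Place K F, v.deg = 1) (j : F) (n : ℕ)
    (hzfin : ∀ a : K, {v : Place K F | 0 < v.ord (j - algebraMap K F a)}.Finite)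
    (hzsum : ∀ a : K, ∑ᶠ v ∈ {v : Place K F | 0 < v.ord (j - algebraMap K F a)},
      v.ord (j - algebraMap K F a) = (n : ℤ))
    (hpfin : {v : Place K F | v.ord j < 0}.Finite)
    (hpsum : ∑ᶠ v ∈ {v : Place K F | v.ord j < 0}, v.ord j = -(n : ℤ))
    (hcover : ∀ v : Place K F, v.ord j < 0 ∨ ∃ a : K, 0 < v.ord (j - algebraMap K F a))
    (hdisj : ∀ (v : Place K F) (a b : K), 0 < v.ord (j - algebraMap K F a) →
      0 < v.ord (j - algebraMap K F b) → a = b)
    (hdisj' : ∀ (v : Place K F) (a : K), 0 < v.ord (j - algebraMap K F a) → ¬ v.ord j < 0)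
    (hδz : ∀ (v : Place K F) (a : K), 0 < v.ord (j - algebraMap K F a) →
      v.ordDifferential (D K F j) = v.ord (j - algebraMap K F a) - 1)
    (hδp : ∀ v : Place K F, v.ord j < 0 → v.ordDifferential (D K F j) = v.ord j - 1)
    (hne : D K F j ≠ 0)
    (hspan : ∀ ω : Ω[F⁄K], ∃ f : F, ω = f • D K F j)
    (hsmul : ∀ (v : Place K F) (f : F), f ≠ 0 →
      v.ordDifferential (f • D K F j) = v.ord f + v.ordDifferential (D K F j))
    (hprin : ∀ f : F, f ≠ 0 → {v : Place K F | v.ord f ≠ 0}.Finite)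
    (hprin0 : ∀ f : F, f ≠ 0 → ∀ D' : Divisor K F, (∀ v, D' v = v.ord f) →
      Divisor.degree D' = 0)
    (S : Finset K) (hS : ∀ a ∉ S, ∀ v : Place K F, v.ord (j - algebraMap K F a) ≤ 1) :
    genus K F =
      (∑ a ∈ S, ((n : ℤ) - (Nat.card {v : Place K F // 0 < v.ord (j - algebraMap K F a)} : ℤ))
        - (n : ℤ) - (Nat.card {v : Place K F // v.ord j < 0} : ℤ) + 2).toNat / 2 := by
  have hex : ∃ ω : Ω[F⁄K], ω ≠ 0 := ⟨D K F j, hne⟩
  unfold genus
  rw [dif_pos hex]
  rw [rh_degree_of_differential hdeg j n hzfin hzsum hpfin hpsum hcover hdisj hdisj' hδz hδp hspan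
    hsmul hprin hprin0 S hS hex.choose hex.choose_spec (canonicalDivisorOf hex.choose_spec)
    (fun v => canonicalDivisorOf_apply hex.choose_spec v)]

end RHCore

end Fermat.Agent.S24

end
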