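import Mathlib
import Fermat.Agent.S24.Defs
import Fermat.Agent.S24.PlaceBasic
import Fermat.Agent.S24.Residue
import Fermat.Agent.S24.PlacesSum
import Fermat.Agent.S24.Principal
import Fermat.Agent.S24.Diff
import Fermat.Agent.S24.RHCore

/-!
# S24 team library: abstract Riemann–Hurwitz assembly

OWNER: helper33 (only the owner edits this file). Keep the exported signatures below unchanged
(tell helper24 before changing an interface); add helper lemmas freely (prefix private helpers).

The combinatorial core (with all inputs as explicit hypotheses) is in `RHCore.lean`; this file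
feeds in the blocks PlaceBasic / Residue / PlacesSum / Principal / Diff.
-/

set_option autoImplicit false

namespace Fermat.Agent.S24

open IntermediateField AlgebraicCurve KaehlerDifferential

variable {K F : Type*} [Field K] [Field F] [Algebra K F]

/-- Translating a transcendental element by a constant keeps it transcendental. -/
theorem rh_transcendental_sub_algebraMap {j : F} (hj : Transcendental K j) (a : K) :
    Transcendental K (j - algebraMap K F a) := by
  intro h
  apply hj
  have h2 : IsAlgebraic K ((j - algebraMap K F a) + algebraMap K F a) :=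
    h.add (isAlgebraic_algebraMap a)
  rwa [sub_add_cancel] at h2

/-- A place cannot be a zero of both `j - a` and `j - b` for `a ≠ b`. -/
theorem rh_zero_unique (v : Place K F) {j : F} {a b : K}
    (ha : 0 < v.ord (j - algebraMap K F a)) (hb : 0 < v.ord (j - algebraMap K F b)) : a = b := by
  by_contra hab
  have hne : algebraMap K F (b - a) ≠ 0 := by
    rw [Ne, map_eq_zero]
    exact sub_ne_zero.mpr (Ne.symm hab)
  have hsum : (j - algebraMap K F a) + -(j - algebraMap K F b) = algebraMap K F (b - a) := by
    rw [map_sub]; ring
  have h1 := ord_add_ge v (f := j - algebraMap K F a) (g := -(j - algebraMap K F b))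
    (by rw [hsum]; exact hne)
  rw [hsum, ord_algebraMap, ord_neg] at h1
  have := lt_min ha hb
  omega

/-- A pole of `j` is not a zero of any `j - a`. -/
theorem rh_ord_sub_of_ord_neg (v : Place K F) {j : F} (hj : v.ord j < 0) (a : K) :
    v.ord (j - algebraMap K F a) = v.ord j := by
  rcases eq_or_ne a 0 with rfl | ha
  · rw [map_zero, sub_zero]
  · have hj0 : j ≠ 0 := by
      rintro rfl
      simp at hj
    have hne : -algebraMap K F a ≠ 0 := by
      rw [Ne, neg_eq_zero, map_eq_zero]
      exact ha
    have h := ord_add_eq_of_lt v (f := j) (g := -algebraMap K F a) hne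
      (by rw [ord_neg, ord_algebraMap]; exact hj) hj0
    rwa [← sub_eq_add_neg] at h

variable [IsAlgClosed K] [CharZero K]

theorem place_cases (hF : IsFF1 K F) {j : F} (hj : Transcendental K j) (v : Place K F) :
    v.ord j < 0 ∨ ∃! a : K, 0 < v.ord (j - algebraMap K F a) := by
  by_cases hneg : v.ord j < 0
  · exact Or.inl hneg
  · right
    obtain ⟨a, ha | ha⟩ := exists_residue hF v (b := j) (not_lt.mp hneg)
    · exact absurd (ha ▸ isAlgebraic_algebraMap (R := K) (A := F) a) hj
    · exact ⟨a, ha, fun b hb => rh_zero_unique v hb ha⟩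

theorem degree_eq_of_ordDifferential (hF : IsFF1 K F) {j : F} (hj : Transcendental K j)
    (S : Finset K)
    (hS : ∀ (a : K), a ∉ S → ∀ v : Place K F, v.ord (j - algebraMap K F a) ≤ 1)
    {ω : Ω[F⁄K]} (hω : ω ≠ 0) (D : Divisor K F)
    (hD : ∀ v : Place K F, D v = v.ordDifferential ω) :
    Divisor.degree D =
      ∑ a ∈ S, ((Module.finrank K⟮j⟯ F : ℤ) -
          Nat.card {v : Place K F // 0 < v.ord (j - algebraMap K F a)})
        - Module.finrank K⟮j⟯ F - Nat.card {v : Place K F // v.ord j < 0} := by
  have htr : ∀ a : K, Transcendental K (j - algebraMap K F a) :=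
    rh_transcendental_sub_algebraMap hj
  refine rh_degree_of_differential (place_deg_eq_one hF) j (Module.finrank K⟮j⟯ F)
    (fun a => finite_ord_pos hF (htr a))
    (fun a => by rw [sum_ord_pos hF (htr a), finrank_adjoin_sub_algebraMap a])
    (finite_ord_neg hF hj) (sum_ord_neg hF hj)
    (fun v => (place_cases hF hj v).imp_right fun h => h.exists)
    (fun v a b ha hb => rh_zero_unique v ha hb)
    (fun v a ha hneg => by
      rw [rh_ord_sub_of_ord_neg v hneg a] at ha
      exact lt_asymm ha hneg)
    (fun v a ha => by
      have h := ordDifferential_D hF v (y := j - algebraMap K F a) ha.ne'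
      rwa [map_sub, Derivation.map_algebraMap, sub_zero] at h)
    (fun v hneg => ordDifferential_D hF v hneg.ne)
    (fun ω => by
      have hmem : ω ∈ Submodule.span F {KaehlerDifferential.D K F j} := by
        rw [span_D_eq_top hF hj]; exact Submodule.mem_top
      obtain ⟨f, hf⟩ := Submodule.mem_span_singleton.mp hmem
      exact ⟨f, hf.symm⟩)
    (fun v f hf => ordDifferential_smul' hF v hf (D_ne_zero hF hj))
    (fun f hf => finite_ord_ne_zero hF hf)
    (fun f hf D' hD' => degree_eq_zero_of_principal hF hf D' hD')
    S hS ω hω D hD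

theorem genus_eq_of_counts (hF : IsFF1 K F) [HasCanonicalDivisor (K := K) (F := F)]
    {j : F} (hj : Transcendental K j) (S : Finset K)
    (hS : ∀ (a : K), a ∉ S → ∀ v : Place K F, v.ord (j - algebraMap K F a) ≤ 1) :
    genus K F =
      (∑ a ∈ S, ((Module.finrank K⟮j⟯ F : ℤ) -
          Nat.card {v : Place K F // 0 < v.ord (j - algebraMap K F a)})
        - Module.finrank K⟮j⟯ F - Nat.card {v : Place K F // v.ord j < 0} + 2).toNat / 2 := by
  have hex : ∃ ω : Ω[F⁄K], ω ≠ 0 := ⟨D K F j, D_ne_zero hF hj⟩
  unfold genus
  rw [dif_pos hex]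
  rw [degree_eq_of_ordDifferential hF hj S hS hex.choose_spec (canonicalDivisorOf hex.choose_spec)
    (fun v => canonicalDivisorOf_apply hex.choose_spec v)]

end Fermat.Agent.S24
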