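import Mathlib
import Fermat.Agent.S24.Defs
import Fermat.Agent.S24.PlaceBasic
import Fermat.Agent.S24.Residue
import Fermat.Agent.S24.PlacesSum
import Fermat.Agent.S24.Principal
import Fermat.Agent.S24.EmbCore
import Fermat.Agent.S24.RH

/-!
# S24 team library: generic assembly "embedding data ⟹ genus"

OWNER: helper75 (only the owner edits this file).

Generic setting: `K` algebraically closed of characteristic zero, `F / K` a function field in one
variable, `j : F` transcendental, `X` a finite `G`-set with `|X| = [F : K(j)]`.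
An `EmbDatum φ X t e g` is a family of `|X|` distinct embeddings `F → C((s))` over `φ : K → C`,
all with the same image `T` of `t`, `ord_s T = e`, on which `g` acts by the substitution
`s ↦ ζ s` with `ζ` a primitive `e`-th root of unity.

Main export: `genus_of_data` — if such data exist over two special values `a₁ a₂` of `j`, over
`j = ∞`, and (with `e = 1`) over every other value, then
`genus K F = (|X| - c₁ - c₂ - c_∞ + 2).toNat / 2`, `c_i` the numbers of `⟨g_i⟩`-orbits on `X`.
-/

set_option autoImplicit false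

namespace Fermat.Agent.S24

open AlgebraicCurve IntermediateField

variable {K F : Type*} [Field K] [Field F] [Algebra K F]

/-- A family of embeddings `ι x : F →+* C((s))`, `x ∈ X`, over `φ : K →+* C`, pairwise distinct,
with common value `T` at `t`, `ord_s T = e`, and such that `g` acts on the family through the
substitution `s ↦ ζ s` for a primitive `e`-th root of unity `ζ`. -/
def EmbDatum {C : Type*} [Field C] (φ : K →+* C) (X : Type*) {G : Type*} [Group G]
    [MulAction G X] (t : F) (e : ℕ) (g : G) : Prop :=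
  ∃ ι : X → F →+* LaurentSeries C, Function.Injective ι ∧
    (∀ x b, ι x (algebraMap K F b) = HahnSeries.C (φ b)) ∧
    ∃ T : LaurentSeries C, (∀ x, ι x t = T) ∧ T.order = (e : ℤ) ∧
      ∃ ζ : C, IsPrimitiveRoot ζ e ∧
        ∀ (x : X) (f : F) (k : ℤ), (ι (g • x) f).coeff k = ζ ^ k * (ι x f).coeff k

namespace ModAssemblyGen

/-- membership in the maximal ideal from positivity of `ord` -/
theorem residue_eq_of_ord_pos (v : Place K F) {b c : v.toValuationSubring}
    (h : 0 < v.ord ((b : F) - (c : F))) :
    IsLocalRing.residue v.toValuationSubring b = IsLocalRing.residue v.toValuationSubring c := by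
  rw [← sub_eq_zero, ← map_sub, IsLocalRing.residue_eq_zero_iff]
  by_contra hmem
  have hu : IsUnit (b - c) := by
    by_contra hnu
    exact hmem ((IsLocalRing.mem_maximalIdeal _).mpr hnu)
  have h0 := v.ord_coe_unit hu.unit
  have h1 : (((hu.unit : v.toValuationSubring) : v.toValuationSubring) : F) = (b : F) - (c : F) := by
    simp
  rw [h1] at h0
  omega

theorem transcendental_sub_algebraMap {j : F} (hj : Transcendental K j) (a : K) :
    Transcendental K (j - algebraMap K F a) := by
  intro h
  apply hj
  have := h.add (isAlgebraic_algebraMap (A := F) a)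
  simpa using this

theorem transcendental_inv {j : F} (hj : Transcendental K j) : Transcendental K j⁻¹ := by
  intro h
  apply hj
  have := h.inv
  simpa using this

variable [IsAlgClosed K] [CharZero K]

/-- The residue field of every place is `K` (surjectivity form used by the `Emb*` block). -/
theorem residue_surjective (hF : IsFF1 K F) (v : Place K F) :
    Function.Surjective (algebraMap K v.ResidueField) := by
  intro x
  obtain ⟨b, rfl⟩ := IsLocalRing.residue_surjective x
  by_cases hb0 : (b : F) = 0
  · refine ⟨0, ?_⟩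
    have : b = 0 := Subtype.ext hb0
    rw [this, map_zero, map_zero]
  have hb : 0 ≤ v.ord (b : F) := (mem_iff_ord_nonneg v hb0).mp b.2
  obtain ⟨a, ha | ha⟩ := exists_residue hF v hb
  · refine ⟨a, ?_⟩
    have : b = algebraMap K v.toValuationSubring a := Subtype.ext ha
    rw [this]
    rfl
  · refine ⟨a, ?_⟩
    have h := residue_eq_of_ord_pos v (b := b) (c := algebraMap K v.toValuationSubring a) ha
    rw [h]
    rfl

variable {C : Type*} [Field C] [CharZero C] {X : Type*} [Finite X] {G : Type*} [Group G]
  [MulAction G X]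

/-- zeros of `t` correspond to `⟨g⟩`-orbits -/
theorem card_zeros_eq_card_orbits (hF : IsFF1 K F) {t : F} (ht : Transcendental K t)
    (hX : Nat.card X = Module.finrank K⟮t⟯ F) (φ : K →+* C) {e : ℕ} (he : 0 < e) (g : G)
    (h : EmbDatum φ X t e g) :
    Nat.card {v : Place K F // 0 < v.ord t} =
      Nat.card (MulAction.orbitRel.Quotient (Subgroup.zpowers g) X) := by
  obtain ⟨ι, hinj, hφ, T, hT, hTe, ζ, hζ, hg⟩ := h
  exact card_places_eq_card_orbits_of_coeff (fun v b hb => exists_residue hF v hb) t
    (Module.finrank K⟮t⟯ F) (finite_ord_pos hF ht) (sum_ord_pos hF ht) hX ι hinj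
    (fun x a => ⟨φ a, hφ x a⟩) (fun x y a => by rw [hφ x a, hφ y a])
    (fun x y => by rw [hT x, hT y]) e he (fun x => by rw [hT x, hTe]) g ζ hζ hg

/-- unramified case -/
theorem ord_le_one_of_datum (hF : IsFF1 K F) {t : F} (ht : Transcendental K t)
    (hX : Nat.card X = Module.finrank K⟮t⟯ F) (φ : K →+* C) (g : G)
    (h : EmbDatum φ X t 1 g) (v : Place K F) : v.ord t ≤ 1 := by
  obtain ⟨ι, hinj, hφ, T, hT, hTe, -⟩ := h
  by_cases hv : 0 < v.ord t
  · exact le_of_eq (ord_eq_one_of_order_eq_one (fun v b hb => exists_residue hF v hb) t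
      (Module.finrank K⟮t⟯ F) (finite_ord_pos hF ht) (sum_ord_pos hF ht) hX ι hinj
      (fun x a => ⟨φ a, hφ x a⟩) (fun x y a => by rw [hφ x a, hφ y a])
      (fun x y => by rw [hT x, hT y]) (fun x => by rw [hT x, hTe]; rfl) v hv)
  · omega

/-- **Generic assembly.** -/
theorem genus_of_data [HasCanonicalDivisor (K := K) (F := F)] (hF : IsFF1 K F) {j : F}
    (hj : Transcendental K j) (hX : Nat.card X = Module.finrank K⟮j⟯ F) (φ : K →+* C)
    (a₁ a₂ : K) (ha : a₁ ≠ a₂) (e₁ e₂ e₃ : ℕ) (he₁ : 0 < e₁) (he₂ : 0 < e₂) (he₃ : 0 < e₃)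
    (g₁ g₂ g₃ : G)
    (hgen : ∀ a : K, a ≠ a₁ → a ≠ a₂ → EmbDatum φ X (j - algebraMap K F a) 1 (1 : G))
    (h₁ : EmbDatum φ X (j - algebraMap K F a₁) e₁ g₁)
    (h₂ : EmbDatum φ X (j - algebraMap K F a₂) e₂ g₂)
    (h₃ : EmbDatum φ X j⁻¹ e₃ g₃) :
    genus K F =
      ((Nat.card X : ℤ)
        - Nat.card (MulAction.orbitRel.Quotient (Subgroup.zpowers g₁) X)
        - Nat.card (MulAction.orbitRel.Quotient (Subgroup.zpowers g₂) X)
        - Nat.card (MulAction.orbitRel.Quotient (Subgroup.zpowers g₃) X) + 2).toNat / 2 := by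
  classical
  have hXa : ∀ a : K, Nat.card X = Module.finrank K⟮j - algebraMap K F a⟯ F := fun a => by
    rw [finrank_adjoin_sub_algebraMap, hX]
  have hXi : Nat.card X = Module.finrank K⟮j⁻¹⟯ F := by rw [finrank_adjoin_inv, hX]
  have hS : ∀ a : K, a ∉ ({a₁, a₂} : Finset K) →
      ∀ v : Place K F, v.ord (j - algebraMap K F a) ≤ 1 := by
    intro a haS v
    simp only [Finset.mem_insert, Finset.mem_singleton, not_or] at haS
    exact ord_le_one_of_datum hF (transcendental_sub_algebraMap hj a) (hXa a) φ (1 : G)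
      (hgen a haS.1 haS.2) v
  rw [genus_eq_of_counts hF hj ({a₁, a₂} : Finset K) hS, Finset.sum_pair ha]
  have c₁ := card_zeros_eq_card_orbits hF (transcendental_sub_algebraMap hj a₁) (hXa a₁) φ he₁ g₁ h₁
  have c₂ := card_zeros_eq_card_orbits hF (transcendental_sub_algebraMap hj a₂) (hXa a₂) φ he₂ g₂ h₂
  have c₃ := card_zeros_eq_card_orbits hF (transcendental_inv hj) hXi φ he₃ g₃ h₃
  have hpole : Nat.card {v : Place K F // v.ord j < 0} = Nat.card {v : Place K F // 0 < v.ord j⁻¹} := by
    refine Nat.card_congr (Equiv.subtypeEquivRight fun v => ?_)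
    rw [v.ord_inv]
    omega
  rw [hpole, c₁, c₂, c₃, ← hX]
  congr 2
  ring

end ModAssemblyGen

end Fermat.Agent.S24
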