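import Mathlib
import Fermat.Agent.LevelOne.JDef

/-!
# S24 team library: small glue facts for the modular assembly

OWNER: helper61 (only the owner edits this file).

Roots of unity by which the stabilisers of `i`, `ρ`, `∞` act on the local coordinate.
-/

set_option autoImplicit false

namespace Fermat.Agent.S24

open UpperHalfPlane Fermat.Agent.LevelOne
open scoped MatrixGroups Real

/-- The multiplier `(c z₀ + d)^2` of `ε⁻¹` at a fixed point `z₀` of `ε`. -/
noncomputable def fixMult (ε : SL(2, ℤ)) (z₀ : ℍ) : ℂ :=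
  (((ε 1 0 : ℤ) : ℂ) * (z₀ : ℂ) + ((ε 1 1 : ℤ) : ℂ)) ^ 2

theorem fixMult_def (ε : SL(2, ℤ)) (z₀ : ℍ) :
    fixMult ε z₀ = (((ε 1 0 : ℤ) : ℂ) * (z₀ : ℂ) + ((ε 1 1 : ℤ) : ℂ)) ^ 2 := rfl

theorem fixMult_S_ellI : fixMult ModularGroup.S ellI = -1 := by
  simp [fixMult, ModularGroup.S, coe_ellI]

theorem isPrimitiveRoot_fixMult_S_ellI : IsPrimitiveRoot (fixMult ModularGroup.S ellI) 2 := by
  rw [fixMult_S_ellI]
  exact IsPrimitiveRoot.neg_one 0 (by norm_num)

theorem fixMult_ST_ellRho :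
    fixMult (ModularGroup.S * ModularGroup.T) ellRho = (ellRho : ℂ) := by
  have h3 : Real.sqrt 3 * Real.sqrt 3 = 3 := Real.mul_self_sqrt (by norm_num)
  have h10 : ((ModularGroup.S * ModularGroup.T) 1 0 : ℤ) = 1 := by
    rw [Matrix.SpecialLinearGroup.coe_mul, ModularGroup.coe_S, ModularGroup.coe_T]
    simp [Matrix.mul_apply, Fin.sum_univ_two]
  have h11 : ((ModularGroup.S * ModularGroup.T) 1 1 : ℤ) = 1 := by
    rw [Matrix.SpecialLinearGroup.coe_mul, ModularGroup.coe_S, ModularGroup.coe_T]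
    simp [Matrix.mul_apply, Fin.sum_univ_two]
  rw [fixMult, h10, h11, coe_ellRho]
  apply Complex.ext
  · simp only [Int.cast_one, one_mul, pow_two, Complex.mul_re, Complex.add_re, Complex.one_re,
      Complex.add_im, Complex.one_im]
    nlinarith [h3]
  · simp only [Int.cast_one, one_mul, pow_two, Complex.mul_im, Complex.add_re, Complex.one_re,
      Complex.add_im, Complex.one_im]
    ring

theorem ellRho_sq_add : (ellRho : ℂ) ^ 2 + (ellRho : ℂ) + 1 = 0 := by
  have h3 : Real.sqrt 3 * Real.sqrt 3 = 3 := Real.mul_self_sqrt (by norm_num)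
  rw [coe_ellRho]
  apply Complex.ext
  · simp only [pow_two, Complex.mul_re, Complex.add_re, Complex.one_re, Complex.zero_re]
    nlinarith [h3]
  · simp only [pow_two, Complex.mul_im, Complex.add_im, Complex.one_im, Complex.zero_im]
    ring

theorem isPrimitiveRoot_fixMult_ST_ellRho :
    IsPrimitiveRoot (fixMult (ModularGroup.S * ModularGroup.T) ellRho) 3 := by
  rw [fixMult_ST_ellRho]
  have h := ellRho_sq_add
  have hcube : (ellRho : ℂ) ^ 3 = 1 := by linear_combination ((ellRho : ℂ) - 1) * h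
  have hne : (ellRho : ℂ) ≠ 1 := by
    intro h1
    rw [h1] at h
    norm_num at h
  have hp : Nat.Prime 3 := by norm_num
  have hmem : (ellRho : ℂ) ∈ Polynomial.nthRootsFinset 3 (1 : ℂ) := by
    rw [Polynomial.mem_nthRootsFinset (by norm_num)]
    exact hcube
  exact isPrimitiveRoot_of_mem_nthRootsFinset hp hmem hne

theorem isPrimitiveRoot_exp_neg (N : ℕ) [NeZero N] :
    IsPrimitiveRoot (Complex.exp (-2 * π * Complex.I / N)) N := by
  have h := (Complex.isPrimitiveRoot_exp N (NeZero.ne N)).inv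
  rw [← Complex.exp_neg] at h
  have e : -(2 * (π : ℂ) * Complex.I / N) = -2 * π * Complex.I / N := by ring
  rwa [e] at h

/-- a ring hom from a field to `ℂ` does not hit `1728` except at `1728` -/
theorem ringHom_ne_1728 {K : Type*} [Field K] (φ : K →+* ℂ) {a : K} (h : a ≠ 1728) :
    φ a ≠ 1728 := by
  intro h1
  apply h
  apply φ.injective
  rw [h1, map_ofNat]

theorem ringHom_eq_1728 {K : Type*} [Field K] (φ : K →+* ℂ) : φ 1728 = 1728 := map_ofNat φ 1728

theorem ringHom_ne_zero' {K : Type*} [Field K] (φ : K →+* ℂ) {a : K} (h : a ≠ 0) : φ a ≠ 0 :=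
  (map_ne_zero φ).mpr h

/-- for `a ≠ 0, 1728` in `K` and `jFun z₀ = φ a` the point `z₀` is generic -/
theorem jFun_generic_of_eq {K : Type*} [Field K] (φ : K →+* ℂ) {a : K} (h0 : a ≠ 0)
    (h1 : a ≠ 1728) {z₀ : ℍ} (hz : jFun z₀ = φ a) : jFun z₀ ≠ 0 ∧ jFun z₀ ≠ 1728 := by
  rw [hz]
  exact ⟨ringHom_ne_zero' φ h0, ringHom_ne_1728 φ h1⟩

end Fermat.Agent.S24
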