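import Mathlib
import Fermat.Agent.S24.AnDefs
import Fermat.Agent.S24.AnTaylor
import Fermat.Agent.S24.AnTaylorOrd
import Fermat.Agent.S24.AnRoots
import Fermat.Agent.S24.ModGlue
import Fermat.Agent.S24.ModAssemblyGen
import Fermat.Agent.LevelOne.JDef
import Fermat.Agent.LevelOne.JFun
import Fermat.Agent.LevelOne.JSurjB

/-!
# S24 team library: the four embedding data consumed by `ModAssemblyGen.genus_of_data`

OWNER: helper97 (only the owner edits this file).

The analytic input (files `AnEmb*.lean`) is used through the two propositions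
`HasTaylorEmb N z₀` (a family of `|Q_N|` distinct embeddings `F_N → ℂ((w))` given by Taylor
expansion at `z₀` in the Cayley coordinate, equivariant under the stabiliser of `z₀`) and
`HasCuspEmb N` (the family of `q_N`-expansions at the cusp `∞`).  From them we produce
* `datum_generic` : over `j = a`, `a ≠ 0, 1728` (unramified, `e = 1`),
* `datum_rho` : over `j = 0` (`e = 3`, `g = S * T`),
* `datum_i` : over `j = 1728` (`e = 2`, `g = S`),
* `datum_cusp` : over `j = ∞` (`e = N`, `g = T`).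
-/

set_option autoImplicit false

namespace Fermat.Agent.S24

open UpperHalfPlane Fermat.Agent.LevelOne
open scoped MatrixGroups Real

/-- Output shape of the Taylor-side embedding theorem (AN1) at the point `z₀`. -/
def HasTaylorEmb (N : ℕ) (z₀ : ℍ) : Prop :=
  ∃ ι : QN N → FN N →+* LaurentSeries ℂ, Function.Injective ι ∧
    (∀ q b, ι q (algebraMap Kb (FN N) b) = HahnSeries.C (embC b)) ∧
    (∀ q, ι q (jF N) = HahnSeries.ofPowerSeries ℤ ℂ (taylorAt z₀ jFun)) ∧
    ∀ ε : SL(2, ℤ), ε • z₀ = z₀ → ∀ (q : QN N) (x : FN N) (n : ℤ),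
      (ι (ε • q) x).coeff n = fixMult ε z₀ ^ n * (ι q x).coeff n

/-- Output shape of the cusp-side embedding theorem (AN2). -/
def HasCuspEmb (N : ℕ) : Prop :=
  ∃ ι : QN N → FN N →+* LaurentSeries ℂ, Function.Injective ι ∧
    (∀ q b, ι q (algebraMap Kb (FN N) b) = HahnSeries.C (embC b)) ∧
    ∃ T : LaurentSeries ℂ, (∀ q, ι q (jF N)⁻¹ = T) ∧ T.order = (N : ℤ) ∧
      ∀ (q : QN N) (x : FN N) (n : ℤ),
        (ι (ModularGroup.T • q) x).coeff n =
          Complex.exp (-2 * π * Complex.I / N) ^ n * (ι q x).coeff n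

namespace AnDatum

theorem fixMult_one (z₀ : ℍ) : fixMult (1 : SL(2, ℤ)) z₀ = 1 := by
  simp [fixMult]

/-- The general Taylor-side datum: over the value `a = j(z₀)`, with ramification index the order
of vanishing `e` of `j - j(z₀)` at `z₀`, and any `ε` in the stabiliser of `z₀` whose multiplier
is a primitive `e`-th root of unity. -/
theorem embDatum_of_taylorEmb {N : ℕ} {z₀ : ℍ} (h : HasTaylorEmb N z₀) (a : Kb)
    (hz : jFun z₀ = embC a) (e : ℕ)
    (hord : (taylorAt z₀ jFun - PowerSeries.C (jFun z₀)).order = e)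
    (ε : SL(2, ℤ)) (hε : ε • z₀ = z₀) (hζ : IsPrimitiveRoot (fixMult ε z₀) e) :
    EmbDatum embC (QN N) (jF N - algebraMap Kb (FN N) a) e ε := by
  obtain ⟨ι, hinj, hφ, hj, hequiv⟩ := h
  refine ⟨ι, hinj, hφ,
    HahnSeries.ofPowerSeries ℤ ℂ (taylorAt z₀ jFun - PowerSeries.C (jFun z₀)), ?_, ?_,
    fixMult ε z₀, hζ, hequiv ε hε⟩
  · intro q
    rw [map_sub, hj, hφ, map_sub, HahnSeries.ofPowerSeries_C, hz]
  · exact AnRoots.order_ofPowerSeries_of_order_eq hord

end AnDatum

open AnDatum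

/-- (D1) the generic datum: unramified over `j = a` for `a ≠ 0, 1728`. -/
theorem datum_generic {N : ℕ} (hT : ∀ z₀ : ℍ, HasTaylorEmb N z₀) (a : Kb) (h0 : a ≠ 0)
    (h1 : a ≠ 1728) :
    EmbDatum embC (QN N) (jF N - algebraMap Kb (FN N) a) 1 (1 : SL(2, ℤ)) := by
  obtain ⟨z₀, hz⟩ := jFun_surjective_B (embC a)
  obtain ⟨hne0, hne1⟩ := jFun_generic_of_eq embC h0 h1 hz
  refine embDatum_of_taylorEmb (hT z₀) a hz 1 ?_ 1 (one_smul _ _) ?_
  · rw [order_taylorAt_sub jFun_mdifferentiable z₀, analyticOrderAt_jFun_generic z₀ hne0 hne1,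
      Nat.cast_one]
  · rw [fixMult_one]
    exact IsPrimitiveRoot.one

/-- (D2) the datum over `j = 0`: ramification index `3`, stabiliser generated by `S * T`. -/
theorem datum_rho {N : ℕ} (hT : HasTaylorEmb N ellRho) :
    EmbDatum embC (QN N) (jF N - algebraMap Kb (FN N) 0) 3
      (ModularGroup.S * ModularGroup.T) := by
  refine embDatum_of_taylorEmb hT 0 ?_ 3 ?_ _ ST_smul_ellRho isPrimitiveRoot_fixMult_ST_ellRho
  · rw [jFun_ellRho, map_zero]
  · rw [jFun_ellRho, map_zero, sub_zero, order_taylorAt jFun_mdifferentiable ellRho,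
      analyticOrderAt_jFun_ellRho]
    rfl

/-- (D3) the datum over `j = 1728`: ramification index `2`, stabiliser generated by `S`. -/
theorem datum_i {N : ℕ} (hT : HasTaylorEmb N ellI) :
    EmbDatum embC (QN N) (jF N - algebraMap Kb (FN N) 1728) 2 ModularGroup.S := by
  refine embDatum_of_taylorEmb hT 1728 ?_ 2 ?_ _ S_smul_ellI isPrimitiveRoot_fixMult_S_ellI
  · rw [jFun_ellI, ringHom_eq_1728]
  · rw [order_taylorAt_sub jFun_mdifferentiable ellI, jFun_ellI, analyticOrderAt_jFun_ellI]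
    rfl

/-- (D4) the datum over `j = ∞`: ramification index `N`, stabiliser generated by `T`. -/
theorem datum_cusp {N : ℕ} [NeZero N] (hC : HasCuspEmb N) :
    EmbDatum embC (QN N) (jF N)⁻¹ N ModularGroup.T := by
  obtain ⟨ι, hinj, hφ, T, hT, hTe, hequiv⟩ := hC
  exact ⟨ι, hinj, hφ, T, hT, hTe, Complex.exp (-2 * π * Complex.I / N),
    isPrimitiveRoot_exp_neg N, hequiv⟩

end Fermat.Agent.S24
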