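import Mathlib
import Fermat.Agent.S24.AnDefs

/-!
# S24, analytic side, file 6 (owner: helper42): the formal half of the embeddings

`F N = ℚ̄(j(q^d) : d ∣ N) ⊆ ℚ̄((q))` is the fraction field of the `ℚ̄`-subalgebra `RN N` generated
by the `j(q^d)`, which is a quotient of `MvPolynomial ↥N.divisors ℚ̄`.  Hence a `ℚ̄`-algebra map
`ψ` from the polynomial ring to a field `L` with the same kernel as `aeval (JFam N)` induces a
(unique) `ℚ̄`-embedding `F N → L`.
-/

set_option autoImplicit false

namespace Fermat.Agent.S24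

open ModularCurve HahnSeries

variable (N : ℕ) [NeZero N]

/-- The generators `j(q^d)`, `d ∣ N`, as a family in `F N`. -/
noncomputable def genFam : ↥N.divisors → ↥(modularFunctionFieldBar N) :=
  fun d => genJ N (d : ℕ) (dvd_of_divisor N d)

omit [NeZero N] in
theorem coe_genFam (d : ↥N.divisors) :
    ((genFam N d : ↥(modularFunctionFieldBar N)) : LaurentSeries (AlgebraicClosure ℚ))
      = JFam N d :=
  rfl

theorem genSet_eq_range : genSet N = Set.range (genFam N) := by
  ext x
  constructor
  · rintro ⟨d, hd0, hd, rfl⟩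
    exact ⟨⟨d, Nat.mem_divisors.mpr ⟨hd, NeZero.ne N⟩⟩, rfl⟩
  · rintro ⟨d, rfl⟩
    exact ⟨(d : ℕ), inferInstance, dvd_of_divisor N d, rfl⟩

theorem RN_eq_adjoin_range :
    RN N = Algebra.adjoin (AlgebraicClosure ℚ) (Set.range (genFam N)) := by
  rw [← genSet_eq_range]
  rfl

/-- `F N` is generated as a field over `ℚ̄` by the `j(q^d)`, `d ∣ N`. -/
theorem adjoin_genFam_eq_top :
    IntermediateField.adjoin (AlgebraicClosure ℚ) (Set.range (genFam N)) = ⊤ := by
  set M : IntermediateField (AlgebraicClosure ℚ) ↥(modularFunctionFieldBar N) :=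
    IntermediateField.adjoin (AlgebraicClosure ℚ) (Set.range (genFam N)) with hM
  -- the rational subfield of `LaurentSeries ℚ` mapping into `M`
  let S₀ : IntermediateField ℚ (LaurentSeries ℚ) :=
    Subfield.toIntermediateField
      ((IntermediateField.lift M).toSubfield.comap (coeffEmb (AlgebraicClosure ℚ)))
      (fun c => by
        rw [Subfield.mem_comap]
        have h1 : coeffEmb (AlgebraicClosure ℚ) (algebraMap ℚ (LaurentSeries ℚ) c)
            = algebraMap (AlgebraicClosure ℚ) (LaurentSeries (AlgebraicClosure ℚ))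
                (algebraMap ℚ (AlgebraicClosure ℚ) c) := by
          rw [ModularCurve.algebraMap_apply_eq_single, algebraMap_laurentSeries_eq_single,
            coeffEmb, coeffMap_single]
        rw [h1]
        exact (IntermediateField.lift M).algebraMap_mem _)
  have hS₀ : ∀ z : LaurentSeries ℚ, z ∈ S₀ ↔
      coeffEmb (AlgebraicClosure ℚ) z ∈ IntermediateField.lift M := fun z => Iff.rfl
  have hfull : modularFunctionFieldFull N ≤ S₀ := by
    rw [modularFunctionFieldFull, IntermediateField.adjoin_le_iff]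
    rintro z ⟨d, hd0, hd, rfl⟩
    rw [SetLike.mem_coe, hS₀]
    have hmem : genJ N d hd ∈ M := by
      apply IntermediateField.subset_adjoin
      rw [← genSet_eq_range]
      exact ⟨d, hd0, hd, rfl⟩
    exact (IntermediateField.mem_lift (genJ N d hd)).mpr hmem
  have hle : modularFunctionFieldBar N ≤ IntermediateField.lift M := by
    show IntermediateField.adjoin (AlgebraicClosure ℚ)
      (⇑(coeffEmb (AlgebraicClosure ℚ)) '' (modularFunctionFieldFull N : Set (LaurentSeries ℚ)))
        ≤ IntermediateField.lift M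
    rw [IntermediateField.adjoin_le_iff]
    rintro y ⟨z, hz, rfl⟩
    exact (hS₀ z).mp (hfull hz)
  rw [eq_top_iff]
  intro x _
  exact (IntermediateField.mem_lift x).mp (hle x.2)

/-- The presentation of `RN N` as a quotient of a polynomial ring. -/
noncomputable def polyToRN :
    MvPolynomial ↥N.divisors (AlgebraicClosure ℚ) →ₐ[AlgebraicClosure ℚ] ↥(RN N) :=
  (MvPolynomial.aeval (genFam N)).codRestrict (RN N) (fun P => by
    rw [RN_eq_adjoin_range, Algebra.adjoin_range_eq_range_aeval]
    exact ⟨P, rfl⟩)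

theorem coe_polyToRN' (P : MvPolynomial ↥N.divisors (AlgebraicClosure ℚ)) :
    ((polyToRN N P : ↥(RN N)) : ↥(modularFunctionFieldBar N)) = MvPolynomial.aeval (genFam N) P :=
  rfl

theorem polyToRN_surjective : Function.Surjective (polyToRN N) := by
  rintro ⟨x, hx⟩
  rw [RN_eq_adjoin_range, Algebra.adjoin_range_eq_range_aeval] at hx
  obtain ⟨P, rfl⟩ := hx
  exact ⟨P, rfl⟩

theorem coe_polyToRN (P : MvPolynomial ↥N.divisors (AlgebraicClosure ℚ)) :
    (((polyToRN N P : ↥(RN N)) : ↥(modularFunctionFieldBar N)) :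
        LaurentSeries (AlgebraicClosure ℚ)) = MvPolynomial.aeval (JFam N) P := by
  rw [coe_polyToRN']
  have h := MvPolynomial.comp_aeval (R := AlgebraicClosure ℚ) (f := genFam N)
    (φ := (modularFunctionFieldBar N).val)
  have h2 := congrArg (fun g => g P) h
  simp only [AlgHom.comp_apply] at h2
  exact h2

theorem polyToRN_X (d : ↥N.divisors) :
    ((polyToRN N (MvPolynomial.X d) : ↥(RN N)) : ↥(modularFunctionFieldBar N)) = genFam N d := by
  rw [coe_polyToRN', MvPolynomial.aeval_X]

theorem polyToRN_eq_zero_iff (P : MvPolynomial ↥N.divisors (AlgebraicClosure ℚ)) :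
    polyToRN N P = 0 ↔ MvPolynomial.aeval (JFam N) P = 0 := by
  rw [← coe_polyToRN]
  constructor
  · intro h
    rw [h]
    rfl
  · intro h
    apply Subtype.ext
    apply Subtype.ext
    rw [h]
    rfl

noncomputable instance instIsFractionRingRN :
    IsFractionRing ↥(RN N) ↥(modularFunctionFieldBar N) :=
  IsFractionRing.of_field _ _ fun z => by
    have hz : z ∈ IntermediateField.adjoin (AlgebraicClosure ℚ) (Set.range (genFam N)) := by
      rw [adjoin_genFam_eq_top]
      exact IntermediateField.mem_top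
    obtain ⟨r, hr, s, hs, h⟩ := IntermediateField.mem_adjoin_iff_div.mp hz
    rw [← RN_eq_adjoin_range] at hr hs
    exact ⟨⟨r, hr⟩, ⟨s, hs⟩, h⟩

section Lift

variable {N}
variable {L : Type*} [Field L] [Algebra (AlgebraicClosure ℚ) L]

/-- Extension of an injective algebra map on `RN N` to its fraction field `F N`. -/
noncomputable def liftRN (φ : ↥(RN N) →ₐ[AlgebraicClosure ℚ] L) (hφ : Function.Injective φ) :
    ↥(modularFunctionFieldBar N) →ₐ[AlgebraicClosure ℚ] L :=
  IsFractionRing.liftAlgHom (K := ↥(modularFunctionFieldBar N)) hφ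

theorem liftRN_coe (φ : ↥(RN N) →ₐ[AlgebraicClosure ℚ] L) (hφ : Function.Injective φ)
    (x : ↥(RN N)) : liftRN φ hφ (x : ↥(modularFunctionFieldBar N)) = φ x := by
  rw [liftRN, IsFractionRing.liftAlgHom_apply]
  exact IsFractionRing.lift_algebraMap hφ x

/-- Two `ℚ̄`-algebra maps out of `F N` agreeing on the generators `j(q^d)` are equal. -/
theorem algHom_ext_genFam {ι₁ ι₂ : ↥(modularFunctionFieldBar N) →ₐ[AlgebraicClosure ℚ] L}
    (h : ∀ d, ι₁ (genFam N d) = ι₂ (genFam N d)) : ι₁ = ι₂ := by
  have hRN : ∀ x : ↥(RN N), ι₁ (x : ↥(modularFunctionFieldBar N)) = ι₂ x := by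
    intro x
    obtain ⟨P, rfl⟩ := polyToRN_surjective N x
    rw [coe_polyToRN']
    have e1 := MvPolynomial.comp_aeval (R := AlgebraicClosure ℚ) (f := genFam N) (φ := ι₁)
    have e2 := MvPolynomial.comp_aeval (R := AlgebraicClosure ℚ) (f := genFam N) (φ := ι₂)
    have e1' := congrArg (fun g => g P) e1
    have e2' := congrArg (fun g => g P) e2
    simp only [AlgHom.comp_apply] at e1' e2'
    rw [e1', e2']
    congr 2
    funext d
    exact h d
  apply AlgHom.coe_ringHom_injective
  apply IsFractionRing.ringHom_ext (A := ↥(RN N))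
  intro x
  exact hRN x

/-- **Main export.** A `ℚ̄`-algebra map `ψ` from the polynomial ring on the divisors of `N` to a
field `L` that kills exactly the relations among the formal `j(q^d)` induces a `ℚ̄`-embedding
`F N → L` sending `j(q^d)` to `ψ (X d)`. -/
theorem exists_algHom_of_eq_zero_iff
    (ψ : MvPolynomial ↥N.divisors (AlgebraicClosure ℚ) →ₐ[AlgebraicClosure ℚ] L)
    (hψ : ∀ P, ψ P = 0 ↔ MvPolynomial.aeval (JFam N) P = 0) :
    ∃ ι : ↥(modularFunctionFieldBar N) →ₐ[AlgebraicClosure ℚ] L,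
      (∀ P, ι ((polyToRN N P : ↥(RN N)) : ↥(modularFunctionFieldBar N)) = ψ P) ∧
      ∀ d, ι (genFam N d) = ψ (MvPolynomial.X d) := by
  have hker : ∀ a, a ∈ RingHom.ker (polyToRN N : MvPolynomial ↥N.divisors (AlgebraicClosure ℚ)
      →ₐ[AlgebraicClosure ℚ] ↥(RN N)) → ψ a = 0 := by
    intro a ha
    rw [RingHom.mem_ker] at ha
    exact (hψ a).mpr ((polyToRN_eq_zero_iff N a).mp ha)
  let φ : ↥(RN N) →ₐ[AlgebraicClosure ℚ] L :=
    (Ideal.Quotient.liftₐ _ ψ hker).comp
      (Ideal.quotientKerAlgEquivOfSurjective (polyToRN_surjective N)).symm.toAlgHom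
  have hφ : ∀ P, φ (polyToRN N P) = ψ P := by
    intro P
    have h1 : (Ideal.quotientKerAlgEquivOfSurjective (polyToRN_surjective N)).symm (polyToRN N P)
        = Ideal.Quotient.mk _ P := by
      rw [AlgEquiv.symm_apply_eq]
      rfl
    show (Ideal.Quotient.liftₐ _ ψ hker)
      ((Ideal.quotientKerAlgEquivOfSurjective (polyToRN_surjective N)).symm (polyToRN N P)) = ψ P
    rw [h1]
    rfl
  have hinj : Function.Injective φ := by
    rw [injective_iff_map_eq_zero]
    intro x hx
    obtain ⟨P, rfl⟩ := polyToRN_surjective N x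
    rw [hφ] at hx
    exact (polyToRN_eq_zero_iff N P).mpr ((hψ P).mp hx)
  refine ⟨liftRN φ hinj, fun P => ?_, fun d => ?_⟩
  · rw [liftRN_coe, hφ]
  · rw [← polyToRN_X, liftRN_coe, hφ]

end Lift

theorem jF_eq_genFam :
    jF N = genFam N ⟨1, Nat.mem_divisors.mpr ⟨one_dvd N, NeZero.ne N⟩⟩ := by
  apply Subtype.ext
  show coeffEmb (AlgebraicClosure ℚ) jq = coeffEmb (AlgebraicClosure ℚ) (qExpand ℚ 1 jq)
  rw [qExpand_one_apply]

end Fermat.Agent.S24
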