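import Mathlib

/-!
# S24 (owner: helper42): the rotation automorphism `s ↦ ζ s` of Laurent series

`rotHom ζ hζ : LaurentSeries k →ₐ[k] LaurentSeries k` multiplies the `n`-th coefficient by `ζ ^ n`.
-/

set_option autoImplicit false

namespace Fermat.Agent.S24

open HahnSeries

variable {k : Type*} [Field k]

/-- Underlying function of `rotHom`. -/
noncomputable def rotFun (ζ : k) (f : LaurentSeries k) : LaurentSeries k where
  coeff n := ζ ^ n * f.coeff n
  isPWO_support' := f.isPWO_support.mono fun n hn => by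
    simp only [Function.mem_support, ne_eq] at hn
    exact fun h => hn (by rw [h, mul_zero])

@[simp]
theorem rotFun_coeff (ζ : k) (f : LaurentSeries k) (n : ℤ) :
    (rotFun ζ f).coeff n = ζ ^ n * f.coeff n :=
  rfl

theorem rotFun_support_subset (ζ : k) (f : LaurentSeries k) :
    (rotFun ζ f).support ⊆ f.support := fun n hn => by
  simp only [HahnSeries.mem_support, rotFun_coeff, ne_eq] at hn ⊢
  exact fun h => hn (by rw [h, mul_zero])

theorem rotFun_mul (ζ : k) (hζ : ζ ≠ 0) (x y : LaurentSeries k) :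
    rotFun ζ (x * y) = rotFun ζ x * rotFun ζ y := by
  ext n
  rw [rotFun_coeff, HahnSeries.coeff_mul, HahnSeries.coeff_mul, Finset.mul_sum]
  symm
  have hsub : Finset.antidiagonal (rotFun ζ x).isPWO_support (rotFun ζ y).isPWO_support n ⊆
      Finset.antidiagonal x.isPWO_support y.isPWO_support n := by
    intro ij hij
    rw [Finset.mem_antidiagonal] at hij ⊢
    exact ⟨rotFun_support_subset ζ x hij.1, rotFun_support_subset ζ y hij.2.1, hij.2.2⟩
  rw [Finset.sum_subset hsub]
  · refine Finset.sum_congr rfl fun ij hij => ?_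
    rw [Finset.mem_antidiagonal] at hij
    rw [rotFun_coeff, rotFun_coeff, ← hij.2.2, zpow_add₀ hζ]
    ring
  · intro ij hij hnot
    rw [Finset.mem_antidiagonal] at hij hnot
    by_cases h1 : ij.1 ∈ (rotFun ζ x).support
    · have h2 : ij.2 ∉ (rotFun ζ y).support := fun h2 => hnot ⟨h1, h2, hij.2.2⟩
      rw [HahnSeries.mem_support, not_not] at h2
      rw [h2, mul_zero]
    · rw [HahnSeries.mem_support, not_not] at h1
      rw [h1, zero_mul]

/-- The rotation `s ↦ ζ s` on Laurent series, as an algebra endomorphism. -/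
noncomputable def rotHom (ζ : k) (hζ : ζ ≠ 0) : LaurentSeries k →ₐ[k] LaurentSeries k where
  toFun := rotFun ζ
  map_one' := by
    ext n
    rw [rotFun_coeff, HahnSeries.coeff_one]
    split_ifs with h
    · rw [h, zpow_zero, mul_one]
    · rw [mul_zero]
  map_mul' := rotFun_mul ζ hζ
  map_zero' := by
    ext n
    simp
  map_add' x y := by
    ext n
    simp [mul_add]
  commutes' c := by
    ext n
    have h1 : algebraMap k (PowerSeries k) c = PowerSeries.C c := by simp
    have h2 : algebraMap k (LaurentSeries k) c = HahnSeries.single 0 c := by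
      rw [HahnSeries.algebraMap_apply', h1, HahnSeries.ofPowerSeries_C]
      rfl
    rw [rotFun_coeff, h2, HahnSeries.coeff_single]
    split_ifs with h
    · rw [h, zpow_zero, one_mul]
    · rw [mul_zero]

@[simp]
theorem rotHom_coeff (ζ : k) (hζ : ζ ≠ 0) (f : LaurentSeries k) (n : ℤ) :
    (rotHom ζ hζ f).coeff n = ζ ^ n * f.coeff n :=
  rfl

theorem rotHom_one (f : LaurentSeries k) : rotHom (1 : k) one_ne_zero f = f := by
  ext n
  simp

theorem rotHom_rotHom (ζ ξ : k) (hζ : ζ ≠ 0) (hξ : ξ ≠ 0) (f : LaurentSeries k) :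
    rotHom ζ hζ (rotHom ξ hξ f) = rotHom (ζ * ξ) (mul_ne_zero hζ hξ) f := by
  ext n
  simp only [rotHom_coeff, mul_zpow]
  ring

theorem rotHom_injective (ζ : k) (hζ : ζ ≠ 0) : Function.Injective (rotHom ζ hζ) :=
  (rotHom ζ hζ).toRingHom.injective

theorem rotHom_coeff_eq_zero_iff (ζ : k) (hζ : ζ ≠ 0) (f : LaurentSeries k) (n : ℤ) :
    (rotHom ζ hζ f).coeff n = 0 ↔ f.coeff n = 0 := by
  rw [rotHom_coeff, mul_eq_zero]
  exact ⟨fun h => h.resolve_left (zpow_ne_zero n hζ), Or.inr⟩

theorem rotHom_support (ζ : k) (hζ : ζ ≠ 0) (f : LaurentSeries k) :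
    (rotHom ζ hζ f).support = f.support := by
  ext n
  simp only [HahnSeries.mem_support, ne_eq, rotHom_coeff_eq_zero_iff]

theorem rotHom_order (ζ : k) (hζ : ζ ≠ 0) (f : LaurentSeries k) :
    (rotHom ζ hζ f).order = f.order := by
  by_cases hf : f = 0
  · rw [hf, map_zero]
  · have hf' : rotHom ζ hζ f ≠ 0 := fun h => hf (rotHom_injective ζ hζ (by rw [h, map_zero]))
    rw [HahnSeries.order_of_ne hf, HahnSeries.order_of_ne hf']
    congr 1
    exact rotHom_support ζ hζ f

/-- A Laurent series fixed by the rotation by a primitive `m`-th root of unity is a series in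
`s ^ m`: its nonzero coefficients sit in degrees divisible by `m`. -/
theorem dvd_of_rotHom_eq_self {ζ : k} (hζ : ζ ≠ 0) {m : ℕ} (hm : IsPrimitiveRoot ζ m)
    {f : LaurentSeries k} (hf : rotHom ζ hζ f = f) {n : ℤ} (hn : f.coeff n ≠ 0) : (m : ℤ) ∣ n := by
  have h := congrArg (fun g => g.coeff n) hf
  simp only [rotHom_coeff] at h
  have h1 : ζ ^ n = 1 := by
    have h2 : (ζ ^ n - 1) * f.coeff n = 0 := by rw [sub_mul, h, one_mul, sub_self]
    rcases mul_eq_zero.mp h2 with h3 | h3
    · exact sub_eq_zero.mp h3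
    · exact absurd h3 hn
  exact (hm.zpow_eq_one_iff_dvd n).mp h1

theorem dvd_order_of_rotHom_eq_self {ζ : k} (hζ : ζ ≠ 0) {m : ℕ} (hm : IsPrimitiveRoot ζ m)
    {f : LaurentSeries k} (hf : rotHom ζ hζ f = f) : (m : ℤ) ∣ f.order := by
  by_cases hf0 : f = 0
  · rw [hf0, HahnSeries.order_zero]
    exact dvd_zero _
  · exact dvd_of_rotHom_eq_self hζ hm hf (fun h => hf0 (HahnSeries.coeff_order_eq_zero.mp h))

theorem rotHom_ofPowerSeries (ζ : k) (hζ : ζ ≠ 0) (p : PowerSeries k) :
    rotHom ζ hζ (HahnSeries.ofPowerSeries ℤ k p)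
      = HahnSeries.ofPowerSeries ℤ k (PowerSeries.rescale ζ p) := by
  ext n
  rw [rotHom_coeff]
  by_cases hn : 0 ≤ n
  · obtain ⟨m, rfl⟩ := Int.eq_ofNat_of_zero_le hn
    rw [HahnSeries.ofPowerSeries_apply_coeff, HahnSeries.ofPowerSeries_apply_coeff,
      PowerSeries.coeff_rescale, zpow_natCast]
  · have h1 : ∀ q : PowerSeries k, (HahnSeries.ofPowerSeries ℤ k q).coeff n = 0 := by
      intro q
      rw [HahnSeries.ofPowerSeries_apply]
      refine HahnSeries.embDomain_of_notMem_range ?_
      rintro ⟨m, rfl⟩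
      exact hn (Int.natCast_nonneg m)
    rw [h1, h1, mul_zero]

end Fermat.Agent.S24
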