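import Mathlib
import Fermat.Agent.S24.AnDefs
import Fermat.Agent.S24.EmbFormal
import Fermat.Agent.S24.Rot

/-!
# S24, analytic side (owner: helper42): the abstract construction of the embeddings

Input: a `ℂ`-algebra `A` of functions on the upper half plane containing all translates
`trans g (jAt d)`, `d ∣ N`, and an injective `ℂ`-algebra map `H : A → ℂ((s))` ("expansion").
Given the bridge between formal and analytic relations and the `Γ₀(N)`-invariance /
distinctness of the translates, we obtain a family of pairwise distinct `ℚ̄`-embeddings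
`embFam : SL(2, ℤ) ⧸ Γ₀(N) → (F N →ₐ[ℚ̄] ℂ((s)))`, `embFam ↑g (j(q^d)) = H (trans g (jAt d))`.

Both the Taylor expansions at a point `z₀` (`A = holSub`) and the `q_N`-expansions at the cusp
(`A = merSub N`) are instances.
-/

set_option autoImplicit false

namespace Fermat.Agent.S24

open UpperHalfPlane ModularCurve HahnSeries
open scoped MatrixGroups

namespace AnEmbCore

theorem algebraMap_Kb_laurent (a : Kb) :
    algebraMap Kb (LaurentSeries ℂ) a = HahnSeries.C (embC a) := by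
  rw [HahnSeries.algebraMap_apply']
  have h1 : algebraMap Kb (PowerSeries ℂ) a = PowerSeries.C (embC a) := by
    rw [PowerSeries.algebraMap_apply]
    rfl
  rw [h1, HahnSeries.ofPowerSeries_C]

theorem algebraMap_C_laurent (c : ℂ) :
    algebraMap ℂ (LaurentSeries ℂ) c = HahnSeries.C c := by
  rw [HahnSeries.algebraMap_apply']
  have h1 : algebraMap ℂ (PowerSeries ℂ) c = PowerSeries.C c := by
    simp
  rw [h1, HahnSeries.ofPowerSeries_C]

theorem trans_injective (g : SL(2, ℤ)) : Function.Injective (trans g) := by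
  intro f₁ f₂ h
  have h2 := congrArg (trans g⁻¹) h
  rwa [← trans_mul, ← trans_mul, inv_mul_cancel, trans_one, trans_one] at h2

theorem trans_zero (g : SL(2, ℤ)) : trans g (0 : ℍ → ℂ) = 0 := rfl

theorem mulN_one (z : ℍ) : Fermat.Agent.S23.mulN 1 z = z := by
  apply UpperHalfPlane.ext
  simp

theorem jAt_one : jAt 1 = Fermat.Agent.LevelOne.jFun := by
  funext z
  rw [jAt_apply, mulN_one]

theorem trans_jFun (g : SL(2, ℤ)) :
    trans g Fermat.Agent.LevelOne.jFun = Fermat.Agent.LevelOne.jFun := by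
  funext z
  rw [trans_apply, Fermat.Agent.LevelOne.jFun_smul]

/-- The rotation `s ↦ ζ s` as a `ℚ̄`-algebra endomorphism of `ℂ((s))`. -/
noncomputable def rotK (ζ : ℂ) (hζ : ζ ≠ 0) : LaurentSeries ℂ →ₐ[Kb] LaurentSeries ℂ where
  toRingHom := (rotHom ζ hζ).toRingHom
  commutes' a := by
    have h := (rotHom ζ hζ).commutes (embC a)
    rw [algebraMap_C_laurent] at h
    rw [algebraMap_Kb_laurent]
    exact h

theorem rotK_coeff (ζ : ℂ) (hζ : ζ ≠ 0) (f : LaurentSeries ℂ) (n : ℤ) :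
    (rotK ζ hζ f).coeff n = ζ ^ n * f.coeff n :=
  rfl

end AnEmbCore

open AnEmbCore

/-- The hypotheses of the abstract embedding construction. -/
structure EmbInput (N : ℕ) [NeZero N] where
  /-- the algebra of functions -/
  A : Subalgebra ℂ (ℍ → ℂ)
  /-- the expansion map -/
  H : ↥A →ₐ[ℂ] LaurentSeries ℂ
  inj : Function.Injective H
  mem : ∀ (d : ↥N.divisors) (g : SL(2, ℤ)), trans g (jAt (d : ℕ)) ∈ A
  bridge : ∀ P : MvPolynomial ↥N.divisors Kb,
    MvPolynomial.aeval (JFam N) P = 0 ↔ MvPolynomial.aeval (jAtFam N) P = 0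
  inv : ∀ γ : SL(2, ℤ), γ ∈ CongruenceSubgroup.Gamma0 N → ∀ d : ↥N.divisors,
    trans γ (jAt (d : ℕ)) = jAt (d : ℕ)
  dist : ∀ g g' : SL(2, ℤ), trans g (jAt N) = trans g' (jAt N) →
    (QuotientGroup.mk g : QN N) = QuotientGroup.mk g'

namespace EmbInput

variable {N : ℕ} [NeZero N] (I : EmbInput N)

/-- The evaluation map `P ↦ H (trans g (P (j(d z))))` on polynomials. -/
noncomputable def psi (g : SL(2, ℤ)) : MvPolynomial ↥N.divisors Kb →ₐ[Kb] LaurentSeries ℂ :=
  MvPolynomial.aeval (fun d => I.H ⟨trans g (jAt (d : ℕ)), I.mem d g⟩)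

theorem psi_X (g : SL(2, ℤ)) (d : ↥N.divisors) :
    I.psi g (MvPolynomial.X d) = I.H ⟨trans g (jAt (d : ℕ)), I.mem d g⟩ := by
  rw [psi, MvPolynomial.aeval_X]

theorem psi_eq (g : SL(2, ℤ)) (P : MvPolynomial ↥N.divisors Kb) :
    ∃ hP : trans g (MvPolynomial.aeval (jAtFam N) P) ∈ I.A,
      I.psi g P = I.H ⟨trans g (MvPolynomial.aeval (jAtFam N) P), hP⟩ := by
  induction P using MvPolynomial.induction_on with
  | C a =>
    have h1 : trans g (MvPolynomial.aeval (jAtFam N) (MvPolynomial.C a : MvPolynomial ↥N.divisors Kb))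
        = algebraMap ℂ (ℍ → ℂ) (embC a) := by
      rw [MvPolynomial.aeval_C]
      rfl
    have hmem : trans g (MvPolynomial.aeval (jAtFam N)
        (MvPolynomial.C a : MvPolynomial ↥N.divisors Kb)) ∈ I.A := by
      rw [h1]
      exact I.A.algebraMap_mem _
    refine ⟨hmem, ?_⟩
    have h2 : (⟨trans g (MvPolynomial.aeval (jAtFam N)
        (MvPolynomial.C a : MvPolynomial ↥N.divisors Kb)), hmem⟩ : ↥I.A)
        = algebraMap ℂ ↥I.A (embC a) := Subtype.ext h1
    rw [h2, AlgHom.commutes, psi, MvPolynomial.aeval_C, algebraMap_Kb_laurent,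
      algebraMap_C_laurent]
  | add P Q hP hQ =>
    obtain ⟨hP1, hP2⟩ := hP
    obtain ⟨hQ1, hQ2⟩ := hQ
    have h1 : trans g (MvPolynomial.aeval (jAtFam N) (P + Q))
        = trans g (MvPolynomial.aeval (jAtFam N) P) + trans g (MvPolynomial.aeval (jAtFam N) Q) := by
      rw [map_add, trans_add]
    have hmem : trans g (MvPolynomial.aeval (jAtFam N) (P + Q)) ∈ I.A := by
      rw [h1]
      exact I.A.add_mem hP1 hQ1
    refine ⟨hmem, ?_⟩
    have h2 : (⟨trans g (MvPolynomial.aeval (jAtFam N) (P + Q)), hmem⟩ : ↥I.A)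
        = ⟨_, hP1⟩ + ⟨_, hQ1⟩ := Subtype.ext h1
    rw [h2, map_add, map_add, hP2, hQ2]
  | mul_X P d hP =>
    obtain ⟨hP1, hP2⟩ := hP
    have h1 : trans g (MvPolynomial.aeval (jAtFam N) (P * MvPolynomial.X d))
        = trans g (MvPolynomial.aeval (jAtFam N) P) * trans g (jAt (d : ℕ)) := by
      rw [map_mul, MvPolynomial.aeval_X, trans_mul_fun]
      rfl
    have hmem : trans g (MvPolynomial.aeval (jAtFam N) (P * MvPolynomial.X d)) ∈ I.A := by
      rw [h1]
      exact I.A.mul_mem hP1 (I.mem d g)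
    refine ⟨hmem, ?_⟩
    have h2 : (⟨trans g (MvPolynomial.aeval (jAtFam N) (P * MvPolynomial.X d)), hmem⟩ : ↥I.A)
        = ⟨_, hP1⟩ * ⟨_, I.mem d g⟩ := Subtype.ext h1
    rw [h2, map_mul, map_mul, hP2, psi_X]

theorem psi_eq_zero_iff (g : SL(2, ℤ)) (P : MvPolynomial ↥N.divisors Kb) :
    I.psi g P = 0 ↔ MvPolynomial.aeval (JFam N) P = 0 := by
  obtain ⟨hP, h⟩ := I.psi_eq g P
  rw [h, I.bridge P, map_eq_zero_iff _ I.inj]
  constructor
  · intro h0
    have h1 : trans g (MvPolynomial.aeval (jAtFam N) P) = trans g 0 := by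
      rw [trans_zero]
      exact congrArg Subtype.val h0
    exact trans_injective g h1
  · intro h0
    apply Subtype.ext
    show trans g (MvPolynomial.aeval (jAtFam N) P) = 0
    rw [h0, trans_zero]

/-- The embedding attached to `g ∈ SL(2, ℤ)`. -/
noncomputable def embOf (g : SL(2, ℤ)) : FN N →ₐ[Kb] LaurentSeries ℂ :=
  (exists_algHom_of_eq_zero_iff (I.psi g) (I.psi_eq_zero_iff g)).choose

theorem embOf_genFam (g : SL(2, ℤ)) (d : ↥N.divisors) :
    I.embOf g (genFam N d) = I.H ⟨trans g (jAt (d : ℕ)), I.mem d g⟩ := by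
  rw [embOf, (exists_algHom_of_eq_zero_iff (I.psi g) (I.psi_eq_zero_iff g)).choose_spec.2 d,
    psi_X]

theorem embOf_mul_of_mem (g γ : SL(2, ℤ)) (hγ : γ ∈ CongruenceSubgroup.Gamma0 N) :
    I.embOf (g * γ) = I.embOf g := by
  apply algHom_ext_genFam
  intro d
  rw [embOf_genFam, embOf_genFam]
  have h1 : trans (g * γ) (jAt (d : ℕ)) = trans g (jAt (d : ℕ)) := by
    rw [trans_mul, I.inv γ hγ d]
  exact congrArg I.H (Subtype.ext h1)

/-- The family of embeddings indexed by the cosets `SL(2, ℤ) ⧸ Γ₀(N)`. -/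
noncomputable def embFam (q : QN N) : FN N →ₐ[Kb] LaurentSeries ℂ :=
  I.embOf q.out

theorem embFam_mk (g : SL(2, ℤ)) : I.embFam (QuotientGroup.mk g : QN N) = I.embOf g := by
  obtain ⟨γ, hγ⟩ := QuotientGroup.mk_out_eq_mul (CongruenceSubgroup.Gamma0 N) g
  rw [embFam, hγ, I.embOf_mul_of_mem g γ γ.2]

theorem embFam_mk_genFam (g : SL(2, ℤ)) (d : ↥N.divisors) :
    I.embFam (QuotientGroup.mk g : QN N) (genFam N d)
      = I.H ⟨trans g (jAt (d : ℕ)), I.mem d g⟩ := by
  rw [embFam_mk, embOf_genFam]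

theorem embFam_injective : Function.Injective I.embFam := by
  intro q q' h
  obtain ⟨g, rfl⟩ := QuotientGroup.mk_surjective q
  obtain ⟨g', rfl⟩ := QuotientGroup.mk_surjective q'
  have hN : N ∈ N.divisors := Nat.mem_divisors.mpr ⟨dvd_rfl, NeZero.ne N⟩
  have h1 := congrArg (fun ι : FN N →ₐ[Kb] LaurentSeries ℂ => ι (genFam N ⟨N, hN⟩)) h
  simp only [embFam_mk_genFam] at h1
  have h2 := congrArg Subtype.val (I.inj h1)
  exact I.dist g g' h2

theorem embFam_algebraMap (q : QN N) (a : Kb) :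
    I.embFam q (algebraMap Kb (FN N) a) = HahnSeries.C (embC a) := by
  rw [AlgHom.commutes, algebraMap_Kb_laurent]

theorem embFam_jF (q : QN N) (hj : Fermat.Agent.LevelOne.jFun ∈ I.A) :
    I.embFam q (jF N) = I.H ⟨Fermat.Agent.LevelOne.jFun, hj⟩ := by
  obtain ⟨g, rfl⟩ := QuotientGroup.mk_surjective q
  rw [jF_eq_genFam, embFam_mk_genFam]
  have h1 : trans g (jAt 1) = Fermat.Agent.LevelOne.jFun := by
    rw [jAt_one, trans_jFun]
  exact congrArg I.H (Subtype.ext h1)

theorem jFun_mem : Fermat.Agent.LevelOne.jFun ∈ I.A := by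
  have hN : 1 ∈ N.divisors := Nat.mem_divisors.mpr ⟨one_dvd N, NeZero.ne N⟩
  have h := I.mem ⟨1, hN⟩ 1
  rw [trans_one] at h
  have h2 : jAt ((⟨1, hN⟩ : ↥N.divisors) : ℕ) = Fermat.Agent.LevelOne.jFun := jAt_one
  rwa [h2] at h

/-- Equivariance: if `trans ε` acts on expansions through the rotation `s ↦ ζ s`, then so does
`ε` on the family of embeddings. -/
theorem embFam_smul (ε : SL(2, ℤ)) (ζ : ℂ) (hζ : ζ ≠ 0)
    (hε : ∀ (f : ℍ → ℂ) (hf : f ∈ I.A) (hf' : trans ε f ∈ I.A) (n : ℤ),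
      (I.H ⟨trans ε f, hf'⟩).coeff n = ζ ^ n * (I.H ⟨f, hf⟩).coeff n)
    (q : QN N) (x : FN N) (n : ℤ) :
    (I.embFam (ε • q) x).coeff n = ζ ^ n * (I.embFam q x).coeff n := by
  obtain ⟨g, rfl⟩ := QuotientGroup.mk_surjective q
  have hsm : (ε • (QuotientGroup.mk g : QN N)) = QuotientGroup.mk (ε * g) := rfl
  rw [hsm, embFam_mk, embFam_mk]
  have key : I.embOf (ε * g) = (rotK ζ hζ).comp (I.embOf g) := by
    apply algHom_ext_genFam
    intro d
    rw [AlgHom.comp_apply, embOf_genFam, embOf_genFam]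
    have hmem' : trans ε (trans g (jAt (d : ℕ))) ∈ I.A := by
      rw [← trans_mul]
      exact I.mem d (ε * g)
    have h2 : trans (ε * g) (jAt (d : ℕ)) = trans ε (trans g (jAt (d : ℕ))) := trans_mul ε g _
    have h3 : I.H ⟨trans (ε * g) (jAt (d : ℕ)), I.mem d (ε * g)⟩
        = I.H ⟨trans ε (trans g (jAt (d : ℕ))), hmem'⟩ := congrArg I.H (Subtype.ext h2)
    rw [h3]
    ext m
    rw [rotK_coeff]
    exact hε (trans g (jAt (d : ℕ))) (I.mem d g) hmem' m
  rw [key, AlgHom.comp_apply, rotK_coeff]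

end EmbInput

end Fermat.Agent.S24
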