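import Mathlib
import Fermat.Agent.S24.AnDefs
import Fermat.Agent.S24.AnTaylor

/-!
# S24 analytic side: equivariance of the Taylor expansion under the stabiliser of `z₀`

If `ε ∈ SL(2, ℤ)` fixes `z₀`, then in the Cayley coordinate `w` at `z₀` the map `z ↦ ε⁻¹ z` is the
rotation `w ↦ λ² w`, `λ = c z₀ + d`.  Hence the `n`-th Taylor coefficient of `trans ε f` is
`(λ²)^n` times that of `f`.
-/

set_option autoImplicit false

noncomputable section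

namespace Fermat.Agent.S24

open UpperHalfPlane
open scoped ComplexConjugate Manifold MatrixGroups

/-- Translates of holomorphic functions are holomorphic. -/
theorem anTaylorEquiv_mdiff_trans {f : ℍ → ℂ} (hf : MDiff f) (g : SL(2, ℤ)) :
    MDiff (trans g f) := by
  have h : MDiff (fun τ : ℍ => ((g⁻¹ : SL(2, ℤ)) : GL (Fin 2) ℝ) • τ) :=
    UpperHalfPlane.mdifferentiable_smul (by simp)
  exact hf.comp h

/-- The multiplier `λ = c z₀ + d` of an element fixing `z₀` has norm one. -/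
theorem anTaylorEquiv_mul_conj (z₀ : ℍ) (ε : SL(2, ℤ)) (hε : ε • z₀ = z₀) :
    (((ε 1 0 : ℤ) : ℂ) * z₀ + ((ε 1 1 : ℤ) : ℂ)) *
      conj (((ε 1 0 : ℤ) : ℂ) * z₀ + ((ε 1 1 : ℤ) : ℂ)) = 1 := by
  have h := ModularGroup.im_smul_eq_div_normSq ε z₀
  rw [hε, ModularGroup.denom_apply] at h
  have him : z₀.im ≠ 0 := z₀.im_pos.ne'
  have hns : Complex.normSq (((ε 1 0 : ℤ) : ℂ) * z₀ + ((ε 1 1 : ℤ) : ℂ)) ≠ 0 := by
    intro h0
    rw [h0, div_zero] at h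
    exact him h
  have h1 : Complex.normSq (((ε 1 0 : ℤ) : ℂ) * z₀ + ((ε 1 1 : ℤ) : ℂ)) = 1 := by
    field_simp at h
    nlinarith [h, z₀.im_pos]
  rw [Complex.mul_conj, h1]
  simp

/-- In the Cayley coordinate at a fixed point `z₀` of `ε`, the action of `ε` is the rotation by
`(c z₀ + d)⁻²`. -/
theorem anTaylorEquiv_smul_cayInv (z₀ : ℍ) (ε : SL(2, ℤ)) (hε : ε • z₀ = z₀) {w : ℂ}
    (hw : ‖w‖ < 1) :
    ε • ofComplex (cayInv z₀ ((((ε 1 0 : ℤ) : ℂ) * z₀ + ((ε 1 1 : ℤ) : ℂ)) ^ 2 * w))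
      = ofComplex (cayInv z₀ w) := by
  obtain ⟨lam, hlam⟩ : ∃ lam : ℂ, lam = ((ε 1 0 : ℤ) : ℂ) * z₀ + ((ε 1 1 : ℤ) : ℂ) := ⟨_, rfl⟩
  have h4 : lam * conj lam = 1 := by rw [hlam]; exact anTaylorEquiv_mul_conj z₀ ε hε
  have hlam0 : lam ≠ 0 := by
    intro h0
    rw [h0, zero_mul] at h4
    exact zero_ne_one h4
  have hnorm : ‖lam‖ = 1 := by
    have h5 : Complex.normSq lam = 1 := by
      have := Complex.mul_conj lam
      rw [h4] at this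
      exact_mod_cast this.symm
    rw [Complex.normSq_eq_norm_sq] at h5
    have h0 : 0 ≤ ‖lam‖ := norm_nonneg _
    nlinarith
  rw [← hlam]
  obtain ⟨u, hu⟩ : ∃ u : ℂ, u = lam ^ 2 * w := ⟨_, rfl⟩
  have hunorm : ‖u‖ < 1 := by
    rw [hu, norm_mul, norm_pow, hnorm]
    simpa using hw
  rw [← hu]
  have hposu : 0 < (cayInv z₀ u).im := im_cayInv_pos z₀ hunorm
  have hposw : 0 < (cayInv z₀ w).im := im_cayInv_pos z₀ hw
  have h1u : (1 : ℂ) - u ≠ 0 := anTaylor_one_sub_ne_zero hunorm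
  have h1w : (1 : ℂ) - w ≠ 0 := anTaylor_one_sub_ne_zero hw
  -- fixed point equations
  have hfix : (((ε 0 0 : ℤ) : ℂ) * z₀ + ((ε 0 1 : ℤ) : ℂ)) = (z₀ : ℂ) * lam := by
    have h := congrArg (fun z : ℍ => (z : ℂ)) hε
    simp only [UpperHalfPlane.coe_specialLinearGroup_apply] at h
    have hd : ((ε 1 0 : ℤ) : ℂ) * z₀ + ((ε 1 1 : ℤ) : ℂ) ≠ 0 := by
      rw [← hlam]; exact hlam0
    have h' : (((ε 0 0 : ℤ) : ℂ) * z₀ + ((ε 0 1 : ℤ) : ℂ)) /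
        (((ε 1 0 : ℤ) : ℂ) * z₀ + ((ε 1 1 : ℤ) : ℂ)) = (z₀ : ℂ) := by
      simpa using h
    rw [div_eq_iff hd] at h'
    rw [h', hlam]
  have hfix' : (((ε 0 0 : ℤ) : ℂ) * conj (z₀ : ℂ) + ((ε 0 1 : ℤ) : ℂ))
      = conj (z₀ : ℂ) * conj lam := by
    have h := congrArg conj hfix
    simpa [map_add, map_mul] using h
  have hlam' : ((ε 1 0 : ℤ) : ℂ) * conj (z₀ : ℂ) + ((ε 1 1 : ℤ) : ℂ) = conj lam := by
    rw [hlam]
    simp [map_add, map_mul]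
  apply UpperHalfPlane.ext
  rw [UpperHalfPlane.coe_specialLinearGroup_apply, UpperHalfPlane.ofComplex_apply_of_im_pos hposu,
    UpperHalfPlane.ofComplex_apply_of_im_pos hposw]
  show (((algebraMap ℤ ℝ (ε 0 0) : ℝ) : ℂ) * cayInv z₀ u + ((algebraMap ℤ ℝ (ε 0 1) : ℝ) : ℂ)) /
      (((algebraMap ℤ ℝ (ε 1 0) : ℝ) : ℂ) * cayInv z₀ u + ((algebraMap ℤ ℝ (ε 1 1) : ℝ) : ℂ))
      = cayInv z₀ w
  have hN : ((ε 0 0 : ℤ) : ℂ) * cayInv z₀ u + ((ε 0 1 : ℤ) : ℂ)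
      = lam * ((z₀ : ℂ) - conj (z₀ : ℂ) * w) / (1 - u) := by
    rw [cayInv, eq_div_iff h1u, add_mul, mul_assoc, div_mul_cancel₀ _ h1u]
    linear_combination hfix - u * hfix' - conj (z₀ : ℂ) * lam * w * h4 -
      conj (z₀ : ℂ) * conj lam * hu
  have hD : ((ε 1 0 : ℤ) : ℂ) * cayInv z₀ u + ((ε 1 1 : ℤ) : ℂ)
      = lam * (1 - w) / (1 - u) := by
    rw [cayInv, eq_div_iff h1u, add_mul, mul_assoc, div_mul_cancel₀ _ h1u]
    linear_combination (-u) * hlam' - lam * w * h4 - hlam - conj lam * hu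
  simp only [algebraMap_int_eq, eq_intCast, Complex.ofReal_intCast]
  rw [hN, hD, cayInv]
  field_simp

/-- `trans ε f` read in the Cayley coordinate at a fixed point `z₀` of `ε` is `f` precomposed
with the rotation by `(c z₀ + d)²`. -/
theorem cayFun_trans (f : ℍ → ℂ) (z₀ : ℍ) (ε : SL(2, ℤ)) (hε : ε • z₀ = z₀) {w : ℂ}
    (hw : ‖w‖ < 1) :
    cayFun z₀ (trans ε f) w
      = cayFun z₀ f ((((ε 1 0 : ℤ) : ℂ) * z₀ + ((ε 1 1 : ℤ) : ℂ)) ^ 2 * w) := by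
  have h := anTaylorEquiv_smul_cayInv z₀ ε hε hw
  show f (ε⁻¹ • ofComplex (cayInv z₀ w)) = _
  rw [← h, inv_smul_smul]
  rfl

/-- Iterated derivatives at `0` of `w ↦ G (c w)` for `G` holomorphic on the unit disc and
`‖c‖ = 1`. -/
theorem anTaylorEquiv_iteratedDeriv_comp_mul {G : ℂ → ℂ}
    (hG : DifferentiableOn ℂ G (Metric.ball 0 1)) {c : ℂ} (hc : ‖c‖ = 1) (n : ℕ) :
    iteratedDeriv n (fun w => G (c * w)) 0 = c ^ n * iteratedDeriv n G 0 := by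
  have hopen : IsOpen (Metric.ball (0 : ℂ) 1) := Metric.isOpen_ball
  have h0 : (0 : ℂ) ∈ Metric.ball (0 : ℂ) 1 := by simp
  have hmaps : Set.MapsTo (c * ·) (Metric.ball (0 : ℂ) 1) (Metric.ball (0 : ℂ) 1) := by
    intro x hx
    simp only [Metric.mem_ball, dist_zero_right] at hx ⊢
    rw [norm_mul, hc, one_mul]
    exact hx
  have hcd : ContDiffOn ℂ n G (Metric.ball 0 1) := hG.contDiffOn hopen
  have h1 := iteratedDerivWithin_comp_const_smul h0 hopen.uniqueDiffOn hcd c hmaps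
  rw [iteratedDerivWithin_of_isOpen hopen h0, mul_zero,
    iteratedDerivWithin_of_isOpen hopen h0] at h1
  simpa using h1

/-- **Equivariance of the Taylor expansion**: if `ε` fixes `z₀` then the `n`-th Taylor
coefficient at `z₀` of `trans ε f = f ∘ ε⁻¹` is `((c z₀ + d)²)^n` times that of `f`. -/
theorem coeff_taylorAt_trans {f : ℍ → ℂ} (hf : MDiff f) (z₀ : ℍ) (ε : SL(2, ℤ))
    (hε : ε • z₀ = z₀) (n : ℕ) :
    (taylorAt z₀ (trans ε f)).coeff n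
      = ((((ε 1 0 : ℤ) : ℂ) * z₀ + ((ε 1 1 : ℤ) : ℂ)) ^ 2) ^ n * (taylorAt z₀ f).coeff n := by
  obtain ⟨c, hc⟩ : ∃ c : ℂ, c = (((ε 1 0 : ℤ) : ℂ) * z₀ + ((ε 1 1 : ℤ) : ℂ)) ^ 2 := ⟨_, rfl⟩
  have hcn : ‖c‖ = 1 := by
    have h4 := anTaylorEquiv_mul_conj z₀ ε hε
    have h5 : Complex.normSq (((ε 1 0 : ℤ) : ℂ) * z₀ + ((ε 1 1 : ℤ) : ℂ)) = 1 := by
      have := Complex.mul_conj (((ε 1 0 : ℤ) : ℂ) * z₀ + ((ε 1 1 : ℤ) : ℂ))
      rw [h4] at this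
      exact_mod_cast this.symm
    rw [Complex.normSq_eq_norm_sq] at h5
    rw [hc, norm_pow, h5]
  have hev : cayFun z₀ (trans ε f) =ᶠ[nhds 0] fun w => cayFun z₀ f (c * w) := by
    have hball : Metric.ball (0 : ℂ) 1 ∈ nhds (0 : ℂ) := Metric.ball_mem_nhds 0 one_pos
    filter_upwards [hball] with w hw
    rw [hc]
    exact cayFun_trans f z₀ ε hε (by simpa using hw)
  rw [coeff_taylorAt, coeff_taylorAt, hev.iteratedDeriv_eq n,
    anTaylorEquiv_iteratedDeriv_comp_mul (differentiableOn_cayFun z₀ hf) hcn n, ← hc]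
  ring

/-- Power-series form of the equivariance: `taylorAt z₀ (trans ε f)` is the rescaling of
`taylorAt z₀ f` by `(c z₀ + d)²`. -/
theorem taylorAt_trans {f : ℍ → ℂ} (hf : MDiff f) (z₀ : ℍ) (ε : SL(2, ℤ))
    (hε : ε • z₀ = z₀) :
    taylorAt z₀ (trans ε f)
      = PowerSeries.rescale ((((ε 1 0 : ℤ) : ℂ) * z₀ + ((ε 1 1 : ℤ) : ℂ)) ^ 2)
          (taylorAt z₀ f) := by
  ext n
  rw [coeff_taylorAt_trans hf z₀ ε hε n, PowerSeries.coeff_rescale]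

end Fermat.Agent.S24
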