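import Mathlib
import Fermat.Agent.S24.AnDefs
import Fermat.Agent.S24.AnTaylor

/-!
# S24 analytic side: the Taylor expansion at `z₀` as an injective algebra hom on `holSub`
-/

set_option autoImplicit false

noncomputable section

namespace Fermat.Agent.S24

open UpperHalfPlane
open scoped Manifold

/-- Taylor expansion at `z₀` (Cayley coordinate) on the algebra of holomorphic functions. -/
def taylorHom (z₀ : ℍ) : holSub →ₐ[ℂ] PowerSeries ℂ where
  toFun f := taylorAt z₀ (f : ℍ → ℂ)
  map_one' := taylorAt_one z₀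
  map_mul' f g := taylorAt_mul z₀ f.2 g.2
  map_zero' := taylorAt_zero z₀
  map_add' f g := taylorAt_add z₀ f.2 g.2
  commutes' c := taylorAt_const z₀ c

@[simp] theorem taylorHom_apply (z₀ : ℍ) (f : holSub) :
    taylorHom z₀ f = taylorAt z₀ (f : ℍ → ℂ) := rfl

theorem taylorHom_injective (z₀ : ℍ) : Function.Injective (taylorHom z₀) := by
  intro f g h
  exact Subtype.ext (eq_of_taylorAt_eq z₀ f.2 g.2 h)

theorem constantCoeff_taylorHom (z₀ : ℍ) (f : holSub) :
    PowerSeries.constantCoeff (taylorHom z₀ f) = (f : ℍ → ℂ) z₀ :=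
  constantCoeff_taylorAt z₀ _

end Fermat.Agent.S24
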