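/-
S24 team, analytic side (owner of this file: helper95).

Assembly of the formal/analytic comparison of `j`: `j · Δ = E₄³` on `q`-expansions, from
`JFormal.qExpansion_discriminant` (helper90) and `JFormalE4.jq_mul_of`.
-/
import Fermat.Agent.S24.JFormal
import Fermat.Agent.S24.JFormalE4

set_option autoImplicit false

namespace Fermat.Agent.S24

open UpperHalfPlane ModularForm
open scoped MatrixGroups ModularForm Manifold

/-- **`j · Δ = E₄³` on `q`-expansions**: the prelude's formal `j` (with complex coefficients)
times the `q`-expansion of `Δ` is the cube of the `q`-expansion of `E₄`. -/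
theorem jq_mul_discriminant :
    ModularCurve.coeffMap (algebraMap ℚ ℂ) ModularCurve.jq *
        HahnSeries.ofPowerSeries ℤ ℂ (qExpansion 1 (ModularForm.discriminant : ℍ → ℂ)) =
      HahnSeries.ofPowerSeries ℤ ℂ (qExpansion 1 (⇑ModularForm.E₄ : ℍ → ℂ)) ^ 3 :=
  JFormalE4.jq_mul_of JFormal.qExpansion_discriminant

end Fermat.Agent.S24
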