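import Mathlib
import Fermat.Agent.S24.AnBridge
import Fermat.Agent.S24.JFormalAsm

/-!
# S24 team library: the bridge between formal and analytic `j(dτ)` — final statements

OWNER: helper16 (only the owner edits this file).

A polynomial relation holds between the formal generators `j(q^d)` (`d ∣ N`) of the function field
iff it holds between the analytic functions `j(dτ)`.  The formal identity `j · Δ = E₄³`
(`AnBridge.JRel`) is supplied by `JFormalAsm`.
-/

set_option autoImplicit false

namespace Fermat.Agent.S24

open UpperHalfPlane ModularForm ModularCurve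
open scoped MatrixGroups ModularForm Manifold

/-- The formal identity `j · Δ = E₄³` in `ℂ((q))`. -/
theorem jRel : AnBridge.JRel := jq_mul_discriminant

/-- (B-K) For `P` with coefficients in `ℚ̄`: `P(j(q^d))= 0` iff `P(j(d·)) = 0`. -/
theorem bridge_iff (N : ℕ) (P : MvPolynomial ↥N.divisors (AlgebraicClosure ℚ)) :
    MvPolynomial.aeval (JFam N) P = 0 ↔ MvPolynomial.aeval (jAtFam N) P = 0 :=
  AnBridge.bridgeK_iff jRel P

/-- (B-ℂ) For `P` with complex coefficients: `P(j(d·)) = 0` iff `P(j(q^d)) = 0` in `ℂ((q))`. -/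
theorem bridgeC_iff (N : ℕ) (P : MvPolynomial ↥N.divisors ℂ) :
    MvPolynomial.aeval (jAtFam N) P = 0 ↔
      MvPolynomial.aeval (fun d => ModularCurve.coeffMap embC (JFam N d)) P = 0 :=
  AnBridge.bridgeC_iff jRel P

theorem bridgeC_of_fun_eq_zero (N : ℕ) [NeZero N] (P : MvPolynomial ↥N.divisors ℂ)
    (h : MvPolynomial.aeval (jAtFam N) P = 0) :
    MvPolynomial.aeval (fun d => ModularCurve.coeffMap embC (JFam N d)) P = 0 :=
  (bridgeC_iff N P).mp h

end Fermat.Agent.S24
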