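import Mathlib
import Fermat.Agent.S24.AnEmbCore
import Fermat.Agent.S24.Bridge
import Fermat.Agent.S24.AnDistinct
import Fermat.Agent.S24.AnTaylorHom
import Fermat.Agent.S24.AnTaylorEquiv
import Fermat.Agent.S24.AnBridgeB
import Fermat.Agent.S24.AnRoots
import Fermat.Agent.S24.AnDatum

/-!
# S24 analytic side: the Taylor-side embedding datum (AN1)

OWNER: helper3 (only the owner edits this file).

For every `z₀ : ℍ` the Taylor expansion at `z₀` (Cayley coordinate) of the translates of the
`j(d·)` gives `|SL(2, ℤ) ⧸ Γ₀(N)|` pairwise distinct embeddings of the function field into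
`ℂ((w))`, equivariant under the stabiliser of `z₀`: `hasTaylorEmb : HasTaylorEmb N z₀`
(the shape consumed by `AnDatum`).  Instance of helper42's `EmbInput` core.
-/

set_option autoImplicit false

noncomputable section

namespace Fermat.Agent.S24

open UpperHalfPlane ModularCurve
open scoped MatrixGroups

/-- Taylor expansion at `z₀` as a `ℂ`-algebra map from holomorphic functions to Laurent
series. -/
def taylorLaurent (z₀ : ℍ) : holSub →ₐ[ℂ] LaurentSeries ℂ where
  toRingHom := (HahnSeries.ofPowerSeries ℤ ℂ).comp (taylorHom z₀ : holSub →+* PowerSeries ℂ)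
  commutes' c := by
    show HahnSeries.ofPowerSeries ℤ ℂ (taylorHom z₀ (algebraMap ℂ holSub c))
      = algebraMap ℂ (LaurentSeries ℂ) c
    rw [AlgHom.commutes, HahnSeries.algebraMap_apply']

theorem taylorLaurent_apply (z₀ : ℍ) (f : holSub) :
    taylorLaurent z₀ f = HahnSeries.ofPowerSeries ℤ ℂ (taylorAt z₀ (f : ℍ → ℂ)) := rfl

theorem taylorLaurent_injective (z₀ : ℍ) : Function.Injective (taylorLaurent z₀) := by
  intro f g h
  exact taylorHom_injective z₀ (HahnSeries.ofPowerSeries_injective h)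

/-- The Taylor-side input of the embedding core. -/
def taylorInput (N : ℕ) [NeZero N] (z₀ : ℍ) : EmbInput N where
  A := holSub
  H := taylorLaurent z₀
  inj := taylorLaurent_injective z₀
  mem := fun d g => anTaylorEquiv_mdiff_trans (jAt_mdiff (d : ℕ)) g
  bridge := bridge_iff N
  inv := fun _ hγ d => trans_jAt_of_mem_Gamma0 N (d : ℕ) (dvd_of_divisor N d) hγ
  dist := fun _ _ h => coe_eq_of_trans_jAt_eq N h

theorem fixMult_ne_zero (z₀ : ℍ) (ε : SL(2, ℤ)) (hε : ε • z₀ = z₀) : fixMult ε z₀ ≠ 0 := by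
  have h := anTaylorEquiv_mul_conj z₀ ε hε
  rw [fixMult]
  refine pow_ne_zero 2 ?_
  intro h0
  rw [h0, zero_mul] at h
  exact zero_ne_one h

/-- Equivariance of the Taylor expansion under the stabiliser of `z₀`, coefficientwise on
Laurent series. -/
theorem taylorLaurent_trans_coeff (z₀ : ℍ) (ε : SL(2, ℤ)) (hε : ε • z₀ = z₀)
    (f : ℍ → ℂ) (hf : f ∈ holSub) (hf' : trans ε f ∈ holSub) (n : ℤ) :
    (taylorLaurent z₀ ⟨trans ε f, hf'⟩).coeff n
      = fixMult ε z₀ ^ n * (taylorLaurent z₀ ⟨f, hf⟩).coeff n := by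
  rw [taylorLaurent_apply, taylorLaurent_apply, AnRoots.coeff_ofPowerSeries,
    AnRoots.coeff_ofPowerSeries]
  split_ifs with hn
  · rw [mul_zero]
  · obtain ⟨m, rfl⟩ := Int.eq_ofNat_of_zero_le (not_lt.mp hn)
    rw [Int.natAbs_natCast, zpow_natCast]
    exact coeff_taylorAt_trans hf z₀ ε hε m

/-- **(AN1)** The Taylor-side embedding datum at an arbitrary point `z₀`. -/
theorem hasTaylorEmb (N : ℕ) [NeZero N] (z₀ : ℍ) : HasTaylorEmb N z₀ := by
  refine ⟨fun q => ((taylorInput N z₀).embFam q : FN N →+* LaurentSeries ℂ), ?_, ?_, ?_, ?_⟩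
  · intro q q' h
    apply (taylorInput N z₀).embFam_injective
    exact AlgHom.coe_ringHom_injective h
  · intro q b
    exact (taylorInput N z₀).embFam_algebraMap q b
  · intro q
    show (taylorInput N z₀).embFam q (jF N) = _
    rw [(taylorInput N z₀).embFam_jF q (taylorInput N z₀).jFun_mem]
    rfl
  · intro ε hε q x n
    exact (taylorInput N z₀).embFam_smul ε (fixMult ε z₀) (fixMult_ne_zero z₀ ε hε)
      (fun f hf hf' n => taylorLaurent_trans_coeff z₀ ε hε f hf hf' n) q x n

end Fermat.Agent.S24
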