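import Mathlib

/-!
# S24 analytic side, block 3: the expansion at the cusp `∞` in the parameter `q_N = e^{2πiz/N}`

* `merSub N`: the algebra of holomorphic functions on `ℍ` of period `N` which are meromorphic at
  `i∞` (some power of `Δ` makes them bounded).
* `bddSub N`: the subalgebra of those which are bounded at `i∞`; `qHomN N` its `q_N`-expansion.
* `cuspHom N : merSub N →ₐ[ℂ] LaurentSeries ℂ`: the `q_N`-Laurent expansion, injective.
-/

set_option autoImplicit false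

namespace Fermat.Agent.S24

open UpperHalfPlane ModularForm Complex Filter Function
open scoped MatrixGroups ModularForm Manifold Topology

local notation "Δ" => ModularForm.discriminant

/-! ### Periodicity and boundedness helpers -/

/-- A function on `ℍ` invariant under `z ↦ z + N` gives an `N`-periodic function on `ℂ`. -/
theorem periodic_comp_ofComplex_of_vadd {N : ℕ} {f : ℍ → ℂ}
    (h : ∀ z : ℍ, f ((N : ℝ) +ᵥ z) = f z) : Function.Periodic (f ∘ ofComplex) ((N : ℝ) : ℂ) := by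
  intro w
  by_cases hw : 0 < im w
  · have hw' : 0 < im (w + ((N : ℝ) : ℂ)) := by simpa using hw
    simp only [comp_apply, ofComplex_apply_of_im_pos hw', ofComplex_apply_of_im_pos hw]
    rw [← h ⟨w, hw⟩]
    congr 1
    ext
    simp [add_comm]
  · have hw0 : im w ≤ 0 := not_lt.mp hw
    have hw' : im (w + ((N : ℝ) : ℂ)) ≤ 0 := by simpa using hw0
    simp only [comp_apply, ofComplex_apply_of_im_nonpos hw', ofComplex_apply_of_im_nonpos hw0]

/-- `Δ` is invariant under `z ↦ z + n` for every integer `n`. -/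
theorem discriminant_vadd_int (n : ℤ) (z : ℍ) : Δ ((n : ℝ) +ᵥ z) = Δ z := by
  have := SlashInvariantForm.vAdd_apply_of_mem_strictPeriods CuspForm.discriminant z
    (h := (n : ℝ)) (by simp)
  simpa using this

/-- `Δ` is invariant under `z ↦ z + N`. -/
theorem discriminant_vadd_nat (N : ℕ) (z : ℍ) : Δ ((N : ℝ) +ᵥ z) = Δ z := by
  simpa using discriminant_vadd_int (N : ℤ) z

/-- `Δ` is invariant under `z ↦ z + 1`. -/
theorem discriminant_vadd_one (z : ℍ) : Δ ((1 : ℝ) +ᵥ z) = Δ z := by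
  simpa using discriminant_vadd_int 1 z

theorem mdiff_discriminant : MDiff (Δ : ℍ → ℂ) := CuspForm.discriminant.holo'

theorem isBoundedAtImInfty_discriminant : IsBoundedAtImInfty (Δ : ℍ → ℂ) :=
  discriminant_isZeroAtImInfty.isBoundedAtImInfty

theorem isBoundedAtImInfty_discriminant_pow (m : ℕ) :
    IsBoundedAtImInfty (fun z : ℍ => Δ z ^ m) := by
  induction m with
  | zero =>
    have : (fun z : ℍ => Δ z ^ 0) = fun _ => (1 : ℂ) := by funext z; simp
    rw [this]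
    exact Filter.const_boundedAtFilter atImInfty (1 : ℂ)
  | succ m ih =>
    have h := ih.mul isBoundedAtImInfty_discriminant
    have : (fun z : ℍ => Δ z ^ (m + 1)) = (fun z : ℍ => Δ z ^ m) * Δ := by
      funext z; simp [pow_succ]
    rw [this]
    exact h

/-! ### The algebra of bounded `N`-periodic holomorphic functions and its `q_N`-expansion -/

/-- The algebra of holomorphic functions on `ℍ` of period `N` that are bounded at `i∞`. -/
def bddSub (N : ℕ) : Subalgebra ℂ (ℍ → ℂ) where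
  carrier := {f | MDiff f ∧ (∀ z : ℍ, f ((N : ℝ) +ᵥ z) = f z) ∧ IsBoundedAtImInfty f}
  mul_mem' := by
    rintro f g ⟨hf1, hf2, hf3⟩ ⟨hg1, hg2, hg3⟩
    refine ⟨hf1.mul hg1, fun z => ?_, hf3.mul hg3⟩
    simp only [Pi.mul_apply, hf2 z, hg2 z]
  add_mem' := by
    rintro f g ⟨hf1, hf2, hf3⟩ ⟨hg1, hg2, hg3⟩
    refine ⟨hf1.add hg1, fun z => ?_, hf3.add hg3⟩
    simp only [Pi.add_apply, hf2 z, hg2 z]
  algebraMap_mem' := by
    intro c
    exact ⟨mdifferentiable_const, fun z => rfl, Filter.const_boundedAtFilter _ c⟩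

theorem mem_bddSub {N : ℕ} {f : ℍ → ℂ} :
    f ∈ bddSub N ↔ MDiff f ∧ (∀ z : ℍ, f ((N : ℝ) +ᵥ z) = f z) ∧ IsBoundedAtImInfty f :=
  Iff.rfl

theorem discriminant_mem_bddSub (N : ℕ) : (Δ : ℍ → ℂ) ∈ bddSub N :=
  ⟨mdiff_discriminant, discriminant_vadd_nat N, isBoundedAtImInfty_discriminant⟩

theorem analyticAt_cuspFunction_of_mem_bddSub {N : ℕ} [NeZero N] {f : ℍ → ℂ}
    (hf : f ∈ bddSub N) : AnalyticAt ℂ (cuspFunction (N : ℝ) f) 0 :=
  analyticAt_cuspFunction_zero (Nat.cast_pos.mpr (NeZero.pos N))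
    (periodic_comp_ofComplex_of_vadd hf.2.1) hf.1 hf.2.2

/-- The `q_N`-expansion on `bddSub N`, as an algebra homomorphism. -/
noncomputable def qHomN (N : ℕ) [NeZero N] : bddSub N →ₐ[ℂ] PowerSeries ℂ where
  toFun f := qExpansion (N : ℝ) (f : ℍ → ℂ)
  map_one' := qExpansion_one _
  map_mul' f g := qExpansion_mul (analyticAt_cuspFunction_of_mem_bddSub f.2)
    (analyticAt_cuspFunction_of_mem_bddSub g.2)
  map_zero' := qExpansion_zero _
  map_add' f g := qExpansion_add (analyticAt_cuspFunction_of_mem_bddSub f.2)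
    (analyticAt_cuspFunction_of_mem_bddSub g.2)
  commutes' c := by
    have h1 : ((algebraMap ℂ (bddSub N) c : bddSub N) : ℍ → ℂ) = c • (1 : ℍ → ℂ) := by
      ext τ
      simp [Algebra.algebraMap_eq_smul_one]
    have h2 : AnalyticAt ℂ (cuspFunction (N : ℝ) (1 : ℍ → ℂ)) 0 :=
      analyticAt_cuspFunction_of_mem_bddSub (bddSub N).one_mem
    show qExpansion (N : ℝ) ((algebraMap ℂ (bddSub N) c : bddSub N) : ℍ → ℂ) = _
    rw [h1, qExpansion_smul h2, qExpansion_one, Algebra.algebraMap_eq_smul_one]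

@[simp] theorem qHomN_apply (N : ℕ) [NeZero N] (f : bddSub N) :
    qHomN N f = qExpansion (N : ℝ) (f : ℍ → ℂ) := rfl

theorem qHomN_injective (N : ℕ) [NeZero N] : Function.Injective (qHomN N) := by
  rw [injective_iff_map_eq_zero]
  intro f hf
  have := (qExpansion_eq_zero_iff (Nat.cast_pos.mpr (NeZero.pos N))
    (periodic_comp_ofComplex_of_vadd f.2.2.1) f.2.1 f.2.2.2).mp hf
  exact Subtype.ext this

/-! ### The algebra of `N`-periodic holomorphic functions meromorphic at `i∞` -/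

/-- The algebra of holomorphic functions on `ℍ` of period `N` that are meromorphic at `i∞`:
some power of `Δ` makes them bounded at `i∞`. -/
def merSub (N : ℕ) : Subalgebra ℂ (ℍ → ℂ) where
  carrier := {f | MDiff f ∧ (∀ z : ℍ, f ((N : ℝ) +ᵥ z) = f z) ∧
    ∃ m : ℕ, IsBoundedAtImInfty (fun z => Δ z ^ m * f z)}
  mul_mem' := by
    rintro f g ⟨hf1, hf2, m₁, hf3⟩ ⟨hg1, hg2, m₂, hg3⟩
    refine ⟨hf1.mul hg1, fun z => ?_, m₁ + m₂, ?_⟩
    · simp only [Pi.mul_apply, hf2 z, hg2 z]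
    · have h := hf3.mul hg3
      have : (fun z : ℍ => Δ z ^ (m₁ + m₂) * (f * g) z)
          = (fun z => Δ z ^ m₁ * f z) * (fun z => Δ z ^ m₂ * g z) := by
        funext z; simp only [Pi.mul_apply]; ring
      rw [this]
      exact h
  add_mem' := by
    rintro f g ⟨hf1, hf2, m₁, hf3⟩ ⟨hg1, hg2, m₂, hg3⟩
    refine ⟨hf1.add hg1, fun z => ?_, m₁ + m₂, ?_⟩
    · simp only [Pi.add_apply, hf2 z, hg2 z]
    · have h := ((isBoundedAtImInfty_discriminant_pow m₂).mul hf3).add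
        ((isBoundedAtImInfty_discriminant_pow m₁).mul hg3)
      have : (fun z : ℍ => Δ z ^ (m₁ + m₂) * (f + g) z)
          = (fun z : ℍ => Δ z ^ m₂) * (fun z => Δ z ^ m₁ * f z)
            + (fun z : ℍ => Δ z ^ m₁) * (fun z => Δ z ^ m₂ * g z) := by
        funext z; simp only [Pi.mul_apply, Pi.add_apply]; ring
      rw [this]
      exact h
  algebraMap_mem' := by
    intro c
    refine ⟨mdifferentiable_const, fun z => rfl, 0, ?_⟩
    have : (fun z : ℍ => Δ z ^ 0 * (algebraMap ℂ (ℍ → ℂ) c) z) = fun _ => c := by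
      funext z; simp
    rw [this]
    exact Filter.const_boundedAtFilter _ c

theorem mem_merSub {N : ℕ} {f : ℍ → ℂ} :
    f ∈ merSub N ↔ MDiff f ∧ (∀ z : ℍ, f ((N : ℝ) +ᵥ z) = f z) ∧
      ∃ m : ℕ, IsBoundedAtImInfty (fun z => Δ z ^ m * f z) :=
  Iff.rfl

theorem bddSub_le_merSub (N : ℕ) : bddSub N ≤ merSub N := by
  rintro f ⟨hf1, hf2, hf3⟩
  refine ⟨hf1, hf2, 0, ?_⟩
  have : (fun z : ℍ => Δ z ^ 0 * f z) = f := by funext z; simp
  rw [this]
  exact hf3

theorem discriminant_mem_merSub (N : ℕ) : (Δ : ℍ → ℂ) ∈ merSub N :=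
  bddSub_le_merSub N (discriminant_mem_bddSub N)

/-- `Δ ^ m * f` lies in `bddSub N` when it is bounded at `i∞` and `f ∈ merSub N`. -/
theorem discriminant_pow_mul_mem_bddSub {N : ℕ} {f : ℍ → ℂ} (hf : f ∈ merSub N) {m : ℕ}
    (hm : IsBoundedAtImInfty (fun z => Δ z ^ m * f z)) :
    (fun z => Δ z ^ m * f z) ∈ bddSub N := by
  refine ⟨?_, fun z => ?_, hm⟩
  · have : (fun z : ℍ => Δ z ^ m * f z) = (Δ : ℍ → ℂ) ^ m * f := by
      funext z; simp
    rw [this]
    exact (mdiff_discriminant.pow m).mul hf.1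
  · simp only [discriminant_vadd_nat N z, hf.2.1 z]

/-- If `Δ ^ m * f` is bounded at `i∞`, so is `Δ ^ m' * f` for `m ≤ m'`. -/
theorem isBoundedAtImInfty_discriminant_pow_mul_of_le {f : ℍ → ℂ} {m m' : ℕ} (h : m ≤ m')
    (hm : IsBoundedAtImInfty (fun z => Δ z ^ m * f z)) :
    IsBoundedAtImInfty (fun z => Δ z ^ m' * f z) := by
  obtain ⟨k, rfl⟩ := Nat.exists_eq_add_of_le h
  have h' := (isBoundedAtImInfty_discriminant_pow k).mul hm
  have : (fun z : ℍ => Δ z ^ (m + k) * f z) = (fun z : ℍ => Δ z ^ k) * (fun z => Δ z ^ m * f z) := by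
    funext z; simp only [Pi.mul_apply]; ring
  rw [this]
  exact h'

/-- Real translations preserve the filter `atImInfty`. -/
theorem tendsto_vadd_atImInfty (x : ℝ) :
    Tendsto (fun z : ℍ => x +ᵥ z) atImInfty atImInfty := by
  rw [atImInfty, tendsto_comap_iff]
  have : (UpperHalfPlane.im ∘ fun z : ℍ => x +ᵥ z) = UpperHalfPlane.im := by
    funext z; simp [vadd_im]
  rw [this]
  exact tendsto_comap

/-- Real translations preserve holomorphy on `ℍ`. -/
theorem mdiff_comp_vadd {f : ℍ → ℂ} (hf : MDiff f) (x : ℝ) :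
    MDiff (fun z : ℍ => f (x +ᵥ z)) := by
  rw [UpperHalfPlane.mdifferentiable_iff] at hf ⊢
  have hmaps : Set.MapsTo (fun w : ℂ => (x : ℂ) + w) {z : ℂ | 0 < z.im} {z : ℂ | 0 < z.im} := by
    intro w hw
    simpa using hw
  have h1 : DifferentiableOn ℂ ((f ∘ ofComplex) ∘ fun w : ℂ => (x : ℂ) + w) {z : ℂ | 0 < z.im} :=
    hf.comp (by fun_prop) hmaps
  refine h1.congr fun w hw => ?_
  have hw' : 0 < ((x : ℂ) + w).im := by simpa using hw
  simp only [comp_apply, ofComplex_apply_of_im_pos hw, ofComplex_apply_of_im_pos hw']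
  congr 1

/-- The shift `f(· - 1)` preserves `merSub N`. -/
theorem shift_mem_merSub {N : ℕ} {f : ℍ → ℂ} (hf : f ∈ merSub N) :
    (fun z : ℍ => f ((-1 : ℝ) +ᵥ z)) ∈ merSub N := by
  obtain ⟨hf1, hf2, m, hf3⟩ := hf
  refine ⟨mdiff_comp_vadd hf1 _, fun z => ?_, m, ?_⟩
  · show f ((-1 : ℝ) +ᵥ ((N : ℝ) +ᵥ z)) = f ((-1 : ℝ) +ᵥ z)
    rw [← hf2 ((-1 : ℝ) +ᵥ z)]
    congr 1
    rw [← add_vadd, ← add_vadd, add_comm]
  · have h := hf3.comp_tendsto (tendsto_vadd_atImInfty (-1))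
    refine h.congr' (Eventually.of_forall fun z => ?_) (Eventually.of_forall fun z => rfl)
    have hΔ : Δ ((-1 : ℝ) +ᵥ z) = Δ z := by
      simpa using discriminant_vadd_int (-1) z
    simp only [comp_apply, hΔ]

/-! ### The Laurent expansion at the cusp -/

/-- The `q_N`-expansion of `Δ`, as a Laurent series. -/
noncomputable def cuspDelta (N : ℕ) : LaurentSeries ℂ :=
  HahnSeries.ofPowerSeries ℤ ℂ (qExpansion (N : ℝ) (Δ : ℍ → ℂ))

theorem cuspDelta_ne_zero (N : ℕ) [NeZero N] : cuspDelta N ≠ 0 := by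
  intro h
  have h0 : qExpansion (N : ℝ) (Δ : ℍ → ℂ) = 0 := by
    apply HahnSeries.ofPowerSeries_injective (Γ := ℤ) (R := ℂ)
    simpa [cuspDelta] using h
  have h1 : qHomN N ⟨Δ, discriminant_mem_bddSub N⟩ = 0 := h0
  have h2 := (map_eq_zero_iff _ (qHomN_injective N)).mp h1
  have h3 : (Δ : ℍ → ℂ) = 0 := congrArg Subtype.val h2
  exact discriminant_ne_zero UpperHalfPlane.I (congrFun h3 _)

/-- Independence of the exponent used to clear the pole. -/
theorem cuspAux_eq {N : ℕ} [NeZero N] {f : ℍ → ℂ} (hf : f ∈ merSub N) {m₁ m₂ : ℕ}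
    (h₁ : IsBoundedAtImInfty (fun z => Δ z ^ m₁ * f z))
    (h₂ : IsBoundedAtImInfty (fun z => Δ z ^ m₂ * f z)) :
    HahnSeries.ofPowerSeries ℤ ℂ (qExpansion (N : ℝ) (fun z => Δ z ^ m₁ * f z)) / cuspDelta N ^ m₁
      = HahnSeries.ofPowerSeries ℤ ℂ (qExpansion (N : ℝ) (fun z => Δ z ^ m₂ * f z))
        / cuspDelta N ^ m₂ := by
  rw [div_eq_div_iff (pow_ne_zero _ (cuspDelta_ne_zero N)) (pow_ne_zero _ (cuspDelta_ne_zero N))]
  set g₁ : bddSub N := ⟨_, discriminant_pow_mul_mem_bddSub hf h₁⟩ with hg₁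
  set g₂ : bddSub N := ⟨_, discriminant_pow_mul_mem_bddSub hf h₂⟩ with hg₂
  set d : bddSub N := ⟨Δ, discriminant_mem_bddSub N⟩ with hd
  have key : g₁ * d ^ m₂ = g₂ * d ^ m₁ := by
    apply Subtype.ext
    funext z
    simp only [hg₁, hg₂, hd, MulMemClass.coe_mul, SubmonoidClass.coe_pow, Pi.mul_apply,
      Pi.pow_apply]
    ring
  have key' := congrArg (fun x => HahnSeries.ofPowerSeries ℤ ℂ (qHomN N x)) key
  simp only [map_mul, map_pow] at key'
  exact key'

/-- The Laurent expansion at `∞` of a function in `merSub N` (junk value `0` otherwise). -/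
noncomputable def cuspFun (N : ℕ) (f : ℍ → ℂ) : LaurentSeries ℂ :=
  open Classical in
  if h : ∃ m : ℕ, IsBoundedAtImInfty (fun z => Δ z ^ m * f z) then
    HahnSeries.ofPowerSeries ℤ ℂ (qExpansion (N : ℝ) (fun z => Δ z ^ h.choose * f z))
      / cuspDelta N ^ h.choose
  else 0

theorem cuspFun_eq {N : ℕ} [NeZero N] {f : ℍ → ℂ} (hf : f ∈ merSub N) {m : ℕ}
    (hm : IsBoundedAtImInfty (fun z => Δ z ^ m * f z)) :
    cuspFun N f = HahnSeries.ofPowerSeries ℤ ℂ (qExpansion (N : ℝ) (fun z => Δ z ^ m * f z))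
      / cuspDelta N ^ m := by
  have h : ∃ m : ℕ, IsBoundedAtImInfty (fun z => Δ z ^ m * f z) := ⟨m, hm⟩
  rw [cuspFun, dif_pos h]
  exact cuspAux_eq hf h.choose_spec hm

theorem cuspFun_eq_of_mem_bddSub {N : ℕ} [NeZero N] {f : ℍ → ℂ} (hf : f ∈ bddSub N) :
    cuspFun N f = HahnSeries.ofPowerSeries ℤ ℂ (qExpansion (N : ℝ) f) := by
  have h0 : (fun z : ℍ => Δ z ^ 0 * f z) = f := by funext z; simp
  have hm : IsBoundedAtImInfty (fun z => Δ z ^ 0 * f z) := by rw [h0]; exact hf.2.2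
  rw [cuspFun_eq (bddSub_le_merSub N hf) hm, h0, pow_zero, div_one]

theorem cuspFun_add {N : ℕ} [NeZero N] {f g : ℍ → ℂ} (hf : f ∈ merSub N) (hg : g ∈ merSub N) :
    cuspFun N (f + g) = cuspFun N f + cuspFun N g := by
  obtain ⟨m₁, h₁⟩ := hf.2.2
  obtain ⟨m₂, h₂⟩ := hg.2.2
  have h₁' := isBoundedAtImInfty_discriminant_pow_mul_of_le (Nat.le_add_right m₁ m₂) h₁
  have h₂' := isBoundedAtImInfty_discriminant_pow_mul_of_le (Nat.le_add_left m₂ m₁) h₂
  have hsum : (fun z : ℍ => Δ z ^ (m₁ + m₂) * (f + g) z)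
      = (fun z => Δ z ^ (m₁ + m₂) * f z) + (fun z => Δ z ^ (m₁ + m₂) * g z) := by
    funext z; simp only [Pi.add_apply]; ring
  have h₃ : IsBoundedAtImInfty (fun z : ℍ => Δ z ^ (m₁ + m₂) * (f + g) z) := by
    rw [hsum]; exact h₁'.add h₂'
  rw [cuspFun_eq ((merSub N).add_mem hf hg) h₃, cuspFun_eq hf h₁', cuspFun_eq hg h₂', hsum,
    qExpansion_add
      (analyticAt_cuspFunction_of_mem_bddSub (discriminant_pow_mul_mem_bddSub hf h₁'))
      (analyticAt_cuspFunction_of_mem_bddSub (discriminant_pow_mul_mem_bddSub hg h₂')),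
    map_add, add_div]

theorem cuspFun_mul {N : ℕ} [NeZero N] {f g : ℍ → ℂ} (hf : f ∈ merSub N) (hg : g ∈ merSub N) :
    cuspFun N (f * g) = cuspFun N f * cuspFun N g := by
  obtain ⟨m₁, h₁⟩ := hf.2.2
  obtain ⟨m₂, h₂⟩ := hg.2.2
  have hprod : (fun z : ℍ => Δ z ^ (m₁ + m₂) * (f * g) z)
      = (fun z => Δ z ^ m₁ * f z) * (fun z => Δ z ^ m₂ * g z) := by
    funext z; simp only [Pi.mul_apply]; ring
  have h₃ : IsBoundedAtImInfty (fun z : ℍ => Δ z ^ (m₁ + m₂) * (f * g) z) := by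
    rw [hprod]; exact h₁.mul h₂
  rw [cuspFun_eq ((merSub N).mul_mem hf hg) h₃, cuspFun_eq hf h₁, cuspFun_eq hg h₂, hprod,
    qExpansion_mul
      (analyticAt_cuspFunction_of_mem_bddSub (discriminant_pow_mul_mem_bddSub hf h₁))
      (analyticAt_cuspFunction_of_mem_bddSub (discriminant_pow_mul_mem_bddSub hg h₂)),
    map_mul, pow_add, mul_div_mul_comm]

theorem cuspFun_algebraMap (N : ℕ) [NeZero N] (c : ℂ) :
    cuspFun N (algebraMap ℂ (ℍ → ℂ) c) = algebraMap ℂ (LaurentSeries ℂ) c := by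
  have hmem : algebraMap ℂ (ℍ → ℂ) c ∈ bddSub N := (bddSub N).algebraMap_mem c
  rw [cuspFun_eq_of_mem_bddSub hmem]
  have h1 : qExpansion (N : ℝ) (algebraMap ℂ (ℍ → ℂ) c) = algebraMap ℂ (PowerSeries ℂ) c :=
    (qHomN N).commutes c
  rw [h1]
  rfl

/-- The `q_N`-Laurent expansion at the cusp `∞`, as an algebra homomorphism. -/
noncomputable def cuspHom (N : ℕ) [NeZero N] : merSub N →ₐ[ℂ] LaurentSeries ℂ where
  toFun f := cuspFun N (f : ℍ → ℂ)
  map_one' := by
    have := cuspFun_algebraMap N 1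
    simpa using this
  map_mul' f g := cuspFun_mul f.2 g.2
  map_zero' := by
    have := cuspFun_algebraMap N 0
    simpa using this
  map_add' f g := cuspFun_add f.2 g.2
  commutes' c := cuspFun_algebraMap N c

theorem cuspHom_apply (N : ℕ) [NeZero N] (f : merSub N) :
    cuspHom N f = cuspFun N (f : ℍ → ℂ) := rfl

/-- Formula for `cuspHom` in terms of any exponent clearing the pole. -/
theorem cuspHom_eq (N : ℕ) [NeZero N] (f : merSub N) (m : ℕ)
    (hm : IsBoundedAtImInfty (fun z => Δ z ^ m * (f : ℍ → ℂ) z)) :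
    cuspHom N f
      = HahnSeries.ofPowerSeries ℤ ℂ (qExpansion (N : ℝ) (fun z => Δ z ^ m * (f : ℍ → ℂ) z))
        / HahnSeries.ofPowerSeries ℤ ℂ (qExpansion (N : ℝ) (Δ : ℍ → ℂ)) ^ m :=
  cuspFun_eq f.2 hm

/-- On functions bounded at `i∞`, `cuspHom` is the `q_N`-expansion. -/
theorem cuspHom_eq_of_bdd (N : ℕ) [NeZero N] (f : merSub N)
    (hb : IsBoundedAtImInfty (f : ℍ → ℂ)) :
    cuspHom N f = HahnSeries.ofPowerSeries ℤ ℂ (qExpansion (N : ℝ) (f : ℍ → ℂ)) :=
  cuspFun_eq_of_mem_bddSub ⟨f.2.1, f.2.2.1, hb⟩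

theorem cuspHom_injective (N : ℕ) [NeZero N] : Function.Injective (cuspHom N) := by
  rw [injective_iff_map_eq_zero]
  intro f hf0
  obtain ⟨m, hm⟩ := f.2.2.2
  rw [cuspHom_eq N f m hm, div_eq_zero_iff] at hf0
  rcases hf0 with h | h
  · have h0 : qExpansion (N : ℝ) (fun z => Δ z ^ m * (f : ℍ → ℂ) z) = 0 := by
      apply HahnSeries.ofPowerSeries_injective (Γ := ℤ) (R := ℂ)
      simpa using h
    have h1 : qHomN N ⟨_, discriminant_pow_mul_mem_bddSub f.2 hm⟩ = 0 := h0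
    have h2 := (map_eq_zero_iff _ (qHomN_injective N)).mp h1
    have h3 : (fun z => Δ z ^ m * (f : ℍ → ℂ) z) = 0 := congrArg Subtype.val h2
    apply Subtype.ext
    funext z
    have h4 := congrFun h3 z
    simp only [Pi.zero_apply, mul_eq_zero] at h4
    rcases h4 with h4 | h4
    · exact absurd (eq_zero_of_pow_eq_zero h4) (discriminant_ne_zero z)
    · simpa using h4
  · exact absurd h (pow_ne_zero _ (cuspDelta_ne_zero N))

end Fermat.Agent.S24
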