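/-
S24 block AnCuspPeriod (owner: helper39): the `q_N`-expansion of a function of period `1`
(comparison of `qExpansion N` with `qExpansion 1`), and the orders at the cusp of `Δ` and `E₄`
(`qExpansion` level, Laurent level and `cuspHom` level).
-/
import Mathlib
import Fermat.Prelude.Thm_UpperHalfPlane_qExpansion_coeff_nat_mul
import Fermat.Agent.S24.AnCusp
import Fermat.Agent.S24.AnRoots

set_option autoImplicit false

namespace Fermat.Agent.S24

open UpperHalfPlane ModularForm EisensteinSeries Complex Filter Function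
open scoped MatrixGroups ModularForm Manifold Topology

local notation "Δ" => ModularForm.discriminant

namespace AnCuspPeriod

/-- (P1) The `q_N`-expansion of a bounded holomorphic function of period `1`. -/
theorem qExpansion_nat_coeff (N : ℕ) [NeZero N] {f : ℍ → ℂ} (hf : MDiff f)
    (hper : ∀ z : ℍ, f ((1 : ℝ) +ᵥ z) = f z) (hb : IsBoundedAtImInfty f) (n : ℕ) :
    (qExpansion (N : ℝ) f).coeff n = if N ∣ n then (qExpansion 1 f).coeff (n / N) else 0 := by
  have hper' : Function.Periodic (f ∘ ofComplex) ((1 : ℝ) : ℂ) := by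
    have h := periodic_comp_ofComplex_of_vadd (N := 1) (f := f) (by simpa using hper)
    simpa using h
  have h := UpperHalfPlane.qExpansion_coeff_nat_mul (h := 1) one_pos hper' hf hb
    (M := N) (Nat.pos_of_ne_zero (NeZero.ne N)) n
  rw [mul_one] at h
  exact h

/-- (P1') coefficients at multiples of `N`. -/
theorem qExpansion_nat_coeff_mul (N : ℕ) [NeZero N] {f : ℍ → ℂ} (hf : MDiff f)
    (hper : ∀ z : ℍ, f ((1 : ℝ) +ᵥ z) = f z) (hb : IsBoundedAtImInfty f) (k : ℕ) :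
    (qExpansion (N : ℝ) f).coeff (N * k) = (qExpansion 1 f).coeff k := by
  rw [qExpansion_nat_coeff N hf hper hb, if_pos (dvd_mul_right N k),
    Nat.mul_div_cancel_left k (Nat.pos_of_ne_zero (NeZero.ne N))]

/-- (P1'') coefficients at non-multiples of `N` vanish. -/
theorem qExpansion_nat_coeff_of_not_dvd (N : ℕ) [NeZero N] {f : ℍ → ℂ} (hf : MDiff f)
    (hper : ∀ z : ℍ, f ((1 : ℝ) +ᵥ z) = f z) (hb : IsBoundedAtImInfty f) {n : ℕ}
    (hn : ¬ N ∣ n) : (qExpansion (N : ℝ) f).coeff n = 0 := by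
  rw [qExpansion_nat_coeff N hf hper hb, if_neg hn]

/-- (P3) orders: if `qExpansion 1 f` has order `e` then `qExpansion N f` has order `N * e`. -/
theorem order_qExpansion_nat (N : ℕ) [NeZero N] {f : ℍ → ℂ} (hf : MDiff f)
    (hper : ∀ z : ℍ, f ((1 : ℝ) +ᵥ z) = f z) (hb : IsBoundedAtImInfty f) {e : ℕ}
    (he : (qExpansion 1 f).order = e) : (qExpansion (N : ℝ) f).order = ((N * e : ℕ) : ℕ∞) := by
  rw [PowerSeries.order_eq_nat] at he ⊢
  obtain ⟨hne, hlt⟩ := he
  refine ⟨?_, fun i hi => ?_⟩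
  · rw [qExpansion_nat_coeff_mul N hf hper hb]
    exact hne
  · by_cases hdvd : N ∣ i
    · obtain ⟨k, rfl⟩ := hdvd
      rw [qExpansion_nat_coeff_mul N hf hper hb]
      exact hlt k (lt_of_mul_lt_mul_left hi (Nat.zero_le N))
    · exact qExpansion_nat_coeff_of_not_dvd N hf hper hb hdvd

/-- (P3') Laurent form of `order_qExpansion_nat`. -/
theorem order_ofPowerSeries_qExpansion_nat (N : ℕ) [NeZero N] {f : ℍ → ℂ} (hf : MDiff f)
    (hper : ∀ z : ℍ, f ((1 : ℝ) +ᵥ z) = f z) (hb : IsBoundedAtImInfty f) {e : ℕ}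
    (he : (qExpansion 1 f).order = e) :
    (HahnSeries.ofPowerSeries ℤ ℂ (qExpansion (N : ℝ) f)).order = ((N * e : ℕ) : ℤ) :=
  AnRoots.order_ofPowerSeries_of_order_eq (order_qExpansion_nat N hf hper hb he)

/-! ### `Δ` -/

/-- (P4) `qExpansion N Δ` has order `N`. -/
theorem order_qExpansion_discriminant (N : ℕ) [NeZero N] :
    (qExpansion (N : ℝ) (Δ : ℍ → ℂ)).order = (N : ℕ∞) := by
  have h := order_qExpansion_nat N mdiff_discriminant discriminant_vadd_one
    isBoundedAtImInfty_discriminant (e := 1) (by exact_mod_cast discriminant_qExpansion_order)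
  rwa [mul_one] at h

/-- (P4) `cuspDelta N` has order `N`. -/
theorem order_cuspDelta (N : ℕ) [NeZero N] : (cuspDelta N).order = (N : ℤ) :=
  AnRoots.order_ofPowerSeries_of_order_eq (order_qExpansion_discriminant N)

/-- (P4) `cuspHom N Δ` has order `N`. -/
theorem order_cuspHom_discriminant (N : ℕ) [NeZero N] :
    (cuspHom N ⟨Δ, discriminant_mem_merSub N⟩).order = (N : ℤ) := by
  rw [cuspHom_eq_of_bdd N ⟨Δ, discriminant_mem_merSub N⟩ isBoundedAtImInfty_discriminant]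
  exact order_cuspDelta N

/-! ### `E₄` -/

theorem mdiff_E4 : MDiff (⇑E₄ : ℍ → ℂ) := ModularFormClass.holo E₄

theorem isBoundedAtImInfty_E4 : IsBoundedAtImInfty (⇑E₄ : ℍ → ℂ) :=
  ModularFormClass.bdd_at_infty E₄

theorem E4_vadd_int (n : ℤ) (z : ℍ) : E₄ ((n : ℝ) +ᵥ z) = E₄ z := by
  have := SlashInvariantForm.vAdd_apply_of_mem_strictPeriods E₄ z (h := (n : ℝ)) (by simp)
  simpa using this

theorem E4_vadd_nat (N : ℕ) (z : ℍ) : E₄ ((N : ℝ) +ᵥ z) = E₄ z := by
  simpa using E4_vadd_int (N : ℤ) z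

theorem E4_vadd_one (z : ℍ) : E₄ ((1 : ℝ) +ᵥ z) = E₄ z := by
  simpa using E4_vadd_int 1 z

theorem E4_mem_bddSub (N : ℕ) : (⇑E₄ : ℍ → ℂ) ∈ bddSub N :=
  ⟨mdiff_E4, E4_vadd_nat N, isBoundedAtImInfty_E4⟩

theorem E4_mem_merSub (N : ℕ) : (⇑E₄ : ℍ → ℂ) ∈ merSub N :=
  bddSub_le_merSub N (E4_mem_bddSub N)

theorem order_qExpansion_one_E4 : (qExpansion 1 (⇑E₄ : ℍ → ℂ)).order = ((0 : ℕ) : ℕ∞) := by
  rw [PowerSeries.order_eq_nat]
  refine ⟨?_, fun i hi => absurd hi (Nat.not_lt_zero i)⟩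
  have h : (qExpansion 1 (⇑E₄ : ℍ → ℂ)).coeff 0 = 1 :=
    EisensteinSeries.E_qExpansion_coeff_zero (k := 4) (by norm_num) (by decide)
  rw [h]
  exact one_ne_zero

/-- (P4) `qExpansion N E₄` has order `0`. -/
theorem order_qExpansion_E4 (N : ℕ) [NeZero N] :
    (qExpansion (N : ℝ) (⇑E₄ : ℍ → ℂ)).order = ((0 : ℕ) : ℕ∞) := by
  have h := order_qExpansion_nat N mdiff_E4 E4_vadd_one isBoundedAtImInfty_E4 (e := 0)
    order_qExpansion_one_E4
  rwa [mul_zero] at h

/-- (P4) `cuspHom N E₄` has order `0` (for any membership proof). -/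
theorem order_cuspHom_E4 (N : ℕ) [NeZero N] (hE4 : (⇑E₄ : ℍ → ℂ) ∈ merSub N) :
    (cuspHom N ⟨⇑E₄, hE4⟩).order = 0 := by
  rw [cuspHom_eq_of_bdd N ⟨⇑E₄, hE4⟩ isBoundedAtImInfty_E4]
  have h := AnRoots.order_ofPowerSeries_of_order_eq (order_qExpansion_E4 N)
  simpa using h

end AnCuspPeriod

end Fermat.Agent.S24
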