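import Mathlib
import Fermat.Agent.S24.AnCusp
import Fermat.Agent.LevelOne.JDef
import Fermat.Agent.LevelOne.JCusp
import Fermat.Agent.S24.AnCuspPeriod

/-!
# S24 analytic side: the order of `j` at the cusp `∞` in the parameter `q_N`

OWNER: helper32.

* `jFun_mem_merSub N` : `j ∈ merSub N`;
* `cuspHom_jFun_mul_discriminant` : `cuspHom(j) * cuspHom(Δ) = cuspHom(E₄) ^ 3`;
* `order_cuspHom_jFun_of`, `order_cuspHom_jFun_inv_of` : from `order (cuspHom Δ) = N` and
  `order (cuspHom E₄) = 0` (block `AnCuspPeriod`), `order (cuspHom j) = -N` and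
  `order (cuspHom j)⁻¹ = N`;
* `order_cuspHom_jFun`, `order_cuspHom_jFun_inv` : the final (hypothesis-free) statements,
  `order_cuspHom_jFun'`, `order_cuspHom_jFun_inv'` : the same for any membership proof.
-/

set_option autoImplicit false

namespace Fermat.Agent.S24

open UpperHalfPlane ModularForm Complex Filter Function EisensteinSeries
open scoped MatrixGroups ModularForm Manifold Topology
open Fermat.Agent.LevelOne

local notation "Δ" => ModularForm.discriminant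

/-- `E₄` is invariant under `z ↦ z + n` for every integer `n`. -/
theorem anCuspOrder_E4_vadd_int (n : ℤ) (z : ℍ) : E₄ ((n : ℝ) +ᵥ z) = E₄ z := by
  have := SlashInvariantForm.vAdd_apply_of_mem_strictPeriods E₄ z (h := (n : ℝ)) (by simp)
  simpa using this

/-- `E₄` is invariant under `z ↦ z + N`. -/
theorem anCuspOrder_E4_vadd_nat (N : ℕ) (z : ℍ) : E₄ ((N : ℝ) +ᵥ z) = E₄ z := by
  simpa using anCuspOrder_E4_vadd_int (N : ℤ) z

/-- `j` is invariant under `z ↦ z + N`. -/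
theorem jFun_vadd_nat (N : ℕ) (z : ℍ) : jFun ((N : ℝ) +ᵥ z) = jFun z := by
  rw [jFun, jFun, anCuspOrder_E4_vadd_nat, discriminant_vadd_nat]

/-- `E₄` is bounded at `i∞`. -/
theorem anCuspOrder_isBoundedAtImInfty_E4 : IsBoundedAtImInfty (fun z : ℍ => E₄ z) :=
  JCusp.tendsto_E4.isBigO_one ℝ

/-- `E₄` lies in `bddSub N`. -/
theorem anCuspOrder_E4_mem_bddSub (N : ℕ) : (fun z : ℍ => E₄ z) ∈ bddSub N :=
  ⟨ModularFormClass.holo E₄, anCuspOrder_E4_vadd_nat N, anCuspOrder_isBoundedAtImInfty_E4⟩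

/-- `E₄` lies in `merSub N`. -/
theorem anCuspOrder_E4_mem_merSub (N : ℕ) : (fun z : ℍ => E₄ z) ∈ merSub N :=
  bddSub_le_merSub N (anCuspOrder_E4_mem_bddSub N)

/-- `j` lies in `merSub N`. -/
theorem jFun_mem_merSub (N : ℕ) : jFun ∈ merSub N := by
  refine ⟨jFun_mdifferentiable, jFun_vadd_nat N, 1, ?_⟩
  simpa using isBoundedAtImInfty_discriminant_mul_jFun

/-- `E₄` is not the zero function. -/
theorem anCuspOrder_E4_ne_zero : (fun z : ℍ => E₄ z) ≠ 0 := by
  intro h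
  have h1 : Tendsto (fun z : ℍ => E₄ z) atImInfty (𝓝 0) := by
    rw [h]
    exact tendsto_const_nhds
  exact zero_ne_one (tendsto_nhds_unique h1 JCusp.tendsto_E4)

/-- `j` is not the zero function. -/
theorem jFun_ne_zero : jFun ≠ 0 := by
  intro h
  apply anCuspOrder_E4_ne_zero
  funext z
  exact (jFun_eq_zero_iff z).mp (congrFun h z)

section Order

variable (N : ℕ) [NeZero N]

/-- `cuspHom(j) * cuspHom(Δ) = cuspHom(E₄) ^ 3`, for any membership proofs. -/
theorem cuspHom_jFun_mul_discriminant (hj : jFun ∈ merSub N) (hΔ : (Δ : ℍ → ℂ) ∈ merSub N)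
    (hE : (fun z : ℍ => E₄ z) ∈ merSub N) :
    cuspHom N ⟨jFun, hj⟩ * cuspHom N ⟨Δ, hΔ⟩ = cuspHom N ⟨fun z : ℍ => E₄ z, hE⟩ ^ 3 := by
  rw [← map_mul, ← map_pow]
  congr 1
  apply Subtype.ext
  funext z
  exact jFun_mul_discriminant z

theorem cuspHom_jFun_ne_zero (hj : jFun ∈ merSub N) : cuspHom N ⟨jFun, hj⟩ ≠ 0 := by
  intro h
  have h2 := (map_eq_zero_iff _ (cuspHom_injective N)).mp h
  exact jFun_ne_zero (congrArg Subtype.val h2)

theorem cuspHom_discriminant_ne_zero (hΔ : (Δ : ℍ → ℂ) ∈ merSub N) :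
    cuspHom N ⟨Δ, hΔ⟩ ≠ 0 := by
  intro h
  have h2 := (map_eq_zero_iff _ (cuspHom_injective N)).mp h
  have h3 : (Δ : ℍ → ℂ) = 0 := congrArg Subtype.val h2
  exact discriminant_ne_zero UpperHalfPlane.I (congrFun h3 _)

/-- The order of `j` at the cusp is `-N`, given the orders of `Δ` and `E₄`. -/
theorem order_cuspHom_jFun_of (hj : jFun ∈ merSub N) (hΔ : (Δ : ℍ → ℂ) ∈ merSub N)
    (hE : (fun z : ℍ => E₄ z) ∈ merSub N)
    (hordΔ : (cuspHom N ⟨Δ, hΔ⟩).order = (N : ℤ))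
    (hordE : (cuspHom N ⟨fun z : ℍ => E₄ z, hE⟩).order = 0) :
    (cuspHom N ⟨jFun, hj⟩).order = -(N : ℤ) := by
  have h := congrArg HahnSeries.order (cuspHom_jFun_mul_discriminant N hj hΔ hE)
  rw [HahnSeries.order_mul (cuspHom_jFun_ne_zero N hj) (cuspHom_discriminant_ne_zero N hΔ),
    HahnSeries.order_pow, hordΔ, hordE, smul_zero] at h
  omega

/-- The order of `j⁻¹` at the cusp is `N`, given the orders of `Δ` and `E₄`. -/
theorem order_cuspHom_jFun_inv_of (hj : jFun ∈ merSub N) (hΔ : (Δ : ℍ → ℂ) ∈ merSub N)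
    (hE : (fun z : ℍ => E₄ z) ∈ merSub N)
    (hordΔ : (cuspHom N ⟨Δ, hΔ⟩).order = (N : ℤ))
    (hordE : (cuspHom N ⟨fun z : ℍ => E₄ z, hE⟩).order = 0) :
    ((cuspHom N ⟨jFun, hj⟩)⁻¹).order = (N : ℤ) := by
  have hne := cuspHom_jFun_ne_zero N hj
  have h := congrArg HahnSeries.order (mul_inv_cancel₀ hne)
  rw [HahnSeries.order_mul hne (inv_ne_zero hne), HahnSeries.order_one,
    order_cuspHom_jFun_of N hj hΔ hE hordΔ hordE] at h
  omega

/-- The order of `j` at the cusp `∞` in the parameter `q_N` is `-N` (any membership proof). -/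
theorem order_cuspHom_jFun' (hj : jFun ∈ merSub N) :
    (cuspHom N ⟨jFun, hj⟩).order = -(N : ℤ) :=
  order_cuspHom_jFun_of N hj (discriminant_mem_merSub N) (anCuspOrder_E4_mem_merSub N)
    (AnCuspPeriod.order_cuspHom_discriminant N)
    (AnCuspPeriod.order_cuspHom_E4 N (anCuspOrder_E4_mem_merSub N))

/-- The order of `j⁻¹` at the cusp `∞` in the parameter `q_N` is `N` (any membership proof). -/
theorem order_cuspHom_jFun_inv' (hj : jFun ∈ merSub N) :
    ((cuspHom N ⟨jFun, hj⟩)⁻¹).order = (N : ℤ) :=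
  order_cuspHom_jFun_inv_of N hj (discriminant_mem_merSub N) (anCuspOrder_E4_mem_merSub N)
    (AnCuspPeriod.order_cuspHom_discriminant N)
    (AnCuspPeriod.order_cuspHom_E4 N (anCuspOrder_E4_mem_merSub N))

/-- The order of `j` at the cusp `∞` in the parameter `q_N` is `-N`. -/
theorem order_cuspHom_jFun : (cuspHom N ⟨jFun, jFun_mem_merSub N⟩).order = -(N : ℤ) :=
  order_cuspHom_jFun' N (jFun_mem_merSub N)

/-- The order of `j⁻¹` at the cusp `∞` in the parameter `q_N` is `N`. -/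
theorem order_cuspHom_jFun_inv : ((cuspHom N ⟨jFun, jFun_mem_merSub N⟩)⁻¹).order = (N : ℤ) :=
  order_cuspHom_jFun_inv' N (jFun_mem_merSub N)

end Order

end Fermat.Agent.S24
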