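import Mathlib
import Fermat.Agent.S24.AnCusp

/-!
# S24 analytic side, block 3 (follow-up): twisting Laurent expansions at the cusp

* `twist ζ : LaurentSeries ℂ →+* LaurentSeries ℂ`: the coefficientwise twist `aₙ ↦ ζⁿ aₙ`.
* `cuspHom_shift_coeff_of`: the shift law for `cuspHom N`, from the shift law for bounded
  functions (`ShiftLaw N ζ`).
-/

set_option autoImplicit false

namespace Fermat.Agent.S24

open UpperHalfPlane ModularForm Complex Filter Function
open scoped MatrixGroups ModularForm Manifold Topology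

local notation "Δ" => ModularForm.discriminant

/-! ### The coefficientwise twist of Laurent series -/

/-- Coefficientwise twist `∑ aₙ qⁿ ↦ ∑ ζⁿ aₙ qⁿ` of a Laurent series (underlying function). -/
noncomputable def twistFun (ζ : ℂˣ) (x : LaurentSeries ℂ) : LaurentSeries ℂ :=
  ⟨fun n => ((ζ : ℂ) ^ n) * x.coeff n, x.isPWO_support.mono (fun n hn => by
    simp only [Function.mem_support, ne_eq, mul_eq_zero, not_or] at hn
    exact hn.2)⟩

@[simp] theorem twistFun_coeff (ζ : ℂˣ) (x : LaurentSeries ℂ) (n : ℤ) :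
    (twistFun ζ x).coeff n = (ζ : ℂ) ^ n * x.coeff n := rfl

theorem twistFun_support (ζ : ℂˣ) (x : LaurentSeries ℂ) :
    (twistFun ζ x).support = x.support := by
  ext n
  simp only [HahnSeries.mem_support, twistFun_coeff, ne_eq, mul_eq_zero, not_or]
  exact ⟨fun h => h.2, fun h => ⟨zpow_ne_zero n ζ.ne_zero, h⟩⟩

theorem twistAux_antidiagonal_congr {s s' t t' : Set ℤ} (hs : s.IsPWO) (hs' : s'.IsPWO)
    (ht : t.IsPWO) (ht' : t'.IsPWO) (h1 : s = s') (h2 : t = t') (n : ℤ) :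
    Finset.antidiagonal hs ht n = Finset.antidiagonal hs' ht' n := by
  subst h1; subst h2; rfl

theorem twistFun_mul (ζ : ℂˣ) (x y : LaurentSeries ℂ) :
    twistFun ζ (x * y) = twistFun ζ x * twistFun ζ y := by
  ext n
  rw [twistFun_coeff, HahnSeries.coeff_mul, HahnSeries.coeff_mul, Finset.mul_sum,
    twistAux_antidiagonal_congr (twistFun ζ x).isPWO_support x.isPWO_support
      (twistFun ζ y).isPWO_support y.isPWO_support (twistFun_support ζ x) (twistFun_support ζ y)]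
  refine Finset.sum_congr rfl fun ij hij => ?_
  have h3 := (Finset.mem_antidiagonal.mp hij).2.2
  rw [twistFun_coeff, twistFun_coeff, ← h3, zpow_add₀ ζ.ne_zero]
  ring

/-- Coefficientwise twist `∑ aₙ qⁿ ↦ ∑ ζⁿ aₙ qⁿ` of Laurent series, as a ring homomorphism. -/
noncomputable def twist (ζ : ℂˣ) : LaurentSeries ℂ →+* LaurentSeries ℂ where
  toFun := twistFun ζ
  map_zero' := by ext n; simp
  map_one' := by
    ext n
    by_cases h : n = 0
    · subst h; simp
    · simp [HahnSeries.coeff_one, h]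
  map_add' x y := by ext n; simp [mul_add]
  map_mul' x y := twistFun_mul ζ x y

@[simp] theorem twist_coeff (ζ : ℂˣ) (x : LaurentSeries ℂ) (n : ℤ) :
    (twist ζ x).coeff n = (ζ : ℂ) ^ n * x.coeff n := rfl

/-- The twist of (the Laurent series of) a power series. -/
theorem twist_ofPowerSeries (ζ : ℂˣ) (P : PowerSeries ℂ) :
    twist ζ (HahnSeries.ofPowerSeries ℤ ℂ P)
      = HahnSeries.ofPowerSeries ℤ ℂ (PowerSeries.rescale (ζ : ℂ) P) := by
  ext n
  rw [twist_coeff]
  by_cases hn : 0 ≤ n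
  · obtain ⟨k, rfl⟩ := Int.eq_ofNat_of_zero_le hn
    rw [HahnSeries.ofPowerSeries_apply_coeff, HahnSeries.ofPowerSeries_apply_coeff,
      PowerSeries.coeff_rescale, zpow_natCast]
  · have hn' : n < 0 := not_le.mp hn
    have h0 : ∀ Q : PowerSeries ℂ, (HahnSeries.ofPowerSeries ℤ ℂ Q).coeff n = 0 := by
      intro Q
      rw [HahnSeries.ofPowerSeries_apply]
      refine HahnSeries.embDomain_of_notMem_range ?_
      rintro ⟨m, rfl⟩
      exact absurd hn' (not_lt.mpr (Int.natCast_nonneg m))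
    rw [h0, h0, mul_zero]

/-! ### The shift law for bounded functions -/

/-- The shift `f(· - 1)` preserves `bddSub N`. -/
theorem shift_mem_bddSub {N : ℕ} {f : ℍ → ℂ} (hf : f ∈ bddSub N) :
    (fun z : ℍ => f ((-1 : ℝ) +ᵥ z)) ∈ bddSub N := by
  obtain ⟨hf1, hf2, hf3⟩ := hf
  refine ⟨mdiff_comp_vadd hf1 _, fun z => ?_, hf3.comp_tendsto (tendsto_vadd_atImInfty (-1))⟩
  show f ((-1 : ℝ) +ᵥ ((N : ℝ) +ᵥ z)) = f ((-1 : ℝ) +ᵥ z)
  rw [← hf2 ((-1 : ℝ) +ᵥ z)]
  congr 1
  rw [← add_vadd, ← add_vadd, add_comm]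

/-- The root of unity `e^{-2πi/N}`, as a unit of `ℂ`. -/
noncomputable def cuspZeta (N : ℕ) : ℂˣ :=
  Units.mk0 (Complex.exp (-2 * Real.pi * Complex.I / N)) (Complex.exp_ne_zero _)

@[simp] theorem coe_cuspZeta (N : ℕ) :
    ((cuspZeta N : ℂˣ) : ℂ) = Complex.exp (-2 * Real.pi * Complex.I / N) := rfl

theorem anCuspTwist_qParam_shift (N : ℕ) (z : ℍ) :
    Function.Periodic.qParam (N : ℝ) (((-1 : ℝ) +ᵥ z : ℍ) : ℂ)
      = Complex.exp (-2 * Real.pi * Complex.I / N) * Function.Periodic.qParam (N : ℝ) (z : ℂ) := by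
  rw [Function.Periodic.qParam, Function.Periodic.qParam, ← Complex.exp_add]
  congr 1
  rw [coe_vadd]
  push_cast
  ring

/-- Uniqueness of `q`-expansion coefficients, for plain functions on `ℍ`. -/
theorem anCuspTwist_coeff_unique {h : ℝ} {f : ℍ → ℂ} {c : ℕ → ℂ} (hh : 0 < h)
    (hfanalytic : AnalyticAt ℂ (cuspFunction h f) 0)
    (hf : ∀ τ : ℍ, HasSum (fun m ↦ c m • Function.Periodic.qParam h τ ^ m) (f τ)) (m : ℕ) :
    c m = (qExpansion h f).coeff m := by
  have h1 := (hasFPowerSeriesOnBall_cuspFunction hh hfanalytic hf).hasFPowerSeriesAt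
  have h2 : HasFPowerSeriesAt (cuspFunction h f)
      (.ofScalars ℂ fun m ↦ (qExpansion h f).coeff m) 0 := by
    simpa [qExpansion_coeff, div_eq_mul_inv, mul_comm] using hfanalytic.hasFPowerSeriesAt
  simpa [FormalMultilinearSeries.coeff_ofScalars] using
    congr_arg (FormalMultilinearSeries.coeff · m) (h1.eq_formalMultilinearSeries h2)

/-- Shift law for `q_N`-expansions of bounded functions:
the `n`-th coefficient of `f(· - 1)` is `e^{-2πin/N}` times that of `f`. -/
theorem anCuspTwist_shift_coeff {N : ℕ} [NeZero N] {f : ℍ → ℂ} (hf : f ∈ bddSub N) (n : ℕ) :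
    (qExpansion (N : ℝ) (fun z : ℍ => f ((-1 : ℝ) +ᵥ z))).coeff n
      = Complex.exp (-2 * Real.pi * Complex.I / N) ^ n * (qExpansion (N : ℝ) f).coeff n := by
  have hN : (0 : ℝ) < N := Nat.cast_pos.mpr (NeZero.pos N)
  have hg := shift_mem_bddSub hf
  symm
  refine anCuspTwist_coeff_unique
    (c := fun n => Complex.exp (-2 * Real.pi * Complex.I / N) ^ n * (qExpansion (N : ℝ) f).coeff n)
    hN (analyticAt_cuspFunction_of_mem_bddSub hg) (fun τ => ?_) n
  have h := hasSum_qExpansion hN (periodic_comp_ofComplex_of_vadd hf.2.1) hf.1 hf.2.2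
    ((-1 : ℝ) +ᵥ τ)
  rw [anCuspTwist_qParam_shift] at h
  convert h using 2 with m
  simp only [smul_eq_mul, mul_pow]
  ring

/-- Shift law as an identity of power series. -/
theorem anCuspTwist_qExpansion_shift {N : ℕ} [NeZero N] {f : ℍ → ℂ} (hf : f ∈ bddSub N) :
    qExpansion (N : ℝ) (fun z : ℍ => f ((-1 : ℝ) +ᵥ z))
      = PowerSeries.rescale ((cuspZeta N : ℂˣ) : ℂ) (qExpansion (N : ℝ) f) := by
  ext n
  rw [anCuspTwist_shift_coeff hf, PowerSeries.coeff_rescale, coe_cuspZeta]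

/-! ### The shift law for `cuspHom` -/

/-- The Laurent expansion of `Δ` at the cusp is invariant under the twist. -/
theorem twist_cuspDelta (N : ℕ) [NeZero N] : twist (cuspZeta N) (cuspDelta N) = cuspDelta N := by
  have hfun : (fun z : ℍ => Δ ((-1 : ℝ) +ᵥ z)) = (Δ : ℍ → ℂ) := by
    funext z
    simpa using discriminant_vadd_int (-1) z
  have h := anCuspTwist_qExpansion_shift (discriminant_mem_bddSub N)
  rw [hfun] at h
  rw [cuspDelta, twist_ofPowerSeries, ← h]

/-- Shift law for the Laurent expansion at the cusp, as an identity of Laurent series. -/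
theorem cuspHom_shift {N : ℕ} [NeZero N] {f : ℍ → ℂ} (hf : f ∈ merSub N) :
    cuspHom N ⟨fun z : ℍ => f ((-1 : ℝ) +ᵥ z), shift_mem_merSub hf⟩
      = twist (cuspZeta N) (cuspHom N ⟨f, hf⟩) := by
  obtain ⟨m, hm⟩ := hf.2.2
  have hg := discriminant_pow_mul_mem_bddSub hf hm
  have hΔ : ∀ z : ℍ, Δ ((-1 : ℝ) +ᵥ z) = Δ z := fun z => by
    simpa using discriminant_vadd_int (-1) z
  have hfun : (fun z : ℍ => Δ z ^ m * f ((-1 : ℝ) +ᵥ z))
      = fun z : ℍ => (fun w : ℍ => Δ w ^ m * f w) ((-1 : ℝ) +ᵥ z) := by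
    funext z
    simp only [hΔ z]
  have hm' : IsBoundedAtImInfty (fun z : ℍ => Δ z ^ m * f ((-1 : ℝ) +ᵥ z)) := by
    rw [hfun]
    exact (shift_mem_bddSub hg).2.2
  rw [cuspHom_eq N ⟨_, shift_mem_merSub hf⟩ m hm', cuspHom_eq N ⟨f, hf⟩ m hm, map_div₀, map_pow]
  have h1 : twist (cuspZeta N) (HahnSeries.ofPowerSeries ℤ ℂ (qExpansion (N : ℝ) (Δ : ℍ → ℂ)))
      = HahnSeries.ofPowerSeries ℤ ℂ (qExpansion (N : ℝ) (Δ : ℍ → ℂ)) := twist_cuspDelta N
  rw [h1, twist_ofPowerSeries, ← anCuspTwist_qExpansion_shift hg]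
  simp only [hfun]

/-- Shift law for the Laurent expansion at the cusp, coefficientwise: the `n`-th coefficient of
the expansion of `f(· - 1)` is `e^{-2πin/N}` times that of `f`, for every `n : ℤ`. -/
theorem cuspHom_shift_coeff {N : ℕ} [NeZero N] {f : ℍ → ℂ} (hf : f ∈ merSub N) (n : ℤ) :
    (cuspHom N ⟨fun z : ℍ => f ((-1 : ℝ) +ᵥ z), shift_mem_merSub hf⟩).coeff n
      = Complex.exp (-2 * Real.pi * Complex.I / N) ^ n * (cuspHom N ⟨f, hf⟩).coeff n := by
  rw [cuspHom_shift hf, twist_coeff, coe_cuspZeta]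

end Fermat.Agent.S24
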