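import Mathlib
import Fermat.Agent.S24.AnEmbCore
import Fermat.Agent.S24.AnCusp
import Fermat.Agent.S24.AnCuspMem
import Fermat.Agent.S24.AnCuspTwist
import Fermat.Agent.S24.AnCuspOrder
import Fermat.Agent.S24.AnCuspPeriod
import Fermat.Agent.S24.AnDistinct
import Fermat.Agent.S24.Bridge
import Fermat.Agent.S24.AnDatum

/-!
# S24, analytic side (owner: helper41): the family of cusp embeddings (AN2)

We instantiate the abstract construction of `AnEmbCore` (helper42) with the algebra `merSub N`
of `N`-periodic meromorphic-at-the-cusp functions and the expansion map `cuspHom N`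
(the `q_N`-expansion at `∞`), and obtain `HasCuspEmb N`:
a family of pairwise distinct embeddings `F_N → ℂ((q_N))` indexed by `SL(2, ℤ) ⧸ Γ₀(N)`,
all of which send `1 / j` to the same series of order `N`, and on which the translation `T`
acts through the rotation `q_N ↦ e^{-2πi/N} q_N`.
-/

set_option autoImplicit false

namespace Fermat.Agent.S24

open UpperHalfPlane hiding I
open Fermat.Agent.LevelOne
open scoped MatrixGroups Real

namespace AnEmbCusp

/-- `trans T f` is `f` precomposed with the translation `z ↦ z - 1`. -/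
theorem trans_T_eq (f : ℍ → ℂ) :
    trans ModularGroup.T f = fun z : ℍ => f ((-1 : ℝ) +ᵥ z) := by
  funext z
  have h := UpperHalfPlane.modular_T_zpow_smul z (-1)
  rw [zpow_neg_one] at h
  simp only [trans_apply, h]
  norm_num

theorem neZero_divisor (N : ℕ) (d : ↥N.divisors) : NeZero (d : ℕ) :=
  ⟨(Nat.pos_of_mem_divisors d.2).ne'⟩

/-- The input of the abstract embedding construction given by `q_N`-expansions at the cusp. -/
noncomputable def cuspInput (N : ℕ) [NeZero N] : EmbInput N where
  A := merSub N
  H := cuspHom N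
  inj := cuspHom_injective N
  mem := fun d g =>
    haveI := neZero_divisor N d
    trans_jAt_mem_merSub_unfolded N (d : ℕ) (dvd_of_divisor N d) g
  bridge := bridge_iff N
  inv := fun _ hγ d =>
    haveI := neZero_divisor N d
    trans_jAt_of_mem_Gamma0 N (d : ℕ) (dvd_of_divisor N d) hγ
  dist := fun _ _ h => coe_eq_of_trans_jAt_eq N h

theorem cuspInput_twist (N : ℕ) [NeZero N] (f : ℍ → ℂ) (hf : f ∈ (cuspInput N).A)
    (hf' : trans ModularGroup.T f ∈ (cuspInput N).A) (n : ℤ) :
    ((cuspInput N).H ⟨trans ModularGroup.T f, hf'⟩).coeff n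
      = Complex.exp (-2 * π * Complex.I / N) ^ n * ((cuspInput N).H ⟨f, hf⟩).coeff n := by
  have hf0 : f ∈ merSub N := hf
  have h := cuspHom_shift_coeff hf0 n
  have h2 : (⟨trans ModularGroup.T f, hf'⟩ : ↥(merSub N))
      = ⟨fun z : ℍ => f ((-1 : ℝ) +ᵥ z), shift_mem_merSub hf0⟩ :=
    Subtype.ext (trans_T_eq f)
  change (cuspHom N ⟨trans ModularGroup.T f, hf'⟩).coeff n = _
  rw [h2]
  exact h

end AnEmbCusp

open AnEmbCusp

/-- (AN2) The family of `q_N`-expansion embeddings at the cusp `∞`. -/
theorem hasCuspEmb (N : ℕ) [NeZero N] : HasCuspEmb N := by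
  refine ⟨fun q => ((cuspInput N).embFam q : FN N →+* LaurentSeries ℂ), ?_, ?_,
    (cuspHom N ⟨jFun, jFun_mem_merSub N⟩)⁻¹, ?_, order_cuspHom_jFun_inv N, ?_⟩
  · intro q q' h
    apply (cuspInput N).embFam_injective
    apply AlgHom.coe_ringHom_injective
    exact h
  · intro q b
    exact (cuspInput N).embFam_algebraMap q b
  · intro q
    change (cuspInput N).embFam q (jF N)⁻¹ = _
    rw [map_inv₀, (cuspInput N).embFam_jF q (jFun_mem_merSub N)]
    rfl
  · intro q x n
    exact (cuspInput N).embFam_smul ModularGroup.T _ (Complex.exp_ne_zero _)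
      (cuspInput_twist N) q x n

end Fermat.Agent.S24
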