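import Mathlib
import Fermat.Prelude.Def_ModularCurve_LaurentCoeff

/-!
# S24 (analytic side, block 8a): base change of linear independence for Laurent series

For a field homomorphism `φ : K →+* C`, a `K`-linearly independent family of Laurent series over
`K` stays `C`-linearly independent after applying `φ` coefficientwise
(`ModularCurve.coeffMap φ`).  Pure algebra; no analysis.
-/

set_option autoImplicit false

namespace Fermat.Agent.S24

open ModularCurve

section BaseChangeLI

variable {K C : Type*} [Field K] [Field C]

/-- Coefficientwise application of a `K`-linear functional `C → K` (where `C` is a `K`-algebra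
through `φ`) to a Laurent series over `C`. -/
noncomputable def coeffFunctional (φ : K →+* C)
    (l : @Module.Dual K C _ _ φ.toAlgebra.toModule) :
    LaurentSeries C →+ LaurentSeries K :=
  let _ := φ.toAlgebra
  { toFun := fun x => x.map l
    map_zero' := by
      ext n
      simp
    map_add' := fun x y => by
      ext n
      simp }

theorem coeffFunctional_coeff (φ : K →+* C)
    (l : @Module.Dual K C _ _ φ.toAlgebra.toModule) (x : LaurentSeries C) (n : ℤ) :
    (coeffFunctional φ l x).coeff n = l (x.coeff n) :=
  rfl

theorem coeffFunctional_smul_coeffMap (φ : K →+* C)
    (l : @Module.Dual K C _ _ φ.toAlgebra.toModule) (c : C) (x : LaurentSeries K) :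
    coeffFunctional φ l (c • coeffMap φ x) = (l c) • x := by
  let _ := φ.toAlgebra
  ext n
  rw [coeffFunctional_coeff]
  simp only [HahnSeries.coeff_smul, coeffMap_coeff, smul_eq_mul]
  have h : c * φ (x.coeff n) = (x.coeff n) • c := by
    rw [Algebra.smul_def, mul_comm]
    rfl
  rw [h, map_smul, smul_eq_mul, mul_comm]

/-- **Base change of linear independence.** A `K`-linearly independent family of Laurent series
stays linearly independent over `C` after mapping coefficients along `φ : K →+* C`. -/
theorem linearIndependent_coeffMap (φ : K →+* C) {ι : Type*} {v : ι → LaurentSeries K}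
    (hv : LinearIndependent K v) :
    LinearIndependent C (fun i => coeffMap φ (v i)) := by
  let _ := φ.toAlgebra
  rw [linearIndependent_iff']
  intro s g hg i hi
  -- it suffices to show every functional vanishes on `g i`
  rw [← Module.forall_dual_apply_eq_zero_iff K]
  intro l
  have h1 : coeffFunctional φ l (∑ j ∈ s, g j • coeffMap φ (v j)) = 0 := by
    rw [hg, map_zero]
  rw [map_sum] at h1
  simp only [coeffFunctional_smul_coeffMap] at h1
  exact (linearIndependent_iff'.mp hv) s (fun j => l (g j)) h1 i hi

/-- Contrapositive form: a `C`-linear dependency after base change gives a `K`-linear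
dependency. -/
theorem not_linearIndependent_of_coeffMap (φ : K →+* C) {ι : Type*} {v : ι → LaurentSeries K}
    (h : ¬ LinearIndependent C (fun i => coeffMap φ (v i))) :
    ¬ LinearIndependent K v :=
  fun hv => h (linearIndependent_coeffMap φ hv)

end BaseChangeLI

end Fermat.Agent.S24
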