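/-
S24 team library (owner: helper66): degree glue.

* `finrank_le_of_forall_root`: a field extension `E / k` in characteristic zero in which every
  element is a root of a nonzero polynomial of degree `≤ m` is finite of degree `≤ m`.
* `finrank_le_of_subalgebra_root`: the same conclusion for `F / K⟮j⟯`, when the degree bound is
  only known on a `K`-subalgebra `R ∋ j` generating `F` as a field.
-/
import Mathlib

set_option autoImplicit false

namespace Fermat.Agent.S24

open Polynomial IntermediateField

/-- If every element of `E` is a root of a nonzero polynomial over `k` of degree `≤ m`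
(characteristic zero), then `E / k` is finite of degree `≤ m`. -/
theorem finrank_le_of_forall_root {k E : Type*} [Field k] [Field E] [Algebra k E] [CharZero k]
    (m : ℕ) (h : ∀ x : E, ∃ p : Polynomial k, p ≠ 0 ∧ p.natDegree ≤ m ∧ Polynomial.aeval x p = 0) :
    FiniteDimensional k E ∧ Module.finrank k E ≤ m := by
  have halg : Algebra.IsAlgebraic k E := ⟨fun x => by
    obtain ⟨p, hp0, -, hpx⟩ := h x
    exact ⟨p, hp0, hpx⟩⟩
  have : Algebra.IsSeparable k E := Algebra.IsAlgebraic.isSeparable_of_perfectField
  have hdeg : ∀ x : E, (minpoly k x).natDegree ≤ m := fun x => by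
    obtain ⟨p, hp0, hpm, hpx⟩ := h x
    exact (Polynomial.natDegree_le_of_dvd (minpoly.dvd k x hpx) hp0).trans hpm
  -- every finite-dimensional intermediate field has degree `≤ m`
  have key : ∀ L : IntermediateField k E, FiniteDimensional k L → Module.finrank k L ≤ m := by
    intro L hL
    obtain ⟨α, hα⟩ := Field.exists_primitive_element k L
    have h1 : Module.finrank k L = (minpoly k α).natDegree := by
      have h2 := IntermediateField.adjoin.finrank (K := k) (x := α)
        (Algebra.IsIntegral.isIntegral α)
      rw [hα] at h2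
      rw [← h2]
      exact (IntermediateField.finrank_top').symm
    rw [h1, IntermediateField.minpoly_eq]
    exact hdeg _
  have hfd : FiniteDimensional k E := by
    by_contra hnfd
    obtain ⟨L, hL, hlt⟩ := IntermediateField.exists_lt_finrank_of_infinite_dimensional hnfd m
    exact absurd (key L hL) (not_le.mpr hlt)
  refine ⟨hfd, ?_⟩
  have htop := key ⊤ inferInstance
  rwa [IntermediateField.finrank_top'] at htop

/-- Degree bound for `F / K⟮j⟯` from a degree bound on a generating `K`-subalgebra `R ∋ j`. -/
theorem finrank_le_of_subalgebra_root {K F : Type*} [Field K] [Field F] [Algebra K F] [CharZero K]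
    (j : F) (R : Subalgebra K F) (hjR : j ∈ R)
    (hR : IntermediateField.adjoin K (R : Set F) = ⊤) (m : ℕ)
    (h : ∀ x ∈ R, ∃ p : Polynomial K⟮j⟯, p ≠ 0 ∧ p.natDegree ≤ m ∧ Polynomial.aeval x p = 0) :
    FiniteDimensional K⟮j⟯ F ∧ Module.finrank K⟮j⟯ F ≤ m := by
  -- every element of `R` is algebraic over `K⟮j⟯`
  have hRalg : ∀ x ∈ (R : Set F), IsAlgebraic K⟮j⟯ x := fun x hx => by
    obtain ⟨p, hp0, -, hpx⟩ := h x hx
    exact ⟨p, hp0, hpx⟩
  -- polynomials in `j` lie in `R`
  have hpolyR : ∀ q : Polynomial K, Polynomial.aeval j q ∈ R := fun q => by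
    have := (Polynomial.aeval (⟨j, hjR⟩ : R) q).2
    rwa [← Subalgebra.aeval_coe] at this
  -- `R` generates `F` as a `K⟮j⟯`-algebra
  have hAtop : Algebra.adjoin K⟮j⟯ (R : Set F) = ⊤ := by
    rw [← IntermediateField.adjoin_toSubalgebra_of_isAlgebraic hRalg]
    have h1 : IntermediateField.adjoin K (R : Set F)
        ≤ (IntermediateField.adjoin K⟮j⟯ (R : Set F)).restrictScalars K :=
      IntermediateField.adjoin_le_iff.mpr
        (fun x hx => IntermediateField.subset_adjoin K⟮j⟯ (R : Set F) hx)
    rw [hR] at h1
    refine top_le_iff.mp (fun x _ => ?_)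
    exact h1 (IntermediateField.mem_top)
  -- every element of `F` is (element of `R`) / (nonzero polynomial in `j`)
  have hden : ∀ y : F, ∃ q : Polynomial K, Polynomial.aeval j q ≠ 0 ∧
      Polynomial.aeval j q * y ∈ R := by
    intro y
    have hy : y ∈ Algebra.adjoin K⟮j⟯ (R : Set F) := hAtop ▸ Algebra.mem_top
    rw [← Subalgebra.mem_toSubmodule, Algebra.adjoin_eq_span] at hy
    have hcl : (Submonoid.closure (R : Set F) : Set F) = (R : Set F) :=
      congrArg (fun S : Submonoid F => (S : Set F)) (Submonoid.closure_eq R.toSubmonoid)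
    rw [hcl] at hy
    induction hy using Submodule.span_induction with
    | mem x hx => exact ⟨1, by simp, by simpa using hx⟩
    | zero => exact ⟨1, by simp, by simp⟩
    | add x y _ _ hx hy =>
      obtain ⟨q₁, hq₁, hx⟩ := hx
      obtain ⟨q₂, hq₂, hy⟩ := hy
      refine ⟨q₁ * q₂, by rw [map_mul]; exact mul_ne_zero hq₁ hq₂, ?_⟩
      have e : Polynomial.aeval j (q₁ * q₂) * (x + y)
          = Polynomial.aeval j q₂ * (Polynomial.aeval j q₁ * x)
            + Polynomial.aeval j q₁ * (Polynomial.aeval j q₂ * y) := by
        rw [map_mul]; ring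
      rw [e]
      exact R.add_mem (R.mul_mem (hpolyR q₂) hx) (R.mul_mem (hpolyR q₁) hy)
    | smul a x _ hx =>
      obtain ⟨q, hq, hx⟩ := hx
      obtain ⟨r, s, hrs⟩ := (IntermediateField.mem_adjoin_simple_iff K (a : F)).mp a.2
      have hax : a • x = (a : F) * x := rfl
      by_cases hs : Polynomial.aeval j s = 0
      · refine ⟨1, by simp, ?_⟩
        rw [hax, hrs, hs, div_zero, zero_mul, mul_zero]
        exact R.zero_mem
      · refine ⟨s * q, by rw [map_mul]; exact mul_ne_zero hs hq, ?_⟩
        have e : Polynomial.aeval j (s * q) * (a • x)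
            = Polynomial.aeval j r * (Polynomial.aeval j q * x) := by
          rw [hax, hrs, map_mul]
          field_simp
        rw [e]
        exact R.mul_mem (hpolyR r) hx
  -- conclude with the general statement
  refine finrank_le_of_forall_root m (fun y => ?_)
  obtain ⟨q, hq, hqy⟩ := hden y
  obtain ⟨p, hp0, hpm, hpx⟩ := h _ hqy
  -- `s = q(j)` as an element of `K⟮j⟯`
  have hsmem : Polynomial.aeval j q ∈ K⟮j⟯ := by
    have := (Polynomial.aeval (⟨j, IntermediateField.mem_adjoin_simple_self K j⟩ : K⟮j⟯) q).2
    rwa [← IntermediateField.aeval_coe] at this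
  set s : K⟮j⟯ := ⟨Polynomial.aeval j q, hsmem⟩ with hsdef
  have hs0 : s ≠ 0 := fun h0 => hq (congrArg Subtype.val h0)
  refine ⟨p.comp (Polynomial.C s * Polynomial.X), ?_, ?_, ?_⟩
  · intro hzero
    have hdeg1 : (Polynomial.C s * Polynomial.X).natDegree = 1 :=
      Polynomial.natDegree_C_mul_X s hs0
    rcases Polynomial.comp_eq_zero_iff.mp hzero with h1 | ⟨-, h2⟩
    · exact hp0 h1
    · rw [h2, Polynomial.natDegree_C] at hdeg1
      exact zero_ne_one hdeg1
  · rw [Polynomial.natDegree_comp, Polynomial.natDegree_C_mul_X s hs0, mul_one]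
    exact hpm
  · rw [Polynomial.aeval_comp]
    have : Polynomial.aeval y (Polynomial.C s * Polynomial.X) = Polynomial.aeval j q * y := by
      rw [map_mul, Polynomial.aeval_C, Polynomial.aeval_X]
      rfl
    rw [this]
    exact hpx

end Fermat.Agent.S24
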