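import Mathlib
import Fermat.Prelude.Def_ModularCurve_LaurentCoeff
import Fermat.Agent.S24.BaseChangeLI
import Fermat.Agent.S24.DegGlue

/-!
# S24: the abstract degree bound `[F : K(j)] ≤ m`  (owner: helper13)

`F ⊆ K((q))` a field, `j ∈ F` transcendental over `K`, `R ⊆ F` a `K`-subalgebra containing `j`
and generating `F` as a field.  If every `x ∈ R` satisfies, after base change of the coefficients
along `φ : K →+* C`, a monic relation of degree `m` over `C[J]`, then `[F : K(j)] ≤ m`.

* `exists_root_poly_of_rel`: such an `x` is a root of a nonzero polynomial of degree `≤ m` over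
  `K⟮j⟯` (uses `linearIndependent_coeffMap` of `BaseChangeLI.lean`).
* `degreeBound`: the final statement (interface agreed with helper72, `AnDegree.lean`).
-/

set_option autoImplicit false

namespace Fermat.Agent.S24

open IntermediateField Polynomial

namespace DegreeBound

variable {K : Type*} [Field K]

/-- powers of a transcendental element are linearly independent -/
theorem linearIndependent_pow {A : Type*} [Ring A] [Algebra K A] {j : A}
    (hj : Transcendental K j) : LinearIndependent K (fun n : ℕ => j ^ n) := by
  have h1 : LinearIndependent K (fun n : ℕ => (Polynomial.X : K[X]) ^ n) := by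
    have := (Polynomial.basisMonomials K).linearIndependent
    have h : (fun n : ℕ => (Polynomial.X : K[X]) ^ n) = ⇑(Polynomial.basisMonomials K) := by
      ext1 n
      simp [Polynomial.X_pow_eq_monomial]
    rw [h]; exact this
  have h2 := h1.map' (Polynomial.aeval j).toLinearMap
    (LinearMap.ker_eq_bot.mpr (transcendental_iff_injective.mp hj))
  have h3 : (⇑(aeval j).toLinearMap ∘ fun n : ℕ => (X : K[X]) ^ n) = fun n => j ^ n := by
    ext1 n; simp
  rw [h3] at h2
  exact h2

/-- the coefficientwise scalar multiplication on Laurent series is multiplication by the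
constant series -/
theorem smul_eq_algebraMap_mul (c : K) (y : LaurentSeries K) :
    c • y = algebraMap K (LaurentSeries K) c * y := by
  rw [ModularCurve.algebraMap_laurentSeries_eq_single]
  exact (HahnSeries.C_mul_eq_smul).symm

variable {C : Type*} [Field C]

/-- A monic relation of degree `m` over `C[J]` contradicts the `C`-linear independence of
the family `J ^ a * X ^ i` (`i ≤ m`). -/
theorem not_linearIndependent_of_rel (J X : LaurentSeries C) (m : ℕ)
    (c : Fin m → Polynomial C)
    (hrel : X ^ m + ∑ k : Fin m, Polynomial.aeval J (c k) * X ^ (k : ℕ) = 0) :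
    ¬ LinearIndependent C (fun p : ℕ × Fin (m + 1) => J ^ p.1 * X ^ (p.2 : ℕ)) := by
  intro hLI
  classical
  set l : ℕ × Fin (m + 1) →₀ C :=
    Finsupp.single (0, Fin.last m) 1 +
      ∑ k : Fin m, ∑ a ∈ (c k).support, Finsupp.single (a, k.castSucc) ((c k).coeff a) with hl
  have h0 : Finsupp.linearCombination C (fun p : ℕ × Fin (m + 1) => J ^ p.1 * X ^ (p.2 : ℕ)) l
      = 0 := by
    rw [hl, map_add, map_sum]
    simp only [map_sum, Finsupp.linearCombination_single, one_smul, pow_zero, one_mul,
      Fin.val_last, Fin.val_castSucc]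
    rw [← hrel]
    congr 1
    refine Finset.sum_congr rfl fun k _ => ?_
    rw [Polynomial.aeval_def, Polynomial.eval₂_eq_sum, Polynomial.sum_def, Finset.sum_mul]
    refine Finset.sum_congr rfl fun a _ => ?_
    rw [smul_eq_algebraMap_mul, mul_assoc]
  have h1 := linearIndependent_iff.mp hLI l h0
  have h2 : l (0, Fin.last m) = 1 := by
    rw [hl]
    simp only [Finsupp.add_apply, Finsupp.single_eq_same, Finsupp.finsetSum_apply]
    have : ∑ k : Fin m, ∑ a ∈ (c k).support,
        (Finsupp.single (a, k.castSucc) ((c k).coeff a) : ℕ × Fin (m + 1) →₀ C)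
          (0, Fin.last m) = 0 := by
      refine Finset.sum_eq_zero fun k _ => Finset.sum_eq_zero fun a _ => ?_
      rw [Finsupp.single_apply, if_neg]
      intro h
      have := (Prod.ext_iff.mp h).2
      exact (Fin.castSucc_lt_last k).ne this
    rw [this, add_zero]
  rw [h1] at h2
  simp at h2

/-- Abstract form: `E` a field over `K` with a ring embedding `ι` into Laurent series which is
`K`-linear for the coefficientwise scalar multiplication. Every `x` satisfying (after base change
of the coefficients along `φ`) a monic relation of degree `m` over `C[J]` is a root of a nonzero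
polynomial of degree `≤ m` over `K⟮j⟯`. -/
theorem exists_root_poly_aux {E : Type*} [Field E] [Algebra K E] (φ : K →+* C)
    (ι : E →+* LaurentSeries K) (hι : ∀ (a : K) (y : E), ι (a • y) = a • ι y)
    (j : E) (hj : Transcendental K j) (m : ℕ) (x : E) (c : Fin m → Polynomial C)
    (hc : (ModularCurve.coeffMap φ (ι x)) ^ m
        + ∑ k : Fin m, Polynomial.aeval (ModularCurve.coeffMap φ (ι j)) (c k)
            * (ModularCurve.coeffMap φ (ι x)) ^ (k : ℕ) = 0) :
    ∃ p : Polynomial K⟮j⟯, p ≠ 0 ∧ p.natDegree ≤ m ∧ Polynomial.aeval x p = 0 := by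
  have hnot : ¬ LinearIndependent K⟮j⟯ (fun i : Fin (m + 1) => x ^ (i : ℕ)) := by
    intro hx
    have hgen : Transcendental K (AdjoinSimple.gen K j) := by
      rw [← transcendental_algebraMap_iff (algebraMap K⟮j⟯ E).injective,
        AdjoinSimple.algebraMap_gen]
      exact hj
    have hb : LinearIndependent K (fun a : ℕ => (AdjoinSimple.gen K j) ^ a) :=
      linearIndependent_pow hgen
    have h1 := linearIndependent_smul hb hx
    let ιl : E →ₗ[K] LaurentSeries K :=
      { toFun := ι
        map_add' := map_add ι
        map_smul' := fun a y => hι a y }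
    have h2 := h1.map' ιl (LinearMap.ker_eq_bot.mpr ι.injective)
    have h3 := linearIndependent_coeffMap φ h2
    refine not_linearIndependent_of_rel _ _ m c hc ?_
    convert h3 using 2 with p
    simp [ιl, Algebra.smul_def]
  rw [Fintype.not_linearIndependent_iff] at hnot
  obtain ⟨g, hg, i₀, hi₀⟩ := hnot
  refine ⟨∑ i : Fin (m + 1), Polynomial.monomial (i : ℕ) (g i), ?_, ?_, ?_⟩
  · intro h0
    apply hi₀
    have := congrArg (fun q : Polynomial K⟮j⟯ => q.coeff (i₀ : ℕ)) h0
    simp only [Polynomial.finsetSum_coeff, Polynomial.coeff_monomial, Polynomial.coeff_zero]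
      at this
    rw [Finset.sum_eq_single i₀] at this
    · simpa using this
    · intro b _ hb
      rw [if_neg]
      exact fun h => hb (Fin.ext h)
    · intro h; exact absurd (Finset.mem_univ _) h
  · refine Polynomial.natDegree_sum_le_of_forall_le _ _ fun i _ => ?_
    exact (Polynomial.natDegree_monomial_le _).trans (Nat.lt_succ_iff.mp i.2)
  · rw [map_sum]
    rw [← hg]
    refine Finset.sum_congr rfl fun i _ => ?_
    rw [Polynomial.aeval_monomial, Algebra.smul_def]

end DegreeBound

set_option synthInstance.maxHeartbeats 400000 in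
/-- Every `x ∈ F ⊆ K((q))` satisfying (after base change of the coefficients along `φ`) a monic
relation of degree `m` over `C[J]` is a root of a nonzero polynomial of degree `≤ m` over
`K⟮j⟯`. -/
theorem exists_root_poly_of_rel {K C : Type*} [Field K] [Field C] (φ : K →+* C)
    (F : IntermediateField K (LaurentSeries K)) (j : F) (hj : Transcendental K j) (m : ℕ) (x : F)
    (hrel : ∃ c : Fin m → Polynomial C,
      (ModularCurve.coeffMap φ (x : LaurentSeries K)) ^ m
        + ∑ k : Fin m, Polynomial.aeval (ModularCurve.coeffMap φ (j : LaurentSeries K)) (c k)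
            * (ModularCurve.coeffMap φ (x : LaurentSeries K)) ^ (k : ℕ) = 0) :
    ∃ p : Polynomial K⟮j⟯, p ≠ 0 ∧ p.natDegree ≤ m ∧ Polynomial.aeval x p = 0 := by
  obtain ⟨c, hc⟩ := hrel
  refine DegreeBound.exists_root_poly_aux φ (algebraMap F (LaurentSeries K)) (fun a y => ?_)
    j hj m x c hc
  rw [DegreeBound.smul_eq_algebraMap_mul, Algebra.smul_def, map_mul]
  rfl

set_option synthInstance.maxHeartbeats 400000 in
/-- **Degree bound**: if every element of a generating subalgebra `R ∋ j` of `F ⊆ K((q))`
satisfies, after base change of coefficients along `φ`, a monic relation of degree `m` over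
`C[J]`, then `F` is finite over `K⟮j⟯` of degree `≤ m`. -/
theorem degreeBound {K C : Type*} [Field K] [CharZero K] [Field C] (φ : K →+* C)
    (F : IntermediateField K (LaurentSeries K)) (j : F) (hj : Transcendental K j)
    (R : Subalgebra K F) (hjR : j ∈ R) (hR : IntermediateField.adjoin K (R : Set F) = ⊤) (m : ℕ)
    (hrel : ∀ x ∈ R, ∃ c : Fin m → Polynomial C,
      (ModularCurve.coeffMap φ (x : LaurentSeries K)) ^ m
        + ∑ k : Fin m, Polynomial.aeval (ModularCurve.coeffMap φ (j : LaurentSeries K)) (c k)
            * (ModularCurve.coeffMap φ (x : LaurentSeries K)) ^ (k : ℕ) = 0) :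
    FiniteDimensional K⟮j⟯ F ∧ Module.finrank K⟮j⟯ F ≤ m := by
  have hroot : ∀ x ∈ R, ∃ p : Polynomial K⟮j⟯, p ≠ 0 ∧ p.natDegree ≤ m ∧
      Polynomial.aeval x p = 0 :=
    fun x hx => exists_root_poly_of_rel φ F j hj m x (hrel x hx)
  exact finrank_le_of_subalgebra_root j R hjR hR m hroot

end Fermat.Agent.S24
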