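/-
S24 team library (owner: helper66): transcendence of `j`.

* `transcendental_of_coeff_neg_ne_zero`: a Laurent series over a field with a pole is
  transcendental over the constants.
* `transcendental_coeffEmb_jq`, `transcendental_mk_coeffEmb_jq`: `j(q)` is transcendental.
* `transcendental_jF`: the element `jF N` of the function field is transcendental over the
  algebraic closure of `ℚ`.
-/
import Mathlib
import Fermat.Prelude.Def_ModularCurve_ArithmeticGalois
import Fermat.Agent.S24.AnDefs

set_option autoImplicit false

namespace Fermat.Agent.S24

open ModularCurve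

/-- A Laurent series over a field with a nonzero coefficient in negative degree is transcendental
over the field of constants. -/
theorem transcendental_of_coeff_neg_ne_zero {L : Type*} [Field L] (x : LaurentSeries L) (k : ℤ)
    (hk : k < 0) (hx : x.coeff k ≠ 0) : Transcendental L x := by
  intro halg
  have hint : IsIntegral L x := halg.isIntegral
  have hcomp : (algebraMap (PowerSeries L) (LaurentSeries L)).comp (algebraMap L (PowerSeries L))
      = algebraMap L (LaurentSeries L) := by
    ext c : 1
    rw [ModularCurve.algebraMap_laurentSeries_eq_single, RingHom.comp_apply]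
    have h1 : algebraMap L (PowerSeries L) c = PowerSeries.C c := by simp
    rw [h1]
    show HahnSeries.ofPowerSeries ℤ L (PowerSeries.C c) = _
    rw [HahnSeries.ofPowerSeries_C]
    rfl
  have hint' : IsIntegral (PowerSeries L) x := by
    obtain ⟨p, hp, hpx⟩ := hint
    refine ⟨p.map (algebraMap L (PowerSeries L)), hp.map _, ?_⟩
    rw [Polynomial.eval₂_map, hcomp]
    exact hpx
  obtain ⟨y, hy⟩ := IsIntegrallyClosed.isIntegral_iff.mp hint'
  apply hx
  rw [← hy]
  exact ModularCurve.ofPowerSeries_coeff_of_neg y hk

/-- `j(q)` with coefficients in any field `L ⊇ ℚ` is transcendental over `L`. -/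
theorem transcendental_coeffEmb_jq (L : Type*) [Field L] [Algebra ℚ L] :
    Transcendental L (coeffEmb L jq) := by
  refine transcendental_of_coeff_neg_ne_zero _ (-1) (by norm_num) ?_
  rw [coeffEmb_coeff, coeff_jq_neg_one, map_one]
  exact one_ne_zero

/-- Version inside an intermediate field of `LaurentSeries L`. -/
theorem transcendental_mk_coeffEmb_jq (L : Type*) [Field L] [Algebra ℚ L]
    (F : IntermediateField L (LaurentSeries L)) (h : coeffEmb L jq ∈ F) :
    Transcendental L (⟨coeffEmb L jq, h⟩ : F) := by
  have htr := transcendental_coeffEmb_jq L
  intro halg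
  exact htr (halg.algebraMap (A := LaurentSeries L))

/-- The element `j` of the function field of `X₀(N)` is transcendental over `ℚ̄`. -/
theorem transcendental_jF (N : ℕ) : Transcendental (AlgebraicClosure ℚ) (jF N) :=
  transcendental_mk_coeffEmb_jq (AlgebraicClosure ℚ) (modularFunctionFieldBar N) _

end Fermat.Agent.S24
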