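import Mathlib
import Fermat.Agent.S24.AnDefs
import Fermat.Agent.S24.TranscJ
import Fermat.Agent.S24.Bridge
import Fermat.Agent.S24.NormPolyMain
import Fermat.Agent.S24.DegreeBound
import Fermat.Agent.S20.Cosets

/-!
# S24 (analytic side, block 8 = AN3): `[F_N : K(j)] = ψ(N)`

OWNER: helper72 (only the owner edits this file).

* `card_le_finrank_of_ringHoms`, `card_le_finrank_of_algHoms` : generic lower bound from distinct
  embeddings agreeing on `j`;
* `finiteDimensional_jF`, `finrank_jF_le` : `F_N` is finite over `K(j)` of degree `≤ ψ(N)`;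
* `finrank_jF_of_ringHoms`, `finrank_jF_of_algHoms` : `[F_N : K(j)] = ψ(N)` from any family of
  `ψ(N)` distinct embeddings over `K(j)` indexed by the cosets (AN1/AN2 or any `EmbDatum`).
-/

set_option autoImplicit false

namespace Fermat.Agent.S24

open UpperHalfPlane ModularCurve Fermat.Agent.LevelOne IntermediateField
open scoped MatrixGroups

/-- If `Q` indexes pairwise distinct field embeddings `F → L` that all agree on `K` and on `j`,
then `#Q ≤ [F : K(j)]`. -/
theorem card_le_finrank_of_ringHoms {K F L : Type*} [Field K] [Field F] [Field L] [Algebra K F]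
    (j : F) [FiniteDimensional K⟮j⟯ F] {Q : Type*} [Finite Q]
    (ι : Q → (F →+* L)) (hι : Function.Injective ι)
    (hK : ∀ q q' (a : K), ι q (algebraMap K F a) = ι q' (algebraMap K F a))
    (hj : ∀ q q', ι q j = ι q' j) :
    Nat.card Q ≤ Module.finrank K⟮j⟯ F := by
  classical
  rcases isEmpty_or_nonempty Q with hQ | hQ
  · simp
  obtain ⟨q₀⟩ := hQ
  -- the `K⟮j⟯`-algebra structure on `L` through `ι q₀`
  let _ : Algebra K⟮j⟯ L := ((ι q₀).comp (algebraMap K⟮j⟯ F)).toAlgebra
  have hres : ∀ q : Q, ∀ x : F, x ∈ K⟮j⟯ → ι q x = ι q₀ x := by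
    intro q x hx
    induction hx using IntermediateField.adjoin_induction with
    | mem y hy =>
        have : y = j := by simpa using hy
        rw [this]; exact hj q q₀
    | algebraMap c => exact hK q q₀ c
    | add a b _ _ ha hb => simp [ha, hb]
    | inv a _ ha => simp [ha]
    | mul a b _ _ ha hb => simp [ha, hb]
  let κ : Q → (F →ₐ[K⟮j⟯] L) := fun q =>
    { ι q with
      commutes' := fun x => by
        show ι q (x : F) = ι q₀ (x : F)
        exact hres q x x.2 }
  have hκ : Function.Injective κ := by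
    intro q q' h
    apply hι
    ext x
    have := congrArg (fun f : F →ₐ[K⟮j⟯] L => f x) h
    exact this
  calc Nat.card Q ≤ Nat.card (F →ₐ[K⟮j⟯] L) := Nat.card_le_card_of_injective κ hκ
    _ ≤ Module.finrank K⟮j⟯ F := card_algHom_le_finrank K⟮j⟯ F L

/-- If `Q` indexes pairwise distinct `K`-algebra embeddings `F → L` that all agree on `j`, then
`#Q ≤ [F : K(j)]`. -/
theorem card_le_finrank_of_algHoms {K F L : Type*} [Field K] [Field F] [Field L] [Algebra K F]
    [Algebra K L] (j : F) [FiniteDimensional K⟮j⟯ F] {Q : Type*} [Finite Q]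
    (ι : Q → (F →ₐ[K] L)) (hι : Function.Injective ι) (hj : ∀ q q', ι q j = ι q' j) :
    Nat.card Q ≤ Module.finrank K⟮j⟯ F := by
  refine card_le_finrank_of_ringHoms (K := K) j (fun q => (ι q : F →+* L)) ?_ ?_ hj
  · intro q q' h
    apply hι
    ext x
    exact congrArg (fun f : F →+* L => f x) h
  · intro q q' a
    show ι q (algebraMap K F a) = ι q' (algebraMap K F a)
    rw [AlgHom.commutes, AlgHom.commutes]

namespace AnDegree

/-- `coeffMap φ` commutes with the structure maps. -/
theorem coeffMap_algebraMap' {K C : Type*} [Field K] [Field C] (φ : K →+* C) (c : K) :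
    coeffMap φ (algebraMap K (LaurentSeries K) c) = algebraMap C (LaurentSeries C) (φ c) := by
  rw [algebraMap_laurentSeries_eq_single, algebraMap_laurentSeries_eq_single, coeffMap_single]

/-- `coeffMap φ` commutes with polynomial evaluation. -/
theorem coeffMap_aeval {K C : Type*} [Field K] [Field C] (φ : K →+* C) {σ : Type*}
    (g : σ → LaurentSeries K) (P : MvPolynomial σ K) :
    coeffMap φ (MvPolynomial.aeval g P)
      = MvPolynomial.aeval (fun d => coeffMap φ (g d)) (MvPolynomial.map φ P) := by
  rw [MvPolynomial.aeval_def, MvPolynomial.aeval_def, MvPolynomial.eval₂_comp_left,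
    MvPolynomial.eval₂_map]
  congr 1
  ext c
  exact congrArg (fun x => HahnSeries.coeff x _) (coeffMap_algebraMap' φ c)

theorem mulN_one (z : ℍ) : Fermat.Agent.S23.mulN 1 z = z := by
  apply UpperHalfPlane.ext
  simp

theorem jAt_one : jAt 1 = jFun := by
  funext z
  simp only [jAt, mulN_one]

/-- The divisor `1` of `N`. -/
def oneDiv (N : ℕ) [NeZero N] : ↥N.divisors :=
  ⟨1, Nat.mem_divisors.mpr ⟨one_dvd N, NeZero.ne N⟩⟩

theorem jAtFam_oneDiv (N : ℕ) [NeZero N] : jAtFam N (oneDiv N) = jFun := by
  show jAt ((oneDiv N : ↥N.divisors) : ℕ) = jFun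
  exact jAt_one

theorem JFam_oneDiv (N : ℕ) [NeZero N] :
    JFam N (oneDiv N) = ((jF N : FN N) : LaurentSeries Kb) := by
  show coeffEmb Kb (qExpand ℚ ((oneDiv N : ↥N.divisors) : ℕ) jq) = coeffEmb Kb jq
  have : qExpand ℚ ((oneDiv N : ↥N.divisors) : ℕ) jq = jq := qExpand_one_apply jq
  rw [this]

/-- The generators of `RN N` as a family indexed by the divisors of `N`. -/
noncomputable def genFam (N : ℕ) [NeZero N] : ↥N.divisors → FN N :=
  fun d => genJ N (d : ℕ) (dvd_of_divisor N d)

theorem coe_genFam (N : ℕ) [NeZero N] (d : ↥N.divisors) :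
    ((genFam N d : FN N) : LaurentSeries Kb) = JFam N d := rfl

theorem genSet_eq_range (N : ℕ) [NeZero N] : genSet N = Set.range (genFam N) := by
  ext x
  constructor
  · rintro ⟨d, hd0, hd, rfl⟩
    exact ⟨⟨d, Nat.mem_divisors.mpr ⟨hd, NeZero.ne N⟩⟩, rfl⟩
  · rintro ⟨d, rfl⟩
    exact ⟨(d : ℕ), inferInstance, dvd_of_divisor N d, rfl⟩

/-- Every element of `RN N` is a polynomial in the generators `j(q^d)`. -/
theorem exists_mvPolynomial_of_mem_RN (N : ℕ) [NeZero N] {x : FN N} (hx : x ∈ RN N) :
    ∃ P : MvPolynomial ↥N.divisors Kb,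
      (x : LaurentSeries Kb) = MvPolynomial.aeval (JFam N) P := by
  rw [RN, genSet_eq_range, Algebra.adjoin_range_eq_range_aeval] at hx
  obtain ⟨P, rfl⟩ := hx
  refine ⟨P, ?_⟩
  have h := MvPolynomial.comp_aeval_apply (genFam N)
    ((ModularCurve.modularFunctionFieldBar N).val) P
  exact h

/-- The monic degree-`ψ(N)` relation over `ℂ[j]` satisfied (after base change to `ℂ`) by every
element of `RN N`. -/
theorem hrel (N : ℕ) [NeZero N] (x : FN N) (hx : x ∈ RN N) :
    ∃ c : Fin (dedekindPsi N) → Polynomial ℂ,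
      (coeffMap embC (x : LaurentSeries Kb)) ^ (dedekindPsi N)
        + ∑ k : Fin (dedekindPsi N),
            Polynomial.aeval (coeffMap embC ((jF N : FN N) : LaurentSeries Kb)) (c k)
              * (coeffMap embC (x : LaurentSeries Kb)) ^ (k : ℕ) = 0 := by
  obtain ⟨P, hP⟩ := exists_mvPolynomial_of_mem_RN N hx
  set P' : MvPolynomial ↥N.divisors ℂ := MvPolynomial.map embC P with hP'
  obtain ⟨c, hc⟩ := normPoly N P'
  refine ⟨c, ?_⟩
  -- the relation as a polynomial in the generators
  set R : MvPolynomial ↥N.divisors ℂ :=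
    P' ^ (dedekindPsi N) + ∑ k : Fin (dedekindPsi N),
      Polynomial.aeval (MvPolynomial.X (oneDiv N) : MvPolynomial ↥N.divisors ℂ) (c k)
        * P' ^ (k : ℕ) with hR
  have hfun : MvPolynomial.aeval (jAtFam N) R = 0 := by
    funext z
    have h1 : ∀ k : Fin (dedekindPsi N),
        MvPolynomial.aeval (jAtFam N)
          (Polynomial.aeval (MvPolynomial.X (oneDiv N) : MvPolynomial ↥N.divisors ℂ) (c k))
          = Polynomial.aeval (jFun : ℍ → ℂ) (c k) := by
      intro k
      rw [← Polynomial.aeval_algHom_apply, MvPolynomial.aeval_X, jAtFam_oneDiv]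
    simp only [hR, map_add, map_pow, map_sum, map_mul, h1, Pi.add_apply, Pi.pow_apply,
      Finset.sum_apply, Pi.mul_apply, Pi.zero_apply, Polynomial.aeval_fn_apply]
    have := hc z
    simpa [Polynomial.aeval_def, Polynomial.eval₂_eq_eval_map] using this
  have hser := bridgeC_of_fun_eq_zero N R hfun
  have h2 : ∀ k : Fin (dedekindPsi N),
      MvPolynomial.aeval (fun d => coeffMap embC (JFam N d))
        (Polynomial.aeval (MvPolynomial.X (oneDiv N) : MvPolynomial ↥N.divisors ℂ) (c k))
        = Polynomial.aeval (coeffMap embC ((jF N : FN N) : LaurentSeries Kb)) (c k) := by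
    intro k
    rw [← Polynomial.aeval_algHom_apply, MvPolynomial.aeval_X, JFam_oneDiv]
  have h3 : MvPolynomial.aeval (fun d => coeffMap embC (JFam N d)) P'
      = coeffMap embC (x : LaurentSeries Kb) := by
    rw [hP, coeffMap_aeval]
  simp only [hR, map_add, map_pow, map_sum, map_mul, h2, h3] at hser
  exact hser

theorem coeffEmb_algebraMap (c : ℚ) :
    coeffEmb Kb (algebraMap ℚ (LaurentSeries ℚ) c)
      = algebraMap Kb (LaurentSeries Kb) (algebraMap ℚ Kb c) := by
  rw [algebraMap_apply_eq_single, algebraMap_laurentSeries_eq_single]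
  exact coeffMap_single _ _ _

/-- `F_N` is generated as a field over `K` by `RN N`. -/
theorem adjoin_RN_eq_top (N : ℕ) [NeZero N] :
    IntermediateField.adjoin Kb (RN N : Set (FN N)) = ⊤ := by
  set E : IntermediateField Kb (FN N) := IntermediateField.adjoin Kb (RN N : Set (FN N)) with hE
  -- generators lie in `E`
  have hgen : ∀ (d : ℕ) [NeZero d] (hd : d ∣ N), genJ N d hd ∈ E := by
    intro d _ hd
    exact IntermediateField.subset_adjoin Kb _ (genJ_mem_RN N d hd)
  have key : ∀ x ∈ modularFunctionFieldFull N, coeffEmb Kb x ∈ IntermediateField.lift E := by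
    intro x hx
    unfold modularFunctionFieldFull at hx
    induction hx using IntermediateField.adjoin_induction with
    | mem y hy =>
        obtain ⟨d, hd0, hd, rfl⟩ := hy
        have := hd0
        exact (IntermediateField.mem_lift (genJ N d hd)).mpr (hgen d hd)
    | algebraMap c =>
        rw [coeffEmb_algebraMap]
        exact (IntermediateField.lift E).algebraMap_mem _
    | add a b _ _ ha hb => rw [map_add]; exact add_mem ha hb
    | inv a _ ha => rw [map_inv₀]; exact inv_mem ha
    | mul a b _ _ ha hb => rw [map_mul]; exact mul_mem ha hb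
  have hle : ModularCurve.modularFunctionFieldBar N ≤ IntermediateField.lift E := by
    unfold modularFunctionFieldBar laurentBaseChange
    rw [IntermediateField.adjoin_le_iff]
    rintro _ ⟨x, hx, rfl⟩
    exact key x hx
  rw [eq_top_iff]
  intro y _
  exact (IntermediateField.mem_lift y).mp (hle y.2)

theorem dedekindPsi_pos (N : ℕ) [NeZero N] : 0 < dedekindPsi N := by
  unfold dedekindPsi
  apply Finset.sum_pos'
  · intro d _; exact Nat.zero_le _
  · refine ⟨1, ?_, ?_⟩
    · simp [NeZero.ne N]
    · simpa using Nat.pos_of_ne_zero (NeZero.ne N)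

end AnDegree

/-- `F_N` is finite over `K(j)`, of degree at most `ψ(N)`. -/
theorem finiteDimensional_and_finrank_jF_le (N : ℕ) [NeZero N] :
    FiniteDimensional Kb⟮jF N⟯ (FN N) ∧ Module.finrank Kb⟮jF N⟯ (FN N) ≤ dedekindPsi N :=
  degreeBound embC (ModularCurve.modularFunctionFieldBar N) (jF N) (transcendental_jF N)
    (RN N) (jF_mem_RN N) (AnDegree.adjoin_RN_eq_top N) (dedekindPsi N) (AnDegree.hrel N)

theorem finiteDimensional_jF (N : ℕ) [NeZero N] : FiniteDimensional Kb⟮jF N⟯ (FN N) :=
  (finiteDimensional_and_finrank_jF_le N).1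

theorem finrank_jF_le (N : ℕ) [NeZero N] :
    Module.finrank Kb⟮jF N⟯ (FN N) ≤ dedekindPsi N :=
  (finiteDimensional_and_finrank_jF_le N).2

/-- **(AN3), ring-hom form.** `[F_N : K(j)] = ψ(N)`, given a family of pairwise distinct field
embeddings of `F_N` indexed by the cosets `SL(2, ℤ) ⧸ Γ₀(N)`, agreeing on `K` and on `j`
(e.g. the family underlying any of the `EmbDatum`s of the assembly). -/
theorem finrank_jF_of_ringHoms (N : ℕ) [NeZero N] {L : Type*} [Field L]
    (ι : QN N → (FN N →+* L)) (hι : Function.Injective ι)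
    (hK : ∀ q q' (a : Kb), ι q (algebraMap Kb (FN N) a) = ι q' (algebraMap Kb (FN N) a))
    (hj : ∀ q q', ι q (jF N) = ι q' (jF N)) :
    Module.finrank Kb⟮jF N⟯ (FN N) = dedekindPsi N := by
  refine le_antisymm (finrank_jF_le N) ?_
  have := finiteDimensional_jF N
  have : Finite (QN N) := by
    apply Nat.finite_of_card_ne_zero
    rw [Fermat.Agent.S20.card_Q]
    exact (AnDegree.dedekindPsi_pos N).ne'
  have h := card_le_finrank_of_ringHoms (K := Kb) (jF N) ι hι hK hj
  rwa [Fermat.Agent.S20.card_Q] at h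

/-- **(AN3), algebra-hom form.** -/
theorem finrank_jF_of_algHoms (N : ℕ) [NeZero N] {L : Type*} [Field L] [Algebra Kb L]
    (ι : QN N → (FN N →ₐ[Kb] L)) (hι : Function.Injective ι)
    (hj : ∀ q q', ι q (jF N) = ι q' (jF N)) :
    Module.finrank Kb⟮jF N⟯ (FN N) = dedekindPsi N := by
  refine finrank_jF_of_ringHoms N (fun q => (ι q : FN N →+* L)) ?_ ?_ hj
  · intro q q' h
    apply hι
    ext x
    exact congrArg (fun f : FN N →+* L => f x) h
  · intro q q' a
    show ι q (algebraMap Kb (FN N) a) = ι q' (algebraMap Kb (FN N) a)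
    rw [AlgHom.commutes, AlgHom.commutes]

end Fermat.Agent.S24
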