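import Mathlib
import Fermat.Agent.S24.AnDegree
import Fermat.Agent.S24.AnDatum

/-!
# S24 (AN3, wiring): `[F_N : K(j)] = ψ(N)` from the embedding data of the assembly

OWNER: helper72 (only the owner edits this file).

`AnDegree.lean` proves `FiniteDimensional Kb⟮jF N⟯ (FN N)`, `finrank ≤ ψ(N)` unconditionally and
`finrank = ψ(N)` from any coset-indexed family of distinct embeddings over `K(j)`.  Here we feed
it with the shapes used by the modular assembly: `HasTaylorEmb N z₀` (AN1), `HasCuspEmb N` (AN2)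
and `EmbDatum` (D1–D4).  These are exactly the hypotheses `htr`, `hfd`, `hrank` of
`genus_modular_of_data`:
* `htr   := transcendental_jF N`            (`TranscJ.lean`)
* `hfd   := finiteDimensional_jF N`         (`AnDegree.lean`)
* `hrank := finrank_jF_of_hasCuspEmb hC`    (this file), or any of the variants below.
-/

set_option autoImplicit false

namespace Fermat.Agent.S24

open UpperHalfPlane ModularCurve Fermat.Agent.LevelOne IntermediateField
open scoped MatrixGroups

/-- `hrank` from the Taylor-side embedding family (AN1) at any base point. -/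
theorem finrank_jF_of_hasTaylorEmb {N : ℕ} [NeZero N] {z₀ : ℍ} (h : HasTaylorEmb N z₀) :
    Module.finrank Kb⟮jF N⟯ (FN N) = dedekindPsi N := by
  obtain ⟨ι, hinj, hφ, hj, -⟩ := h
  exact finrank_jF_of_ringHoms N ι hinj (fun q q' a => by rw [hφ, hφ])
    (fun q q' => by rw [hj, hj])

/-- `hrank` from the cusp-side embedding family (AN2). -/
theorem finrank_jF_of_hasCuspEmb {N : ℕ} [NeZero N] (h : HasCuspEmb N) :
    Module.finrank Kb⟮jF N⟯ (FN N) = dedekindPsi N := by
  obtain ⟨ι, hinj, hφ, T, hT, -, -⟩ := h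
  refine finrank_jF_of_ringHoms N ι hinj (fun q q' a => by rw [hφ, hφ]) (fun q q' => ?_)
  have h1 : ∀ q, ι q (jF N) = T⁻¹ := by
    intro q
    rw [← hT q, map_inv₀, inv_inv]
  rw [h1, h1]

/-- `hrank` from an `EmbDatum` over a finite value `j = a` (D1–D3). -/
theorem finrank_jF_of_embDatum_sub {N : ℕ} [NeZero N] {G : Type*} [Group G] [MulAction G (QN N)]
    {a : Kb} {e : ℕ} {g : G}
    (D : EmbDatum embC (QN N) (jF N - algebraMap Kb (FN N) a) e g) :
    Module.finrank Kb⟮jF N⟯ (FN N) = dedekindPsi N := by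
  obtain ⟨ι, hinj, hφ, T, hT, -⟩ := D
  refine finrank_jF_of_ringHoms N ι hinj (fun q q' a => by rw [hφ, hφ]) (fun q q' => ?_)
  have h1 : ∀ q, ι q (jF N) = T + HahnSeries.C (embC a) := by
    intro q
    rw [← hT q, map_sub, hφ, sub_add_cancel]
  rw [h1, h1]

/-- `hrank` from the `EmbDatum` over `j = ∞` (D4). -/
theorem finrank_jF_of_embDatum_inv {N : ℕ} [NeZero N] {G : Type*} [Group G] [MulAction G (QN N)]
    {e : ℕ} {g : G} (D : EmbDatum embC (QN N) (jF N)⁻¹ e g) :
    Module.finrank Kb⟮jF N⟯ (FN N) = dedekindPsi N := by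
  obtain ⟨ι, hinj, hφ, T, hT, -⟩ := D
  refine finrank_jF_of_ringHoms N ι hinj (fun q q' a => by rw [hφ, hφ]) (fun q q' => ?_)
  have h1 : ∀ q, ι q (jF N) = T⁻¹ := by
    intro q
    rw [← hT q, map_inv₀, inv_inv]
  rw [h1, h1]

end Fermat.Agent.S24
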