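/-
S24 block Scott (owner: helper39): permutation facts for three permutations with product one
generating a transitive group (parity of the Riemann–Hurwitz count and Scott's / Ree's bound).
Imports Mathlib only.
-/
import Mathlib

set_option autoImplicit false

namespace Fermat.Agent.S24.Scott

open Equiv Equiv.Perm

/-! ### Orbits of a permutation versus its cycle type -/

/-- For a permutation `σ` of a finite type and a setoid `s` whose classes are the cycles of `σ`
(including fixed points): `#classes + #support = #α + #cycles`. -/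
theorem card_quotient_add_card_support {α : Type*} [Fintype α] [DecidableEq α] (σ : Perm α)
    (s : Setoid α) (hs : ∀ x y, s x y ↔ σ.SameCycle x y) :
    Nat.card (Quotient s) + σ.support.card = Fintype.card α + Multiset.card σ.cycleType := by
  classical
  have hfix : ∀ x, x ∉ σ.support → x ∈ Function.fixedPoints σ := fun x h => by
    simpa [Function.mem_fixedPoints, Function.IsFixedPt] using h
  let F : α → (σ.cycleFactorsFinset ⊕ Function.fixedPoints σ) := fun x =>
    if h : x ∈ σ.support then Sum.inl ⟨σ.cycleOf x, cycleOf_mem_cycleFactorsFinset_iff.mpr h⟩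
    else Sum.inr ⟨x, hfix x h⟩
  have hF : ∀ x y, F x = F y ↔ σ.SameCycle x y := by
    intro x y
    by_cases hx : x ∈ σ.support <;> by_cases hy : y ∈ σ.support
    · simp only [F, dif_pos hx, dif_pos hy, Sum.inl.injEq, Subtype.mk.injEq]
      exact (sameCycle_iff_cycleOf_eq_of_mem_support hx hy).symm
    · simp only [F, dif_pos hx, dif_neg hy, reduceCtorEq, false_iff]
      intro h
      exact (mem_support.mp hx) (h.apply_eq_self_iff.mpr (notMem_support.mp hy))
    · simp only [F, dif_neg hx, dif_pos hy, reduceCtorEq, false_iff]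
      intro h
      exact (mem_support.mp hy) (h.apply_eq_self_iff.mp (notMem_support.mp hx))
    · simp only [F, dif_neg hx, dif_neg hy, Sum.inr.injEq, Subtype.mk.injEq]
      constructor
      · rintro rfl
        exact SameCycle.refl _ _
      · rintro ⟨i, hi⟩
        rw [← hi, zpow_apply_eq_self_of_apply_eq_self (notMem_support.mp hx)]
  have hsurj : Function.Surjective F := by
    rintro (⟨c, hc⟩ | ⟨x, hx⟩)
    · obtain ⟨a, ha⟩ := (mem_cycleFactorsFinset_iff.mp hc).1.nonempty_support
      have hca : c = σ.cycleOf a := cycle_is_cycleOf ha hc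
      have haσ : a ∈ σ.support := by
        rw [← cycleOf_mem_cycleFactorsFinset_iff, ← hca]
        exact hc
      refine ⟨a, ?_⟩
      simp only [F, dif_pos haσ]
      exact congrArg Sum.inl (Subtype.ext hca.symm)
    · have hx' : x ∉ σ.support := by
        rw [notMem_support]
        exact hx
      refine ⟨x, ?_⟩
      simp only [F, dif_neg hx']
  let e : Quotient s ≃ (σ.cycleFactorsFinset ⊕ Function.fixedPoints σ) :=
    Equiv.ofBijective (Quotient.lift F (fun x y h => (hF x y).mpr ((hs x y).mp h)))
      ⟨by
        rintro ⟨x⟩ ⟨y⟩ h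
        exact Quotient.sound ((hs x y).mpr ((hF x y).mp h)),
       fun z => by
        obtain ⟨x, rfl⟩ := hsurj z
        exact ⟨Quotient.mk s x, rfl⟩⟩
  rw [Nat.card_congr e, Nat.card_eq_fintype_card, Fintype.card_sum, Fintype.card_coe,
    card_fixedPoints, sum_cycleType, cycleType_def, Multiset.card_map]
  have := σ.support.card_le_univ
  have h2 : σ.cycleFactorsFinset.card = Multiset.card σ.cycleFactorsFinset.val := rfl
  omega

variable {G : Type*} [Group G] (X : Type*) [MulAction G X]

/-- The number of orbits of the cyclic group generated by `g` on `X`. -/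
noncomputable def cyc (g : G) : ℕ :=
  Nat.card (MulAction.orbitRel.Quotient (Subgroup.zpowers g) X)

/-- The orbit relation of `⟨g⟩` is the `SameCycle` relation of the permutation `x ↦ g • x`. -/
theorem orbitRel_zpowers_iff (g : G) (x y : X) :
    MulAction.orbitRel (Subgroup.zpowers g) X x y ↔ (MulAction.toPerm g : Perm X).SameCycle x y := by
  have hpow : ∀ (k : ℤ) (z : X), ((MulAction.toPerm g : Perm X) ^ k) z = g ^ k • z := by
    intro k z
    have h1 : (MulAction.toPerm g : Perm X) ^ k = MulAction.toPerm (g ^ k) := by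
      have := map_zpow (MulAction.toPermHom G X) g k
      exact this.symm
    rw [h1]
    rfl
  rw [MulAction.orbitRel_apply, MulAction.mem_orbit_iff]
  constructor
  · rintro ⟨⟨h, hh⟩, hxy⟩
    obtain ⟨k, rfl⟩ := Subgroup.mem_zpowers_iff.mp hh
    refine SameCycle.symm ⟨k, ?_⟩
    rw [hpow]
    exact hxy
  · rintro ⟨k, hk⟩
    rw [hpow] at hk
    refine ⟨⟨g ^ (-k), Subgroup.zpow_mem_zpowers g (-k)⟩, ?_⟩
    show g ^ (-k) • y = x
    rw [← hk, smul_smul, ← zpow_add]
    simp

/-- `#orbits + #support = #X + #cycles` for the permutation `x ↦ g • x`. -/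
theorem cyc_add_card_support [Fintype X] [DecidableEq X] (g : G) :
    cyc X g + (MulAction.toPerm g : Perm X).support.card =
      Fintype.card X + Multiset.card (MulAction.toPerm g : Perm X).cycleType :=
  card_quotient_add_card_support (MulAction.toPerm g : Perm X)
    (MulAction.orbitRel (Subgroup.zpowers g) X) (orbitRel_zpowers_iff X g)

/-- The sign of the permutation `x ↦ g • x` in terms of the number of orbits of `⟨g⟩`. -/
theorem sign_toPerm [Fintype X] [DecidableEq X] (g : G) :
    sign (MulAction.toPerm g : Perm X) = (-1 : ℤˣ) ^ (Fintype.card X + cyc X g) := by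
  have hA := cyc_add_card_support X g
  have key : ∀ m k : ℕ, m % 2 = k % 2 → (-1 : ℤˣ) ^ m = (-1) ^ k := by
    intro m k h
    rw [← Nat.mod_add_div m 2, ← Nat.mod_add_div k 2, pow_add, pow_add, pow_mul, pow_mul, h]
    simp
  rw [sign_of_cycleType, sum_cycleType]
  apply key
  omega

/-- The number of fixed points of `g` in terms of the support of `x ↦ g • x`. -/
theorem card_fixedBy_eq [Fintype X] [DecidableEq X] (g : G) :
    Nat.card (MulAction.fixedBy X g) =
      Fintype.card X - (MulAction.toPerm g : Perm X).support.card := by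
  have h1 : MulAction.fixedBy X g = Function.fixedPoints (MulAction.toPerm g : Perm X) := rfl
  rw [h1, Nat.card_eq_fintype_card, card_fixedPoints, sum_cycleType]

/-! ### Linear algebra on `X → ℚ` -/

/-- The translation operator `v ↦ (x ↦ v (g • x))` on functions `X → ℚ`. -/
def transl (g : G) : (X → ℚ) →ₗ[ℚ] (X → ℚ) := LinearMap.funLeft ℚ ℚ (fun x => g • x)

theorem transl_apply (g : G) (v : X → ℚ) (x : X) : transl X g v x = v (g • x) := rfl

theorem transl_one (v : X → ℚ) : transl X (1 : G) v = v := by
  ext x
  rw [transl_apply, one_smul]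

theorem transl_mul (g h : G) (v : X → ℚ) : transl X (g * h) v = transl X h (transl X g v) := by
  ext x
  rw [transl_apply, transl_apply, transl_apply, mul_smul]

/-- The subgroup of elements fixing a function `v : X → ℚ`. -/
def stab (v : X → ℚ) : Subgroup G where
  carrier := {g | ∀ x, v (g • x) = v x}
  mul_mem' := fun {g h} hg hh x => by rw [mul_smul, hg, hh]
  one_mem' := fun x => by rw [one_smul]
  inv_mem' := fun {g} hg x => by
    have := hg (g⁻¹ • x)
    rw [smul_inv_smul] at this
    exact this.symm

theorem mem_stab (v : X → ℚ) (g : G) : g ∈ stab X v ↔ ∀ x, v (g • x) = v x := Iff.rfl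

/-- The subspace of `g`-invariant functions. -/
def invSub (g : G) : Submodule ℚ (X → ℚ) where
  carrier := {v | ∀ x, v (g • x) = v x}
  add_mem' := fun {u v} hu hv x => by rw [Pi.add_apply, Pi.add_apply, hu, hv]
  zero_mem' := fun x => rfl
  smul_mem' := fun c v hv x => by rw [Pi.smul_apply, Pi.smul_apply, hv]

theorem mem_invSub (g : G) (v : X → ℚ) : v ∈ invSub X g ↔ ∀ x, v (g • x) = v x := Iff.rfl

theorem mem_invSub_iff_transl (g : G) (v : X → ℚ) : v ∈ invSub X g ↔ transl X g v = v :=
  ⟨fun h => funext h, fun h x => congrFun h x⟩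

/-- The dimension of the space of `g`-invariant functions is the number of orbits of `⟨g⟩`. -/
theorem finrank_invSub [Finite X] (g : G) : Module.finrank ℚ (invSub X g) = cyc X g := by
  classical
  have : Fintype (MulAction.orbitRel.Quotient (Subgroup.zpowers g) X) := Fintype.ofFinite _
  let q : X → MulAction.orbitRel.Quotient (Subgroup.zpowers g) X := Quotient.mk''
  have hq : Function.Surjective q := Quotient.mk''_surjective
  have hrange : invSub X g = LinearMap.range (LinearMap.funLeft ℚ ℚ q) := by
    ext v
    constructor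
    · intro hv
      have hle : Subgroup.zpowers g ≤ stab X v := by
        rw [Subgroup.zpowers_le]
        exact hv
      have hconst : ∀ x y : X, MulAction.orbitRel (Subgroup.zpowers g) X x y → v x = v y := by
        intro x y hxy
        rw [MulAction.orbitRel_apply, MulAction.mem_orbit_iff] at hxy
        obtain ⟨⟨h, hh⟩, rfl⟩ := hxy
        exact hle hh y
      refine ⟨Quotient.lift v hconst, ?_⟩
      ext x
      rfl
    · rintro ⟨f, rfl⟩ x
      show f (q (g • x)) = f (q x)
      congr 1
      apply Quotient.sound
      show MulAction.orbitRel (Subgroup.zpowers g) X (g • x) x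
      rw [MulAction.orbitRel_apply, MulAction.mem_orbit_iff]
      exact ⟨⟨g, Subgroup.mem_zpowers g⟩, rfl⟩
  rw [hrange, LinearMap.finrank_range_of_inj (LinearMap.funLeft_injective_of_surjective ℚ ℚ q hq),
    Module.finrank_fintype_fun_eq_card, cyc, Nat.card_eq_fintype_card]


/-- An invariant function for a transitive group generated by `a`, `b` is constant. -/
theorem eq_of_mem_invSub [MulAction.IsPretransitive G X] (a b : G)
    (hab : Subgroup.closure {a, b} = ⊤) (v : X → ℚ) (ha : v ∈ invSub X a) (hb : v ∈ invSub X b)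
    (x y : X) : v x = v y := by
  have hle : Subgroup.closure {a, b} ≤ stab X v := by
    rw [Subgroup.closure_le]
    rintro g (rfl | rfl)
    · exact ha
    · exact hb
  rw [hab] at hle
  obtain ⟨g, rfl⟩ := MulAction.exists_smul_eq G y x
  exact hle (Subgroup.mem_top g) y

/-- The range of `(u, w) ↦ (u - b·u) + b·(w - a·w)` has codimension at most one. -/
theorem card_le_finrank_range_add_one [Fintype X] [MulAction.IsPretransitive G X] (a b : G)
    (hab : Subgroup.closure {a, b} = ⊤)
    (δ : ((X → ℚ) × (X → ℚ)) →ₗ[ℚ] (X → ℚ))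
    (hδ : ∀ u w, δ (u, w) = (u - transl X b u) + transl X b (w - transl X a w)) :
    Fintype.card X ≤ Module.finrank ℚ (LinearMap.range δ) + 1 := by
  classical
  cases isEmpty_or_nonempty X with
  | inl hX => simp
  | inr hX =>
  obtain ⟨x₀⟩ := hX
  -- the subgroup of `g` with `v - g·v ∈ range δ` for all `v`
  let H : Subgroup G :=
    { carrier := {g | ∀ v : X → ℚ, v - transl X g v ∈ LinearMap.range δ}
      mul_mem' := fun {g h} hg hh v => by
        have h1 : v - transl X (g * h) v =
            (v - transl X g v) + (transl X g v - transl X h (transl X g v)) := by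
          rw [transl_mul]; abel
        rw [h1]
        exact Submodule.add_mem _ (hg v) (hh _)
      one_mem' := fun v => by
        rw [transl_one, sub_self]
        exact Submodule.zero_mem _
      inv_mem' := fun {g} hg v => by
        have h1 : v - transl X g⁻¹ v =
            -(transl X g⁻¹ v - transl X g (transl X g⁻¹ v)) := by
          rw [← transl_mul, inv_mul_cancel, transl_one]; abel
        rw [h1]
        exact Submodule.neg_mem _ (hg _) }
  have hbH : b ∈ H := fun u => ⟨(u, 0), by rw [hδ]; simp⟩
  have haH : a ∈ H := fun w => ⟨(w - transl X a w, w), by rw [hδ]; abel⟩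
  have hH : ∀ g : G, g ∈ H := by
    have hle : Subgroup.closure {a, b} ≤ H := by
      rw [Subgroup.closure_le]
      rintro g (rfl | rfl)
      · exact haH
      · exact hbH
    rw [hab] at hle
    exact fun g => hle (Subgroup.mem_top g)
  have hdiff : ∀ x : X, (Pi.single x (1 : ℚ) - Pi.single x₀ (1 : ℚ) : X → ℚ) ∈
      LinearMap.range δ := by
    intro x
    obtain ⟨g, hg⟩ := MulAction.exists_smul_eq G x₀ x
    have h1 : transl X g (Pi.single x (1 : ℚ)) = Pi.single x₀ (1 : ℚ) := by
      ext z
      rw [transl_apply, Pi.single_apply, Pi.single_apply]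
      have : g • z = x ↔ z = x₀ := by
        rw [← hg]
        exact (MulAction.injective g).eq_iff
      simp only [this]
    have := hH g (Pi.single x (1 : ℚ))
    rwa [h1] at this
  have htop : LinearMap.range δ ⊔ Submodule.span ℚ {(Pi.single x₀ (1 : ℚ) : X → ℚ)} = ⊤ := by
    rw [eq_top_iff]
    intro v _
    have hv : v = ∑ x, v x • (Pi.single x (1 : ℚ) : X → ℚ) := by
      ext z
      simp [Finset.sum_apply, Pi.single_apply]
    rw [hv]
    refine Submodule.sum_mem _ fun x _ => Submodule.smul_mem _ _ ?_
    have h2 : (Pi.single x (1 : ℚ) : X → ℚ) =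
        (Pi.single x (1 : ℚ) - Pi.single x₀ (1 : ℚ)) + Pi.single x₀ (1 : ℚ) := by abel
    rw [h2]
    exact Submodule.add_mem _ (Submodule.mem_sup_left (hdiff x))
      (Submodule.mem_sup_right (Submodule.mem_span_singleton_self _))
  have h3 := Submodule.finrank_add_le_finrank_add_finrank (LinearMap.range δ)
    (Submodule.span ℚ {(Pi.single x₀ (1 : ℚ) : X → ℚ)})
  rw [htop, finrank_top, Module.finrank_fintype_fun_eq_card] at h3
  have hne : (Pi.single x₀ (1 : ℚ) : X → ℚ) ≠ 0 := fun h => by
    have := congrFun h x₀
    simp at this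
  have h4 : Module.finrank ℚ (Submodule.span ℚ {(Pi.single x₀ (1 : ℚ) : X → ℚ)}) = 1 :=
    finrank_span_singleton hne
  omega


variable [Finite X]

/-- **Parity.** `n - cyc a`, `n - cyc b`, `n - cyc (a * b)` have even sum. -/
theorem scott_parity (a b : G) : Even (Nat.card X + cyc X a + cyc X b + cyc X (a * b)) := by
  classical
  have : Fintype X := Fintype.ofFinite X
  have h0 : (MulAction.toPerm (a * b) : Perm X) = MulAction.toPerm a * MulAction.toPerm b := by
    ext x
    exact mul_smul a b x
  have h1 : sign (MulAction.toPerm (a * b) : Perm X) =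
      sign (MulAction.toPerm a : Perm X) * sign (MulAction.toPerm b : Perm X) := by
    rw [h0, map_mul]
  rw [sign_toPerm, sign_toPerm, sign_toPerm, ← pow_add] at h1
  have h2 : (-1 : ℤˣ) ^ (Fintype.card X + cyc X (a * b) +
      (Fintype.card X + cyc X a + (Fintype.card X + cyc X b))) = 1 := by
    rw [pow_add, ← h1, ← pow_add]
    exact Even.neg_one_pow ⟨_, rfl⟩
  have h3 := (neg_one_pow_eq_one_iff_even (R := ℤˣ) (by decide)).mp h2
  rw [Nat.card_eq_fintype_card]
  rw [Nat.even_iff] at h3 ⊢
  omega

/-- Orbits of an element acting as an involution. -/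
theorem two_mul_cyc (a : G) (ha : ∀ x : X, a • a • x = x) :
    2 * cyc X a = Nat.card X + Nat.card (MulAction.fixedBy X a) := by
  classical
  have : Fintype X := Fintype.ofFinite X
  have hσ : (MulAction.toPerm a : Perm X) ^ 2 = 1 := by
    ext x
    rw [pow_two]
    exact ha x
  have : Fact (Nat.Prime 2) := ⟨Nat.prime_two⟩
  have hct := cycleType_of_pow_prime_eq_one hσ
  have hsum := sum_cycleType (MulAction.toPerm a : Perm X)
  rw [hct, Multiset.sum_replicate, smul_eq_mul] at hsum
  have hA := cyc_add_card_support X a
  have hle := (MulAction.toPerm a : Perm X).support.card_le_univ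
  rw [card_fixedBy_eq, Nat.card_eq_fintype_card]
  omega

/-- Orbits of an element acting with order dividing three. -/
theorem three_mul_cyc (g : G) (hg : ∀ x : X, g • g • g • x = x) :
    3 * cyc X g = Nat.card X + 2 * Nat.card (MulAction.fixedBy X g) := by
  classical
  have : Fintype X := Fintype.ofFinite X
  have hσ : (MulAction.toPerm g : Perm X) ^ 3 = 1 := by
    ext x
    rw [pow_succ, pow_two]
    exact hg x
  have : Fact (Nat.Prime 3) := ⟨Nat.prime_three⟩
  have hct := cycleType_of_pow_prime_eq_one hσ
  have hsum := sum_cycleType (MulAction.toPerm g : Perm X)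
  rw [hct, Multiset.sum_replicate, smul_eq_mul] at hsum
  have hA := cyc_add_card_support X g
  have hle := (MulAction.toPerm g : Perm X).support.card_le_univ
  rw [card_fixedBy_eq, Nat.card_eq_fintype_card]
  omega

/-- **Scott's lemma / Ree's bound** (nonnegativity of the Riemann–Hurwitz genus). -/
theorem scott_le [MulAction.IsPretransitive G X] (a b : G)
    (hab : Subgroup.closure {a, b} = ⊤) :
    cyc X a + cyc X b + cyc X (a * b) ≤ Nat.card X + 2 := by
  classical
  have : Fintype X := Fintype.ofFinite X
  cases isEmpty_or_nonempty X with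
  | inl hX =>
    have h0 : ∀ g : G, cyc X g = 0 := fun g => by
      unfold cyc
      rw [Nat.card_eq_zero]
      exact Or.inl ⟨fun q => Quotient.inductionOn' q fun x => hX.false x⟩
    rw [h0, h0, h0]
    omega
  | inr hX =>
  obtain ⟨x₀⟩ := hX
  let δ : ((X → ℚ) × (X → ℚ)) →ₗ[ℚ] (X → ℚ) :=
    (LinearMap.id - transl X b).coprod ((transl X b).comp (LinearMap.id - transl X a))
  have hδ : ∀ u w, δ (u, w) = (u - transl X b u) + transl X b (w - transl X a w) :=
    fun u w => by
      simp [δ, LinearMap.coprod_apply]
  have h4 := card_le_finrank_range_add_one X a b hab δ hδ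
  have h5 := LinearMap.finrank_range_add_finrank_ker δ
  rw [Module.finrank_prod, Module.finrank_fintype_fun_eq_card] at h5
  let ψ : (invSub X b × invSub X a × invSub X (a * b)) →ₗ[ℚ] ((X → ℚ) × (X → ℚ)) :=
    LinearMap.prod
      ((invSub X b).subtype.comp (LinearMap.fst ℚ _ _) +
        (invSub X (a * b)).subtype.comp ((LinearMap.snd ℚ _ _).comp (LinearMap.snd ℚ _ _)))
      ((invSub X a).subtype.comp ((LinearMap.fst ℚ _ _).comp (LinearMap.snd ℚ _ _)) +
        (invSub X (a * b)).subtype.comp ((LinearMap.snd ℚ _ _).comp (LinearMap.snd ℚ _ _)))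
  have hψ : ∀ z : invSub X b × invSub X a × invSub X (a * b),
      ψ z = ((z.1 : X → ℚ) + z.2.2, (z.2.1 : X → ℚ) + z.2.2) := fun z => rfl
  have hrange : LinearMap.range ψ ≤ LinearMap.ker δ := by
    rintro _ ⟨z, rfl⟩
    rw [LinearMap.mem_ker, hψ, hδ]
    have h1 : transl X b z.1 = z.1 := (mem_invSub_iff_transl X b _).mp z.1.2
    have h2 : transl X a z.2.1 = z.2.1 := (mem_invSub_iff_transl X a _).mp z.2.1.2
    have h3 : transl X b (transl X a z.2.2) = z.2.2 := by
      rw [← transl_mul]
      exact (mem_invSub_iff_transl X (a * b) _).mp z.2.2.2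
    simp only [map_add, map_sub, h1, h2, h3]
    abel
  have hker : Module.finrank ℚ (LinearMap.ker ψ) ≤ 1 := by
    let φ : LinearMap.ker ψ →ₗ[ℚ] ℚ :=
      (LinearMap.proj x₀).comp ((invSub X (a * b)).subtype.comp
        (((LinearMap.snd ℚ _ _).comp (LinearMap.snd ℚ _ _)).comp (LinearMap.ker ψ).subtype))
    have hφ : Function.Injective φ := by
      rw [injective_iff_map_eq_zero]
      rintro ⟨z, hz⟩ h0
      have h0' : (z.2.2 : X → ℚ) x₀ = 0 := h0
      rw [LinearMap.mem_ker, hψ, Prod.mk_eq_zero] at hz
      obtain ⟨hz1, hz2⟩ := hz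
      have hcb : (z.2.2 : X → ℚ) ∈ invSub X b := by
        have : (z.2.2 : X → ℚ) = -(z.1 : X → ℚ) := eq_neg_of_add_eq_zero_right hz1
        rw [this]
        exact Submodule.neg_mem _ z.1.2
      have hca : (z.2.2 : X → ℚ) ∈ invSub X a := by
        have : (z.2.2 : X → ℚ) = -(z.2.1 : X → ℚ) := eq_neg_of_add_eq_zero_right hz2
        rw [this]
        exact Submodule.neg_mem _ z.2.1.2
      have hconst := eq_of_mem_invSub X a b hab _ hca hcb
      have hc0 : (z.2.2 : X → ℚ) = 0 := by
        ext x
        rw [hconst x x₀]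
        exact h0'
      have h1 : (z.1 : X → ℚ) = 0 := by
        rw [hc0, add_zero] at hz1
        exact hz1
      have h2 : (z.2.1 : X → ℚ) = 0 := by
        rw [hc0, add_zero] at hz2
        exact hz2
      apply Subtype.ext
      show z = 0
      exact Prod.ext (Subtype.ext h1) (Prod.ext (Subtype.ext h2) (Subtype.ext hc0))
    have := LinearMap.finrank_le_finrank_of_injective hφ
    simpa using this
  have h6 := LinearMap.finrank_range_add_finrank_ker ψ
  rw [Module.finrank_prod, Module.finrank_prod, finrank_invSub, finrank_invSub,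
    finrank_invSub] at h6
  have h7 := Submodule.finrank_mono hrange
  rw [Nat.card_eq_fintype_card]
  omega


end Fermat.Agent.S24.Scott
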