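import Mathlib
import Fermat.Prelude.Def_ModularCurve_GenusNumerics
import Fermat.Agent.S20.Cosets
import Fermat.Agent.S20.CosetsCusp
import Fermat.Agent.S24.Scott

set_option autoImplicit false

/-!
# Orbit counts of `S`, `T`, `S*T` on `SL(2, ℤ) ⧸ Γ₀(N)` and the genus numerics
-/

namespace Fermat.Agent.S24.CosetOrbits

open Matrix MatrixGroups CongruenceSubgroup ModularCurve
open Fermat.Agent.S20 Fermat.Agent.S24.Scott

/-- number of orbits of `⟨g⟩` on the left cosets of `Γ₀(N)` -/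
noncomputable def orb (N : ℕ) (g : SL(2, ℤ)) : ℕ :=
  Nat.card (MulAction.orbitRel.Quotient (Subgroup.zpowers g) (SL(2, ℤ) ⧸ Gamma0 N))

theorem orb_eq_cyc (N : ℕ) (g : SL(2, ℤ)) : orb N g = cyc (SL(2, ℤ) ⧸ Gamma0 N) g := rfl

instance finite_quot (N : ℕ) [NeZero N] : Finite (SL(2, ℤ) ⧸ Gamma0 N) :=
  Subgroup.finite_quotient_of_finiteIndex

theorem S_smul_S_smul (N : ℕ) (x : SL(2, ℤ) ⧸ Gamma0 N) :
    ModularGroup.S • ModularGroup.S • x = x := by
  induction x using QuotientGroup.induction_on with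
  | H g =>
    have e00 : (ModularGroup.S * (ModularGroup.S * g)) 0 0 = - g 0 0 := by
      rw [CosetModel.S_mul_apply_zero_zero (ModularGroup.S * g), CosetModel.S_mul_apply_one_zero g]
    have e10 : (ModularGroup.S * (ModularGroup.S * g)) 1 0 = - g 1 0 := by
      rw [CosetModel.S_mul_apply_one_zero (ModularGroup.S * g), CosetModel.S_mul_apply_zero_zero g]
    rw [CosetModel.smul_mk, CosetModel.smul_mk, CosetModel.mk_eq_mk_iff, e00, e10]
    exact ⟨0, by ring⟩

theorem ST_smul_ST_smul_ST_smul (N : ℕ) (x : SL(2, ℤ) ⧸ Gamma0 N) :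
    (ModularGroup.S * ModularGroup.T) • (ModularGroup.S * ModularGroup.T) •
      (ModularGroup.S * ModularGroup.T) • x = x := by
  induction x using QuotientGroup.induction_on with
  | H g =>
    have h00 : ∀ h : SL(2, ℤ), (ModularGroup.S * ModularGroup.T * h) 0 0 = - h 1 0 := by
      intro h
      rw [mul_assoc, CosetModel.S_mul_apply_zero_zero (ModularGroup.T * h),
        CosetModel.T_mul_apply_one_zero h]
    have h10 : ∀ h : SL(2, ℤ), (ModularGroup.S * ModularGroup.T * h) 1 0 = h 0 0 + h 1 0 := by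
      intro h
      rw [mul_assoc, CosetModel.S_mul_apply_one_zero (ModularGroup.T * h),
        CosetModel.T_mul_apply_zero_zero h]
    set U := ModularGroup.S * ModularGroup.T with hU
    have e00 : (U * (U * (U * g))) 0 0 = - g 0 0 := by
      rw [h00 (U * (U * g)), h10 (U * g), h00 g, h10 g]; ring
    have e10 : (U * (U * (U * g))) 1 0 = - g 1 0 := by
      rw [h10 (U * (U * g)), h00 (U * g), h10 (U * g), h00 g, h10 g]; ring
    rw [CosetModel.smul_mk, CosetModel.smul_mk, CosetModel.smul_mk, CosetModel.mk_eq_mk_iff,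
      e00, e10]
    exact ⟨0, by ring⟩

theorem two_mul_orb_S (N : ℕ) [NeZero N] :
    2 * orb N ModularGroup.S = Nat.card (SL(2, ℤ) ⧸ Gamma0 N)
      + Nat.card (MulAction.fixedBy (SL(2, ℤ) ⧸ Gamma0 N) ModularGroup.S) :=
  two_mul_cyc _ _ (S_smul_S_smul N)

theorem three_mul_orb_ST (N : ℕ) [NeZero N] :
    3 * orb N (ModularGroup.S * ModularGroup.T) = Nat.card (SL(2, ℤ) ⧸ Gamma0 N)
      + 2 * Nat.card (MulAction.fixedBy (SL(2, ℤ) ⧸ Gamma0 N)
          (ModularGroup.S * ModularGroup.T)) :=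
  three_mul_cyc _ _ (ST_smul_ST_smul_ST_smul N)

theorem even_orb (N : ℕ) [NeZero N] :
    Even (Nat.card (SL(2, ℤ) ⧸ Gamma0 N) + orb N ModularGroup.S + orb N ModularGroup.T
      + orb N (ModularGroup.S * ModularGroup.T)) :=
  scott_parity _ ModularGroup.S ModularGroup.T

theorem orb_le (N : ℕ) [NeZero N] :
    orb N ModularGroup.S + orb N ModularGroup.T + orb N (ModularGroup.S * ModularGroup.T)
      ≤ Nat.card (SL(2, ℤ) ⧸ Gamma0 N) + 2 :=
  scott_le _ ModularGroup.S ModularGroup.T SpecialLinearGroup.SL2Z_generators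

/-- Genus numerics: with the four coset counts, `genusFormula N` is a natural number `g` and
`n - c₀ - c₁ - c_∞ + 2 = 2 g`. -/
theorem genus_assembly (N : ℕ) [NeZero N]
    (hQ : Nat.card (SL(2, ℤ) ⧸ Gamma0 N) = dedekindPsi N)
    (hS : Nat.card (MulAction.fixedBy (SL(2, ℤ) ⧸ Gamma0 N) ModularGroup.S) = nuTwo N)
    (hST : Nat.card (MulAction.fixedBy (SL(2, ℤ) ⧸ Gamma0 N)
        (ModularGroup.S * ModularGroup.T)) = nuThree N)
    (hT : orb N ModularGroup.T = cuspCount N) :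
    ∃ g : ℕ, (g : ℚ) = genusFormula N ∧
      (Nat.card (SL(2, ℤ) ⧸ Gamma0 N) : ℤ) - orb N (ModularGroup.S * ModularGroup.T)
        - orb N ModularGroup.S - orb N ModularGroup.T + 2 = 2 * g := by
  have h1 := two_mul_orb_S N
  have h2 := three_mul_orb_ST N
  have h3 := even_orb N
  have h4 := orb_le N
  obtain ⟨r, hr⟩ := h3
  -- n + cS + cT + cST = 2 r, and cS + cT + cST ≤ n + 2, so n + 1 - r ≥ 0
  have hr' : r ≤ Nat.card (SL(2, ℤ) ⧸ Gamma0 N) + 1 := by omega
  refine ⟨Nat.card (SL(2, ℤ) ⧸ Gamma0 N) + 1 - r, ?_, ?_⟩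
  · rw [genusFormula, ← hQ, ← hS, ← hST, ← hT]
    have e1 : (orb N ModularGroup.S : ℚ)
        = ((Nat.card (SL(2, ℤ) ⧸ Gamma0 N) : ℚ)
          + (Nat.card (MulAction.fixedBy (SL(2, ℤ) ⧸ Gamma0 N) ModularGroup.S) : ℚ)) / 2 := by
      have : (2 : ℚ) * orb N ModularGroup.S = (Nat.card (SL(2, ℤ) ⧸ Gamma0 N) : ℚ)
          + (Nat.card (MulAction.fixedBy (SL(2, ℤ) ⧸ Gamma0 N) ModularGroup.S) : ℚ) := by
        exact_mod_cast h1
      linarith
    have e2 : (orb N (ModularGroup.S * ModularGroup.T) : ℚ)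
        = ((Nat.card (SL(2, ℤ) ⧸ Gamma0 N) : ℚ)
          + 2 * (Nat.card (MulAction.fixedBy (SL(2, ℤ) ⧸ Gamma0 N)
              (ModularGroup.S * ModularGroup.T)) : ℚ)) / 3 := by
      have : (3 : ℚ) * orb N (ModularGroup.S * ModularGroup.T)
          = (Nat.card (SL(2, ℤ) ⧸ Gamma0 N) : ℚ)
          + 2 * (Nat.card (MulAction.fixedBy (SL(2, ℤ) ⧸ Gamma0 N)
              (ModularGroup.S * ModularGroup.T)) : ℚ) := by
        exact_mod_cast h2
      linarith
    have e3 : (2 : ℚ) * r = (Nat.card (SL(2, ℤ) ⧸ Gamma0 N) : ℚ) + orb N ModularGroup.S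
        + orb N ModularGroup.T + orb N (ModularGroup.S * ModularGroup.T) := by
      have : (Nat.card (SL(2, ℤ) ⧸ Gamma0 N) : ℚ) + orb N ModularGroup.S
        + orb N ModularGroup.T + orb N (ModularGroup.S * ModularGroup.T) = (r : ℚ) + r := by
        exact_mod_cast hr
      linarith
    rw [Nat.cast_sub hr']
    push_cast
    linarith
  · omega

theorem orb_T (N : ℕ) [NeZero N] : orb N ModularGroup.T = cuspCount N :=
  card_orbits_T N

/-- `2 · #(⟨S⟩-orbits) = ψ(N) + ν₂(N)`. -/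
theorem two_mul_orb_S' (N : ℕ) [NeZero N] :
    2 * orb N ModularGroup.S = dedekindPsi N + nuTwo N := by
  rw [two_mul_orb_S, card_Q, card_fixedBy_S]

/-- `3 · #(⟨ST⟩-orbits) = ψ(N) + 2 ν₃(N)`. -/
theorem three_mul_orb_ST' (N : ℕ) [NeZero N] :
    3 * orb N (ModularGroup.S * ModularGroup.T) = dedekindPsi N + 2 * nuThree N := by
  rw [three_mul_orb_ST, card_Q, card_fixedBy_ST]

/-- Final genus numerics (no hypotheses): `genusFormula N` is a natural number `g` with
`n - c₀ - c₁ - c_∞ + 2 = 2 g`, where `n = #(SL(2,ℤ) ⧸ Γ₀(N))` and `c₀, c₁, c_∞` are the numbers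
of orbits of `⟨ST⟩`, `⟨S⟩`, `⟨T⟩`. -/
theorem exists_genus (N : ℕ) [NeZero N] :
    ∃ g : ℕ, (g : ℚ) = genusFormula N ∧
      (Nat.card (SL(2, ℤ) ⧸ Gamma0 N) : ℤ) - orb N (ModularGroup.S * ModularGroup.T)
        - orb N ModularGroup.S - orb N ModularGroup.T + 2 = 2 * g :=
  genus_assembly N (card_Q N) (card_fixedBy_S N) (card_fixedBy_ST N) (orb_T N)

/-- Same, with `n` replaced by `dedekindPsi N` and `c_∞` by `cuspCount N`. -/
theorem exists_genus' (N : ℕ) [NeZero N] :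
    ∃ g : ℕ, (g : ℚ) = genusFormula N ∧
      (dedekindPsi N : ℤ) - orb N (ModularGroup.S * ModularGroup.T)
        - orb N ModularGroup.S - cuspCount N + 2 = 2 * g := by
  obtain ⟨g, h1, h2⟩ := exists_genus N
  refine ⟨g, h1, ?_⟩
  rw [← card_Q N, ← orb_T N]
  exact h2

/-- The shape used in the Riemann–Hurwitz assembly: if `d = n - c₀ - c₁ - c_∞` then
`(d + 2).toNat / 2 = genusFormula N`. -/
theorem toNat_div_two_eq_genusFormula (N : ℕ) [NeZero N] (d : ℤ)
    (hd : d = (Nat.card (SL(2, ℤ) ⧸ Gamma0 N) : ℤ) - orb N (ModularGroup.S * ModularGroup.T)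
      - orb N ModularGroup.S - orb N ModularGroup.T) :
    (((d + 2).toNat / 2 : ℕ) : ℚ) = genusFormula N := by
  obtain ⟨g, h1, h2⟩ := exists_genus N
  have h3 : d + 2 = 2 * g := by rw [hd]; exact h2
  have h4 : (d + 2).toNat / 2 = g := by
    rw [h3]
    have : ((2 : ℤ) * (g : ℤ)).toNat = 2 * g := by omega
    rw [this]
    exact Nat.mul_div_cancel_left g (by norm_num)
  rw [h4, h1]

/-- Variant with the Riemann–Hurwitz sum written as `(n - c₀) + (n - c₁) - n - c_∞`. -/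
theorem toNat_div_two_eq_genusFormula' (N : ℕ) [NeZero N] (d : ℤ)
    (hd : d = ((Nat.card (SL(2, ℤ) ⧸ Gamma0 N) : ℤ) - orb N (ModularGroup.S * ModularGroup.T))
      + ((Nat.card (SL(2, ℤ) ⧸ Gamma0 N) : ℤ) - orb N ModularGroup.S)
      - (Nat.card (SL(2, ℤ) ⧸ Gamma0 N) : ℤ) - orb N ModularGroup.T) :
    (((d + 2).toNat / 2 : ℕ) : ℚ) = genusFormula N :=
  toNat_div_two_eq_genusFormula N d (by rw [hd]; ring)

end Fermat.Agent.S24.CosetOrbits
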