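import Mathlib
import Fermat.Prelude.Def_ModularCurve_ArithmeticGalois
import Fermat.Prelude.Def_ModularCurve_GenusNumerics
import Fermat.Prelude.Def_AlgebraicCurve_CanonicalDivisor
import Fermat.Agent.S20.Cosets
import Fermat.Agent.S24.AnDefs
import Fermat.Agent.S24.ModAssemblyGen
import Fermat.Agent.S24.CosetOrbits
import Fermat.Agent.S24.AnDatum
import Fermat.Agent.S24.TranscJ
import Fermat.Agent.S24.AnDegreeMain

/-!
# S24 team library: modular assembly

OWNER: helper75 (only the owner edits this file).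

`genus_modular_of_data`: the genus formula for the function field of `X₀(N)` over `ℚ̄` from
* (AN3) `[F : K(j)] = ψ(N)`, `j` transcendental;
* the four embedding data (D1)–(D4) of `AnDatum.lean` (generic point, `ρ`, `i`, cusp);
* the coset numerics of `CosetOrbits.lean`.
-/

set_option autoImplicit false

namespace Fermat.Agent.S24

open AlgebraicCurve IntermediateField ModularCurve
open scoped MatrixGroups

namespace ModAssembly

theorem ofNat_1728_ne_zero : (0 : Kb) ≠ 1728 := by
  norm_num

end ModAssembly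

/-- **Modular assembly, hypothesis form.** -/
theorem genus_modular_of_data (N : ℕ) [NeZero N]
    [HasCanonicalDivisor (K := Kb) (F := FN N)]
    (htr : Transcendental Kb (jF N))
    (hfd : FiniteDimensional Kb⟮jF N⟯ (FN N))
    (hrank : Module.finrank Kb⟮jF N⟯ (FN N) = dedekindPsi N)
    (D1 : ∀ a : Kb, a ≠ 0 → a ≠ 1728 →
      EmbDatum embC (QN N) (jF N - algebraMap Kb (FN N) a) 1 (1 : SL(2, ℤ)))
    (D2 : EmbDatum embC (QN N) (jF N - algebraMap Kb (FN N) 0) 3
      (ModularGroup.S * ModularGroup.T))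
    (D3 : EmbDatum embC (QN N) (jF N - algebraMap Kb (FN N) 1728) 2 ModularGroup.S)
    (D4 : EmbDatum embC (QN N) (jF N)⁻¹ N ModularGroup.T) :
    (genus Kb (FN N) : ℚ) = genusFormula N := by
  have hF : IsFF1 Kb (FN N) := ⟨jF N, htr, hfd⟩
  have hX : Nat.card (QN N) = Module.finrank Kb⟮jF N⟯ (FN N) := by
    rw [hrank]
    exact Fermat.Agent.S20.card_Q N
  have hN : 0 < N := Nat.pos_of_ne_zero (NeZero.ne N)
  have key := ModAssemblyGen.genus_of_data hF htr hX embC (0 : Kb) (1728 : Kb)
    ModAssembly.ofNat_1728_ne_zero 3 2 N (by norm_num) (by norm_num) hN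
    (ModularGroup.S * ModularGroup.T) ModularGroup.S ModularGroup.T D1 D2 D3 D4
  rw [key]
  exact CosetOrbits.toNat_div_two_eq_genusFormula N _ rfl

/-- **Modular assembly from the embedding families** (`AnDatum.lean`: `HasTaylorEmb`,
`HasCuspEmb`) and the degree `[F : K(j)] = ψ(N)`. -/
theorem genus_modular_of_emb (N : ℕ) [NeZero N]
    [HasCanonicalDivisor (K := Kb) (F := FN N)]
    (hfd : FiniteDimensional Kb⟮jF N⟯ (FN N))
    (hrank : Module.finrank Kb⟮jF N⟯ (FN N) = dedekindPsi N)
    (hT : ∀ z₀ : UpperHalfPlane, HasTaylorEmb N z₀) (hC : HasCuspEmb N) :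
    (genus Kb (FN N) : ℚ) = genusFormula N :=
  genus_modular_of_data N (transcendental_jF N) hfd hrank
    (fun a h0 h1 => datum_generic hT a h0 h1) (datum_rho (hT _)) (datum_i (hT _))
    (datum_cusp hC)

/-- **Modular assembly from the two embedding families only** (the degree `[F : K(j)] = ψ(N)`
is supplied by `AnDegree`/`AnDegreeMain`). -/
theorem genus_modular_of_hasEmb (N : ℕ) [NeZero N]
    [HasCanonicalDivisor (K := Kb) (F := FN N)]
    (hT : ∀ z₀ : UpperHalfPlane, HasTaylorEmb N z₀) (hC : HasCuspEmb N) :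
    (genus Kb (FN N) : ℚ) = genusFormula N :=
  genus_modular_of_emb N (finiteDimensional_jF N) (finrank_jF_of_hasCuspEmb hC) hT hC

end Fermat.Agent.S24
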