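import Mathlib
import Fermat.Prelude.Def_ModularCurve_X0

/-!
# S24 analytic side: shift law and period-one comparison for `q_N`-expansions

OWNER: helper38 (only the owner edits this file).  Imports Mathlib + the prelude file defining
`ModularCurve.qExpand` only.

For `f : ℍ → ℂ` holomorphic, `N`-periodic (`f (N +ᵥ z) = f z`) and bounded at `i∞`:

* `qExpansion_shift_coeff` : the `q_N`-expansion of `z ↦ f (z - 1)` has `n`-th coefficient
  `exp(-2πi/N)^n` times that of `f`;
* `qExpansion_nat_coeff_of_periodic_one` : if `f` is even `1`-periodic, the `q_N`-expansion is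
  the `q`-expansion with `q = q_N ^ N`;
* `anCuspShift_rot ζ` : the coefficient twist `coeff n ↦ ζ ^ n * coeff n` as a ring endomorphism
  of `LaurentSeries ℂ`, and the Laurent-series forms of the two statements above
  (`ofPowerSeries_qExpansion_shift`, `ofPowerSeries_qExpansion_nat`);
* orders: `order_qExpansion_discriminant`, `order_qExpansion_E4`.
-/

set_option autoImplicit false

namespace Fermat.Agent.S24

open UpperHalfPlane Filter Topology Function ModularForm EisensteinSeries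
open scoped Real Manifold MatrixGroups ModularForm

local notation "𝕢" => Function.Periodic.qParam

/-- A function on `ℍ` invariant under `z ↦ h + z` gives an `h`-periodic function on `ℂ`. -/
theorem anCuspShift_periodic {h : ℝ} {f : ℍ → ℂ} (hf : ∀ z : ℍ, f (h +ᵥ z) = f z) :
    Periodic (f ∘ ofComplex) (h : ℂ) := by
  intro w
  by_cases hw : 0 < w.im
  · have hw' : 0 < (w + h).im := by simpa using hw
    simp only [comp_apply, ofComplex_apply_of_im_pos hw', ofComplex_apply_of_im_pos hw]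
    rw [← hf ⟨w, hw⟩]
    congr 1
    ext
    simp [add_comm]
  · have hw0 : w.im ≤ 0 := not_lt.mp hw
    have hw' : (w + h).im ≤ 0 := by simpa using hw0
    simp [ofComplex_apply_of_im_nonpos hw', ofComplex_apply_of_im_nonpos hw0]

/-- The real translate of a holomorphic function on `ℍ` is holomorphic. -/
theorem anCuspShift_mdiff {f : ℍ → ℂ} (hf : MDiff f) (x : ℝ) :
    MDiff (fun z : ℍ => f (x +ᵥ z)) := by
  rw [UpperHalfPlane.mdifferentiable_iff] at hf ⊢
  have h1 : DifferentiableOn ℂ (fun w : ℂ => (f ∘ ofComplex) ((x : ℂ) + w)) {w | 0 < w.im} := by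
    intro w hw
    have hw' : 0 < ((x : ℂ) + w).im := by simpa using hw
    have h2 : DifferentiableAt ℂ (f ∘ ofComplex) ((x : ℂ) + w) :=
      (hf _ hw').differentiableAt (isOpen_upperHalfPlaneSet.mem_nhds hw')
    have h3 : DifferentiableAt ℂ (fun w : ℂ => (x : ℂ) + w) w := by fun_prop
    exact (h2.comp w h3).differentiableWithinAt
  refine h1.congr fun w hw => ?_
  have hw' : 0 < ((x : ℂ) + w).im := by simpa using hw
  simp only [comp_apply, ofComplex_apply_of_im_pos hw, ofComplex_apply_of_im_pos hw']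
  congr 1

/-- The real translate of a function bounded at `i∞` is bounded at `i∞`. -/
theorem anCuspShift_bdd {f : ℍ → ℂ} (hf : IsBoundedAtImInfty f) (x : ℝ) :
    IsBoundedAtImInfty (fun z : ℍ => f (x +ᵥ z)) := by
  rw [isBoundedAtImInfty_iff] at hf ⊢
  obtain ⟨M, A, h⟩ := hf
  exact ⟨M, A, fun z hz => h _ (by simpa using hz)⟩

/-- Uniqueness of `q`-expansion coefficients for bare functions `ℍ → ℂ`. -/
theorem anCuspShift_coeff_unique {h : ℝ} {f : ℍ → ℂ} {c : ℕ → ℂ} (hh : 0 < h)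
    (han : AnalyticAt ℂ (cuspFunction h f) 0)
    (hf : ∀ τ : ℍ, HasSum (fun m : ℕ => c m • 𝕢 h (τ : ℂ) ^ m) (f τ)) (m : ℕ) :
    c m = (qExpansion h f).coeff m := by
  let _inst : FunLike (ℍ → ℂ) ℍ ℂ := ⟨id, fun _ _ h => h⟩
  exact qExpansion_coeff_unique (F := ℍ → ℂ) f hh han hf m

theorem anCuspShift_qParam_shift (N : ℕ) [NeZero N] (τ : ℍ) :
    𝕢 (N : ℝ) (((-1 : ℝ) +ᵥ τ : ℍ) : ℂ)
      = Complex.exp (-2 * π * Complex.I / N) * 𝕢 (N : ℝ) (τ : ℂ) := by
  have h : (((-1 : ℝ) +ᵥ τ : ℍ) : ℂ) = -1 + (τ : ℂ) := by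
    rw [UpperHalfPlane.coe_vadd]; push_cast; rfl
  rw [h]
  unfold Function.Periodic.qParam
  rw [← Complex.exp_add]
  congr 1
  push_cast
  ring

/-- **Shift law** for `q_N`-expansions: replacing `f` by `f(· − 1)` multiplies the `n`-th
coefficient of the `q_N`-expansion by `exp(-2πi/N)^n`. -/
theorem qExpansion_shift_coeff (N : ℕ) [NeZero N] {f : ℍ → ℂ} (hfhol : MDiff f)
    (hfper : ∀ z : ℍ, f ((N : ℝ) +ᵥ z) = f z) (hfbdd : IsBoundedAtImInfty f) (n : ℕ) :
    (qExpansion (N : ℝ) (fun z : ℍ => f ((-1 : ℝ) +ᵥ z))).coeff n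
      = Complex.exp (-2 * π * Complex.I / N) ^ n * (qExpansion (N : ℝ) f).coeff n := by
  have hN : (0 : ℝ) < N := Nat.cast_pos.mpr (NeZero.pos N)
  set g : ℍ → ℂ := fun z : ℍ => f ((-1 : ℝ) +ᵥ z) with hg
  have hgper : ∀ z : ℍ, g ((N : ℝ) +ᵥ z) = g z := by
    intro z
    simp only [hg]
    rw [vadd_comm, hfper]
  have hgan : AnalyticAt ℂ (cuspFunction (N : ℝ) g) 0 :=
    analyticAt_cuspFunction_zero hN (anCuspShift_periodic hgper) (anCuspShift_mdiff hfhol _)
      (anCuspShift_bdd hfbdd _)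
  have hsum : ∀ τ : ℍ, HasSum (fun m : ℕ =>
      (Complex.exp (-2 * π * Complex.I / N) ^ m * (qExpansion (N : ℝ) f).coeff m)
        • 𝕢 (N : ℝ) (τ : ℂ) ^ m) (g τ) := by
    intro τ
    have h1 := hasSum_qExpansion hN (anCuspShift_periodic hfper) hfhol hfbdd ((-1 : ℝ) +ᵥ τ)
    rw [anCuspShift_qParam_shift] at h1
    convert h1 using 2 with m
    simp only [smul_eq_mul]
    ring
  exact (anCuspShift_coeff_unique hN hgan hsum n).symm

/-- **Period-one comparison**: for a `1`-periodic `f`, the `q_N`-expansion is obtained from the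
`q`-expansion by `q = q_N ^ N`. -/
theorem qExpansion_nat_coeff_of_periodic_one (N : ℕ) [NeZero N] {f : ℍ → ℂ} (hfhol : MDiff f)
    (hfper : ∀ z : ℍ, f ((1 : ℝ) +ᵥ z) = f z) (hfbdd : IsBoundedAtImInfty f) (n : ℕ) :
    (qExpansion (N : ℝ) f).coeff n
      = if N ∣ n then (qExpansion (1 : ℝ) f).coeff (n / N) else 0 := by
  have hN : (0 : ℝ) < N := Nat.cast_pos.mpr (NeZero.pos N)
  have hN0 : N ≠ 0 := NeZero.ne N
  have hper1 : Periodic (f ∘ ofComplex) ((1 : ℝ) : ℂ) := anCuspShift_periodic hfper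
  have hperN : Periodic (f ∘ ofComplex) ((N : ℝ) : ℂ) := by
    have := hper1.nat_mul N
    simpa using this
  have han : AnalyticAt ℂ (cuspFunction (N : ℝ) f) 0 :=
    analyticAt_cuspFunction_zero hN hperN hfhol hfbdd
  set c : ℕ → ℂ := fun n => if N ∣ n then (qExpansion (1 : ℝ) f).coeff (n / N) else 0 with hc
  have hsum : ∀ τ : ℍ, HasSum (fun m : ℕ => c m • 𝕢 (N : ℝ) (τ : ℂ) ^ m) (f τ) := by
    intro τ
    have h1 := hasSum_qExpansion one_pos hper1 hfhol hfbdd τ
    have hq : 𝕢 (1 : ℝ) (τ : ℂ) = 𝕢 (N : ℝ) (τ : ℂ) ^ N := by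
      unfold Function.Periodic.qParam
      rw [← Complex.exp_nat_mul]
      congr 1
      have : ((N : ℝ) : ℂ) ≠ 0 := by exact_mod_cast hN.ne'
      push_cast
      field_simp
    have hinj : Function.Injective (fun m : ℕ => N * m) :=
      fun a b hab => Nat.eq_of_mul_eq_mul_left (Nat.pos_of_ne_zero hN0) hab
    rw [← hinj.hasSum_iff]
    · convert h1 using 2 with m
      simp only [comp_apply, hc, dvd_mul_right, if_true,
        Nat.mul_div_cancel_left _ (Nat.pos_of_ne_zero hN0)]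
      rw [hq, ← pow_mul]
    · intro m hm
      have : ¬ N ∣ m := fun ⟨k, hk⟩ => hm ⟨k, hk.symm⟩
      simp [hc, this]
  exact (anCuspShift_coeff_unique hN han hsum n).symm

theorem qExpansion_nat_coeff_mul_of_periodic_one (N : ℕ) [NeZero N] {f : ℍ → ℂ} (hfhol : MDiff f)
    (hfper : ∀ z : ℍ, f ((1 : ℝ) +ᵥ z) = f z) (hfbdd : IsBoundedAtImInfty f) (k : ℕ) :
    (qExpansion (N : ℝ) f).coeff (N * k) = (qExpansion (1 : ℝ) f).coeff k := by
  rw [qExpansion_nat_coeff_of_periodic_one N hfhol hfper hfbdd, if_pos (dvd_mul_right N k),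
    Nat.mul_div_cancel_left _ (Nat.pos_of_ne_zero (NeZero.ne N))]

theorem qExpansion_nat_coeff_of_not_dvd (N : ℕ) [NeZero N] {f : ℍ → ℂ} (hfhol : MDiff f)
    (hfper : ∀ z : ℍ, f ((1 : ℝ) +ᵥ z) = f z) (hfbdd : IsBoundedAtImInfty f) {n : ℕ}
    (hn : ¬ N ∣ n) : (qExpansion (N : ℝ) f).coeff n = 0 := by
  rw [qExpansion_nat_coeff_of_periodic_one N hfhol hfper hfbdd, if_neg hn]

/-! ### The coefficient twist on Laurent series -/

/-- Coefficient twist `coeff n ↦ ζ ^ n * coeff n` on Laurent series (underlying function). -/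
noncomputable def anCuspShift_rotFun (ζ : ℂˣ) (x : LaurentSeries ℂ) : LaurentSeries ℂ :=
  ⟨fun n : ℤ => ((ζ : ℂ) ^ n) * x.coeff n, x.isPWO_support.mono (by
      intro n hn
      simp only [Function.mem_support, ne_eq, mul_eq_zero, not_or] at hn
      exact hn.2)⟩

@[simp] theorem anCuspShift_rotFun_coeff (ζ : ℂˣ) (x : LaurentSeries ℂ) (n : ℤ) :
    (anCuspShift_rotFun ζ x).coeff n = ((ζ : ℂ) ^ n) * x.coeff n := rfl

theorem anCuspShift_rotFun_support (ζ : ℂˣ) (x : LaurentSeries ℂ) :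
    (anCuspShift_rotFun ζ x).support = x.support := by
  ext k
  simp only [HahnSeries.mem_support, anCuspShift_rotFun_coeff, ne_eq, mul_eq_zero, not_or]
  exact ⟨fun h => h.2, fun h => ⟨zpow_ne_zero _ ζ.ne_zero, h⟩⟩

theorem anCuspShift_rotFun_mul (ζ : ℂˣ) (x y : LaurentSeries ℂ) :
    anCuspShift_rotFun ζ (x * y) = anCuspShift_rotFun ζ x * anCuspShift_rotFun ζ y := by
  ext n
  rw [anCuspShift_rotFun_coeff, HahnSeries.coeff_mul, HahnSeries.coeff_mul, Finset.mul_sum]
  refine Finset.sum_congr ?_ ?_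
  · ext ij
    simp only [Finset.mem_antidiagonal, anCuspShift_rotFun_support]
  · intro ij hij
    have hsum : ij.1 + ij.2 = n := (Finset.mem_antidiagonal.mp hij).2.2
    rw [anCuspShift_rotFun_coeff, anCuspShift_rotFun_coeff, ← hsum, zpow_add₀ ζ.ne_zero]
    ring

/-- Coefficient twist `coeff n ↦ ζ ^ n * coeff n` on Laurent series, as a ring homomorphism. -/
noncomputable def anCuspShift_rot (ζ : ℂˣ) : LaurentSeries ℂ →+* LaurentSeries ℂ where
  toFun := anCuspShift_rotFun ζ
  map_one' := by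
    ext n
    by_cases hn : n = 0
    · subst hn; simp
    · simp [HahnSeries.coeff_one, hn]
  map_mul' := anCuspShift_rotFun_mul ζ
  map_zero' := by
    ext n
    simp
  map_add' x y := by
    ext n
    simp [mul_add]

@[simp] theorem anCuspShift_rot_coeff (ζ : ℂˣ) (x : LaurentSeries ℂ) (n : ℤ) :
    (anCuspShift_rot ζ x).coeff n = ((ζ : ℂ) ^ n) * x.coeff n := rfl

/-- The unit `exp(-2πi/N)` by which the shift `z ↦ z - 1` acts on `q_N`. -/
noncomputable def anCuspShift_unit (N : ℕ) : ℂˣ :=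
  Units.mk0 (Complex.exp (-2 * π * Complex.I / N)) (Complex.exp_ne_zero _)

@[simp] theorem anCuspShift_unit_coe (N : ℕ) :
    ((anCuspShift_unit N : ℂˣ) : ℂ) = Complex.exp (-2 * π * Complex.I / N) := rfl

/-- Laurent-series form of the shift law. -/
theorem ofPowerSeries_qExpansion_shift (N : ℕ) [NeZero N] {f : ℍ → ℂ} (hfhol : MDiff f)
    (hfper : ∀ z : ℍ, f ((N : ℝ) +ᵥ z) = f z) (hfbdd : IsBoundedAtImInfty f) :
    HahnSeries.ofPowerSeries ℤ ℂ (qExpansion (N : ℝ) (fun z : ℍ => f ((-1 : ℝ) +ᵥ z)))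
      = anCuspShift_rot (anCuspShift_unit N)
          (HahnSeries.ofPowerSeries ℤ ℂ (qExpansion (N : ℝ) f)) := by
  ext k
  rw [anCuspShift_rot_coeff]
  rcases lt_or_ge k 0 with hk | hk
  · rw [ModularCurve.ofPowerSeries_coeff_of_neg _ hk, ModularCurve.ofPowerSeries_coeff_of_neg _ hk,
      mul_zero]
  · obtain ⟨n, rfl⟩ := Int.eq_ofNat_of_zero_le hk
    rw [HahnSeries.ofPowerSeries_apply_coeff, HahnSeries.ofPowerSeries_apply_coeff,
      qExpansion_shift_coeff N hfhol hfper hfbdd, zpow_natCast, anCuspShift_unit_coe]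

/-- Laurent-series form of the period-one comparison: the `q_N`-expansion of a `1`-periodic
function is `ModularCurve.qExpand ℂ N` (i.e. `q ↦ q ^ N`) of its `q`-expansion. -/
theorem ofPowerSeries_qExpansion_nat (N : ℕ) [NeZero N] {f : ℍ → ℂ} (hfhol : MDiff f)
    (hfper : ∀ z : ℍ, f ((1 : ℝ) +ᵥ z) = f z) (hfbdd : IsBoundedAtImInfty f) :
    HahnSeries.ofPowerSeries ℤ ℂ (qExpansion (N : ℝ) f)
      = ModularCurve.qExpand ℂ N (HahnSeries.ofPowerSeries ℤ ℂ (qExpansion (1 : ℝ) f)) := by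
  have hN0 : (N : ℤ) ≠ 0 := by exact_mod_cast NeZero.ne N
  have hNpos : (0 : ℤ) < N := by exact_mod_cast NeZero.pos N
  ext k
  by_cases hdvd : (N : ℤ) ∣ k
  · obtain ⟨m, rfl⟩ := hdvd
    rw [ModularCurve.qExpand_coeff_mul]
    rcases lt_or_ge m 0 with hm | hm
    · rw [ModularCurve.ofPowerSeries_coeff_of_neg _ hm,
        ModularCurve.ofPowerSeries_coeff_of_neg _ (mul_neg_of_pos_of_neg hNpos hm)]
    · obtain ⟨j, rfl⟩ := Int.eq_ofNat_of_zero_le hm
      have hcast : (N : ℤ) * (j : ℤ) = ((N * j : ℕ) : ℤ) := by push_cast; rfl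
      rw [hcast, HahnSeries.ofPowerSeries_apply_coeff, HahnSeries.ofPowerSeries_apply_coeff,
        qExpansion_nat_coeff_mul_of_periodic_one N hfhol hfper hfbdd]
  · rw [ModularCurve.qExpand_coeff_of_not_dvd N _ hdvd]
    rcases lt_or_ge k 0 with hk | hk
    · rw [ModularCurve.ofPowerSeries_coeff_of_neg _ hk]
    · obtain ⟨n, rfl⟩ := Int.eq_ofNat_of_zero_le hk
      have hn : ¬ N ∣ n := fun h => hdvd (Int.natCast_dvd_natCast.mpr h)
      rw [HahnSeries.ofPowerSeries_apply_coeff,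
        qExpansion_nat_coeff_of_not_dvd N hfhol hfper hfbdd hn]

/-! ### Level-one forms and orders -/

/-- For a level-one modular form, the `q_N`-expansion is `qExpand N` of the `q`-expansion. -/
theorem ofPowerSeries_qExpansion_nat_of_modularForm (N : ℕ) [NeZero N] {F : Type*}
    [FunLike F ℍ ℂ] {k : ℤ} [ModularFormClass F 𝒮ℒ k] (f : F) :
    HahnSeries.ofPowerSeries ℤ ℂ (qExpansion (N : ℝ) (⇑f))
      = ModularCurve.qExpand ℂ N (HahnSeries.ofPowerSeries ℤ ℂ (qExpansion (1 : ℝ) (⇑f))) :=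
  ofPowerSeries_qExpansion_nat N (ModularFormClass.holo f)
    (fun z => SlashInvariantForm.vAdd_apply_of_mem_strictPeriods f z one_mem_strictPeriods_SL)
    (ModularFormClass.bdd_at_infty f)

theorem anCuspShift_order_eq {x : LaurentSeries ℂ} {n : ℤ} (hn : x.coeff n ≠ 0)
    (hlt : ∀ j < n, x.coeff j = 0) : x.order = n := by
  have hx : x ≠ 0 := by
    rintro rfl
    exact hn (by simp)
  exact le_antisymm (HahnSeries.order_le_of_coeff_ne_zero hn)
    ((HahnSeries.le_order_iff_forall hx).mpr hlt)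

/-- `qExpand N` (i.e. `q ↦ q ^ N`) multiplies the order of a Laurent series by `N`. -/
theorem order_qExpand (N : ℕ) [NeZero N] (x : LaurentSeries ℂ) :
    (ModularCurve.qExpand ℂ N x).order = (N : ℤ) * x.order := by
  have hNpos : (0 : ℤ) < N := by exact_mod_cast NeZero.pos N
  rcases eq_or_ne x 0 with rfl | hx
  · simp
  · apply anCuspShift_order_eq
    · rw [ModularCurve.qExpand_coeff_mul]
      exact fun h => hx (HahnSeries.coeff_order_eq_zero.mp h)
    · intro j hj
      by_cases hdvd : (N : ℤ) ∣ j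
      · obtain ⟨m, rfl⟩ := hdvd
        rw [ModularCurve.qExpand_coeff_mul]
        exact HahnSeries.coeff_eq_zero_of_lt_order (lt_of_mul_lt_mul_left hj hNpos.le)
      · exact ModularCurve.qExpand_coeff_of_not_dvd N _ hdvd

/-- The `q_N`-expansion of `Δ` has order exactly `N`. -/
theorem order_qExpansion_discriminant (N : ℕ) [NeZero N] :
    (HahnSeries.ofPowerSeries ℤ ℂ (qExpansion (N : ℝ) ModularForm.discriminant)).order = N := by
  have h := ofPowerSeries_qExpansion_nat_of_modularForm N CuspForm.discriminant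
  rw [CuspForm.coe_discriminant] at h
  rw [h, order_qExpand]
  have h1 : (HahnSeries.ofPowerSeries ℤ ℂ (qExpansion (1 : ℝ) ModularForm.discriminant)).order
      = 1 := by
    apply anCuspShift_order_eq
    · have := HahnSeries.ofPowerSeries_apply_coeff (Γ := ℤ)
        (qExpansion (1 : ℝ) ModularForm.discriminant) 1
      rw [Nat.cast_one] at this
      rw [this, discriminant_qExpansion_coeff_one]
      exact one_ne_zero
    · intro j hj
      rcases lt_or_ge j 0 with hj0 | hj0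
      · exact ModularCurve.ofPowerSeries_coeff_of_neg _ hj0
      · have hj' : j = ((0 : ℕ) : ℤ) := by omega
        rw [hj', HahnSeries.ofPowerSeries_apply_coeff]
        exact CuspFormClass.qExpansion_coeff_zero CuspForm.discriminant one_pos
          one_mem_strictPeriods_SL
  rw [h1, mul_one]

/-- The `q_N`-expansion of `E₄` has order `0` (constant term `1`). -/
theorem order_qExpansion_E4 (N : ℕ) [NeZero N] :
    (HahnSeries.ofPowerSeries ℤ ℂ (qExpansion (N : ℝ) (⇑E₄))).order = 0 := by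
  rw [ofPowerSeries_qExpansion_nat_of_modularForm N E₄, order_qExpand]
  have h1 : (HahnSeries.ofPowerSeries ℤ ℂ (qExpansion (1 : ℝ) (⇑E₄))).order = 0 := by
    apply anCuspShift_order_eq
    · have := HahnSeries.ofPowerSeries_apply_coeff (Γ := ℤ) (qExpansion (1 : ℝ) (⇑E₄)) 0
      rw [Nat.cast_zero] at this
      rw [this, E_qExpansion_coeff_zero (k := 4) (by norm_num) ⟨2, rfl⟩]
      exact one_ne_zero
    · intro j hj
      exact ModularCurve.ofPowerSeries_coeff_of_neg _ hj
  rw [h1, mul_zero]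

end Fermat.Agent.S24
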