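import Mathlib
import Fermat.Agent.S24.AnCusp
import Fermat.Agent.S24.AnCuspShift
import Fermat.Agent.LevelOne.JCusp

/-!
# S24 analytic side: shift law and orders for the cusp expansion `cuspHom`

OWNER: helper38 (only the owner edits this file).  Everything lives in the sub-namespace
`Fermat.Agent.S24.AnCuspOrd` (parallel hedge of `AnCuspTwist` / `AnCuspPeriod` / `AnCuspOrder`;
the sub-namespace avoids name clashes with those files).

* `cuspHom_shift` / `cuspHom_shift_coeff` : the shift `f ↦ f(· − 1)` acts on the `q_N`-Laurent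
  expansion by the coefficient twist `coeff n ↦ exp(-2πi/N)^n * coeff n`;
* `cuspHom_eq_qExpand` : on `1`-periodic functions, `cuspHom N = qExpand ℂ N ∘ cuspHom 1`;
* orders: `cuspHom_discriminant_order` (`= N`), `cuspHom_E4_order` (`= 0`),
  `cuspHom_jFun_order` (`= -N`), `cuspHom_jFun_inv_order` (`= N`).
-/

set_option autoImplicit false

namespace Fermat.Agent.S24

open UpperHalfPlane ModularForm EisensteinSeries Filter Function
open scoped MatrixGroups ModularForm Manifold Topology Real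
open Fermat.Agent.LevelOne

local notation "Δ" => ModularForm.discriminant

namespace AnCuspOrd

/-! ### The shift law -/

theorem anCuspOrd_rot_cuspDelta (N : ℕ) [NeZero N] :
    anCuspShift_rot (anCuspShift_unit N) (cuspDelta N) = cuspDelta N := by
  have hΔ : ∀ z : ℍ, Δ ((-1 : ℝ) +ᵥ z) = Δ z := fun z => by
    simpa using discriminant_vadd_int (-1) z
  have hΔshift : (fun z : ℍ => (Δ : ℍ → ℂ) ((-1 : ℝ) +ᵥ z)) = Δ := funext hΔ
  have h := ofPowerSeries_qExpansion_shift N (f := Δ) (discriminant_mem_bddSub N).1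
    (discriminant_mem_bddSub N).2.1 (discriminant_mem_bddSub N).2.2
  rw [hΔshift] at h
  exact h.symm

/-- The shift `f ↦ f(· − 1)` acts on the cusp expansion by the coefficient twist with
`exp(-2πi/N)` (function-level version). -/
theorem cuspFun_shift (N : ℕ) [NeZero N] {f : ℍ → ℂ} (hf : f ∈ merSub N) :
    cuspFun N (fun z : ℍ => f ((-1 : ℝ) +ᵥ z))
      = anCuspShift_rot (anCuspShift_unit N) (cuspFun N f) := by
  obtain ⟨m, hm⟩ := hf.2.2
  have hΔ : ∀ z : ℍ, Δ ((-1 : ℝ) +ᵥ z) = Δ z := fun z => by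
    simpa using discriminant_vadd_int (-1) z
  have hg : (fun z => Δ z ^ m * f z) ∈ bddSub N := discriminant_pow_mul_mem_bddSub hf hm
  have hfun : (fun z : ℍ => Δ z ^ m * f ((-1 : ℝ) +ᵥ z))
      = fun z : ℍ => Δ ((-1 : ℝ) +ᵥ z) ^ m * f ((-1 : ℝ) +ᵥ z) := by
    funext z
    rw [hΔ]
  have hm' : IsBoundedAtImInfty (fun z : ℍ => Δ z ^ m * f ((-1 : ℝ) +ᵥ z)) := by
    rw [hfun]
    exact anCuspShift_bdd (f := fun z => Δ z ^ m * f z) hm _
  have e1 : cuspFun N (fun z : ℍ => f ((-1 : ℝ) +ᵥ z))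
      = HahnSeries.ofPowerSeries ℤ ℂ
          (qExpansion (N : ℝ) (fun z : ℍ => Δ z ^ m * f ((-1 : ℝ) +ᵥ z))) / cuspDelta N ^ m :=
    cuspFun_eq (f := fun z : ℍ => f ((-1 : ℝ) +ᵥ z)) (shift_mem_merSub hf) hm'
  have e2 : cuspFun N f
      = HahnSeries.ofPowerSeries ℤ ℂ (qExpansion (N : ℝ) (fun z : ℍ => Δ z ^ m * f z))
          / cuspDelta N ^ m :=
    cuspFun_eq (f := f) hf hm
  have e3 : HahnSeries.ofPowerSeries ℤ ℂ
      (qExpansion (N : ℝ) (fun z : ℍ => Δ z ^ m * f ((-1 : ℝ) +ᵥ z)))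
      = anCuspShift_rot (anCuspShift_unit N)
          (HahnSeries.ofPowerSeries ℤ ℂ (qExpansion (N : ℝ) (fun z : ℍ => Δ z ^ m * f z))) := by
    rw [hfun]
    exact ofPowerSeries_qExpansion_shift N (f := fun z => Δ z ^ m * f z) hg.1 hg.2.1 hg.2.2
  rw [e1, e2, map_div₀, map_pow, anCuspOrd_rot_cuspDelta, e3]

/-- The shift `f ↦ f(· − 1)` acts on `cuspHom N` by the coefficient twist with
`exp(-2πi/N)`. -/
theorem cuspHom_shift (N : ℕ) [NeZero N] {f : ℍ → ℂ} (hf : f ∈ merSub N) :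
    cuspHom N ⟨fun z : ℍ => f ((-1 : ℝ) +ᵥ z), shift_mem_merSub hf⟩
      = anCuspShift_rot (anCuspShift_unit N) (cuspHom N ⟨f, hf⟩) :=
  cuspFun_shift N hf

/-- Coefficientwise form of the shift law. -/
theorem cuspHom_shift_coeff (N : ℕ) [NeZero N] {f : ℍ → ℂ} (hf : f ∈ merSub N) (n : ℤ) :
    (cuspHom N ⟨fun z : ℍ => f ((-1 : ℝ) +ᵥ z), shift_mem_merSub hf⟩).coeff n
      = Complex.exp (-2 * π * Complex.I / N) ^ n * (cuspHom N ⟨f, hf⟩).coeff n := by
  rw [cuspHom_shift N hf, anCuspShift_rot_coeff, anCuspShift_unit_coe]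

/-! ### Period-one functions -/

theorem anCuspOrd_vadd_nat {f : ℍ → ℂ} (h1 : ∀ z : ℍ, f ((1 : ℝ) +ᵥ z) = f z) (N : ℕ) (z : ℍ) :
    f ((N : ℝ) +ᵥ z) = f z := by
  induction N with
  | zero => simp
  | succ n ih =>
    have : ((n + 1 : ℕ) : ℝ) +ᵥ z = (1 : ℝ) +ᵥ ((n : ℝ) +ᵥ z) := by
      rw [← add_vadd]
      congr 1
      push_cast
      ring
    rw [this, h1, ih]

/-- `1`-periodic functions are `N`-periodic. -/
theorem merSub_one_le (N : ℕ) : merSub 1 ≤ merSub N := by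
  rintro f ⟨hf1, hf2, hf3⟩
  refine ⟨hf1, fun z => anCuspOrd_vadd_nat (fun w => ?_) N z, hf3⟩
  have := hf2 w
  simpa using this

theorem anCuspOrd_cuspDelta_eq (N : ℕ) [NeZero N] :
    cuspDelta N = ModularCurve.qExpand ℂ N (cuspDelta 1) := by
  have h := ofPowerSeries_qExpansion_nat_of_modularForm N CuspForm.discriminant
  rw [CuspForm.coe_discriminant] at h
  rw [cuspDelta, cuspDelta, Nat.cast_one]
  exact h

/-- On `1`-periodic functions, the `q_N`-expansion is `q ↦ q ^ N` applied to the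
`q`-expansion (function-level version). -/
theorem cuspFun_eq_qExpand (N : ℕ) [NeZero N] {f : ℍ → ℂ} (hf : f ∈ merSub 1) :
    cuspFun N f = ModularCurve.qExpand ℂ N (cuspFun 1 f) := by
  obtain ⟨m, hm⟩ := hf.2.2
  have hfN : f ∈ merSub N := merSub_one_le N hf
  have hg : (fun z => Δ z ^ m * f z) ∈ bddSub 1 := discriminant_pow_mul_mem_bddSub hf hm
  have hper : ∀ z : ℍ, (fun z => Δ z ^ m * f z) ((1 : ℝ) +ᵥ z) = (fun z => Δ z ^ m * f z) z := by
    intro z
    have := hg.2.1 z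
    simpa using this
  have e1 : cuspFun N f
      = HahnSeries.ofPowerSeries ℤ ℂ (qExpansion (N : ℝ) (fun z : ℍ => Δ z ^ m * f z))
          / cuspDelta N ^ m :=
    cuspFun_eq (f := f) hfN hm
  have e2 : cuspFun 1 f
      = HahnSeries.ofPowerSeries ℤ ℂ (qExpansion (1 : ℝ) (fun z : ℍ => Δ z ^ m * f z))
          / cuspDelta 1 ^ m := by
    have := cuspFun_eq (N := 1) (f := f) hf hm
    rw [Nat.cast_one] at this
    exact this
  have e3 := ofPowerSeries_qExpansion_nat N (f := fun z => Δ z ^ m * f z) hg.1 hper hg.2.2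
  rw [e1, e2, map_div₀, map_pow, ← anCuspOrd_cuspDelta_eq, e3]

/-- On `1`-periodic functions, `cuspHom N = qExpand ℂ N ∘ cuspHom 1`. -/
theorem cuspHom_eq_qExpand (N : ℕ) [NeZero N] {f : ℍ → ℂ} (hf : f ∈ merSub 1) :
    cuspHom N ⟨f, merSub_one_le N hf⟩ = ModularCurve.qExpand ℂ N (cuspHom 1 ⟨f, hf⟩) :=
  cuspFun_eq_qExpand N hf

/-! ### Orders -/

/-- The cusp expansion of `Δ` has order `N`. -/
theorem cuspHom_discriminant_order (N : ℕ) [NeZero N] :
    (cuspHom N ⟨Δ, discriminant_mem_merSub N⟩).order = N := by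
  have h : cuspHom N ⟨Δ, discriminant_mem_merSub N⟩ = cuspDelta N :=
    cuspFun_eq_of_mem_bddSub (f := Δ) (discriminant_mem_bddSub N)
  rw [h, cuspDelta]
  exact order_qExpansion_discriminant N

theorem anCuspOrd_E4_vadd_int (n : ℤ) (z : ℍ) : E₄ ((n : ℝ) +ᵥ z) = E₄ z :=
  SlashInvariantForm.vAdd_apply_of_mem_strictPeriods E₄ z (h := (n : ℝ)) (by simp)

theorem E4_mem_bddSub (N : ℕ) : (⇑E₄ : ℍ → ℂ) ∈ bddSub N :=
  ⟨ModularFormClass.holo E₄,
    fun z => by simpa using anCuspOrd_E4_vadd_int (N : ℤ) z,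
    ModularFormClass.bdd_at_infty E₄⟩

theorem E4_mem_merSub (N : ℕ) : (⇑E₄ : ℍ → ℂ) ∈ merSub N :=
  bddSub_le_merSub N (E4_mem_bddSub N)

/-- The cusp expansion of `E₄` has order `0`. -/
theorem cuspHom_E4_order (N : ℕ) [NeZero N] :
    (cuspHom N ⟨⇑E₄, E4_mem_merSub N⟩).order = 0 := by
  have h : cuspHom N ⟨⇑E₄, E4_mem_merSub N⟩
      = HahnSeries.ofPowerSeries ℤ ℂ (qExpansion (N : ℝ) (⇑E₄)) :=
    cuspFun_eq_of_mem_bddSub (f := ⇑E₄) (E4_mem_bddSub N)
  rw [h]
  exact order_qExpansion_E4 N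

/-! ### The `j`-function at the cusp -/

theorem anCuspOrd_jFun_vadd_int (n : ℤ) (z : ℍ) : jFun ((n : ℝ) +ᵥ z) = jFun z := by
  rw [jFun, jFun, anCuspOrd_E4_vadd_int, discriminant_vadd_int]

theorem jFun_mem_merSub (N : ℕ) : jFun ∈ merSub N := by
  refine ⟨jFun_mdifferentiable, fun z => by simpa using anCuspOrd_jFun_vadd_int (N : ℤ) z, 1, ?_⟩
  have h := isBoundedAtImInfty_discriminant_mul_jFun
  have e : (fun z : ℍ => Δ z ^ 1 * jFun z) = fun z : ℍ => Δ z * jFun z := by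
    funext z
    rw [pow_one]
  rw [e]
  exact h

/-- `j · Δ = E₄³` on cusp expansions. -/
theorem cuspHom_jFun_mul_discriminant (N : ℕ) [NeZero N] :
    cuspHom N ⟨jFun, jFun_mem_merSub N⟩ * cuspHom N ⟨Δ, discriminant_mem_merSub N⟩
      = cuspHom N ⟨⇑E₄, E4_mem_merSub N⟩ ^ 3 := by
  rw [← map_mul, ← map_pow]
  congr 1
  apply Subtype.ext
  funext z
  exact jFun_mul_discriminant z

theorem cuspHom_discriminant_ne_zero (N : ℕ) [NeZero N] :
    cuspHom N ⟨Δ, discriminant_mem_merSub N⟩ ≠ 0 := by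
  intro h
  have h2 := cuspHom_discriminant_order N
  rw [h, HahnSeries.order_zero] at h2
  exact (NeZero.ne N) (by exact_mod_cast h2.symm)

theorem cuspHom_E4_ne_zero (N : ℕ) [NeZero N] :
    cuspHom N ⟨⇑E₄, E4_mem_merSub N⟩ ≠ 0 := by
  intro h
  have h2 := (map_eq_zero_iff _ (cuspHom_injective N)).mp h
  have h3 : (⇑E₄ : ℍ → ℂ) = 0 := congrArg Subtype.val h2
  exact E_ne_zero (k := 4) (by norm_num) ⟨2, rfl⟩ (DFunLike.coe_injective h3)

theorem cuspHom_jFun_ne_zero (N : ℕ) [NeZero N] :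
    cuspHom N ⟨jFun, jFun_mem_merSub N⟩ ≠ 0 := by
  intro h
  have h2 := cuspHom_jFun_mul_discriminant N
  rw [h, zero_mul] at h2
  exact pow_ne_zero 3 (cuspHom_E4_ne_zero N) h2.symm

/-- The cusp expansion of `j` has order `-N`. -/
theorem cuspHom_jFun_order (N : ℕ) [NeZero N] :
    (cuspHom N ⟨jFun, jFun_mem_merSub N⟩).order = -(N : ℤ) := by
  have h := congrArg HahnSeries.order (cuspHom_jFun_mul_discriminant N)
  rw [HahnSeries.order_mul (cuspHom_jFun_ne_zero N) (cuspHom_discriminant_ne_zero N),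
    HahnSeries.order_pow, cuspHom_discriminant_order, cuspHom_E4_order, smul_zero] at h
  linarith

/-- The inverse of the cusp expansion of `j` has order `N`. -/
theorem cuspHom_jFun_inv_order (N : ℕ) [NeZero N] :
    ((cuspHom N ⟨jFun, jFun_mem_merSub N⟩)⁻¹).order = (N : ℤ) := by
  have hne := cuspHom_jFun_ne_zero N
  have h := congrArg HahnSeries.order (mul_inv_cancel₀ hne)
  rw [HahnSeries.order_mul hne (inv_ne_zero hne), cuspHom_jFun_order, HahnSeries.order_one] at h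
  linarith

end AnCuspOrd

end Fermat.Agent.S24
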