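/-
S24 / AsmGlue (owner helper36): small glue lemmas for the final assembly (`ModAssembly.lean`).

* (G1) `card_orbits_zpowers_toPerm`: orbits of `⟨toPerm g⟩` and of `⟨g⟩` on `X` have the same count.
* (G2) `order_eq_of_coeff_eq_zpow_mul`: coefficientwise twist by `ζ ^ n` (`ζ ≠ 0`) preserves the order.
* (G3) `dvd_order_of_coeff_eq_zpow_mul`: a Laurent series invariant under the twist by `ζ ^ k`
  (`ζ` a primitive `e₀`-th root of unity) has order divisible by `e₀ / gcd k e₀`.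
* (G4) `toNat_div_two_eq`: genus unfolding `(d + 2).toNat / 2 = g` from `d + 2 = 2 g`.
(The primitive roots of unity at the elliptic points and at the cusp are in `ModGlue.lean`.)
-/
import Mathlib

set_option autoImplicit false

namespace Fermat.Agent.S24

/-! ### (G1) orbits of a cyclic group and of the cyclic group of the induced permutation -/

section G1

variable {G X : Type*} [Group G] [MulAction G X]

theorem asmGlue_toPerm_zpow_apply (g : G) (k : ℤ) (x : X) :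
    ((MulAction.toPerm g : Equiv.Perm X) ^ k) x = g ^ k • x := by
  have h : (MulAction.toPerm g : Equiv.Perm X) ^ k = MulAction.toPerm (g ^ k) :=
    (map_zpow (MulAction.toPermHom G X) g k).symm
  rw [h]
  rfl

theorem orbitRel_zpowers_toPerm (g : G) :
    MulAction.orbitRel (Subgroup.zpowers (MulAction.toPerm g : Equiv.Perm X)) X =
      MulAction.orbitRel (Subgroup.zpowers g) X := by
  ext x y
  rw [MulAction.orbitRel_apply, MulAction.orbitRel_apply, MulAction.mem_orbit_iff,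
    MulAction.mem_orbit_iff]
  constructor
  · rintro ⟨⟨σ, hσ⟩, hx⟩
    obtain ⟨k, rfl⟩ := Subgroup.mem_zpowers_iff.1 hσ
    refine ⟨⟨g ^ k, Subgroup.zpow_mem_zpowers g k⟩, ?_⟩
    rw [← hx]
    exact (asmGlue_toPerm_zpow_apply g k y).symm
  · rintro ⟨⟨h, hh⟩, hx⟩
    obtain ⟨k, rfl⟩ := Subgroup.mem_zpowers_iff.1 hh
    refine ⟨⟨(MulAction.toPerm g : Equiv.Perm X) ^ k, Subgroup.zpow_mem_zpowers _ k⟩, ?_⟩
    rw [← hx]
    exact asmGlue_toPerm_zpow_apply g k y

/-- (G1) The orbits of `⟨toPerm g⟩` on `X` are the orbits of `⟨g⟩`. -/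
theorem card_orbits_zpowers_toPerm (g : G) :
    Nat.card (MulAction.orbitRel.Quotient
        (Subgroup.zpowers (MulAction.toPerm g : Equiv.Perm X)) X) =
      Nat.card (MulAction.orbitRel.Quotient (Subgroup.zpowers g) X) := by
  unfold MulAction.orbitRel.Quotient
  rw [orbitRel_zpowers_toPerm]

end G1

/-! ### (G2), (G3) twists of Laurent series -/

section G23

variable {C : Type*} [Field C]

/-- (G2) A coefficientwise twist by `ζ ^ n`, `ζ ≠ 0`, does not change the order. -/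
theorem order_eq_of_coeff_eq_zpow_mul (x y : LaurentSeries C) (ζ : C) (hζ : ζ ≠ 0)
    (h : ∀ n : ℤ, x.coeff n = ζ ^ n * y.coeff n) : x.order = y.order := by
  have hiff : ∀ n : ℤ, x.coeff n = 0 ↔ y.coeff n = 0 := by
    intro n
    rw [h n, mul_eq_zero]
    constructor
    · rintro (h0 | h0)
      · exact absurd h0 (zpow_ne_zero n hζ)
      · exact h0
    · exact fun h0 => Or.inr h0
  by_cases hx : x = 0
  · have hy : y = 0 := by
      ext n
      rw [HahnSeries.coeff_zero, ← hiff n, hx, HahnSeries.coeff_zero]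
    rw [hx, hy]
  · have hy : y ≠ 0 := by
      intro hy
      apply hx
      ext n
      rw [HahnSeries.coeff_zero, hiff n, hy, HahnSeries.coeff_zero]
    apply le_antisymm
    · apply HahnSeries.order_le_of_coeff_ne_zero
      rw [Ne, hiff]
      exact fun h0 => hy (HahnSeries.coeff_order_eq_zero.1 h0)
    · apply HahnSeries.order_le_of_coeff_ne_zero
      rw [Ne, ← hiff]
      exact fun h0 => hx (HahnSeries.coeff_order_eq_zero.1 h0)

/-- (G3) A nonzero Laurent series invariant under the twist by `(ζ ^ k) ^ n`, `ζ` a primitive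
`e₀`-th root of unity, has order divisible by `e₀ / gcd k e₀`. -/
theorem dvd_order_of_coeff_eq_zpow_mul (y : LaurentSeries C) (hy : y ≠ 0) (ζ : C) (e₀ k : ℕ)
    (he₀ : 0 < e₀) (hζ : IsPrimitiveRoot ζ e₀)
    (h : ∀ n : ℤ, y.coeff n = (ζ ^ k) ^ n * y.coeff n) :
    ((e₀ / Nat.gcd k e₀ : ℕ) : ℤ) ∣ y.order := by
  have hc : y.coeff y.order ≠ 0 := fun h0 => hy (HahnSeries.coeff_order_eq_zero.1 h0)
  have h1 : (ζ ^ k) ^ y.order = 1 := by
    have := h y.order
    have h2 : ((ζ ^ k) ^ y.order - 1) * y.coeff y.order = 0 := by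
      rw [sub_mul, one_mul, ← this, sub_self]
    rcases mul_eq_zero.1 h2 with h3 | h3
    · exact sub_eq_zero.1 h3
    · exact absurd h3 hc
  have h2 : ζ ^ ((k : ℤ) * y.order) = 1 := by
    rw [zpow_mul, zpow_natCast]
    exact h1
  have h3 : (e₀ : ℤ) ∣ (k : ℤ) * y.order := (hζ.zpow_eq_one_iff_dvd _).1 h2
  -- cancel the gcd
  have hg : 0 < Nat.gcd k e₀ := Nat.gcd_pos_of_pos_right k he₀
  have he' : e₀ / Nat.gcd k e₀ * Nat.gcd k e₀ = e₀ := Nat.div_mul_cancel (Nat.gcd_dvd_right k e₀)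
  have hk' : k / Nat.gcd k e₀ * Nat.gcd k e₀ = k := Nat.div_mul_cancel (Nat.gcd_dvd_left k e₀)
  have hcop : Nat.Coprime (e₀ / Nat.gcd k e₀) (k / Nat.gcd k e₀) :=
    Nat.coprime_comm.1 (Nat.coprime_div_gcd_div_gcd hg)
  have h4 : ((Nat.gcd k e₀ : ℕ) : ℤ) * ((e₀ / Nat.gcd k e₀ : ℕ) : ℤ) ∣
      ((Nat.gcd k e₀ : ℕ) : ℤ) * (((k / Nat.gcd k e₀ : ℕ) : ℤ) * y.order) := by
    have e1 : (e₀ : ℤ) = ((Nat.gcd k e₀ : ℕ) : ℤ) * ((e₀ / Nat.gcd k e₀ : ℕ) : ℤ) := by
      rw [mul_comm]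
      exact_mod_cast he'.symm
    have e2 : (k : ℤ) = ((Nat.gcd k e₀ : ℕ) : ℤ) * ((k / Nat.gcd k e₀ : ℕ) : ℤ) := by
      rw [mul_comm]
      exact_mod_cast hk'.symm
    rw [← e1, ← mul_assoc, ← e2]
    exact h3
  have hg' : ((Nat.gcd k e₀ : ℕ) : ℤ) ≠ 0 := by exact_mod_cast hg.ne'
  have h5 : ((e₀ / Nat.gcd k e₀ : ℕ) : ℤ) ∣ ((k / Nat.gcd k e₀ : ℕ) : ℤ) * y.order :=
    (mul_dvd_mul_iff_left hg').1 h4
  have hcop' : IsCoprime ((e₀ / Nat.gcd k e₀ : ℕ) : ℤ) ((k / Nat.gcd k e₀ : ℕ) : ℤ) :=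
    Nat.isCoprime_iff_coprime.2 hcop
  exact hcop'.dvd_of_dvd_mul_left h5

end G23

/-! ### (G4) genus unfolding -/

/-- (G4) -/
theorem toNat_div_two_eq (d : ℤ) (g : ℕ) (h : d + 2 = 2 * g) : (d + 2).toNat / 2 = g := by
  omega

end Fermat.Agent.S24
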