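import Mathlib
import Fermat.Agent.S24.Defs
import Fermat.Agent.S24.PlaceBasic
import Fermat.Agent.S24.Residue
import Fermat.Agent.S24.PlacesSum
import Fermat.Agent.S24.EmbCore

/-!
# S24 team library: counting places via embeddings into Laurent series

OWNER: helper43 (only the owner edits this file). Keep the exported signatures below unchanged
(tell helper24 before changing an interface); add helper lemmas freely (prefix private helpers).
-/

set_option autoImplicit false

namespace Fermat.Agent.S24

open IntermediateField AlgebraicCurve KaehlerDifferential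

variable {K F : Type*} [Field K] [Field F] [Algebra K F]
variable [IsAlgClosed K] [CharZero K]


open HahnSeries in
theorem card_places_eq_card_orbits (hF : IsFF1 K F) {t : F} (ht : Transcendental K t)
    {X : Type*} [Fintype X] (ι : X → F →+* LaurentSeries ℂ) (hι : Function.Injective ι)
    (hcard : Fintype.card X = Module.finrank K⟮t⟯ F)
    (hK : ∀ (x : X) (a : K), ∃ c : ℂ, ι x (algebraMap K F a) = HahnSeries.C c)
    (hK' : ∀ (x y : X) (a : K), ι x (algebraMap K F a) = ι y (algebraMap K F a))
    (ht' : ∀ x y : X, ι x t = ι y t)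
    (e₀ : ℕ) (he₀ : 0 < e₀) (hord : ∀ x : X, (ι x t).order = e₀)
    (ε : Equiv.Perm X) (hε : ∀ (x : X) (f : F), (ι (ε x) f).order = (ι x f).order)
    (hdiv : ∀ (x : X) (k : ℕ), (ε ^ k) x = x → ∀ f : F, f ≠ 0 →
      ((e₀ / Nat.gcd k e₀ : ℕ) : ℤ) ∣ (ι x f).order) :
    Nat.card {v : Place K F // 0 < v.ord t} =
      Nat.card (MulAction.orbitRel.Quotient (Subgroup.zpowers ε) X) := by
  haveI : FiniteDimensional K⟮t⟯ F := finiteDimensional_adjoin_simple hF ht
  exact card_places_eq_card_orbits_core (C := ℂ)
    (fun v b hb => exists_residue hF v hb) t (Module.finrank K⟮t⟯ F)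
    (finite_ord_pos hF ht) (sum_ord_pos hF ht)
    (by rw [Nat.card_eq_fintype_card, hcard]) ι hι hK hK' ht' e₀ he₀ hord ε
    (fun x f => hε x f) (fun x k hk f hf => hdiv x k hk f hf)

end Fermat.Agent.S24
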