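import Mathlib
import Fermat.Prelude.Def_AlgebraicCurve_DivisorClassGroup
import Fermat.Agent.S24.EmbDefs

/-!
# S24 team library (hedge): every place over `t` is induced by one of the embeddings

OWNER: helper3 (only the owner edits this file).

Independent of the Dedekind chain (`PlacesDedekind`/`PlacesSum`): given `n = [F : K(t)]` pairwise
distinct ring homs `ι x : F →+* LaurentSeries C` which agree on `K` and on `t`, are constant on `K`
and with `0 < (ι x t).order`, every place `v` of `F/K` with `0 < v.ord t` is induced by one of the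
`ι x` (i.e. `order ∘ ι x = m * v.ord` for some `m > 0`).

Method: an approximation lemma for finitely many `ℤ`-valued order functions, and integrality: an
element all of whose conjugates over `K(t)` are power series is integral over the valuation ring.
-/

set_option autoImplicit false

namespace Fermat.Agent.S24

namespace EmbSurj

open AlgebraicCurve IntermediateField

variable {F : Type*} [Field F]

/-- A `ℤ`-valued order function on the nonzero elements of a field (the value at `0` is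
irrelevant). -/
structure IsOrd (w : F → ℤ) : Prop where
  mul : ∀ f g : F, f ≠ 0 → g ≠ 0 → w (f * g) = w f + w g
  add : ∀ f g : F, f ≠ 0 → g ≠ 0 → f + g ≠ 0 → min (w f) (w g) ≤ w (f + g)

namespace IsOrd

variable {w : F → ℤ}

theorem one (hw : IsOrd w) : w 1 = 0 := by
  have h := hw.mul 1 1 one_ne_zero one_ne_zero
  rw [mul_one] at h
  linarith

theorem inv (hw : IsOrd w) {f : F} (hf : f ≠ 0) : w f⁻¹ = - w f := by
  have h := hw.mul f f⁻¹ hf (inv_ne_zero hf)
  rw [mul_inv_cancel₀ hf, hw.one] at h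
  linarith

theorem neg_one (hw : IsOrd w) : w (-1) = 0 := by
  have h := hw.mul (-1) (-1) (neg_ne_zero.mpr one_ne_zero) (neg_ne_zero.mpr one_ne_zero)
  rw [neg_mul_neg, mul_one, hw.one] at h
  omega

theorem neg (hw : IsOrd w) {f : F} (hf : f ≠ 0) : w (-f) = w f := by
  have h := hw.mul (-1) f (neg_ne_zero.mpr one_ne_zero) hf
  rw [neg_one_mul, hw.neg_one, zero_add] at h
  exact h

theorem pow (hw : IsOrd w) {f : F} (hf : f ≠ 0) (k : ℕ) : w (f ^ k) = k * w f := by
  induction k with
  | zero => simp [hw.one]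
  | succ k ih =>
    rw [pow_succ, hw.mul _ _ (pow_ne_zero k hf) hf, ih]
    push_cast
    ring

theorem zpow (hw : IsOrd w) {f : F} (hf : f ≠ 0) (k : ℤ) : w (f ^ k) = k * w f := by
  obtain ⟨n, rfl | rfl⟩ := k.eq_nat_or_neg
  · rw [zpow_natCast]
    exact hw.pow hf n
  · rw [zpow_neg, zpow_natCast, hw.inv (pow_ne_zero n hf), hw.pow hf n]
    ring

theorem div (hw : IsOrd w) {f g : F} (hf : f ≠ 0) (hg : g ≠ 0) : w (f / g) = w f - w g := by
  rw [div_eq_mul_inv, hw.mul _ _ hf (inv_ne_zero hg), hw.inv hg]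
  ring

theorem add_eq_of_lt (hw : IsOrd w) {f g : F} (hf : f ≠ 0) (hg : g ≠ 0) (h : w f < w g) :
    f + g ≠ 0 ∧ w (f + g) = w f := by
  have hne : f + g ≠ 0 := by
    intro h0
    have hgf : g = -f := by linear_combination h0
    rw [hgf, hw.neg hf] at h
    exact lt_irrefl _ h
  refine ⟨hne, le_antisymm ?_ ?_⟩
  · by_contra hcon
    push Not at hcon
    have h1 := hw.add (f + g) (-g) hne (neg_ne_zero.mpr hg) (by simpa using hf)
    rw [hw.neg hg] at h1
    have h2 : f + g + -g = f := by ring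
    rw [h2] at h1
    have h3 : w f < min (w (f + g)) (w g) := lt_min hcon h
    omega
  · have h1 := hw.add f g hf hg hne
    rwa [min_eq_left h.le] at h1

/-- If `w`-integral implies `w'`-integral and some element is `w'`-integral but not `w`-integral,
then everything is `w'`-integral. -/
theorem nonneg_of_imp {w w' : F → ℤ} (hw : IsOrd w) (hw' : IsOrd w')
    (himp : ∀ f : F, f ≠ 0 → 0 ≤ w f → 0 ≤ w' f) {a : F} (ha : a ≠ 0) (ha1 : w a < 0)
    (ha2 : 0 ≤ w' a) : ∀ f : F, f ≠ 0 → 0 ≤ w' f := by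
  intro f hf
  set k : ℕ := (- w f).toNat with hk
  have hak : a ^ k ≠ 0 := pow_ne_zero k ha
  have hne : f * (a ^ k)⁻¹ ≠ 0 := mul_ne_zero hf (inv_ne_zero hak)
  have h1 : w (f * (a ^ k)⁻¹) = w f - k * w a := by
    rw [hw.mul _ _ hf (inv_ne_zero hak), hw.inv hak, hw.pow ha]
    ring
  have h2 : w' (f * (a ^ k)⁻¹) = w' f - k * w' a := by
    rw [hw'.mul _ _ hf (inv_ne_zero hak), hw'.inv hak, hw'.pow ha]
    ring
  have hk' : - w f ≤ (k : ℤ) := by rw [hk]; exact Int.self_le_toNat _
  have h3 : 0 ≤ w (f * (a ^ k)⁻¹) := by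
    rw [h1]
    nlinarith
  have h4 := himp _ hne h3
  rw [h2] at h4
  nlinarith

theorem eq_zero_of_forall_nonneg (hw : IsOrd w) (h : ∀ f : F, f ≠ 0 → 0 ≤ w f) {f : F}
    (hf : f ≠ 0) : w f = 0 := by
  have h1 := h f hf
  have h2 := h f⁻¹ (inv_ne_zero hf)
  rw [hw.inv hf] at h2
  omega

/-- Two inequivalent nontrivial order functions: there is an element positive for one and
negative for the other. -/
theorem exists_pos_neg {w w' : F → ℤ} (hw : IsOrd w) (hw' : IsOrd w')
    (hnt : ∃ f : F, f ≠ 0 ∧ w f ≠ 0) (hnt' : ∃ f : F, f ≠ 0 ∧ w' f ≠ 0)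
    (hne : ¬ ∀ f : F, f ≠ 0 → (0 ≤ w f ↔ 0 ≤ w' f)) :
    ∃ h : F, h ≠ 0 ∧ 0 < w h ∧ w' h < 0 := by
  have hA : ∃ a : F, a ≠ 0 ∧ 0 ≤ w a ∧ w' a < 0 := by
    by_contra hA
    push Not at hA
    apply hne
    intro f hf
    refine ⟨hA f hf, fun hf' => ?_⟩
    by_contra hcon
    push Not at hcon
    have hall := nonneg_of_imp hw hw' hA hf hcon hf'
    obtain ⟨g, hg, hg'⟩ := hnt'
    exact hg' (hw'.eq_zero_of_forall_nonneg hall hg)
  have hB : ∃ b : F, b ≠ 0 ∧ w b < 0 ∧ 0 ≤ w' b := by
    by_contra hB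
    push Not at hB
    obtain ⟨a, ha, ha1, ha2⟩ := hA
    have himp : ∀ f : F, f ≠ 0 → 0 ≤ w' f → 0 ≤ w f := by
      intro f hf hf'
      by_contra hcon
      push Not at hcon
      exact absurd hf' (not_le.mpr (hB f hf hcon))
    have hall := nonneg_of_imp hw' hw himp ha ha2 ha1
    obtain ⟨g, hg, hg'⟩ := hnt
    exact hg' (hw.eq_zero_of_forall_nonneg hall hg)
  obtain ⟨a, ha, ha1, ha2⟩ := hA
  obtain ⟨b, hb, hb1, hb2⟩ := hB
  refine ⟨a / b, div_ne_zero ha hb, ?_, ?_⟩
  · rw [hw.div ha hb]; omega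
  · rw [hw'.div ha hb]; omega

/-- Approximation lemma: one order function against finitely many inequivalent ones. -/
theorem exists_pos_forall_neg {I : Type*} (s : Finset I) {w₀ : F → ℤ} (hw₀ : IsOrd w₀)
    (hnt₀ : ∃ f : F, f ≠ 0 ∧ w₀ f ≠ 0) (w : I → F → ℤ) (hw : ∀ i ∈ s, IsOrd (w i))
    (hnt : ∀ i ∈ s, ∃ f : F, f ≠ 0 ∧ w i f ≠ 0)
    (hne : ∀ i ∈ s, ¬ ∀ f : F, f ≠ 0 → (0 ≤ w₀ f ↔ 0 ≤ w i f)) :
    ∃ g : F, g ≠ 0 ∧ 0 < w₀ g ∧ ∀ i ∈ s, w i g < 0 := by
  classical
  induction s using Finset.induction_on with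
  | empty =>
    obtain ⟨f, hf, hf'⟩ := hnt₀
    rcases lt_or_gt_of_ne hf' with h | h
    · exact ⟨f⁻¹, inv_ne_zero hf, by rw [hw₀.inv hf]; omega, by simp⟩
    · exact ⟨f, hf, h, by simp⟩
  | insert y s hy ih =>
    obtain ⟨g, hg, hg0, hgs⟩ := ih (fun i hi => hw i (Finset.mem_insert_of_mem hi))
      (fun i hi => hnt i (Finset.mem_insert_of_mem hi))
      (fun i hi => hne i (Finset.mem_insert_of_mem hi))
    have hwy := hw y (Finset.mem_insert_self y s)
    by_cases hgy : w y g < 0
    · refine ⟨g, hg, hg0, fun i hi => ?_⟩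
      rcases Finset.mem_insert.mp hi with rfl | hi
      · exact hgy
      · exact hgs i hi
    · push Not at hgy
      obtain ⟨h, hh, hh0, hhy⟩ := exists_pos_neg hw₀ hwy hnt₀ (hnt y (Finset.mem_insert_self y s))
        (hne y (Finset.mem_insert_self y s))
      set k : ℕ := 1 + ∑ i ∈ s, (w i g).natAbs with hk
      have hk1 : 1 ≤ k := by omega
      have hhk : h ^ k ≠ 0 := pow_ne_zero k hh
      -- at `y`
      have hy0 : w y (h ^ k) < 0 := by
        rw [hwy.pow hh]
        have hk' : (0 : ℤ) < k := by exact_mod_cast hk1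
        nlinarith
      have hy1 : w y (h ^ k) < w y g := by omega
      obtain ⟨hne1, hy2⟩ := hwy.add_eq_of_lt hhk hg hy1
      have hsum : g + h ^ k ≠ 0 := by rwa [add_comm] at hne1
      refine ⟨g + h ^ k, hsum, ?_, fun i hi => ?_⟩
      · have h1 := hw₀.add g (h ^ k) hg hhk hsum
        have h2 : 0 < w₀ (h ^ k) := by
          rw [hw₀.pow hh]
          have hk' : (0 : ℤ) < k := by exact_mod_cast hk1
          positivity
        have h3 : 0 < min (w₀ g) (w₀ (h ^ k)) := lt_min hg0 h2
        omega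
      · rcases Finset.mem_insert.mp hi with rfl | hi
        · rw [add_comm, hy2]
          exact hy0
        · have hwi := hw i (Finset.mem_insert_of_mem hi)
          have hgi := hgs i hi
          have hki : (w i g).natAbs < k := by
            have : (w i g).natAbs ≤ ∑ i ∈ s, (w i g).natAbs :=
              Finset.single_le_sum (f := fun i => (w i g).natAbs) (fun _ _ => Nat.zero_le _) hi
            omega
          have hneq : w i (h ^ k) ≠ w i g := by
            rw [hwi.pow hh]
            intro heq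
            have h1 : (w i g).natAbs = k * (w i h).natAbs := by
              rw [← heq, Int.natAbs_mul, Int.natAbs_natCast]
            have h2 : (w i h).natAbs ≠ 0 := by
              intro h0
              rw [h0, mul_zero] at h1
              have : w i g = 0 := Int.natAbs_eq_zero.mp h1
              omega
            have h3 : k ≤ k * (w i h).natAbs := Nat.le_mul_of_pos_right k (Nat.pos_of_ne_zero h2)
            omega
          rcases lt_or_gt_of_ne hneq with hlt | hgt
          · obtain ⟨_, h1⟩ := hwi.add_eq_of_lt hhk hg hlt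
            rw [add_comm, h1]
            omega
          · obtain ⟨_, h1⟩ := hwi.add_eq_of_lt hg hhk hgt
            rw [h1]
            exact hgi

end IsOrd

section PlaceOrd

variable {K : Type*} [Field K] [Algebra K F]

theorem isOrd_ord (v : Place K F) : IsOrd v.ord where
  mul f g hf hg := v.ord_mul hf hg
  add f g hf hg hfg := by
    have hadd := v.adicValuation.map_add f g
    unfold Place.ord
    rcases le_max_iff.mp hadd with h | h
    · have h1 := (WithZero.log_le_log (v.adicValuation_ne_zero hfg)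
        (v.adicValuation_ne_zero hf)).mpr h
      exact (min_le_left _ _).trans (neg_le_neg h1)
    · have h1 := (WithZero.log_le_log (v.adicValuation_ne_zero hfg)
        (v.adicValuation_ne_zero hg)).mpr h
      exact (min_le_right _ _).trans (neg_le_neg h1)

theorem ord_algebraMap_eq_zero (v : Place K F) (a : K) : v.ord (algebraMap K F a) = 0 := by
  rcases eq_or_ne a 0 with rfl | ha
  · simp
  · have hu : IsUnit (algebraMap K v.toValuationSubring a) := (isUnit_iff_ne_zero.mpr ha).map _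
    have h := v.ord_coe_unit hu.unit
    rwa [IsUnit.unit_spec, v.coe_algebraMap] at h

theorem exists_ord_eq_one (v : Place K F) : ∃ π : F, v.ord π = 1 := by
  obtain ⟨π, hπ⟩ := IsDiscreteValuationRing.exists_irreducible v.toValuationSubring
  exact ⟨π, v.ord_coe_irreducible hπ⟩

/-- An order function with the same integral elements as a place is a positive multiple of the
order at that place. -/
theorem exists_mul_of_equiv (v : Place K F) {w : F → ℤ} (hw : IsOrd w)
    (h : ∀ f : F, f ≠ 0 → (0 ≤ v.ord f ↔ 0 ≤ w f)) :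
    ∃ m : ℕ, 0 < m ∧ ∀ f : F, f ≠ 0 → w f = m * v.ord f := by
  obtain ⟨π, hπ⟩ := exists_ord_eq_one v
  have hπ0 : π ≠ 0 := by
    rintro rfl
    simp at hπ
  have hv := isOrd_ord v
  have hunit : ∀ u : F, u ≠ 0 → v.ord u = 0 → w u = 0 := by
    intro u hu hu0
    have h1 := (h u hu).mp (by omega)
    have h2 := (h u⁻¹ (inv_ne_zero hu)).mp (by rw [hv.inv hu]; omega)
    rw [hw.inv hu] at h2
    omega
  have hm : 0 < w π := by
    by_contra hcon
    push Not at hcon
    have h1 := (h π⁻¹ (inv_ne_zero hπ0)).mpr (by rw [hw.inv hπ0]; omega)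
    rw [hv.inv hπ0, hπ] at h1
    omega
  refine ⟨(w π).toNat, by omega, fun f hf => ?_⟩
  have hz : (π ^ (v.ord f))⁻¹ ≠ 0 := inv_ne_zero (zpow_ne_zero _ hπ0)
  have hu : f * (π ^ (v.ord f))⁻¹ ≠ 0 := mul_ne_zero hf hz
  have h1 : v.ord (f * (π ^ (v.ord f))⁻¹) = 0 := by
    rw [hv.mul _ _ hf hz, hv.inv (zpow_ne_zero _ hπ0), hv.zpow hπ0, hπ]
    ring
  have h2 := hunit _ hu h1
  rw [hw.mul _ _ hf hz, hw.inv (zpow_ne_zero _ hπ0), hw.zpow hπ0] at h2
  rw [Int.toNat_of_nonneg hm.le]
  linarith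

end PlaceOrd

section Laurent

variable {C : Type*} [Field C]

theorem isOrd_order (φ : F →+* LaurentSeries C) : IsOrd (fun f => (φ f).order) where
  mul f g hf hg := by
    show (φ (f * g)).order = _
    rw [map_mul]
    exact HahnSeries.order_mul ((map_ne_zero φ).mpr hf) ((map_ne_zero φ).mpr hg)
  add f g hf hg hfg := by
    show min (φ f).order (φ g).order ≤ (φ (f + g)).order
    rw [map_add]
    exact HahnSeries.min_order_le_order_add (by rw [← map_add]; exact (map_ne_zero φ).mpr hfg)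

theorem coeff_ofPowerSeries_of_neg (g : PowerSeries C) {n : ℤ} (hn : n < 0) :
    (HahnSeries.ofPowerSeries ℤ C g).coeff n = 0 := by
  rw [HahnSeries.ofPowerSeries_apply]
  refine HahnSeries.embDomain_of_notMem_range ?_
  rintro ⟨m, rfl⟩
  exact absurd hn (not_lt.mpr (Int.natCast_nonneg m))

theorem mem_range_ofPowerSeries_iff (y : LaurentSeries C) :
    y ∈ (HahnSeries.ofPowerSeries ℤ C).range ↔ (y = 0 ∨ 0 ≤ y.order) := by
  constructor
  · rintro ⟨g, rfl⟩
    by_cases h0 : HahnSeries.ofPowerSeries ℤ C g = 0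
    · exact Or.inl h0
    · right
      by_contra hneg
      push Not at hneg
      exact h0 (HahnSeries.coeff_order_eq_zero.mp (coeff_ofPowerSeries_of_neg g hneg))
  · rintro (rfl | h)
    · exact ⟨0, map_zero _⟩
    · refine ⟨PowerSeries.X ^ y.order.toNat * LaurentSeries.powerSeriesPart y, ?_⟩
      rw [map_mul, HahnSeries.ofPowerSeries_X_pow, Int.toNat_of_nonneg h]
      exact LaurentSeries.single_order_mul_powerSeriesPart y

end Laurent

section Poly

variable {K : Type*} [Field K] [Algebra K F]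

theorem nonneg_add {w : F → ℤ} (hw : IsOrd w) {f g : F} (hf : f = 0 ∨ 0 ≤ w f)
    (hg : g = 0 ∨ 0 ≤ w g) : f + g = 0 ∨ 0 ≤ w (f + g) := by
  by_cases hf0 : f = 0
  · rw [hf0, zero_add]; exact hg
  by_cases hg0 : g = 0
  · rw [hg0, add_zero]; exact hf
  by_cases h0 : f + g = 0
  · exact Or.inl h0
  right
  have h1 := hw.add f g hf0 hg0 h0
  have h2 : 0 ≤ min (w f) (w g) := le_min (hf.resolve_left hf0) (hg.resolve_left hg0)
  omega

theorem nonneg_mul {w : F → ℤ} (hw : IsOrd w) {f g : F} (hf : f = 0 ∨ 0 ≤ w f)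
    (hg : g = 0 ∨ 0 ≤ w g) : f * g = 0 ∨ 0 ≤ w (f * g) := by
  by_cases hf0 : f = 0
  · left; rw [hf0, zero_mul]
  by_cases hg0 : g = 0
  · left; rw [hg0, mul_zero]
  right
  rw [hw.mul f g hf0 hg0]
  have h1 := hf.resolve_left hf0
  have h2 := hg.resolve_left hg0
  omega

/-- Polynomials in `t` are integral for an order function trivial on `K` and nonnegative at
`t`. -/
theorem aeval_nonneg {w : F → ℤ} (hw : IsOrd w) (hK : ∀ a : K, a ≠ 0 → w (algebraMap K F a) = 0)
    {t : F} (ht : t = 0 ∨ 0 ≤ w t) (r : Polynomial K) :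
    Polynomial.aeval t r = 0 ∨ 0 ≤ w (Polynomial.aeval t r) := by
  induction r using Polynomial.induction_on' with
  | add p q hp hq =>
    rw [map_add]
    exact nonneg_add hw hp hq
  | monomial n a =>
    rw [Polynomial.aeval_monomial]
    refine nonneg_mul hw ?_ ?_
    · by_cases ha : a = 0
      · left; rw [ha, map_zero]
      · right; rw [hK a ha]
    · induction n with
      | zero => right; rw [pow_zero, hw.one]
      | succ n ih => rw [pow_succ]; exact nonneg_mul hw ih ht

/-- The order of a polynomial in `t` (with `w t > 0`, `w` trivial on `K`). -/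
theorem ord_aeval {w : F → ℤ} (hw : IsOrd w) (hK : ∀ a : K, a ≠ 0 → w (algebraMap K F a) = 0)
    {t : F} (ht0 : t ≠ 0) (ht : 0 < w t) (r : Polynomial K) (hr : r ≠ 0) :
    Polynomial.aeval t r ≠ 0 ∧
      w (Polynomial.aeval t r) = (r.rootMultiplicity 0 : ℤ) * w t := by
  obtain ⟨q, hq, hdvd⟩ := Polynomial.exists_eq_pow_rootMultiplicity_mul_and_not_dvd r hr 0
  rw [Polynomial.C_0, sub_zero] at hq hdvd
  have hq0 : q.coeff 0 ≠ 0 := fun h => hdvd (Polynomial.X_dvd_iff.mpr h)
  have hsplit : Polynomial.aeval t q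
      = algebraMap K F (q.coeff 0) + Polynomial.aeval t q.divX * t := by
    conv_lhs => rw [← Polynomial.divX_mul_X_add q]
    rw [map_add, map_mul, Polynomial.aeval_X, Polynomial.aeval_C, add_comm]
  have hc0 : algebraMap K F (q.coeff 0) ≠ 0 := (map_ne_zero _).mpr hq0
  have hq' : Polynomial.aeval t q ≠ 0 ∧ w (Polynomial.aeval t q) = 0 := by
    rw [hsplit]
    by_cases h0 : Polynomial.aeval t q.divX = 0
    · rw [h0, zero_mul, add_zero]
      exact ⟨hc0, hK _ hq0⟩
    · have h1 : 0 ≤ w (Polynomial.aeval t q.divX) :=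
        (aeval_nonneg hw hK (Or.inr ht.le) _).resolve_left h0
      have h2 : w (algebraMap K F (q.coeff 0)) < w (Polynomial.aeval t q.divX * t) := by
        rw [hK _ hq0, hw.mul _ _ h0 ht0]
        omega
      obtain ⟨h3, h4⟩ := hw.add_eq_of_lt hc0 (mul_ne_zero h0 ht0) h2
      exact ⟨h3, by rw [h4, hK _ hq0]⟩
  have hr' : Polynomial.aeval t r = t ^ (r.rootMultiplicity 0) * Polynomial.aeval t q := by
    conv_lhs => rw [hq]
    rw [map_mul, map_pow, Polynomial.aeval_X]
  rw [hr']
  refine ⟨mul_ne_zero (pow_ne_zero _ ht0) hq'.1, ?_⟩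
  rw [hw.mul _ _ (pow_ne_zero _ ht0) hq'.1, hw.pow ht0, hq'.2, add_zero]

/-- Transfer of integrality on `K(t)` between two order functions trivial on `K` and positive
at `t`. -/
theorem nonneg_transfer {w w' : F → ℤ} (hw : IsOrd w) (hw' : IsOrd w')
    (hK : ∀ a : K, a ≠ 0 → w (algebraMap K F a) = 0)
    (hK' : ∀ a : K, a ≠ 0 → w' (algebraMap K F a) = 0)
    {t : F} (ht0 : t ≠ 0) (ht : 0 < w t) (ht' : 0 < w' t) {c : F} (hc : c ∈ K⟮t⟯)
    (hc0 : c ≠ 0) (h : 0 ≤ w c) : 0 ≤ w' c := by
  obtain ⟨r, s, hrs⟩ := (IntermediateField.mem_adjoin_simple_iff K c).mp hc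
  have hr0 : Polynomial.aeval t r ≠ 0 := by
    intro h0
    rw [hrs, h0, zero_div] at hc0
    exact hc0 rfl
  have hs0 : Polynomial.aeval t s ≠ 0 := by
    intro h0
    rw [hrs, h0, div_zero] at hc0
    exact hc0 rfl
  have hr : r ≠ 0 := by
    rintro rfl
    simp at hr0
  have hs : s ≠ 0 := by
    rintro rfl
    simp at hs0
  have h1 := (ord_aeval hw hK ht0 ht r hr).2
  have h2 := (ord_aeval hw hK ht0 ht s hs).2
  have h1' := (ord_aeval hw' hK' ht0 ht' r hr).2
  have h2' := (ord_aeval hw' hK' ht0 ht' s hs).2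
  rw [hrs, hw.div hr0 hs0, h1, h2] at h
  rw [hrs, hw'.div hr0 hs0, h1', h2']
  have hab : (s.rootMultiplicity 0 : ℤ) ≤ r.rootMultiplicity 0 := by
    by_contra hcon
    push Not at hcon
    nlinarith
  nlinarith

/-- If every term is zero or has order `> B`, so does the sum. -/
theorem sum_gt {w : F → ℤ} (hw : IsOrd w) {I : Type*} (s : Finset I) (a : I → F) (B : ℤ)
    (h : ∀ i ∈ s, a i = 0 ∨ B < w (a i)) : (∑ i ∈ s, a i) = 0 ∨ B < w (∑ i ∈ s, a i) := by
  classical
  induction s using Finset.induction_on with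
  | empty => left; simp
  | insert j s hj ih =>
    rw [Finset.sum_insert hj]
    have h1 := h j (Finset.mem_insert_self j s)
    have h2 := ih (fun i hi => h i (Finset.mem_insert_of_mem hi))
    by_cases ha : a j = 0
    · rw [ha, zero_add]; exact h2
    by_cases hs : ∑ i ∈ s, a i = 0
    · rw [hs, add_zero]; exact h1
    by_cases h0 : a j + ∑ i ∈ s, a i = 0
    · exact Or.inl h0
    right
    have h3 := hw.add _ _ ha hs h0
    have h4 : B < min (w (a j)) (w (∑ i ∈ s, a i)) :=
      lt_min (h1.resolve_left ha) (h2.resolve_left hs)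
    omega

/-- A root of a monic polynomial with integral coefficients is integral. -/
theorem nonneg_of_monic_root {w : F → ℤ} (hw : IsOrd w) (E : IntermediateField K F)
    (p : Polynomial E) (hp : p.Monic) {f : F} (hf : f ≠ 0) (hroot : Polynomial.aeval f p = 0)
    (hcoeff : ∀ i, (p.coeff i : F) ≠ 0 → 0 ≤ w (p.coeff i : F)) : 0 ≤ w f := by
  by_contra hneg
  push Not at hneg
  set d := p.natDegree with hd
  have hsum : Polynomial.aeval f p = ∑ i ∈ Finset.range (d + 1), (p.coeff i : F) * f ^ i := by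
    rw [Polynomial.aeval_eq_sum_range]
    refine Finset.sum_congr rfl fun i _ => ?_
    rw [Algebra.smul_def]
    rfl
  rw [hsum, Finset.sum_range_succ] at hroot
  have hlead : (p.coeff d : F) = 1 := by
    rw [hd, Polynomial.Monic.coeff_natDegree hp]
    rfl
  rw [hlead, one_mul] at hroot
  have hfd : f ^ d ≠ 0 := pow_ne_zero d hf
  have hS := sum_gt hw (Finset.range d) (fun i => (p.coeff i : F) * f ^ i) (w (f ^ d)) (by
    intro i hi
    by_cases hci : (p.coeff i : F) = 0
    · left; rw [hci, zero_mul]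
    · right
      have hi' : (i : ℤ) < d := by exact_mod_cast Finset.mem_range.mp hi
      rw [hw.mul _ _ hci (pow_ne_zero i hf), hw.pow hf, hw.pow hf]
      have h1 := hcoeff i hci
      nlinarith)
  have hS0 : ∑ i ∈ Finset.range d, (p.coeff i : F) * f ^ i = - f ^ d := by
    linear_combination hroot
  rw [hS0] at hS
  rcases hS with h | h
  · exact hfd (neg_eq_zero.mp h)
  · rw [hw.neg hfd] at h
    exact lt_irrefl _ h

end Poly

section Conj

variable {K : Type*} [Field K] [Algebra K F] {C : Type*} [Field C]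

theorem agree_on_adjoin (φ ψ : F →+* LaurentSeries C) (t : F)
    (hK : ∀ a : K, φ (algebraMap K F a) = ψ (algebraMap K F a)) (ht : φ t = ψ t) :
    ∀ e ∈ K⟮t⟯, φ e = ψ e := by
  intro e he
  let S : IntermediateField K F := (RingHom.eqLocusField φ ψ).toIntermediateField (fun a => hK a)
  have hle : K⟮t⟯ ≤ S := IntermediateField.adjoin_simple_le_iff.mpr ht
  exact hle he

/-- If all the conjugates `ι x f` of `f` over `K(t)` are power series, then the coefficients
of the minimal polynomial of `f` over `K(t)` are mapped to power series. -/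
theorem coeff_minpoly_mem_range [CharZero K] {t : F} [FiniteDimensional K⟮t⟯ F]
    {X : Type*} [Finite X] (ι : X → F →+* LaurentSeries C) (hι : Function.Injective ι)
    (hcard : Nat.card X = Module.finrank K⟮t⟯ F)
    (hagree : ∀ (x y : X), ∀ e ∈ K⟮t⟯, ι x e = ι y e)
    (x0 : X) (f : F) (hf : ∀ x, ι x f ∈ (HahnSeries.ofPowerSeries ℤ C).range) (i : ℕ) :
    ι x0 ((minpoly K⟮t⟯ f).coeff i : F) ∈ (HahnSeries.ofPowerSeries ℤ C).range := by
  classical
  have : CharZero K⟮t⟯ := charZero_of_injective_algebraMap (algebraMap K K⟮t⟯).injective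
  let Lbar := AlgebraicClosure (LaurentSeries C)
  let algE : Algebra K⟮t⟯ Lbar :=
    ((algebraMap (LaurentSeries C) Lbar).comp ((ι x0).comp (algebraMap K⟮t⟯ F))).toAlgebra
  let σ : X → (F →ₐ[K⟮t⟯] Lbar) := fun x =>
    { toRingHom := (algebraMap (LaurentSeries C) Lbar).comp (ι x)
      commutes' := fun e => by
        show algebraMap (LaurentSeries C) Lbar (ι x (e : F))
          = algebraMap (LaurentSeries C) Lbar (ι x0 (e : F))
        rw [hagree x x0 e e.2] }
  have hσinj : Function.Injective σ := by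
    intro x y hxy
    apply hι
    refine RingHom.ext fun g => ?_
    have h1 := DFunLike.congr_fun hxy g
    exact (algebraMap (LaurentSeries C) Lbar).injective h1
  have hcard' : Nat.card (F →ₐ[K⟮t⟯] Lbar) = Module.finrank K⟮t⟯ F :=
    AlgHom.natCard_of_splits K⟮t⟯ F Lbar (fun _ => IsAlgClosed.splits _)
  have : Finite (F →ₐ[K⟮t⟯] Lbar) :=
    Nat.finite_of_card_ne_zero (by rw [hcard']; exact Module.finrank_pos.ne')
  have hσbij : Function.Bijective σ :=
    hσinj.bijective_of_nat_card_le (by rw [hcard', hcard])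
  have hroots := Algebra.IsAlgebraic.range_eval_eq_rootSet_minpoly (F := K⟮t⟯) (K := F) Lbar f
  have hmonic : (minpoly K⟮t⟯ f).Monic := minpoly.monic (Algebra.IsIntegral.isIntegral f)
  have hsplit : ((minpoly K⟮t⟯ f).map (algebraMap K⟮t⟯ Lbar)).Splits := IsAlgClosed.splits _
  have hPeq := hsplit.eq_prod_roots_of_monic (hmonic.map _)
  let ρ : PowerSeries C →+* Lbar :=
    (algebraMap (LaurentSeries C) Lbar).comp (HahnSeries.ofPowerSeries ℤ C)
  have hrootmem : ∀ r ∈ ((minpoly K⟮t⟯ f).map (algebraMap K⟮t⟯ Lbar)).roots, r ∈ Set.range ρ := by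
    intro r hr
    have hr' : r ∈ (minpoly K⟮t⟯ f).rootSet Lbar := by
      rw [Polynomial.rootSet, Polynomial.aroots]
      simpa using hr
    rw [← hroots] at hr'
    obtain ⟨ψ, rfl⟩ := hr'
    obtain ⟨x, rfl⟩ := hσbij.2 ψ
    obtain ⟨g, hg⟩ := hf x
    refine ⟨g, ?_⟩
    show algebraMap (LaurentSeries C) Lbar (HahnSeries.ofPowerSeries ℤ C g)
      = algebraMap (LaurentSeries C) Lbar (ι x f)
    rw [hg]
  have hPlift : (minpoly K⟮t⟯ f).map (algebraMap K⟮t⟯ Lbar) ∈ Polynomial.lifts ρ := by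
    rw [hPeq]
    refine Subsemiring.multiset_prod_mem _ _ ?_
    intro q hq
    obtain ⟨r, hr, rfl⟩ := Multiset.mem_map.mp hq
    obtain ⟨g, rfl⟩ := hrootmem r hr
    have h1 : (Polynomial.X - Polynomial.C (ρ g) : Polynomial Lbar)
        = Polynomial.X + Polynomial.C (ρ (-g)) := by
      rw [map_neg, Polynomial.C_neg, sub_eq_add_neg]
    rw [h1]
    exact add_mem (Polynomial.X_mem_lifts ρ) (Polynomial.C_mem_lifts ρ (-g))
  obtain ⟨g, hg⟩ := (Polynomial.lifts_iff_coeff_lifts _).mp hPlift i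
  refine ⟨g, ?_⟩
  apply (algebraMap (LaurentSeries C) Lbar).injective
  rw [Polynomial.coeff_map] at hg
  exact hg

end Conj

end EmbSurj

open AlgebraicCurve IntermediateField in
/-- EXPORT (hedge of `EmbCore.exists_emb_induces`, no `hres`/`hfin`/`hsum`): if `X` indexes
`[F : K(t)]` pairwise distinct ring homs `F →+* C((s))`, constant on `K`, agreeing on `K` and at
`t`, with `0 < ord_s (ι x t)`, then every place `v` of `F/K` with `0 < ord_v t` is induced by
one of them. -/
theorem exists_emb_induces_of_finrank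
    {K F : Type*} [Field K] [Field F] [Algebra K F] [CharZero K] {C : Type*} [Field C]
    (t : F) [FiniteDimensional K⟮t⟯ F]
    {X : Type*} [Finite X] (hX : Nat.card X = Module.finrank K⟮t⟯ F)
    (ι : X → F →+* LaurentSeries C) (hinj : Function.Injective ι)
    (hK : ∀ (x : X) (a : K), ∃ c : C, ι x (algebraMap K F a) = HahnSeries.C c)
    (hK' : ∀ (x y : X) (a : K), ι x (algebraMap K F a) = ι y (algebraMap K F a))
    (ht' : ∀ x y : X, ι x t = ι y t) (hord : ∀ x : X, 0 < (ι x t).order)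
    (v : Place K F) (hv : 0 < v.ord t) :
    ∃ (x : X) (r : ℕ), EmbInduces (ι x) v r := by
  classical
  by_contra hcon
  push Not at hcon
  cases nonempty_fintype X
  have ht0 : t ≠ 0 := by
    rintro rfl
    simp at hv
  have hne : ∀ x ∈ (Finset.univ : Finset X),
      ¬ ∀ f : F, f ≠ 0 → (0 ≤ v.ord f ↔ 0 ≤ (ι x f).order) := by
    intro x _ hequiv
    obtain ⟨m, hm, hmul⟩ := EmbSurj.exists_mul_of_equiv v (EmbSurj.isOrd_order (ι x)) hequiv
    exact hcon x m ⟨hm, hmul⟩
  obtain ⟨g, hg0, hgv, hgx⟩ := EmbSurj.IsOrd.exists_pos_forall_neg Finset.univ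
    (EmbSurj.isOrd_ord v) ⟨t, ht0, hv.ne'⟩ (fun x f => (ι x f).order)
    (fun x _ => EmbSurj.isOrd_order (ι x)) (fun x _ => ⟨t, ht0, (hord x).ne'⟩) hne
  have hf0 : g⁻¹ ≠ 0 := inv_ne_zero hg0
  have hfv : v.ord g⁻¹ < 0 := by
    rw [(EmbSurj.isOrd_ord v).inv hg0]
    omega
  have hfx : ∀ x, 0 ≤ (ι x g⁻¹).order := by
    intro x
    have h1 := (EmbSurj.isOrd_order (ι x)).inv hg0
    have h2 := hgx x (Finset.mem_univ x)
    omega
  have hpos : 0 < Nat.card X := by
    rw [hX]
    exact Module.finrank_pos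
  obtain ⟨x0⟩ : Nonempty X := (Nat.card_pos_iff.mp hpos).1
  have hagree : ∀ (x y : X), ∀ e ∈ K⟮t⟯, ι x e = ι y e := fun x y =>
    EmbSurj.agree_on_adjoin (ι x) (ι y) t (hK' x y) (ht' x y)
  have hKord : ∀ a : K, a ≠ 0 → (ι x0 (algebraMap K F a)).order = 0 := by
    intro a _
    obtain ⟨c, hc⟩ := hK x0 a
    rw [hc]
    exact HahnSeries.order_C
  have hnonneg : 0 ≤ v.ord g⁻¹ := by
    refine EmbSurj.nonneg_of_monic_root (EmbSurj.isOrd_ord v) K⟮t⟯ (minpoly K⟮t⟯ g⁻¹)
      (minpoly.monic (Algebra.IsIntegral.isIntegral _)) hf0 (minpoly.aeval _ _) ?_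
    intro i hci
    have hmem := EmbSurj.coeff_minpoly_mem_range ι hinj hX hagree x0 g⁻¹
      (fun x => (EmbSurj.mem_range_ofPowerSeries_iff _).mpr (Or.inr (hfx x))) i
    have h1 := ((EmbSurj.mem_range_ofPowerSeries_iff _).mp hmem).resolve_left
      ((map_ne_zero _).mpr hci)
    exact EmbSurj.nonneg_transfer (EmbSurj.isOrd_order (ι x0)) (EmbSurj.isOrd_ord v) hKord
      (fun a _ => EmbSurj.ord_algebraMap_eq_zero v a) ht0 (hord x0) hv (SetLike.coe_mem _) hci h1
  omega

end Fermat.Agent.S24
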