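import Mathlib
import Fermat.Agent.S24.Defs
import Fermat.Agent.S24.PlaceBasic
import Fermat.Agent.S24.EmbDefs
import Fermat.Agent.S24.Residue

/-!
# S24 team library: the `π`-adic expansion embedding `F →+* K((X))` at a place

OWNER: helper26.

For a place `v` of `F/K` whose residue field is `K` (hypothesis `hres`, in the shape of
`Residue.exists_residue`), the `π`-adic expansion (`π` a uniformizer) gives a ring embedding
`ι : F →+* LaurentSeries K` which is the identity on constants and satisfies
`(ι f).order = v.ord f`, i.e. `EmbInduces ι v 1`.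
-/

set_option autoImplicit false

namespace Fermat.Agent.S24

open AlgebraicCurve

variable {K F : Type*} [Field K] [Field F] [Algebra K F]

namespace ExpEmb

/-- The residue map `O_v → K`, as a ring hom, when the residue field is `K`. -/
theorem exists_res (v : Place K F)
    (hres : ∀ b : F, 0 ≤ v.ord b →
      ∃ a : K, b = algebraMap K F a ∨ 0 < v.ord (b - algebraMap K F a)) :
    ∃ res : v.toValuationSubring →+* K,
      (∀ a : K, res (algebraMap K v.toValuationSubring a) = a) ∧
      (∀ b : v.toValuationSubring,
        res b = 0 ↔ b ∈ IsLocalRing.maximalIdeal v.toValuationSubring) := by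
  set φ : K →+* IsLocalRing.ResidueField v.toValuationSubring :=
    (IsLocalRing.residue v.toValuationSubring).comp (algebraMap K v.toValuationSubring) with hφ
  have hinj : Function.Injective φ := φ.injective
  have hsurj : Function.Surjective φ := by
    intro x
    obtain ⟨b, rfl⟩ := IsLocalRing.residue_surjective x
    obtain ⟨a, ha⟩ := hres (b : F) (ord_nonneg_of_mem v b.2)
    refine ⟨a, ?_⟩
    have hmem : b - algebraMap K v.toValuationSubring a
        ∈ IsLocalRing.maximalIdeal v.toValuationSubring := by
      by_cases h0 : b - algebraMap K v.toValuationSubring a = 0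
      · rw [h0]; exact zero_mem _
      · rcases ha with ha | ha
        · exfalso
          apply h0
          apply Subtype.ext
          simp [ha]
        · exact (ord_pos_iff_mem_maximalIdeal v _ h0).mp (by simpa using ha)
    symm
    rw [hφ, RingHom.comp_apply, ← sub_eq_zero, ← map_sub, IsLocalRing.residue_eq_zero_iff]
    exact hmem
  let e : K ≃+* IsLocalRing.ResidueField v.toValuationSubring :=
    RingEquiv.ofBijective φ ⟨hinj, hsurj⟩
  have he : ∀ a : K, e a = IsLocalRing.residue v.toValuationSubring
      (algebraMap K v.toValuationSubring a) := fun a => rfl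
  refine ⟨e.symm.toRingHom.comp (IsLocalRing.residue v.toValuationSubring), ?_, ?_⟩
  · intro a
    show e.symm (IsLocalRing.residue v.toValuationSubring (algebraMap K v.toValuationSubring a)) = a
    rw [← he, RingEquiv.symm_apply_apply]
  · intro b
    show e.symm (IsLocalRing.residue v.toValuationSubring b) = 0 ↔ _
    rw [map_eq_zero_iff e.symm e.symm.injective, IsLocalRing.residue_eq_zero_iff]

/-- The `π`-adic expansion ring hom `O_v → K⟦X⟧`. -/
theorem exists_powerSeries_hom (v : Place K F)
    (res : v.toValuationSubring →+* K)
    (hres1 : ∀ a : K, res (algebraMap K v.toValuationSubring a) = a)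
    (hres0 : ∀ b : v.toValuationSubring,
      res b = 0 ↔ b ∈ IsLocalRing.maximalIdeal v.toValuationSubring)
    (ϖ : v.toValuationSubring) (hϖ : Irreducible ϖ) :
    ∃ T : v.toValuationSubring →+* PowerSeries K,
      (∀ a : K, T (algebraMap K v.toValuationSubring a) = PowerSeries.C a) ∧
      T ϖ = PowerSeries.X ∧
      (∀ b, PowerSeries.constantCoeff (T b) = res b) := by
  classical
  have hresϖ : res ϖ = 0 :=
    (hres0 ϖ).mpr (by rw [hϖ.maximalIdeal_eq]; exact Ideal.mem_span_singleton_self ϖ)
  have hex : ∀ b : v.toValuationSubring, ∃ c : v.toValuationSubring,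
      b = algebraMap K v.toValuationSubring (res b) + ϖ * c := by
    intro b
    have h : b - algebraMap K v.toValuationSubring (res b)
        ∈ IsLocalRing.maximalIdeal v.toValuationSubring := by
      rw [← hres0, map_sub, hres1, sub_self]
    rw [hϖ.maximalIdeal_eq, Ideal.mem_span_singleton'] at h
    obtain ⟨c, hc⟩ := h
    exact ⟨c, by rw [mul_comm, hc]; ring⟩
  choose S hS using hex
  have huniq : ∀ (b c : v.toValuationSubring) (a : K),
      b = algebraMap K v.toValuationSubring a + ϖ * c → res b = a ∧ S b = c := by
    intro b c a h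
    have h1 : res b = a := by
      rw [h, map_add, map_mul, hres1, hresϖ, zero_mul, add_zero]
    refine ⟨h1, ?_⟩
    have h2 := hS b
    rw [h1] at h2
    have h3 : ϖ * S b = ϖ * c := add_left_cancel (h2.symm.trans h)
    exact mul_left_cancel₀ hϖ.ne_zero h3
  have hS_add : ∀ b b', S (b + b') = S b + S b' := by
    intro b b'
    refine (huniq (b + b') (S b + S b') (res b + res b') ?_).2
    rw [map_add]
    linear_combination hS b + hS b'
  have hS_smul : ∀ (a : K) b, S (algebraMap K v.toValuationSubring a * b)
      = algebraMap K v.toValuationSubring a * S b := by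
    intro a b
    refine (huniq _ _ (a * res b) ?_).2
    rw [map_mul]
    linear_combination (algebraMap K v.toValuationSubring a) * hS b
  have hS_mul : ∀ b b', S (b * b')
      = S b * b' + algebraMap K v.toValuationSubring (res b) * S b' := by
    intro b b'
    refine (huniq _ _ (res b * res b') ?_).2
    rw [map_mul]
    linear_combination b' * hS b + (algebraMap K v.toValuationSubring (res b)) * hS b'
  have hS_zero : S 0 = 0 := (huniq 0 0 0 (by simp)).2
  have hS_one : S 1 = 0 := (huniq 1 0 1 (by simp)).2
  have hS_ϖ : S ϖ = 1 := (huniq ϖ 1 0 (by simp)).2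
  have hSn_add : ∀ (n : ℕ) b b', S^[n] (b + b') = S^[n] b + S^[n] b' := by
    intro n
    induction n with
    | zero => intro b b'; rfl
    | succ n ih =>
      intro b b'
      rw [Function.iterate_succ_apply, Function.iterate_succ_apply,
        Function.iterate_succ_apply, hS_add, ih]
  have hSn_smul : ∀ (n : ℕ) (a : K) b, S^[n] (algebraMap K v.toValuationSubring a * b)
      = algebraMap K v.toValuationSubring a * S^[n] b := by
    intro n
    induction n with
    | zero => intro a b; rfl
    | succ n ih =>
      intro a b
      rw [Function.iterate_succ_apply, Function.iterate_succ_apply, hS_smul, ih]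
  have hSn_zero : ∀ n : ℕ, S^[n] 0 = 0 := by
    intro n
    induction n with
    | zero => rfl
    | succ n ih => rw [Function.iterate_succ_apply, hS_zero, ih]
  set T0 : v.toValuationSubring → PowerSeries K :=
    fun b => PowerSeries.mk fun n => res (S^[n] b) with hT0
  have hT_coeff : ∀ b n, PowerSeries.coeff n (T0 b) = res (S^[n] b) :=
    fun b n => PowerSeries.coeff_mk _ _
  have hT_add : ∀ b b', T0 (b + b') = T0 b + T0 b' := by
    intro b b'
    ext n
    simp only [map_add, hT_coeff, hSn_add]
  have hT_smul : ∀ (a : K) b, T0 (algebraMap K v.toValuationSubring a * b)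
      = PowerSeries.C a * T0 b := by
    intro a b
    ext n
    rw [PowerSeries.coeff_C_mul, hT_coeff, hT_coeff, hSn_smul, map_mul, hres1]
  have hT_zero : T0 0 = 0 := by
    ext n
    rw [hT_coeff, hSn_zero, map_zero, map_zero]
  have hT_rec : ∀ b, T0 b = PowerSeries.C (res b) + PowerSeries.X * T0 (S b) := by
    intro b
    ext n
    cases n with
    | zero =>
      rw [map_add, hT_coeff, PowerSeries.coeff_zero_eq_constantCoeff]
      simp
    | succ n =>
      rw [map_add, PowerSeries.coeff_succ_X_mul, hT_coeff, hT_coeff,
        Function.iterate_succ_apply, PowerSeries.coeff_C]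
      simp
  have hT_one : T0 1 = 1 := by
    rw [hT_rec 1, map_one, hS_one, hT_zero, mul_zero, add_zero, map_one]
  have hT_mul : ∀ (n : ℕ) b b',
      PowerSeries.coeff n (T0 (b * b')) = PowerSeries.coeff n (T0 b * T0 b') := by
    intro n
    induction n with
    | zero =>
      intro b b'
      rw [PowerSeries.coeff_zero_eq_constantCoeff_apply,
        PowerSeries.coeff_zero_eq_constantCoeff_apply, map_mul,
        ← PowerSeries.coeff_zero_eq_constantCoeff_apply,
        ← PowerSeries.coeff_zero_eq_constantCoeff_apply,
        ← PowerSeries.coeff_zero_eq_constantCoeff_apply, hT_coeff, hT_coeff, hT_coeff]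
      simp
    | succ n ih =>
      intro b b'
      have e1 : PowerSeries.coeff (n + 1) (T0 (b * b'))
          = PowerSeries.coeff n (T0 (S (b * b'))) := by
        rw [hT_coeff, hT_coeff, Function.iterate_succ_apply]
      have e2 : PowerSeries.coeff (n + 1) (T0 b') = PowerSeries.coeff n (T0 (S b')) := by
        rw [hT_coeff, hT_coeff, Function.iterate_succ_apply]
      have e3 : PowerSeries.coeff (n + 1) (T0 b * T0 b')
          = res b * PowerSeries.coeff (n + 1) (T0 b')
            + PowerSeries.coeff n (T0 (S b) * T0 b') := by
        conv_lhs => rw [hT_rec b]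
        rw [add_mul, map_add, PowerSeries.coeff_C_mul, mul_assoc, PowerSeries.coeff_succ_X_mul]
      rw [e1, hS_mul, hT_add, map_add, ih, hT_smul, PowerSeries.coeff_C_mul, e3, e2]
      ring
  let T : v.toValuationSubring →+* PowerSeries K :=
    { toFun := T0
      map_one' := hT_one
      map_mul' := fun b b' => PowerSeries.ext fun n => hT_mul n b b'
      map_zero' := hT_zero
      map_add' := hT_add }
  have hTapp : ∀ b, T b = T0 b := fun _ => rfl
  refine ⟨T, ?_, ?_, ?_⟩
  · intro a
    rw [hTapp]
    have h := hT_smul a 1
    rw [mul_one, hT_one, mul_one] at h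
    exact h
  · rw [hTapp, hT_rec ϖ, hresϖ, hS_ϖ, hT_one, map_zero, zero_add, mul_one]
  · intro b
    rw [hTapp, ← PowerSeries.coeff_zero_eq_constantCoeff_apply, hT_coeff]
    rfl

end ExpEmb

/-- The `π`-adic expansion embedding at a place with residue field `K` (hypothesis form). -/
theorem exists_expEmb_of_res (v : Place K F)
    (hres : ∀ b : F, 0 ≤ v.ord b →
      ∃ a : K, b = algebraMap K F a ∨ 0 < v.ord (b - algebraMap K F a)) :
    ∃ ι : F →+* LaurentSeries K,
      (∀ a : K, ι (algebraMap K F a) = HahnSeries.C a) ∧ EmbInduces ι v 1 := by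
  obtain ⟨res, hres1, hres0⟩ := ExpEmb.exists_res v hres
  obtain ⟨ϖ, hϖ⟩ := IsDiscreteValuationRing.exists_irreducible v.toValuationSubring
  obtain ⟨T, hTC, hTϖ, hT0⟩ := ExpEmb.exists_powerSeries_hom v res hres1 hres0 ϖ hϖ
  -- units have nonzero constant coefficient
  have hunit : ∀ u : v.toValuationSubringˣ,
      PowerSeries.constantCoeff (T (u : v.toValuationSubring)) ≠ 0 := by
    intro u h
    rw [hT0, hres0, IsLocalRing.mem_maximalIdeal] at h
    exact h u.isUnit
  have hTinj : Function.Injective T := by
    rw [injective_iff_map_eq_zero]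
    intro b hb
    by_contra hb0
    obtain ⟨n, u, hu⟩ := IsDiscreteValuationRing.eq_unit_mul_pow_irreducible hb0 hϖ
    rw [hu, map_mul, map_pow, hTϖ] at hb
    have h0 : T (u : v.toValuationSubring) = 0 := by
      rcases mul_eq_zero.mp hb with h | h
      · exact h
      · exact absurd h (pow_ne_zero n PowerSeries.X_ne_zero)
    exact hunit u (by rw [h0, map_zero])
  let g : v.toValuationSubring →+* LaurentSeries K := (HahnSeries.ofPowerSeries ℤ K).comp T
  have hg : Function.Injective g := HahnSeries.ofPowerSeries_injective.comp hTinj
  let ι : F →+* LaurentSeries K := IsFractionRing.lift hg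
  have hι : ∀ b : v.toValuationSubring, ι (b : F) = HahnSeries.ofPowerSeries ℤ K (T b) :=
    fun b => IsFractionRing.lift_algebraMap hg b
  refine ⟨ι, ?_, Nat.one_pos, ?_⟩
  · intro a
    have h := hι (algebraMap K v.toValuationSubring a)
    rw [v.coe_algebraMap] at h
    rw [h, hTC, HahnSeries.ofPowerSeries_C]
  · intro f hf
    obtain ⟨u, hu⟩ := v.exists_unit_mul_zpow hf hϖ
    have h1 : ι f = HahnSeries.ofPowerSeries ℤ K (T (u : v.toValuationSubring))
        * HahnSeries.single (v.ord f) (1 : K) := by
      conv_lhs => rw [hu]
      rw [map_mul, map_zpow₀, hι, hι, hTϖ, HahnSeries.ofPowerSeries_X, ← RatFunc.single_zpow]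
    -- the order of the unit part is `0`
    have hx0 : (HahnSeries.ofPowerSeries ℤ K (T (u : v.toValuationSubring))).coeff 0 ≠ 0 := by
      have := hunit u
      rw [← PowerSeries.coeff_zero_eq_constantCoeff_apply] at this
      have h2 := HahnSeries.ofPowerSeries_apply_coeff (Γ := ℤ)
        (T (u : v.toValuationSubring)) 0
      simp only [Nat.cast_zero] at h2
      rw [h2]
      exact this
    have hxne : HahnSeries.ofPowerSeries ℤ K (T (u : v.toValuationSubring)) ≠ 0 := by
      intro h
      rw [h] at hx0
      exact hx0 rfl
    have hxord : (HahnSeries.ofPowerSeries ℤ K (T (u : v.toValuationSubring))).order = 0 := by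
      apply le_antisymm (HahnSeries.order_le_of_coeff_ne_zero hx0)
      rw [HahnSeries.le_order_iff_forall hxne]
      intro j hj
      rw [HahnSeries.ofPowerSeries_apply]
      apply HahnSeries.embDomain_of_notMem_range
      rintro ⟨n, hn⟩
      have hn' : (n : ℤ) = j := by simpa using hn
      omega
    rw [h1, HahnSeries.order_mul hxne (by simp), hxord,
      HahnSeries.order_single one_ne_zero]
    simp

variable [IsAlgClosed K] [CharZero K]

/-- The `π`-adic expansion embedding at any place of a function field in one variable over an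
algebraically closed field of characteristic zero. -/
theorem exists_expEmb (hF : IsFF1 K F) (v : Place K F) :
    ∃ ι : F →+* LaurentSeries K,
      (∀ a : K, ι (algebraMap K F a) = HahnSeries.C a) ∧ EmbInduces ι v 1 :=
  exists_expEmb_of_res v fun _ hb => exists_residue hF v hb

end Fermat.Agent.S24
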