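import Mathlib
import Fermat.Agent.S24.Defs
import Fermat.Agent.S24.EmbDefs
import Fermat.Agent.S24.EmbPlace
import Fermat.Agent.S24.Residue

/-!
# S24 team library: the `π`-adic expansion embedding of a place (version B)

OWNER: helper63 (only the owner edits this file).

For a discrete valuation ring `O` containing a field `K` which maps onto the residue field, and
a uniformizer `π`, every element has a unique expansion `∑ aₙ πⁿ` with `aₙ ∈ K`; this gives an
injective ring hom `O →+* K⟦X⟧` with `π ↦ X`.  For a place `v` of `F / K` it extends to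
`F →+* K⸨X⸩` and induces `v` with index `1`.
-/

set_option autoImplicit false

noncomputable section

namespace Fermat.Agent.S24

open AlgebraicCurve PowerSeries

namespace ExpEmbB

universe uK uO

/-- A coordinate on a discrete valuation ring `O` over a field `K`: a uniformizer, together with
the fact that `K` maps onto the residue field. -/
structure Coord (K : Type uK) (O : Type uO) [Field K] [CommRing O] [IsDomain O]
    [IsDiscreteValuationRing O] [Algebra K O] : Type uO where
  /-- the uniformizer -/
  π : O
  irr : Irreducible π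
  res : Function.Surjective (algebraMap K (IsLocalRing.ResidueField O))

variable {K : Type uK} {O : Type uO} [Field K] [CommRing O] [IsDomain O]
  [IsDiscreteValuationRing O] [Algebra K O] (c : Coord K O)

namespace Coord

theorem not_dvd_algebraMap {a : K} (ha : a ≠ 0) : ¬ c.π ∣ algebraMap K O a := by
  intro h
  have hu : IsUnit (algebraMap K O a) := (IsUnit.mk0 a ha).map _
  exact c.irr.not_isUnit (isUnit_of_dvd_unit h hu)

theorem exists_digit (u : O) : ∃ p : K × O, u = algebraMap K O p.1 + c.π * p.2 := by
  obtain ⟨a, ha⟩ := c.res (IsLocalRing.residue O u)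
  have h1 : IsLocalRing.residue O (u - algebraMap K O a) = 0 := by
    rw [map_sub, ← ha, sub_eq_zero]
    rfl
  rw [IsLocalRing.residue_eq_zero_iff, c.irr.maximalIdeal_eq, Ideal.mem_span_singleton] at h1
  obtain ⟨r, hr⟩ := h1
  exact ⟨(a, r), by rw [← hr]; ring⟩

theorem digit_unique {a a' : K} {r r' : O}
    (h : algebraMap K O a + c.π * r = algebraMap K O a' + c.π * r') : a = a' ∧ r = r' := by
  have h1 : algebraMap K O (a - a') = c.π * (r' - r) := by
    rw [map_sub]; linear_combination h
  have h2 : a - a' = 0 := by
    by_contra hne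
    exact c.not_dvd_algebraMap hne ⟨_, h1⟩
  refine ⟨sub_eq_zero.mp h2, ?_⟩
  rw [h2, map_zero] at h1
  have h3 := (mul_eq_zero.mp h1.symm).resolve_left c.irr.ne_zero
  exact (sub_eq_zero.mp h3).symm

/-- the first digit and the remainder of `u` -/
def dp (u : O) : K × O := (c.exists_digit u).choose

theorem dp_spec (u : O) : u = algebraMap K O (c.dp u).1 + c.π * (c.dp u).2 :=
  (c.exists_digit u).choose_spec

theorem dp_eq {u : O} {a : K} {r : O} (h : u = algebraMap K O a + c.π * r) :
    c.dp u = (a, r) := by
  have h' := c.digit_unique ((c.dp_spec u).symm.trans h)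
  exact Prod.ext h'.1 h'.2

/-- the `n`-th remainder of `u` -/
def rem (u : O) : ℕ → O
  | 0 => u
  | n + 1 => (c.dp (rem u n)).2

/-- the `n`-th digit of `u` -/
def digit (u : O) (n : ℕ) : K := (c.dp (c.rem u n)).1

/-- the `π`-adic expansion of `u` -/
def expand (u : O) : K⟦X⟧ := PowerSeries.mk (c.digit u)

theorem rem_of_eq {u : O} {a : K} {r : O} (h : u = algebraMap K O a + c.π * r) (n : ℕ) :
    c.rem u (n + 1) = c.rem r n := by
  induction n with
  | zero =>
    show (c.dp u).2 = r
    rw [c.dp_eq h]
  | succ n ih =>
    show (c.dp (c.rem u (n + 1))).2 = (c.dp (c.rem r n)).2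
    rw [ih]

theorem expand_eq {u : O} {a : K} {r : O} (h : u = algebraMap K O a + c.π * r) :
    c.expand u = C a + X * c.expand r := by
  ext n
  cases n with
  | zero =>
    have h0 : c.digit u 0 = a := by
      show (c.dp u).1 = a
      rw [c.dp_eq h]
    simp [expand, h0]
  | succ n =>
    have h1 : c.digit u (n + 1) = c.digit r n := by
      show (c.dp (c.rem u (n + 1))).1 = (c.dp (c.rem r n)).1
      rw [c.rem_of_eq h]
    simp [expand, h1, coeff_succ_X_mul]

theorem eq_zero_of_forall_X_pow_dvd {d : K⟦X⟧} (h : ∀ n : ℕ, (X : K⟦X⟧) ^ n ∣ d) : d = 0 := by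
  ext n
  have := (PowerSeries.X_pow_dvd_iff.mp (h (n + 1))) n (Nat.lt_succ_self n)
  simpa using this

theorem expand_pi_mul (z : O) : c.expand (c.π * z) = X * c.expand z := by
  have h : c.π * z = algebraMap K O 0 + c.π * z := by rw [map_zero, zero_add]
  rw [c.expand_eq h, map_zero, zero_add]

theorem expand_zero : c.expand 0 = 0 := by
  have h : c.expand 0 = X * c.expand 0 := by
    conv_lhs => rw [← mul_zero c.π]
    exact c.expand_pi_mul 0
  refine eq_zero_of_forall_X_pow_dvd fun n => ?_
  induction n with
  | zero => simp
  | succ n ih =>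
    rw [h, pow_succ']
    exact mul_dvd_mul_left X ih

theorem expand_algebraMap (a : K) : c.expand (algebraMap K O a) = C a := by
  have h : algebraMap K O a = algebraMap K O a + c.π * 0 := by rw [mul_zero, add_zero]
  rw [c.expand_eq h, c.expand_zero, mul_zero, add_zero]

theorem X_pow_dvd_add (n : ℕ) :
    ∀ u u' : O, (X : K⟦X⟧) ^ n ∣ c.expand (u + u') - c.expand u - c.expand u' := by
  induction n with
  | zero => intro u u'; simp
  | succ n ih =>
    intro u u'
    have h1 := c.dp_spec u
    have h2 := c.dp_spec u'
    have h3 : u + u' = algebraMap K O ((c.dp u).1 + (c.dp u').1)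
        + c.π * ((c.dp u).2 + (c.dp u').2) := by
      rw [map_add]; linear_combination h1 + h2
    have e1 := c.expand_eq h1
    have e2 := c.expand_eq h2
    have e3 := c.expand_eq h3
    have key : c.expand (u + u') - c.expand u - c.expand u'
        = X * (c.expand ((c.dp u).2 + (c.dp u').2) - c.expand (c.dp u).2
            - c.expand (c.dp u').2) := by
      rw [e3, map_add]
      linear_combination (-1 : K⟦X⟧) * e1 - e2
    rw [key, pow_succ']
    exact mul_dvd_mul_left X (ih _ _)

theorem expand_add (u u' : O) : c.expand (u + u') = c.expand u + c.expand u' := by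
  have h := eq_zero_of_forall_X_pow_dvd (fun n => c.X_pow_dvd_add n u u')
  linear_combination h

theorem X_pow_dvd_smul (n : ℕ) :
    ∀ (a : K) (w : O), (X : K⟦X⟧) ^ n ∣ c.expand (algebraMap K O a * w) - C a * c.expand w := by
  induction n with
  | zero => intro a w; simp
  | succ n ih =>
    intro a w
    have h1 := c.dp_spec w
    have h3 : algebraMap K O a * w = algebraMap K O (a * (c.dp w).1)
        + c.π * (algebraMap K O a * (c.dp w).2) := by
      rw [map_mul]; linear_combination (algebraMap K O a) * h1
    have e1 := c.expand_eq h1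
    have e3 := c.expand_eq h3
    have key : c.expand (algebraMap K O a * w) - C a * c.expand w
        = X * (c.expand (algebraMap K O a * (c.dp w).2) - C a * c.expand (c.dp w).2) := by
      rw [e3, map_mul]
      linear_combination (-(C a : K⟦X⟧)) * e1
    rw [key, pow_succ']
    exact mul_dvd_mul_left X (ih _ _)

theorem expand_smul (a : K) (w : O) : c.expand (algebraMap K O a * w) = C a * c.expand w := by
  have h := eq_zero_of_forall_X_pow_dvd (fun n => c.X_pow_dvd_smul n a w)
  linear_combination h

theorem X_pow_dvd_mul (n : ℕ) :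
    ∀ u w : O, (X : K⟦X⟧) ^ n ∣ c.expand (u * w) - c.expand u * c.expand w := by
  induction n with
  | zero => intro u w; simp
  | succ n ih =>
    intro u w
    have h1 := c.dp_spec u
    have h3 : u * w = algebraMap K O (c.dp u).1 * w + c.π * ((c.dp u).2 * w) := by
      linear_combination w * h1
    have e1 := c.expand_eq h1
    have key : c.expand (u * w) - c.expand u * c.expand w
        = X * (c.expand ((c.dp u).2 * w) - c.expand (c.dp u).2 * c.expand w) := by
      rw [h3, c.expand_add, c.expand_smul, c.expand_pi_mul]
      linear_combination (-(c.expand w)) * e1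
    rw [key, pow_succ']
    exact mul_dvd_mul_left X (ih _ _)

theorem expand_mul (u w : O) : c.expand (u * w) = c.expand u * c.expand w := by
  have h := eq_zero_of_forall_X_pow_dvd (fun n => c.X_pow_dvd_mul n u w)
  linear_combination h

theorem expand_one : c.expand 1 = 1 := by
  have h := c.expand_algebraMap 1
  rwa [map_one, map_one] at h

/-- The `π`-adic expansion as a ring homomorphism. -/
def expandHom : O →+* K⟦X⟧ where
  toFun := c.expand
  map_one' := c.expand_one
  map_mul' := c.expand_mul
  map_zero' := c.expand_zero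
  map_add' := c.expand_add

@[simp]
theorem expandHom_algebraMap (a : K) : c.expandHom (algebraMap K O a) = C a :=
  c.expand_algebraMap a

@[simp]
theorem expandHom_pi : c.expandHom c.π = X := by
  have h := c.expand_pi_mul 1
  rw [mul_one, c.expand_one, mul_one] at h
  exact h

theorem X_dvd_expandHom_iff (u : O) : X ∣ c.expandHom u ↔ c.π ∣ u := by
  constructor
  · intro h
    have h1 := c.dp_spec u
    have e1 : c.expandHom u = C (c.dp u).1 + X * c.expand (c.dp u).2 := c.expand_eq h1
    rw [PowerSeries.X_dvd_iff, e1] at h
    have h0 : (c.dp u).1 = 0 := by simpa using h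
    rw [h0, map_zero, zero_add] at h1
    exact ⟨_, h1⟩
  · rintro ⟨z, rfl⟩
    rw [map_mul, expandHom_pi]
    exact dvd_mul_right _ _

theorem X_pow_dvd_expandHom_iff (n : ℕ) :
    ∀ u : O, (X : K⟦X⟧) ^ n ∣ c.expandHom u ↔ c.π ^ n ∣ u := by
  induction n with
  | zero => intro u; simp
  | succ n ih =>
    intro u
    constructor
    · intro h
      have hX : X ∣ c.expandHom u := dvd_trans (dvd_pow_self X (Nat.succ_ne_zero n)) h
      obtain ⟨z, rfl⟩ := (c.X_dvd_expandHom_iff u).mp hX
      rw [map_mul, expandHom_pi, pow_succ'] at h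
      have h' : (X : K⟦X⟧) ^ n ∣ c.expandHom z :=
        (mul_dvd_mul_iff_left (PowerSeries.X_ne_zero)).mp h
      rw [pow_succ']
      exact mul_dvd_mul_left _ ((ih z).mp h')
    · rintro ⟨z, rfl⟩
      rw [map_mul, map_pow, expandHom_pi]
      exact dvd_mul_right _ _

theorem expandHom_injective : Function.Injective c.expandHom := by
  rw [injective_iff_map_eq_zero]
  intro u hu
  by_contra hu0
  obtain ⟨n, hn⟩ := IsDiscreteValuationRing.associated_pow_irreducible hu0 c.irr
  have h1 : c.π ^ (n + 1) ∣ u := by
    rw [← c.X_pow_dvd_expandHom_iff, hu]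
    exact dvd_zero _
  have h2 : c.π ^ (n + 1) ∣ c.π ^ n := h1.trans hn.dvd
  rw [pow_dvd_pow_iff c.irr.ne_zero c.irr.not_isUnit] at h2
  omega

theorem constantCoeff_expandHom_ne_zero {u : O} (hu : IsUnit u) :
    PowerSeries.constantCoeff (c.expandHom u) ≠ 0 := by
  intro h0
  rw [← PowerSeries.X_dvd_iff, c.X_dvd_expandHom_iff] at h0
  exact c.irr.not_isUnit (isUnit_of_dvd_unit h0 hu)

end Coord

end ExpEmbB

section Place

variable {K F : Type*} [Field K] [Field F] [Algebra K F]

/-- The `π`-adic expansion embedding of a place whose residue field is `K`. -/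
theorem exists_expEmb_of_residue (v : Place K F)
    (hres : Function.Surjective (algebraMap K v.ResidueField)) :
    ∃ ι : F →+* LaurentSeries K,
      (∀ a : K, ι (algebraMap K F a) = HahnSeries.C a) ∧ EmbInduces ι v 1 := by
  obtain ⟨π, hπ⟩ := IsDiscreteValuationRing.exists_irreducible v.toValuationSubring
  let c : ExpEmbB.Coord K v.toValuationSubring := ⟨π, hπ, hres⟩
  let j : v.toValuationSubring →+* LaurentSeries K :=
    (HahnSeries.ofPowerSeries ℤ K).comp c.expandHom
  have hj : Function.Injective j :=
    (HahnSeries.ofPowerSeries_injective).comp c.expandHom_injective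
  let ι : F →+* LaurentSeries K := IsFractionRing.lift hj
  have hι : ∀ x : v.toValuationSubring, ι (x : F) = j x := fun x =>
    IsFractionRing.lift_algebraMap hj x
  refine ⟨ι, fun a => ?_, Nat.one_pos, fun f hf => ?_⟩
  · have h1 : ι ((algebraMap K v.toValuationSubring a : v.toValuationSubring) : F)
        = j (algebraMap K v.toValuationSubring a) := hι _
    rw [Place.coe_algebraMap] at h1
    rw [h1]
    show HahnSeries.ofPowerSeries ℤ K (c.expandHom (algebraMap K v.toValuationSubring a)) = _
    rw [c.expandHom_algebraMap, HahnSeries.ofPowerSeries_C]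
  · obtain ⟨u, hu⟩ := v.exists_unit_mul_zpow hf hπ
    have hπF : (π : F) ≠ 0 := by
      simpa [ne_eq, ZeroMemClass.coe_eq_zero] using hπ.ne_zero
    have huF : ((u : v.toValuationSubring) : F) ≠ 0 := by
      simp [ne_eq, ZeroMemClass.coe_eq_zero]
    have hw := EmbPlace.isOrdFun_order ι
    -- order of `ι π`
    have h1 : (ι (π : F)).order = 1 := by
      rw [hι]
      show (HahnSeries.ofPowerSeries ℤ K (c.expandHom c.π)).order = 1
      rw [c.expandHom_pi, HahnSeries.ofPowerSeries_X]
      exact HahnSeries.order_single one_ne_zero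
    -- order of `ι u`
    have h2 : (ι ((u : v.toValuationSubring) : F)).order = 0 := by
      rw [hι]
      have hc := c.constantCoeff_expandHom_ne_zero u.isUnit
      have hcoeff : (j (u : v.toValuationSubring)).coeff 0 ≠ 0 := by
        show (HahnSeries.ofPowerSeries ℤ K (c.expandHom u)).coeff ((0 : ℕ) : ℤ) ≠ 0
        rw [HahnSeries.ofPowerSeries_apply_coeff]
        simpa using hc
      have hne : j (u : v.toValuationSubring) ≠ 0 := fun h => hcoeff (by rw [h]; rfl)
      apply le_antisymm (HahnSeries.order_le_of_coeff_ne_zero hcoeff)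
      by_contra hneg
      rw [not_le] at hneg
      have h3 : (j (u : v.toValuationSubring)).coeff (j (u : v.toValuationSubring)).order ≠ 0 :=
        fun h => hne (HahnSeries.coeff_order_eq_zero.mp h)
      apply h3
      show (HahnSeries.ofPowerSeries ℤ K (c.expandHom u)).coeff _ = 0
      rw [HahnSeries.ofPowerSeries_apply]
      refine HahnSeries.embDomain_of_notMem_range ?_
      rintro ⟨m, hm⟩
      have hm' : (m : ℤ) = (j (u : v.toValuationSubring)).order := hm
      exact absurd hneg (not_lt.mpr (hm' ▸ Int.natCast_nonneg m))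
    have h4 : (ι f).order = (ι ((u : v.toValuationSubring) : F)).order
        + (ι ((π : F) ^ v.ord f)).order := by
      conv_lhs => rw [hu]
      exact hw.map_mul _ _ huF (zpow_ne_zero _ hπF)
    rw [h4, h2, hw.map_zpow hπF, h1]
    ring

variable [IsAlgClosed K] [CharZero K]

/-- EXPORT: the `π`-adic expansion embedding of a place of a function field in one variable. -/
theorem exists_expEmb' (hF : IsFF1 K F) (v : Place K F) :
    ∃ ι : F →+* LaurentSeries K,
      (∀ a : K, ι (algebraMap K F a) = HahnSeries.C a) ∧ EmbInduces ι v 1 :=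
  exists_expEmb_of_residue v (residue_surjective hF v)

end Place

end Fermat.Agent.S24
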