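import Mathlib
import Fermat.Prelude.Def_ModularCurve_CanonicalDivisor

/-!
# S24 team library: the order of `dy` at a place (local computation)

OWNER: helper98 (only the owner edits this file).

Abstract setting: `K`, `F` fields, `F` a `K`-algebra, `v : AlgebraicCurve.Place K F`.
No global hypothesis on `F / K`, no modular input.  Two independent routes to
`ord_v (dy / dπ_v) = ord_v y - 1` (for `ord_v y ≠ 0`):

* `LocalDiff.ordDifferential_D` : algebraic route, from
  `hres` (residue field `= K`), `hbdd` (bounded denominators of `dr / dπ_v`, `r ∈ O_v`),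
  `[v.DCoordGenerates]`, `[Nontrivial Ω[F⁄K]]`, `[CharZero K]`.
* `LocalDiff.ordDifferential_D_of_embedding` / `LocalDiff.ordDifferential_D_of_laurent` :
  embedding route, from a ring embedding `ι : F →+* L` into a valued differential field
  (e.g. `L = LaurentSeries C`, `char C = 0`) with `order ∘ ι = k · ord_v`, `k ≠ 0`,
  and `[v.DCoordGenerates]` only.
-/

set_option autoImplicit false

open AlgebraicCurve KaehlerDifferential

namespace Fermat.Agent.S24.LocalDiff

variable {K F : Type*} [Field K] [Field F] [Algebra K F]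

/-! ### The chosen uniformizer -/

/-- The (private, chosen) uniformizer behind `Place.dCoord`: an irreducible element of the
valuation ring whose differential is `v.dCoord`. -/
theorem exists_irreducible_dCoord (v : Place K F) :
    ∃ π : v.toValuationSubring, Irreducible π ∧ v.dCoord = D K F (π : F) :=
  ⟨_, (IsDiscreteValuationRing.exists_irreducible v.toValuationSubring).choose_spec, rfl⟩

theorem exists_ord_one_dCoord (v : Place K F) :
    ∃ π : F, v.ord π = 1 ∧ π ≠ 0 ∧ v.dCoord = D K F π := by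
  obtain ⟨π, hπ, h⟩ := exists_irreducible_dCoord v
  refine ⟨π, v.ord_coe_irreducible hπ, ?_, h⟩
  simpa [ne_eq, ZeroMemClass.coe_eq_zero] using hπ.ne_zero

/-! ### Basic facts on `ord` and the valuation ring -/

section Basic

variable (v : Place K F)

theorem mem_of_ord_nonneg {f : F} (hf : 0 ≤ v.ord f) : f ∈ v.toValuationSubring := by
  rcases eq_or_ne f 0 with rfl | hf0
  · exact zero_mem _
  obtain ⟨π, hπ⟩ := IsDiscreteValuationRing.exists_irreducible v.toValuationSubring
  obtain ⟨u, hu⟩ := v.exists_unit_mul_zpow hf0 hπ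
  rw [hu]
  obtain ⟨n, hn⟩ := Int.eq_ofNat_of_zero_le hf
  rw [hn, zpow_natCast]
  exact mul_mem (u : v.toValuationSubring).2 (pow_mem π.2 n)

theorem ord_nonneg_of_mem {f : F} (hf : f ∈ v.toValuationSubring) : 0 ≤ v.ord f := by
  rcases eq_or_ne f 0 with rfl | hf0
  · simp
  obtain ⟨π, hπ⟩ := IsDiscreteValuationRing.exists_irreducible v.toValuationSubring
  obtain ⟨u, hu⟩ := v.exists_unit_mul_zpow hf0 hπ
  by_contra hneg
  rw [not_le] at hneg
  obtain ⟨k, hk⟩ : ∃ k : ℕ, v.ord f = -((k : ℤ) + 1) :=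
    ⟨(-v.ord f - 1).toNat, by omega⟩
  have hπF : (π : F) ≠ 0 := by
    simpa [ne_eq, ZeroMemClass.coe_eq_zero] using hπ.ne_zero
  -- `u = f * π ^ (k+1)` in the valuation ring, so `π ∣ u`, absurd.
  have h1 : ((u : v.toValuationSubring) : F) = f * (π : F) ^ (k + 1) := by
    conv_rhs => rw [hu, hk, mul_assoc, ← zpow_natCast, ← zpow_add₀ hπF]
    have : -((k : ℤ) + 1) + ((k + 1 : ℕ) : ℤ) = 0 := by push_cast; ring
    rw [this, zpow_zero, mul_one]
  have h2 : (u : v.toValuationSubring) = ⟨f, hf⟩ * π ^ (k + 1) := Subtype.ext h1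
  have h3 : π ∣ (u : v.toValuationSubring) := ⟨⟨f, hf⟩ * π ^ k, by rw [h2]; ring⟩
  exact hπ.not_isUnit (isUnit_of_dvd_unit h3 u.isUnit)

end Basic

/-! ### Algebraic route -/

section Algebraic

variable (v : Place K F)

/-- Downward induction: if `π ^ (n+1) · (dr/dπ)` is integral for all integral `r`, then so is
`π ^ n · (dr/dπ)`.  Uses that the residue field is `K`. -/
theorem bdd_step
    (hres : ∀ b : F, 0 ≤ v.ord b → ∃ a : K, b = algebraMap K F a ∨ 0 < v.ord (b - algebraMap K F a))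
    (π : v.toValuationSubring) (hπ : Irreducible π) (n : ℕ)
    (H : ∀ r ∈ v.toValuationSubring, ∃ a : F, D K F r = a • D K F (π : F) ∧
      (π : F) ^ (n + 1) * a ∈ v.toValuationSubring) :
    ∀ r ∈ v.toValuationSubring, ∃ a : F, D K F r = a • D K F (π : F) ∧
      (π : F) ^ n * a ∈ v.toValuationSubring := by
  intro r hr
  have hπF : (π : F) ≠ 0 := by
    simpa [ne_eq, ZeroMemClass.coe_eq_zero] using hπ.ne_zero
  have hπ1 : v.ord (π : F) = 1 := v.ord_coe_irreducible hπ
  obtain ⟨c, hc | hc⟩ := hres r (ord_nonneg_of_mem v hr)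
  · refine ⟨0, ?_, by simp⟩
    rw [hc, Derivation.map_algebraMap, zero_smul]
  · -- `r = c + π * s` with `s` integral
    have hrc : r - algebraMap K F c ≠ 0 := by
      intro h0
      rw [h0, v.ord_zero] at hc
      exact lt_irrefl _ hc
    set s : F := (r - algebraMap K F c) * (π : F)⁻¹ with hs
    have hs0 : s ≠ 0 := mul_ne_zero hrc (inv_ne_zero hπF)
    have hsord : v.ord s = v.ord (r - algebraMap K F c) - 1 := by
      rw [hs, v.ord_mul hrc (inv_ne_zero hπF), v.ord_inv, hπ1]
      ring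
    have hsmem : s ∈ v.toValuationSubring := mem_of_ord_nonneg v (by omega)
    have hr_eq : r = algebraMap K F c + (π : F) * s := by
      rw [hs]
      field_simp
      ring
    obtain ⟨a₁, ha₁, ha₁mem⟩ := H s hsmem
    refine ⟨(π : F) * a₁ + s, ?_, ?_⟩
    · rw [hr_eq, map_add, Derivation.map_algebraMap, zero_add, Derivation.leibniz, ha₁]
      module
    · have : (π : F) ^ n * ((π : F) * a₁ + s) = (π : F) ^ (n + 1) * a₁ + (π : F) ^ n * s := by
        ring
      rw [this]
      exact add_mem ha₁mem (mul_mem (pow_mem π.2 n) hsmem)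

/-- Integrality of `dr / dπ_v` for integral `r`, from residue field `= K` and bounded
denominators. -/
theorem exists_integral_coeff
    (hres : ∀ b : F, 0 ≤ v.ord b → ∃ a : K, b = algebraMap K F a ∨ 0 < v.ord (b - algebraMap K F a))
    (π : v.toValuationSubring) (hπ : Irreducible π)
    (hbdd : ∃ M : ℤ, ∀ r : F, 0 ≤ v.ord r → ∃ a : F, D K F r = a • D K F (π : F) ∧ -M ≤ v.ord a) :
    ∀ r ∈ v.toValuationSubring, ∃ a : F, D K F r = a • D K F (π : F) ∧
      a ∈ v.toValuationSubring := by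
  obtain ⟨M, hM⟩ := hbdd
  have hπF : (π : F) ≠ 0 := by
    simpa [ne_eq, ZeroMemClass.coe_eq_zero] using hπ.ne_zero
  have hπ1 : v.ord (π : F) = 1 := v.ord_coe_irreducible hπ
  have key : ∀ n : ℕ, ∀ r ∈ v.toValuationSubring, ∃ a : F, D K F r = a • D K F (π : F) ∧
      (π : F) ^ (M.toNat - n) * a ∈ v.toValuationSubring := by
    intro n
    induction n with
    | zero =>
      intro r hr
      obtain ⟨a, ha, haM⟩ := hM r (ord_nonneg_of_mem v hr)
      refine ⟨a, ha, ?_⟩
      rcases eq_or_ne a 0 with rfl | ha0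
      · simp
      · apply mem_of_ord_nonneg
        rw [v.ord_mul (pow_ne_zero _ hπF) ha0, ← zpow_natCast, v.ord_zpow, hπ1]
        have := Int.self_le_toNat M
        simp only [Nat.sub_zero]
        omega
    | succ n ih =>
      by_cases hn : n < M.toNat
      · have h1 : M.toNat - n = (M.toNat - (n + 1)) + 1 := by omega
        rw [h1] at ih
        exact bdd_step v hres π hπ _ ih
      · have h1 : M.toNat - (n + 1) = M.toNat - n := by omega
        rw [h1]
        exact ih
  intro r hr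
  obtain ⟨a, ha, hmem⟩ := key M.toNat r hr
  exact ⟨a, ha, by simpa using hmem⟩

/-- Core computation for a zero: if `y = u π^(k+1)` then `dy = (w π^k) dπ` with `w` a unit. -/
theorem exists_unit_coeff_of_pos [CharZero K]
    (π : v.toValuationSubring) (hπ : Irreducible π)
    (hint : ∀ r ∈ v.toValuationSubring, ∃ a : F, D K F r = a • D K F (π : F) ∧
      a ∈ v.toValuationSubring)
    {y : F} (hy : 0 < v.ord y) :
    ∃ w : v.toValuationSubringˣ,
      D K F y = (((w : v.toValuationSubring) : F) * (π : F) ^ (v.ord y - 1)) • D K F (π : F) := by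
  have hy0 : y ≠ 0 := by
    rintro rfl
    rw [v.ord_zero] at hy
    exact lt_irrefl _ hy
  have hπF : (π : F) ≠ 0 := by
    simpa [ne_eq, ZeroMemClass.coe_eq_zero] using hπ.ne_zero
  obtain ⟨u, hu⟩ := v.exists_unit_mul_zpow hy0 hπ
  obtain ⟨k, hk⟩ : ∃ k : ℕ, v.ord y = (k : ℤ) + 1 := ⟨(v.ord y - 1).toNat, by omega⟩
  obtain ⟨a, ha, hamem⟩ := hint _ (u : v.toValuationSubring).2
  -- the unit `w = (k+1) u + π a`
  have hcast : IsUnit (((k + 1 : ℕ) : v.toValuationSubring)) := by
    have h1 : IsUnit (((k + 1 : ℕ) : K)) :=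
      isUnit_iff_ne_zero.mpr (Nat.cast_ne_zero.mpr (Nat.succ_ne_zero k))
    have h2 := h1.map (algebraMap K v.toValuationSubring)
    rwa [map_natCast] at h2
  have hw : IsUnit (((k + 1 : ℕ) : v.toValuationSubring) * (u : v.toValuationSubring)
      + π * ⟨a, hamem⟩) := by
    by_contra hnu
    have h1 : ((k + 1 : ℕ) : v.toValuationSubring) * (u : v.toValuationSubring)
        + π * ⟨a, hamem⟩ ∈ IsLocalRing.maximalIdeal v.toValuationSubring := hnu
    have h2 : π * (⟨a, hamem⟩ : v.toValuationSubring)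
        ∈ IsLocalRing.maximalIdeal v.toValuationSubring :=
      Ideal.mul_mem_right _ _ hπ.not_isUnit
    have h3 := (Ideal.add_mem_iff_left _ h2).mp h1
    exact h3 (hcast.mul u.isUnit)
  refine ⟨hw.unit, ?_⟩
  rw [IsUnit.unit_spec, hk, add_sub_cancel_right, zpow_natCast]
  conv_lhs => rw [hu, hk]
  have hpow : (π : F) ^ ((k : ℤ) + 1) = (π : F) ^ (k + 1) := by
    rw [← zpow_natCast]; push_cast; rfl
  rw [hpow, Derivation.leibniz, Derivation.leibniz_pow, ha, Nat.add_sub_cancel,
    ← Nat.cast_smul_eq_nsmul F]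
  push_cast
  module

/-- Core computation: if `ord_v y ≠ 0` then `dy = (w π^(ord_v y - 1)) dπ` with `w` a unit. -/
theorem exists_unit_coeff [CharZero K]
    (π : v.toValuationSubring) (hπ : Irreducible π)
    (hint : ∀ r ∈ v.toValuationSubring, ∃ a : F, D K F r = a • D K F (π : F) ∧
      a ∈ v.toValuationSubring)
    {y : F} (hy : v.ord y ≠ 0) :
    ∃ w : v.toValuationSubringˣ,
      D K F y = (((w : v.toValuationSubring) : F) * (π : F) ^ (v.ord y - 1)) • D K F (π : F) := by
  rcases lt_or_gt_of_ne hy with hneg | hpos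
  · -- pole: apply the zero case to `y⁻¹`
    have hy0 : y ≠ 0 := by
      rintro rfl
      exact hy v.ord_zero
    have hπF : (π : F) ≠ 0 := by
      simpa [ne_eq, ZeroMemClass.coe_eq_zero] using hπ.ne_zero
    have hinv : 0 < v.ord y⁻¹ := by rw [v.ord_inv]; omega
    obtain ⟨w, hw⟩ := exists_unit_coeff_of_pos v π hπ hint hinv
    obtain ⟨u, hu⟩ := v.exists_unit_mul_zpow hy0 hπ
    refine ⟨-(u ^ 2 * w), ?_⟩
    have h1 : D K F y = -(y ^ 2) • D K F y⁻¹ := by
      have := Derivation.leibniz_inv (D K F) y⁻¹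
      rw [inv_inv] at this
      rw [this]
    rw [h1, hw, smul_smul, v.ord_inv]
    congr 1
    have e1 : (π : F) ^ (-v.ord y - 1) = (π : F) ^ (v.ord y - 1) * ((π : F) ^ (v.ord y))⁻¹ ^ 2 := by
      rw [← zpow_neg, ← zpow_natCast, ← zpow_mul, ← zpow_add₀ hπF]
      congr 1
      push_cast
      ring
    have e2 : y ^ 2 * ((π : F) ^ (v.ord y))⁻¹ ^ 2 = ((u : v.toValuationSubring) : F) ^ 2 := by
      have hne : (π : F) ^ (v.ord y) ≠ 0 := zpow_ne_zero _ hπF
      have hu' : y * ((π : F) ^ (v.ord y))⁻¹ = ((u : v.toValuationSubring) : F) := by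
        rw [eq_comm, eq_mul_inv_iff_mul_eq₀ hne]
        exact hu.symm
      rw [← mul_pow, hu']
    rw [e1]
    push_cast
    linear_combination (-(((w : v.toValuationSubring) : F)) * (π : F) ^ (v.ord y - 1)) * e2
  · exact exists_unit_coeff_of_pos v π hπ hint hpos

/-- **(LD1), full form.** `dy = b · dπ_v` with `b ≠ 0` and `ord_v b = ord_v y - 1`, whenever
`ord_v y ≠ 0`.  Hypotheses: characteristic zero, residue field `K` (`hres`), bounded
denominators (`hbdd`), `v.dCoord` generates `Ω[F/K]`, `Ω[F/K] ≠ 0`. -/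
theorem differentialCoeff_D_spec [CharZero K] [v.DCoordGenerates] [Nontrivial Ω[F⁄K]]
    (hres : ∀ b : F, 0 ≤ v.ord b → ∃ a : K, b = algebraMap K F a ∨ 0 < v.ord (b - algebraMap K F a))
    (hbdd : ∃ M : ℤ, ∀ r : F, 0 ≤ v.ord r → -M ≤ v.ord (v.differentialCoeff (D K F r)))
    {y : F} (hy : v.ord y ≠ 0) :
    v.differentialCoeff (D K F y) ≠ 0 ∧ v.ord (v.differentialCoeff (D K F y)) = v.ord y - 1 := by
  obtain ⟨π, hπ, hdπ⟩ := exists_irreducible_dCoord v
  have hπF : (π : F) ≠ 0 := by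
    simpa [ne_eq, ZeroMemClass.coe_eq_zero] using hπ.ne_zero
  have hbdd' : ∃ M : ℤ, ∀ r : F, 0 ≤ v.ord r →
      ∃ a : F, D K F r = a • D K F (π : F) ∧ -M ≤ v.ord a := by
    obtain ⟨M, hM⟩ := hbdd
    refine ⟨M, fun r hr => ⟨v.differentialCoeff (D K F r), ?_, hM r hr⟩⟩
    rw [← hdπ, v.differentialCoeff_smul_dCoord]
  have hint := exists_integral_coeff v hres π hπ hbdd'
  obtain ⟨w, hw⟩ := exists_unit_coeff v π hπ hint hy
  have hcoeff : v.differentialCoeff (D K F y)
      = ((w : v.toValuationSubring) : F) * (π : F) ^ (v.ord y - 1) :=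
    v.differentialCoeff_unique (by rw [hdπ]; exact hw)
  rw [hcoeff]
  refine ⟨mul_ne_zero ?_ (zpow_ne_zero _ hπF), v.ord_unit_smul_zpow w hπ _⟩
  simp [ne_eq, ZeroMemClass.coe_eq_zero]

/-- **(LD1)** `ord_v (dy / dπ_v) = ord_v y - 1` whenever `ord_v y ≠ 0` (zero of order `e`:
`e - 1`; pole of order `e`: `-e - 1`). -/
theorem ordDifferential_D [CharZero K] [v.DCoordGenerates] [Nontrivial Ω[F⁄K]]
    (hres : ∀ b : F, 0 ≤ v.ord b → ∃ a : K, b = algebraMap K F a ∨ 0 < v.ord (b - algebraMap K F a))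
    (hbdd : ∃ M : ℤ, ∀ r : F, 0 ≤ v.ord r → -M ≤ v.ord (v.differentialCoeff (D K F r)))
    {y : F} (hy : v.ord y ≠ 0) :
    v.ordDifferential (D K F y) = v.ord y - 1 :=
  (differentialCoeff_D_spec v hres hbdd hy).2

/-- **(LD2)** the same for `y - c`, `c ∈ K`: at a place over `y = c` with ramification index
`e = ord_v (y - c)`, `ord_v (dy) = e - 1`. -/
theorem ordDifferential_D_sub [CharZero K] [v.DCoordGenerates] [Nontrivial Ω[F⁄K]]
    (hres : ∀ b : F, 0 ≤ v.ord b → ∃ a : K, b = algebraMap K F a ∨ 0 < v.ord (b - algebraMap K F a))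
    (hbdd : ∃ M : ℤ, ∀ r : F, 0 ≤ v.ord r → -M ≤ v.ord (v.differentialCoeff (D K F r)))
    {y : F} (c : K) (hy : v.ord (y - algebraMap K F c) ≠ 0) :
    v.ordDifferential (D K F y) = v.ord (y - algebraMap K F c) - 1 := by
  have h := ordDifferential_D v hres hbdd hy
  rwa [map_sub, Derivation.map_algebraMap, sub_zero] at h

/-- **(LD3)** `ord_v (f · dy) = ord_v f + ord_v y - 1` for `f ≠ 0`, `ord_v y ≠ 0`. -/
theorem ordDifferential_smul_D [CharZero K] [v.DCoordGenerates] [Nontrivial Ω[F⁄K]]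
    (hres : ∀ b : F, 0 ≤ v.ord b → ∃ a : K, b = algebraMap K F a ∨ 0 < v.ord (b - algebraMap K F a))
    (hbdd : ∃ M : ℤ, ∀ r : F, 0 ≤ v.ord r → -M ≤ v.ord (v.differentialCoeff (D K F r)))
    {f : F} (hf : f ≠ 0) {y : F} (hy : v.ord y ≠ 0) :
    v.ordDifferential (f • D K F y) = v.ord f + (v.ord y - 1) := by
  obtain ⟨h0, h1⟩ := differentialCoeff_D_spec v hres hbdd hy
  rw [v.ordDifferential_smul hf h0]
  exact congrArg _ h1

/-- **(LD3')** variant with `y - c`. -/
theorem ordDifferential_smul_D_sub [CharZero K] [v.DCoordGenerates] [Nontrivial Ω[F⁄K]]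
    (hres : ∀ b : F, 0 ≤ v.ord b → ∃ a : K, b = algebraMap K F a ∨ 0 < v.ord (b - algebraMap K F a))
    (hbdd : ∃ M : ℤ, ∀ r : F, 0 ≤ v.ord r → -M ≤ v.ord (v.differentialCoeff (D K F r)))
    {f : F} (hf : f ≠ 0) {y : F} (c : K) (hy : v.ord (y - algebraMap K F c) ≠ 0) :
    v.ordDifferential (f • D K F y) = v.ord f + (v.ord (y - algebraMap K F c) - 1) := by
  have h := ordDifferential_smul_D v hres hbdd hf hy
  rwa [map_sub, Derivation.map_algebraMap, sub_zero] at h

/-- Integrality: `dr / dπ_v` is integral at `v` for `r` integral at `v`. -/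
theorem ord_differentialCoeff_nonneg [v.DCoordGenerates] [Nontrivial Ω[F⁄K]]
    (hres : ∀ b : F, 0 ≤ v.ord b → ∃ a : K, b = algebraMap K F a ∨ 0 < v.ord (b - algebraMap K F a))
    (hbdd : ∃ M : ℤ, ∀ r : F, 0 ≤ v.ord r → -M ≤ v.ord (v.differentialCoeff (D K F r)))
    {r : F} (hr : 0 ≤ v.ord r) :
    0 ≤ v.ord (v.differentialCoeff (D K F r)) := by
  obtain ⟨π, hπ, hdπ⟩ := exists_irreducible_dCoord v
  have hbdd' : ∃ M : ℤ, ∀ r : F, 0 ≤ v.ord r →
      ∃ a : F, D K F r = a • D K F (π : F) ∧ -M ≤ v.ord a := by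
    obtain ⟨M, hM⟩ := hbdd
    refine ⟨M, fun r hr => ⟨v.differentialCoeff (D K F r), ?_, hM r hr⟩⟩
    rw [← hdπ, v.differentialCoeff_smul_dCoord]
  obtain ⟨a, ha, hamem⟩ := exists_integral_coeff v hres π hπ hbdd' r (mem_of_ord_nonneg v hr)
  have hcoeff : v.differentialCoeff (D K F r) = a :=
    v.differentialCoeff_unique (by rw [hdπ]; exact ha)
  rw [hcoeff]
  exact ord_nonneg_of_mem v hamem

end Algebraic

/-! ### Embedding route -/

section Abstract

variable {L : Type*} [Field L]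

/-- A "derivation along a ring embedding" `F → L`, extended to Kähler differentials:
an additive map `Ω[F/K] → L`, semilinear along `ι`, sending `D x` to `δ (ι x)`. -/
theorem exists_lift (ι : F →+* L) (δ : L → L)
    (h_add : ∀ x y, δ (x + y) = δ x + δ y)
    (h_mul : ∀ x y, δ (x * y) = x * δ y + y * δ x)
    (h_const : ∀ c : K, δ (ι (algebraMap K F c)) = 0) :
    ∃ Φ : Ω[F⁄K] →+ L, (∀ (a : F) (ω : Ω[F⁄K]), Φ (a • ω) = ι a * Φ ω) ∧
      ∀ x : F, Φ (D K F x) = δ (ι x) := by
  let _ : Algebra F L := ι.toAlgebra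
  let _ : Algebra K L := (ι.comp (algebraMap K F)).toAlgebra
  have : IsScalarTower K F L := IsScalarTower.of_algebraMap_eq (fun _ => rfl)
  let d0 : F →ₗ[K] L :=
    { toFun := fun x => δ (ι x)
      map_add' := fun x y => by rw [map_add, h_add]
      map_smul' := fun c x => by
        rw [Algebra.smul_def, map_mul, h_mul, h_const, mul_zero, add_zero, RingHom.id_apply,
          Algebra.smul_def]
        rfl }
  let d : Derivation K F L := Derivation.mk' d0 (fun a b => by
    show δ (ι (a * b)) = a • δ (ι b) + b • δ (ι a)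
    rw [map_mul, h_mul, Algebra.smul_def, Algebra.smul_def]
    rfl)
  refine ⟨d.liftKaehlerDifferential.toAddMonoidHom, fun a ω => ?_, fun x => ?_⟩
  · show d.liftKaehlerDifferential (a • ω) = ι a * d.liftKaehlerDifferential ω
    rw [map_smul, Algebra.smul_def]
    rfl
  · show d.liftKaehlerDifferential (D K F x) = δ (ι x)
    rw [Derivation.liftKaehlerDifferential_comp_D]
    rfl

/-- **Order of a differential via an embedding into a valued differential field.**
If `ι : F → L` is a ring embedding into a field with a "derivation" `δ` (killing `ι K`) and an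
"order function" `w` with `w ∘ ι = k · ord_v` (`k ≠ 0`) and `w (δ y) = w y - 1` whenever
`w y ≠ 0`, then `ord_v (dt / dπ_v) = ord_v t - 1` for every `t` with `ord_v t ≠ 0`. -/
theorem ordDifferential_D_of_embedding (v : Place K F) [v.DCoordGenerates]
    (ι : F →+* L) (δ : L → L)
    (h_add : ∀ x y, δ (x + y) = δ x + δ y)
    (h_mul : ∀ x y, δ (x * y) = x * δ y + y * δ x)
    (h_const : ∀ c : K, δ (ι (algebraMap K F c)) = 0)
    (w : L → ℤ) (k : ℤ) (hk : k ≠ 0)
    (hw : ∀ f : F, f ≠ 0 → w (ι f) = k * v.ord f)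
    (hw_mul : ∀ x y : L, x ≠ 0 → y ≠ 0 → w (x * y) = w x + w y)
    (hδ : ∀ y : L, y ≠ 0 → w y ≠ 0 → δ y ≠ 0 ∧ w (δ y) = w y - 1)
    {t : F} (ht : v.ord t ≠ 0) :
    v.differentialCoeff (D K F t) ≠ 0 ∧ v.ordDifferential (D K F t) = v.ord t - 1 := by
  obtain ⟨π, hπ1, hπ0, hπ⟩ := exists_ord_one_dCoord v
  obtain ⟨Φ, hΦ, hΦD⟩ := exists_lift (K := K) ι δ h_add h_mul h_const
  have ht0 : t ≠ 0 := by
    rintro rfl
    exact ht v.ord_zero
  set a := v.differentialCoeff (D K F t) with ha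
  have h1 : a • D K F π = D K F t := by
    rw [← hπ]; exact v.differentialCoeff_smul_dCoord _
  have h2 : ι a * δ (ι π) = δ (ι t) := by
    rw [← hΦD, ← hΦD, ← hΦ, h1]
  have hιt : ι t ≠ 0 := (map_ne_zero ι).mpr ht0
  have hιπ : ι π ≠ 0 := (map_ne_zero ι).mpr hπ0
  have hwt : w (ι t) = k * v.ord t := hw t ht0
  have hwπ : w (ι π) = k := by rw [hw π hπ0, hπ1, mul_one]
  obtain ⟨ht1, ht2⟩ := hδ (ι t) hιt (by rw [hwt]; exact mul_ne_zero hk ht)
  obtain ⟨hp1, hp2⟩ := hδ (ι π) hιπ (by rw [hwπ]; exact hk)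
  have ha0 : a ≠ 0 := by
    intro h0
    rw [h0, map_zero, zero_mul] at h2
    exact ht1 h2.symm
  refine ⟨ha0, ?_⟩
  have h3 : w (ι a) + w (δ (ι π)) = w (δ (ι t)) := by
    rw [← hw_mul _ _ ((map_ne_zero ι).mpr ha0) hp1, h2]
  rw [hw a ha0, hp2, ht2, hwt, hwπ] at h3
  have h4 : k * v.ord a = k * (v.ord t - 1) := by linarith
  exact mul_left_cancel₀ hk h4

/-- An embedding as in `ordDifferential_D_of_embedding` also shows `dπ_v ≠ 0`; so if `Ω[F/K]`
is spanned by one element, `v.dCoord` generates it. -/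
theorem dCoordGenerates_of_embedding (v : Place K F)
    (hspan : ∃ ω₀ : Ω[F⁄K], Submodule.span F {ω₀} = ⊤)
    (ι : F →+* L) (δ : L → L)
    (h_add : ∀ x y, δ (x + y) = δ x + δ y)
    (h_mul : ∀ x y, δ (x * y) = x * δ y + y * δ x)
    (h_const : ∀ c : K, δ (ι (algebraMap K F c)) = 0)
    (w : L → ℤ) (k : ℤ) (hk : k ≠ 0)
    (hw : ∀ f : F, f ≠ 0 → w (ι f) = k * v.ord f)
    (hδ : ∀ y : L, y ≠ 0 → w y ≠ 0 → δ y ≠ 0 ∧ w (δ y) = w y - 1) :
    v.DCoordGenerates ∧ Nontrivial Ω[F⁄K] := by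
  obtain ⟨π, hπ1, hπ0, hπ⟩ := exists_ord_one_dCoord v
  obtain ⟨Φ, hΦ, hΦD⟩ := exists_lift (K := K) ι δ h_add h_mul h_const
  have hwπ : w (ι π) = k := by rw [hw π hπ0, hπ1, mul_one]
  obtain ⟨hp1, -⟩ := hδ (ι π) ((map_ne_zero ι).mpr hπ0) (by rw [hwπ]; exact hk)
  have hD : v.dCoord ≠ 0 := by
    rw [hπ]
    intro h0
    apply hp1
    rw [← hΦD, h0, map_zero]
  refine ⟨⟨?_⟩, ⟨⟨v.dCoord, 0, hD⟩⟩⟩
  obtain ⟨ω₀, hω₀⟩ := hspan
  have hmem : v.dCoord ∈ Submodule.span F {ω₀} := hω₀ ▸ Submodule.mem_top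
  obtain ⟨c, hc⟩ := Submodule.mem_span_singleton.mp hmem
  have hc0 : c ≠ 0 := by
    rintro rfl
    rw [zero_smul] at hc
    exact hD hc.symm
  rw [eq_top_iff, ← hω₀, Submodule.span_singleton_le_iff_mem]
  refine Submodule.mem_span_singleton.mpr ⟨c⁻¹, ?_⟩
  rw [← hc, smul_smul, inv_mul_cancel₀ hc0, one_smul]

end Abstract

/-! ### Laurent series: the formal derivative is a derivation lowering the order by one -/

section Laurent

open HahnSeries

variable {C : Type*} [Field C]

/-- Convolution formula for Laurent series with explicit lower bounds of the supports. -/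
theorem coeff_mul_eq_sum_Icc (f g : LaurentSeries C) (a b : ℤ)
    (ha : ∀ i < a, f.coeff i = 0) (hb : ∀ j < b, g.coeff j = 0) (n : ℤ) :
    (f * g).coeff n = ∑ i ∈ Finset.Icc a (n - b), f.coeff i * g.coeff (n - i) := by
  classical
  rw [HahnSeries.coeff_mul]
  have hinj : Function.Injective (fun i : ℤ => (i, n - i)) := fun i j h => by
    simpa using congrArg Prod.fst h
  have hmap : ∑ i ∈ Finset.Icc a (n - b), f.coeff i * g.coeff (n - i)
      = ∑ ij ∈ (Finset.Icc a (n - b)).map ⟨fun i : ℤ => (i, n - i), hinj⟩,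
          f.coeff ij.1 * g.coeff ij.2 := by
    rw [Finset.sum_map]
    rfl
  rw [hmap]
  refine Finset.sum_subset ?_ ?_
  · rintro ⟨i, j⟩ hij
    rw [Finset.mem_antidiagonal] at hij
    obtain ⟨hi, hj, hsum⟩ := hij
    simp only [Finset.mem_map, Finset.mem_Icc, Function.Embedding.coeFn_mk, Prod.mk.injEq]
    have hi' : a ≤ i := by
      by_contra h
      exact hi (ha i (not_le.mp h))
    have hj' : b ≤ j := by
      by_contra h
      exact hj (hb j (not_le.mp h))
    exact ⟨i, ⟨hi', by omega⟩, rfl, by omega⟩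
  · rintro ⟨i, j⟩ hij hnot
    simp only [Finset.mem_map, Finset.mem_Icc, Function.Embedding.coeFn_mk, Prod.mk.injEq] at hij
    obtain ⟨i', -, rfl, rfl⟩ := hij
    rw [Finset.mem_antidiagonal] at hnot
    by_cases h1 : f.coeff i' = 0
    · simp [h1]
    · by_cases h2 : g.coeff (n - i') = 0
      · simp [h2]
      · exact absurd ⟨h1, h2, by ring⟩ hnot

/-- The formal derivative of a Laurent series (as a plain function). -/
noncomputable def lderiv (f : LaurentSeries C) : LaurentSeries C := LaurentSeries.derivative C f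

theorem lderiv_coeff (f : LaurentSeries C) (n : ℤ) :
    (lderiv f).coeff n = ((n + 1 : ℤ) : C) * f.coeff (n + 1) := by
  simp [lderiv, LaurentSeries.hasseDeriv_coeff, zsmul_eq_mul]

theorem lderiv_add (f g : LaurentSeries C) : lderiv (f + g) = lderiv f + lderiv g :=
  map_add _ _ _

theorem lderiv_C (c : C) : lderiv (HahnSeries.C c : LaurentSeries C) = 0 := by
  ext n
  rw [lderiv_coeff, HahnSeries.coeff_zero]
  by_cases h : n + 1 = 0
  · simp [h]
  · rw [HahnSeries.C_apply, HahnSeries.coeff_single_of_ne h, mul_zero]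

theorem exists_lower_bound (f : LaurentSeries C) : ∃ a : ℤ, ∀ i < a, f.coeff i = 0 :=
  ⟨f.order, fun _ hi => HahnSeries.coeff_eq_zero_of_lt_order hi⟩

/-- Leibniz rule for the formal derivative of Laurent series. -/
theorem lderiv_mul (f g : LaurentSeries C) : lderiv (f * g) = f * lderiv g + g * lderiv f := by
  obtain ⟨a, ha⟩ := exists_lower_bound f
  obtain ⟨b, hb⟩ := exists_lower_bound g
  have ha' : ∀ i < a - 1, (lderiv f).coeff i = 0 := fun i hi => by
    rw [lderiv_coeff, ha (i + 1) (by omega), mul_zero]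
  have hb' : ∀ i < b - 1, (lderiv g).coeff i = 0 := fun i hi => by
    rw [lderiv_coeff, hb (i + 1) (by omega), mul_zero]
  ext n
  rw [lderiv_coeff, HahnSeries.coeff_add, coeff_mul_eq_sum_Icc f g a b ha hb,
    coeff_mul_eq_sum_Icc f (lderiv g) a (b - 1) ha hb',
    coeff_mul_eq_sum_Icc g (lderiv f) b (a - 1) hb ha']
  have e1 : n - (b - 1) = n + 1 - b := by ring
  rw [e1]
  -- reindex the third sum by i ↦ n + 1 - i
  have h3 : ∑ i ∈ Finset.Icc b (n - (a - 1)), g.coeff i * (lderiv f).coeff (n - i)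
      = ∑ i ∈ Finset.Icc a (n + 1 - b), ((i : ℤ) : C) * f.coeff i * g.coeff (n + 1 - i) := by
    refine Finset.sum_bij' (fun i _ => n + 1 - i) (fun i _ => n + 1 - i) ?_ ?_ ?_ ?_ ?_
    · intro i hi
      rw [Finset.mem_Icc] at hi ⊢
      omega
    · intro i hi
      rw [Finset.mem_Icc] at hi ⊢
      omega
    · intro i _
      ring
    · intro i _
      ring
    · intro i _
      rw [lderiv_coeff]
      have e2 : n - i + 1 = n + 1 - i := by ring
      have e3 : n + 1 - (n + 1 - i) = i := by ring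
      rw [e2, e3]
      ring
  rw [h3, Finset.mul_sum, ← Finset.sum_add_distrib]
  refine Finset.sum_congr rfl fun i _ => ?_
  rw [lderiv_coeff]
  have e4 : n - i + 1 = n + 1 - i := by ring
  rw [e4]
  push_cast
  ring

/-- In characteristic zero the derivative lowers a nonzero order by exactly one. -/
theorem lderiv_order [CharZero C] {f : LaurentSeries C} (hf : f.order ≠ 0) :
    lderiv f ≠ 0 ∧ (lderiv f).order = f.order - 1 := by
  have hf0 : f ≠ 0 := by
    rintro rfl
    exact hf HahnSeries.order_zero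
  have hc : (lderiv f).coeff (f.order - 1) ≠ 0 := by
    rw [lderiv_coeff, sub_add_cancel]
    exact mul_ne_zero (Int.cast_ne_zero.mpr hf) (fun h => hf0 (HahnSeries.coeff_order_eq_zero.mp h))
  have hne : lderiv f ≠ 0 := HahnSeries.ne_zero_of_coeff_ne_zero hc
  refine ⟨hne, le_antisymm (HahnSeries.order_le_of_coeff_ne_zero hc) ?_⟩
  rw [HahnSeries.le_order_iff_forall hne]
  intro j hj
  rw [lderiv_coeff, HahnSeries.coeff_eq_zero_of_lt_order (by omega), mul_zero]

/-- **Laurent-series form of the embedding route.**  If `ι : F →+* C((s))` (`char C = 0`) maps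
`K` to constants and `order (ι f) = k · ord_v f` for all `f ≠ 0` (`k ≠ 0`), then
`ord_v (dt / dπ_v) = ord_v t - 1` whenever `ord_v t ≠ 0`. -/
theorem ordDifferential_D_of_laurent [CharZero C] (v : Place K F) [v.DCoordGenerates]
    (ι : F →+* LaurentSeries C)
    (hconst : ∀ c : K, ∃ c' : C, ι (algebraMap K F c) = HahnSeries.C c')
    (k : ℤ) (hk : k ≠ 0)
    (hw : ∀ f : F, f ≠ 0 → (ι f).order = k * v.ord f)
    {t : F} (ht : v.ord t ≠ 0) :
    v.differentialCoeff (D K F t) ≠ 0 ∧ v.ordDifferential (D K F t) = v.ord t - 1 :=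
  ordDifferential_D_of_embedding v ι lderiv lderiv_add lderiv_mul
    (fun c => by obtain ⟨c', hc'⟩ := hconst c; rw [hc', lderiv_C])
    HahnSeries.order k hk hw (fun _ _ hx hy => HahnSeries.order_mul hx hy)
    (fun _ _ hy => lderiv_order hy) ht

/-- Laurent-series form of `dCoordGenerates_of_embedding`. -/
theorem dCoordGenerates_of_laurent [CharZero C] (v : Place K F)
    (hspan : ∃ ω₀ : Ω[F⁄K], Submodule.span F {ω₀} = ⊤)
    (ι : F →+* LaurentSeries C)
    (hconst : ∀ c : K, ∃ c' : C, ι (algebraMap K F c) = HahnSeries.C c')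
    (k : ℤ) (hk : k ≠ 0)
    (hw : ∀ f : F, f ≠ 0 → (ι f).order = k * v.ord f) :
    v.DCoordGenerates ∧ Nontrivial Ω[F⁄K] :=
  dCoordGenerates_of_embedding v hspan ι lderiv lderiv_add lderiv_mul
    (fun c => by obtain ⟨c', hc'⟩ := hconst c; rw [hc', lderiv_C])
    HahnSeries.order k hk hw (fun _ _ hy => lderiv_order hy)

end Laurent

end Fermat.Agent.S24.LocalDiff
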