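/-
S24 team, block RHLocal (owner: helper29).

Local input for Riemann–Hurwitz over the `j`-line: for a transcendental `j : F`,
every place of `F/K` is either a pole of `j` or a zero of `j - a` for a unique `a : K`,
and the order of the differential `d j` there is `ord - 1`.

Exports (namespace `Fermat.Agent.S24.RHLocal`):
* general (no hypotheses): `ord_const`, `min_le_ord_add`, `min_le_ord_sub`, `ord_sub_const_of_neg`,
  `zero_unique`, `not_zero_of_pole`, `D_sub_const`;
* hypothesis forms `*_of` (taking the statements of blocks `Residue` / `Diff` as hypotheses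
  `ResidueIsBase K F`, `OrdDiffFormula K F`);
* final forms (using `exists_residue` and `ordDifferential_D`): `pole_or_zero`, `ordDiff_of_zero`,
  `ordDiff_of_pole`, `ordDiff_eq_zero_of_unram`, `ordDiff_support_subset`, `ordDiff_support_finite`.
-/
import Mathlib
import Fermat.Agent.S24.Defs
import Fermat.Agent.S24.PlaceBasic
import Fermat.Agent.S24.Residue
import Fermat.Agent.S24.PlacesSum
import Fermat.Agent.S24.Principal
import Fermat.Agent.S24.Diff

set_option autoImplicit false

namespace Fermat.Agent.S24

namespace RHLocal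

open AlgebraicCurve KaehlerDifferential IntermediateField

variable {K F : Type*} [Field K] [Field F] [Algebra K F]

/-- The order of a constant is zero. -/
theorem ord_const (v : Place K F) (a : K) : v.ord (algebraMap K F a) = 0 := by
  rcases eq_or_ne a 0 with rfl | ha
  · simp
  · have hu : IsUnit (algebraMap K v.toValuationSubring a) := (IsUnit.mk0 a ha).map _
    have h := v.ord_coe_unit hu.unit
    simpa using h

/-- Ultrametric inequality for `ord` (valid whenever the sum is nonzero; recall `ord 0 = 0`). -/
theorem min_le_ord_add (v : Place K F) {f g : F} (hfg : f + g ≠ 0) :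
    min (v.ord f) (v.ord g) ≤ v.ord (f + g) := by
  rcases eq_or_ne f 0 with rfl | hf
  · rw [zero_add]
    exact min_le_right _ _
  rcases eq_or_ne g 0 with rfl | hg
  · rw [add_zero]
    exact min_le_left _ _
  have h := v.adicValuation.map_add f g
  have hf' := v.adicValuation_ne_zero hf
  have hg' := v.adicValuation_ne_zero hg
  have hfg' := v.adicValuation_ne_zero hfg
  simp only [Place.ord]
  rcases le_max_iff.mp h with h1 | h1
  · have := (WithZero.log_le_log hfg' hf').mpr h1
    exact (min_le_left _ _).trans (by omega)
  · have := (WithZero.log_le_log hfg' hg').mpr h1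
    exact (min_le_right _ _).trans (by omega)

theorem min_le_ord_sub (v : Place K F) {f g : F} (hfg : f - g ≠ 0) :
    min (v.ord f) (v.ord g) ≤ v.ord (f - g) := by
  have hneg : v.ord (-g) = v.ord g := by
    simp only [Place.ord, Valuation.map_neg]
  have h := min_le_ord_add v (f := f) (g := -g) (by rwa [← sub_eq_add_neg])
  rwa [hneg, ← sub_eq_add_neg] at h

/-- At a pole of `x`, subtracting a constant does not change the order. -/
theorem ord_sub_const_of_neg (v : Place K F) {x : F} (hx : v.ord x < 0) (a : K) :
    v.ord (x - algebraMap K F a) = v.ord x := by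
  have hne : x - algebraMap K F a ≠ 0 := by
    intro h
    rw [sub_eq_zero] at h
    rw [h, ord_const] at hx
    exact lt_irrefl _ hx
  have h1 := min_le_ord_sub v hne
  rw [ord_const] at h1
  have hx0 : x ≠ 0 := by
    rintro rfl
    simp at hx
  have h2 := min_le_ord_add v (f := x - algebraMap K F a) (g := algebraMap K F a)
    (by rwa [sub_add_cancel])
  rw [sub_add_cancel, ord_const] at h2
  rcases min_le_iff.mp h2 with h3 | h3
  · have : min (v.ord x) 0 = v.ord x := min_eq_left hx.le
    omega
  · omega

/-- Two zeros-of-`j - a` conditions at the same place force the same constant. -/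
theorem zero_unique (v : Place K F) {j : F} {a b : K}
    (ha : 0 < v.ord (j - algebraMap K F a)) (hb : 0 < v.ord (j - algebraMap K F b)) : a = b := by
  by_contra hab
  have hne : (j - algebraMap K F b) - (j - algebraMap K F a) ≠ 0 := by
    rw [sub_sub_sub_cancel_left, sub_ne_zero]
    exact fun h => hab ((algebraMap K F).injective h)
  have h := min_le_ord_sub v hne
  rw [sub_sub_sub_cancel_left, ← map_sub, ord_const] at h
  rcases min_le_iff.mp h with h1 | h1 <;> omega

/-- A pole of `j` is not a zero of any `j - a`. -/
theorem not_zero_of_pole (v : Place K F) {j : F} (hj : v.ord j < 0) (a : K) :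
    ¬ 0 < v.ord (j - algebraMap K F a) := by
  rw [ord_sub_const_of_neg v hj a]
  omega

/-- The residue-field hypothesis (proved in block `Residue`): every element integral at `v`
is congruent to a constant. -/
def ResidueIsBase (K F : Type*) [Field K] [Field F] [Algebra K F] : Prop :=
  ∀ (v : Place K F) (b : F), 0 ≤ v.ord b →
    ∃ a : K, b = algebraMap K F a ∨ 0 < v.ord (b - algebraMap K F a)

/-- Every place is a pole of `j` or a zero of `j - a` for a unique constant `a`. -/
theorem pole_or_zero_of (hres : ResidueIsBase K F) (v : Place K F) {j : F}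
    (hj : ∀ a : K, j ≠ algebraMap K F a) :
    v.ord j < 0 ∨ ∃! a : K, 0 < v.ord (j - algebraMap K F a) := by
  rcases lt_or_ge (v.ord j) 0 with h | h
  · exact Or.inl h
  · right
    obtain ⟨a, ha | ha⟩ := hres v j h
    · exact absurd ha (hj a)
    · exact ⟨a, ha, fun b hb => zero_unique v hb ha⟩

/-- A transcendental element is not a constant. -/
theorem ne_algebraMap_of_transcendental {j : F} (hj : Transcendental K j) (a : K) :
    j ≠ algebraMap K F a := by
  rintro rfl
  exact hj (isAlgebraic_algebraMap a)

/-- `d (j - a) = d j`. -/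
theorem D_sub_const (j : F) (a : K) : D K F (j - algebraMap K F a) = D K F j := by
  rw [map_sub, Derivation.map_algebraMap, sub_zero]

/-- The local-differential hypothesis (proved in block `Diff`). -/
def OrdDiffFormula (K F : Type*) [Field K] [Field F] [Algebra K F] : Prop :=
  ∀ (v : Place K F) (y : F), v.ord y ≠ 0 → v.ordDifferential (D K F y) = v.ord y - 1

theorem ordDiff_of_zero_of (hdiff : OrdDiffFormula K F) (v : Place K F) {j : F} {a : K}
    (h : 0 < v.ord (j - algebraMap K F a)) :
    v.ordDifferential (D K F j) = v.ord (j - algebraMap K F a) - 1 := by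
  rw [← D_sub_const j a]
  exact hdiff v _ h.ne'

theorem ordDiff_of_pole_of (hdiff : OrdDiffFormula K F) (v : Place K F) {j : F}
    (h : v.ord j < 0) : v.ordDifferential (D K F j) = v.ord j - 1 :=
  hdiff v j h.ne

/-- At a place where `j` is integral and unramified, `d j` has order `0`. -/
theorem ordDiff_eq_zero_of_unram_of (hres : ResidueIsBase K F) (hdiff : OrdDiffFormula K F)
    (v : Place K F) {j : F} (hj : ∀ a : K, j ≠ algebraMap K F a) (h0 : 0 ≤ v.ord j)
    (hunr : ∀ a : K, v.ord (j - algebraMap K F a) ≤ 1) :
    v.ordDifferential (D K F j) = 0 := by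
  obtain ⟨a, ha | ha⟩ := hres v j h0
  · exact absurd ha (hj a)
  · rw [ordDiff_of_zero_of hdiff v ha]
    have := hunr a
    omega

/-- The support of `div (d j)` lies over `∞` and the branch values. -/
theorem ordDiff_support_subset_of (hres : ResidueIsBase K F) (hdiff : OrdDiffFormula K F)
    {j : F} (hj : ∀ a : K, j ≠ algebraMap K F a) (S : Set K)
    (hS : ∀ a : K, a ∉ S → ∀ v : Place K F, v.ord (j - algebraMap K F a) ≤ 1) :
    {v : Place K F | v.ordDifferential (D K F j) ≠ 0} ⊆
      {v | v.ord j < 0} ∪ ⋃ a ∈ S, {v | 0 < v.ord (j - algebraMap K F a)} := by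
  intro v hv
  rcases pole_or_zero_of hres v hj with h | ⟨a, ha, -⟩
  · exact Or.inl h
  · right
    by_cases haS : a ∈ S
    · exact Set.mem_biUnion haS ha
    · exfalso
      apply hv
      rw [ordDiff_of_zero_of hdiff v ha]
      have := hS a haS v
      omega

/-! ### Final forms -/

section Final

variable [IsAlgClosed K] [CharZero K]

theorem residueIsBase (hF : IsFF1 K F) : ResidueIsBase K F :=
  fun v _ hb => exists_residue hF v hb

theorem ordDiffFormula (hF : IsFF1 K F) : OrdDiffFormula K F :=
  fun v _ hy => ordDifferential_D hF v hy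

/-- Every place is a pole of `j` or a zero of `j - a` for a unique constant `a`. -/
theorem pole_or_zero (hF : IsFF1 K F) {j : F} (hj : Transcendental K j) (v : Place K F) :
    v.ord j < 0 ∨ ∃! a : K, 0 < v.ord (j - algebraMap K F a) :=
  pole_or_zero_of (residueIsBase hF) v (ne_algebraMap_of_transcendental hj)

/-- At a zero of `j - a`: `ord (d j) = ord (j - a) - 1`. -/
theorem ordDiff_of_zero (hF : IsFF1 K F) (v : Place K F) {j : F} {a : K}
    (h : 0 < v.ord (j - algebraMap K F a)) :
    v.ordDifferential (D K F j) = v.ord (j - algebraMap K F a) - 1 :=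
  ordDiff_of_zero_of (ordDiffFormula hF) v h

/-- At a pole of `j`: `ord (d j) = ord j - 1`. -/
theorem ordDiff_of_pole (hF : IsFF1 K F) (v : Place K F) {j : F} (h : v.ord j < 0) :
    v.ordDifferential (D K F j) = v.ord j - 1 :=
  ordDiff_of_pole_of (ordDiffFormula hF) v h

/-- At a place where `j` is integral and unramified, `d j` has order `0`. -/
theorem ordDiff_eq_zero_of_unram (hF : IsFF1 K F) (v : Place K F) {j : F}
    (hj : Transcendental K j) (h0 : 0 ≤ v.ord j)
    (hunr : ∀ a : K, v.ord (j - algebraMap K F a) ≤ 1) :
    v.ordDifferential (D K F j) = 0 :=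
  ordDiff_eq_zero_of_unram_of (residueIsBase hF) (ordDiffFormula hF) v
    (ne_algebraMap_of_transcendental hj) h0 hunr

/-- The support of `div (d j)` lies over `∞` and the branch values. -/
theorem ordDiff_support_subset (hF : IsFF1 K F) {j : F} (hj : Transcendental K j) (S : Set K)
    (hS : ∀ a : K, a ∉ S → ∀ v : Place K F, v.ord (j - algebraMap K F a) ≤ 1) :
    {v : Place K F | v.ordDifferential (D K F j) ≠ 0} ⊆
      {v | v.ord j < 0} ∪ ⋃ a ∈ S, {v | 0 < v.ord (j - algebraMap K F a)} :=
  ordDiff_support_subset_of (residueIsBase hF) (ordDiffFormula hF)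
    (ne_algebraMap_of_transcendental hj) S hS

omit [IsAlgClosed K] [CharZero K] in
/-- `j - a` is transcendental when `j` is. -/
theorem transcendental_sub_const {j : F} (hj : Transcendental K j) (a : K) :
    Transcendental K (j - algebraMap K F a) := by
  intro h
  apply hj
  have h2 : IsAlgebraic K ((j - algebraMap K F a) + algebraMap K F a) :=
    h.add (isAlgebraic_algebraMap a)
  rwa [sub_add_cancel] at h2

/-- The degree of a divisor as a sum over any finite set of places containing its support
(all places have degree one). -/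
theorem degree_eq_sum (hF : IsFF1 K F) (D₀ : Divisor K F) (T : Finset (Place K F))
    (hT : D₀.support ⊆ T) : Divisor.degree D₀ = ∑ v ∈ T, D₀ v := by
  have h1 : Divisor.degree D₀ = ∑ v ∈ D₀.support, D₀ v := by
    simp only [Divisor.degree, Finsupp.liftAddHom_apply, Finsupp.sum, AddMonoidHom.coe_mulRight,
      place_deg_eq_one hF, Nat.cast_one, mul_one]
  rw [h1]
  exact Finset.sum_subset hT (fun v _ hv => Finsupp.notMem_support_iff.mp hv)

/-- Sum of `ord - 1` over a finite set of places, given the sum of `ord`. -/
theorem sum_sub_one {ι : Type*} (T : Finset ι) (f g : ι → ℤ) (hfg : ∀ v ∈ T, f v = g v - 1) :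
    ∑ v ∈ T, f v = ∑ v ∈ T, g v - T.card := by
  rw [Finset.sum_congr rfl hfg, Finset.sum_sub_distrib]
  simp

/-- **Riemann–Hurwitz, local-to-global for `ω = d j`**: the degree of the divisor of `d j`. -/
theorem degree_D (hF : IsFF1 K F) {j : F} (hj : Transcendental K j) (S : Finset K)
    (hS : ∀ (a : K), a ∉ S → ∀ v : Place K F, v.ord (j - algebraMap K F a) ≤ 1)
    (D₀ : Divisor K F) (hD : ∀ v : Place K F, D₀ v = v.ordDifferential (D K F j)) :
    Divisor.degree D₀ =
      ∑ a ∈ S, ((Module.finrank K⟮j⟯ F : ℤ) -
          Nat.card {v : Place K F // 0 < v.ord (j - algebraMap K F a)})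
        - Module.finrank K⟮j⟯ F - Nat.card {v : Place K F // v.ord j < 0} := by
  classical
  have hfinI : {v : Place K F | v.ord j < 0}.Finite := finite_ord_neg hF hj
  have htr : ∀ a : K, Transcendental K (j - algebraMap K F a) := transcendental_sub_const hj
  have hfin : ∀ a : K, {v : Place K F | 0 < v.ord (j - algebraMap K F a)}.Finite :=
    fun a => finite_ord_pos hF (htr a)
  set PI : Finset (Place K F) := hfinI.toFinset with hPI
  set P : K → Finset (Place K F) := fun a => (hfin a).toFinset with hP
  have hmemI : ∀ v : Place K F, v ∈ PI ↔ v.ord j < 0 := fun v => by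
    rw [hPI, Set.Finite.mem_toFinset]
    rfl
  have hmemP : ∀ (a : K) (v : Place K F), v ∈ P a ↔ 0 < v.ord (j - algebraMap K F a) :=
    fun a v => by
      rw [hP]
      simp only [Set.Finite.mem_toFinset]
      rfl
  have hsupp : D₀.support ⊆ PI ∪ S.biUnion P := by
    intro v hv
    have hv' : v ∈ {v : Place K F | v.ordDifferential (D K F j) ≠ 0} := by
      show v.ordDifferential (D K F j) ≠ 0
      rw [← hD v]
      exact Finsupp.mem_support_iff.mp hv
    have := ordDiff_support_subset hF hj (S : Set K) (fun a ha => hS a (by simpa using ha)) hv'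
    rcases this with h | h
    · exact Finset.mem_union_left _ ((hmemI v).mpr h)
    · obtain ⟨a, haS, hva⟩ := Set.mem_iUnion₂.mp h
      exact Finset.mem_union_right _
        (Finset.mem_biUnion.mpr ⟨a, by simpa using haS, (hmemP a v).mpr hva⟩)
  have hdisj1 : Disjoint PI (S.biUnion P) := by
    rw [Finset.disjoint_left]
    intro v hv hv'
    obtain ⟨a, -, hva⟩ := Finset.mem_biUnion.mp hv'
    exact not_zero_of_pole v ((hmemI v).mp hv) a ((hmemP a v).mp hva)
  have hdisj2 : (S : Set K).PairwiseDisjoint P := by
    intro a _ b _ hab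
    show Disjoint (P a) (P b)
    rw [Finset.disjoint_left]
    intro v hva hvb
    exact hab (zero_unique v ((hmemP a v).mp hva) ((hmemP b v).mp hvb))
  have hcardI : (Nat.card {v : Place K F // v.ord j < 0} : ℤ) = PI.card := by
    have : Nat.card {v : Place K F // v.ord j < 0} = PI.card := by
      rw [hPI, ← Set.ncard_eq_toFinset_card _ hfinI]
      rfl
    rw [this]
  have hcard : ∀ a : K,
      (Nat.card {v : Place K F // 0 < v.ord (j - algebraMap K F a)} : ℤ) = (P a).card := by
    intro a
    have : Nat.card {v : Place K F // 0 < v.ord (j - algebraMap K F a)} = (P a).card := by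
      rw [hP]
      simp only
      rw [← Set.ncard_eq_toFinset_card _ (hfin a)]
      rfl
    rw [this]
  have hsumI : ∑ v ∈ PI, D₀ v = -(Module.finrank K⟮j⟯ F : ℤ) - PI.card := by
    rw [sum_sub_one PI (fun v => D₀ v) (fun v => v.ord j)
      (fun v hv => by rw [hD v, ordDiff_of_pole hF v ((hmemI v).mp hv)])]
    rw [← sum_ord_neg hF hj, finsum_mem_eq_finite_toFinset_sum _ hfinI]
  have hsum : ∀ a : K, ∑ v ∈ P a, D₀ v = (Module.finrank K⟮j⟯ F : ℤ) - (P a).card := by
    intro a
    rw [sum_sub_one (P a) (fun v => D₀ v) (fun v => v.ord (j - algebraMap K F a))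
      (fun v hv => by rw [hD v, ordDiff_of_zero hF v ((hmemP a v).mp hv)])]
    rw [← finrank_adjoin_sub_algebraMap (t := j) a, ← sum_ord_pos hF (htr a),
      finsum_mem_eq_finite_toFinset_sum _ (hfin a)]
  rw [degree_eq_sum hF D₀ _ hsupp, Finset.sum_union hdisj1, Finset.sum_biUnion hdisj2, hsumI,
    Finset.sum_congr rfl (fun a _ => hsum a)]
  simp only [hcard, hcardI]
  ring

end Final

end RHLocal

end Fermat.Agent.S24
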