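/-
Team S24, block RamSum, auxiliary file (owner: helper99).

`B = integralClosure K[t] F` is a finite `K[t]`-module (for `t` transcendental over `K`,
`F` finite over `K(t)`, characteristic zero).
-/
import Fermat.Agent.S24.RamSum

set_option autoImplicit false

open IsDedekindDomain IntermediateField
open scoped IntermediateField.algebraAdjoinAdjoin

namespace Fermat.Agent.S24

variable {K F : Type*} [Field K] [Field F] [Algebra K F]

/-- The integral closure of `K[t]` in `F` is a finite `K[t]`-module. -/
theorem RamFinite.module_finite [CharZero K] (t : F) (ht : Transcendental K t)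
    [FiniteDimensional K⟮t⟯ F] :
    Module.Finite (↥(Algebra.adjoin K {t})) (RamSum.B K t) := by
  have := RamSum.isPrincipalIdealRing_adjoin t ht
  have := RamSum.isSeparable_adjoin (K := K) t
  exact IsIntegralClosure.finite (↥(Algebra.adjoin K {t})) K⟮t⟯ F (RamSum.B K t)

end Fermat.Agent.S24
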