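/-
Team S24, block RamVal (owner: helper12).  Mathlib-only helper for `RamSum.finsum_eq`:
for `B` the integral closure of `K[t]` in `F` and `P` a height-one prime of `B`, the `P`-adic
order of `t` is the ramification index of `P` over the ideal `(t)` of `K[t]`.
-/
import Mathlib

set_option autoImplicit false

open IsDedekindDomain IntermediateField UniqueFactorizationMonoid

namespace Fermat.Agent.S24

variable {K F : Type*} [Field K] [Field F] [Algebra K F]

/-- The element `t` of `K[t] = Algebra.adjoin K {t}`. -/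
def RamVal.tA (K : Type*) {F : Type*} [Field K] [Field F] [Algebra K F] (t : F) :
    ↥(Algebra.adjoin K {t}) :=
  ⟨t, Algebra.self_mem_adjoin_singleton K t⟩

/-- The ideal `(t)` of `K[t]`. -/
def RamVal.pt (K : Type*) {F : Type*} [Field K] [Field F] [Algebra K F] (t : F) :
    Ideal ↥(Algebra.adjoin K {t}) :=
  Ideal.span {RamVal.tA K t}

theorem RamVal.map_pt (t : F) :
    Ideal.map (algebraMap ↥(Algebra.adjoin K {t}) ↥(integralClosure ↥(Algebra.adjoin K {t}) F))
        (RamVal.pt K t)
      = Ideal.span {algebraMap ↥(Algebra.adjoin K {t})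
          ↥(integralClosure ↥(Algebra.adjoin K {t}) F) (RamVal.tA K t)} := by
  rw [RamVal.pt, Ideal.map_span, Set.image_singleton]

theorem RamVal.algebraMap_tA_ne_zero {t : F} (ht0 : t ≠ 0) :
    algebraMap ↥(Algebra.adjoin K {t}) ↥(integralClosure ↥(Algebra.adjoin K {t}) F)
      (RamVal.tA K t) ≠ 0 := by
  intro h
  have h2 := congrArg (algebraMap ↥(integralClosure ↥(Algebra.adjoin K {t}) F) F) h
  rw [map_zero] at h2
  exact ht0 h2

theorem RamVal.map_pt_ne_bot {t : F} (ht0 : t ≠ 0) :
    Ideal.map (algebraMap ↥(Algebra.adjoin K {t}) ↥(integralClosure ↥(Algebra.adjoin K {t}) F))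
        (RamVal.pt K t) ≠ ⊥ := by
  rw [RamVal.map_pt, Ne, Ideal.span_singleton_eq_bot]
  exact RamVal.algebraMap_tA_ne_zero ht0

/-- The `P`-adic order of `t` is the ramification index of `P` over `(t) ⊆ K[t]`. -/
theorem RamVal.neg_log_valuation_eq {t : F} (ht0 : t ≠ 0)
    [IsDedekindDomain ↥(integralClosure ↥(Algebra.adjoin K {t}) F)]
    [IsFractionRing ↥(integralClosure ↥(Algebra.adjoin K {t}) F) F]
    (P : HeightOneSpectrum ↥(integralClosure ↥(Algebra.adjoin K {t}) F)) :
    -(WithZero.log (P.valuation F t))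
      = (Ideal.ramificationIdx' (RamVal.pt K t) P.asIdeal : ℤ) := by
  set tB : ↥(integralClosure ↥(Algebra.adjoin K {t}) F) :=
    algebraMap ↥(Algebra.adjoin K {t}) ↥(integralClosure ↥(Algebra.adjoin K {t}) F)
      (RamVal.tA K t) with htB
  have htB0 : tB ≠ 0 := RamVal.algebraMap_tA_ne_zero ht0
  have hspan : (Ideal.span {tB} : Ideal ↥(integralClosure ↥(Algebra.adjoin K {t}) F)) ≠ 0 := by
    rw [Ne, Ideal.zero_eq_bot, Ideal.span_singleton_eq_bot]
    exact htB0
  have hval : P.valuation F t = P.intValuation tB :=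
    (P.valuation_of_algebraMap (K := F) tB)
  have hcount : (Associates.mk P.asIdeal).count (Associates.mk (Ideal.span {tB})).factors
      = Multiset.count P.asIdeal (normalizedFactors (Ideal.span {tB})) :=
    Ideal.count_associates_factors_eq hspan P.isPrime P.ne_bot
  have hram : Ideal.ramificationIdx' (RamVal.pt K t) P.asIdeal
      = Multiset.count P.asIdeal (normalizedFactors (Ideal.span {tB})) := by
    have h := Ideal.IsDedekindDomain.ramificationIdx'_eq_normalizedFactors_count
      (p := RamVal.pt K t) (P := P.asIdeal) (RamVal.map_pt_ne_bot ht0) P.isPrime P.ne_bot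
    rw [h, RamVal.map_pt]
  rw [hval, P.intValuation_if_neg htB0, WithZero.log_exp, neg_neg, hcount, hram]

end Fermat.Agent.S24
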